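/-
PT layer F0: home-made `ℕ`-indexed cochain complexes of `k`-modules (everything in `Type`),
their cohomology as explicit quotients `Z n ⧸ B n`, morphisms, short exact sequences,
the connecting homomorphism and the long exact cohomology sequence, naturality of `δ`.
All statements are element-level (`Function.Exact`, `Function.Injective`), so that the
module four/five lemmas of `Mathlib/Algebra/FiveLemma.lean` apply directly.
-/
import Mathlib

set_option autoImplicit false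

namespace Fermat.Agent.PT

/-- A cochain complex of `k`-modules indexed by `ℕ`. -/
structure Cx (k : Type) [CommRing k] where
  /-- the terms -/
  X : ℕ → Type
  [acg : ∀ n, AddCommGroup (X n)]
  [mod : ∀ n, Module k (X n)]
  /-- the differential -/
  d : ∀ n, X n →ₗ[k] X (n + 1)
  d_d : ∀ n (x : X n), d (n + 1) (d n x) = 0

namespace Cx

attribute [instance] Cx.acg Cx.mod

variable {k : Type} [CommRing k]

/-- cocycles -/
def Z (C : Cx k) (n : ℕ) : Submodule k (C.X n) := LinearMap.ker (C.d n)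

/-- coboundaries (`⊥` in degree `0`) -/
def B (C : Cx k) : ∀ n, Submodule k (C.X n)
  | 0 => ⊥
  | n + 1 => LinearMap.range (C.d n)

lemma mem_Z (C : Cx k) {n : ℕ} {x : C.X n} : x ∈ C.Z n ↔ C.d n x = 0 := LinearMap.mem_ker

lemma mem_B_zero (C : Cx k) {x : C.X 0} : x ∈ C.B 0 ↔ x = 0 := Submodule.mem_bot k

lemma mem_B_succ (C : Cx k) {n : ℕ} {x : C.X (n + 1)} : x ∈ C.B (n + 1) ↔ ∃ y, C.d n y = x :=
  LinearMap.mem_range

lemma d_mem_B (C : Cx k) (n : ℕ) (y : C.X n) : C.d n y ∈ C.B (n + 1) := ⟨y, rfl⟩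

lemma d_mem_Z (C : Cx k) (n : ℕ) (y : C.X n) : C.d n y ∈ C.Z (n + 1) := C.d_d n y

lemma B_le_Z (C : Cx k) (n : ℕ) : C.B n ≤ C.Z n := by
  cases n with
  | zero => exact bot_le
  | succ n =>
    rintro _ ⟨y, rfl⟩
    exact C.d_d n y

lemma d_eq_zero_of_mem_B (C : Cx k) {n : ℕ} {x : C.X n} (hx : x ∈ C.B n) : C.d n x = 0 :=
  C.B_le_Z n hx

/-- cohomology `H n = Z n ⧸ B n` -/
abbrev H (C : Cx k) (n : ℕ) : Type := C.Z n ⧸ (C.B n).comap (C.Z n).subtype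

/-- the class of a cocycle -/
def Hπ (C : Cx k) (n : ℕ) : C.Z n →ₗ[k] C.H n := Submodule.mkQ _

lemma Hπ_surjective (C : Cx k) (n : ℕ) : Function.Surjective (C.Hπ n) :=
  Submodule.mkQ_surjective _

lemma Hπ_eq_zero_iff (C : Cx k) {n : ℕ} (z : C.Z n) : C.Hπ n z = 0 ↔ (z : C.X n) ∈ C.B n := by
  simp [Hπ, Submodule.Quotient.mk_eq_zero]

lemma Hπ_eq_iff (C : Cx k) {n : ℕ} (z z' : C.Z n) :
    C.Hπ n z = C.Hπ n z' ↔ ((z : C.X n) - z') ∈ C.B n := by
  rw [← sub_eq_zero, ← map_sub, Hπ_eq_zero_iff]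
  rfl

/-- the class of an element known to be a cocycle -/
def cls (C : Cx k) (n : ℕ) (x : C.X n) (hx : C.d n x = 0) : C.H n := C.Hπ n ⟨x, hx⟩

lemma cls_eq_zero_iff (C : Cx k) {n : ℕ} (x : C.X n) (hx : C.d n x = 0) :
    C.cls n x hx = 0 ↔ x ∈ C.B n := C.Hπ_eq_zero_iff ⟨x, hx⟩

lemma cls_eq_cls_iff (C : Cx k) {n : ℕ} (x y : C.X n) (hx : C.d n x = 0) (hy : C.d n y = 0) :
    C.cls n x hx = C.cls n y hy ↔ x - y ∈ C.B n := C.Hπ_eq_iff ⟨x, hx⟩ ⟨y, hy⟩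

lemma exists_cls (C : Cx k) {n : ℕ} (h : C.H n) : ∃ x hx, C.cls n x hx = h := by
  obtain ⟨⟨x, hx⟩, rfl⟩ := C.Hπ_surjective n h
  exact ⟨x, hx, rfl⟩

/-- morphisms of complexes -/
structure Hom (C D : Cx k) where
  /-- the components -/
  f : ∀ n, C.X n →ₗ[k] D.X n
  comm : ∀ n (x : C.X n), f (n + 1) (C.d n x) = D.d n (f n x)

namespace Hom

variable {C D E : Cx k}

@[ext] lemma ext {φ ψ : Hom C D} (h : ∀ n x, φ.f n x = ψ.f n x) : φ = ψ := by
  cases φ with | mk f _ => cases ψ with | mk f' _ =>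
  have : f = f' := by funext n; exact LinearMap.ext (h n)
  subst this; rfl

/-- identity -/
def id (C : Cx k) : Hom C C := ⟨fun _ => LinearMap.id, fun _ _ => rfl⟩

/-- composition (`ψ` after `φ`) -/
def comp (ψ : Hom D E) (φ : Hom C D) : Hom C E :=
  ⟨fun n => ψ.f n ∘ₗ φ.f n, fun n x => by simp [φ.comm, ψ.comm]⟩

@[simp] lemma id_f (n : ℕ) (x : C.X n) : (Hom.id C).f n x = x := rfl
@[simp] lemma comp_f (ψ : Hom D E) (φ : Hom C D) (n : ℕ) (x : C.X n) :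
    (ψ.comp φ).f n x = ψ.f n (φ.f n x) := rfl

lemma map_mem_Z (φ : Hom C D) {n : ℕ} {x : C.X n} (hx : x ∈ C.Z n) : φ.f n x ∈ D.Z n := by
  rw [mem_Z] at hx ⊢
  rw [← φ.comm, hx, map_zero]

lemma map_mem_B (φ : Hom C D) {n : ℕ} {x : C.X n} (hx : x ∈ C.B n) : φ.f n x ∈ D.B n := by
  cases n with
  | zero =>
    rw [mem_B_zero] at hx ⊢
    rw [hx, map_zero]
  | succ n =>
    obtain ⟨y, rfl⟩ := hx
    exact ⟨φ.f n y, (φ.comm n y).symm⟩

/-- induced map on cocycles -/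
def mapZ (φ : Hom C D) (n : ℕ) : C.Z n →ₗ[k] D.Z n :=
  (φ.f n).restrict fun _ hx => φ.map_mem_Z hx

@[simp] lemma mapZ_coe (φ : Hom C D) (n : ℕ) (z : C.Z n) :
    ((φ.mapZ n z : D.Z n) : D.X n) = φ.f n z := rfl

/-- induced map on cohomology -/
def mapH (φ : Hom C D) (n : ℕ) : C.H n →ₗ[k] D.H n :=
  Submodule.mapQ _ _ (φ.mapZ n) fun z hz => by
    simp only [Submodule.mem_comap, Submodule.subtype_apply] at hz ⊢
    exact φ.map_mem_B hz

@[simp] lemma mapH_Hπ (φ : Hom C D) (n : ℕ) (z : C.Z n) :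
    φ.mapH n (C.Hπ n z) = D.Hπ n (φ.mapZ n z) := rfl

lemma mapH_cls (φ : Hom C D) (n : ℕ) (x : C.X n) (hx : C.d n x = 0) :
    φ.mapH n (C.cls n x hx) = D.cls n (φ.f n x) (by rw [← φ.comm, hx, map_zero]) := rfl

lemma mapH_id (n : ℕ) (h : C.H n) : (Hom.id C).mapH n h = h := by
  obtain ⟨z, rfl⟩ := C.Hπ_surjective n h
  rfl

lemma mapH_comp (ψ : Hom D E) (φ : Hom C D) (n : ℕ) (h : C.H n) :
    (ψ.comp φ).mapH n h = ψ.mapH n (φ.mapH n h) := by
  obtain ⟨z, rfl⟩ := C.Hπ_surjective n h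
  rfl

/-- sum of two morphisms -/
def add (φ ψ : Hom C D) : Hom C D :=
  ⟨fun n => φ.f n + ψ.f n, fun n x => by simp [φ.comm, ψ.comm]⟩

/-- scalar multiple of a morphism -/
def smul (c : k) (φ : Hom C D) : Hom C D :=
  ⟨fun n => c • φ.f n, fun n x => by simp [φ.comm]⟩

/-- the zero morphism -/
def zero (C D : Cx k) : Hom C D := ⟨fun _ => 0, fun _ _ => by simp⟩

lemma mapH_add (φ ψ : Hom C D) (n : ℕ) (h : C.H n) :
    (φ.add ψ).mapH n h = φ.mapH n h + ψ.mapH n h := by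
  obtain ⟨z, rfl⟩ := C.Hπ_surjective n h
  rfl

lemma mapH_smul (c : k) (φ : Hom C D) (n : ℕ) (h : C.H n) :
    (φ.smul c).mapH n h = c • φ.mapH n h := by
  obtain ⟨z, rfl⟩ := C.Hπ_surjective n h
  rfl

lemma mapH_zero (n : ℕ) (h : C.H n) : (Hom.zero C D).mapH n h = 0 := by
  obtain ⟨z, rfl⟩ := C.Hπ_surjective n h
  rw [mapH_Hπ, Hπ_eq_zero_iff]
  exact Submodule.zero_mem _

/-- a morphism with a two-sided inverse induces bijections on cohomology -/
lemma mapH_bijective_of_inverse (φ : Hom C D) (ψ : Hom D C)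
    (h₁ : ∀ n x, ψ.f n (φ.f n x) = x) (h₂ : ∀ n y, φ.f n (ψ.f n y) = y) (n : ℕ) :
    Function.Bijective (φ.mapH n) := by
  have e₁ : ψ.comp φ = Hom.id C := Hom.ext fun n x => h₁ n x
  have e₂ : φ.comp ψ = Hom.id D := Hom.ext fun n x => h₂ n x
  refine Function.bijective_iff_has_inverse.2 ⟨ψ.mapH n, fun h => ?_, fun h => ?_⟩
  · rw [← mapH_comp, e₁, mapH_id]
  · rw [← mapH_comp, e₂, mapH_id]

end Hom

/-- A short exact sequence of complexes `0 → A → B → C → 0` (degreewise). -/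
structure ShortExact {A B C : Cx k} (f : Hom A B) (g : Hom B C) : Prop where
  inj : ∀ n, Function.Injective (f.f n)
  exact : ∀ n, Function.Exact (f.f n) (g.f n)
  surj : ∀ n, Function.Surjective (g.f n)

namespace ShortExact

variable {A B C : Cx k} {f : Hom A B} {g : Hom B C}

lemma g_f (h : ShortExact f g) (n : ℕ) (a : A.X n) : g.f n (f.f n a) = 0 :=
  (h.exact n _).2 ⟨a, rfl⟩

lemma exists_of_g_eq_zero (h : ShortExact f g) {n : ℕ} {b : B.X n} (hb : g.f n b = 0) :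
    ∃ a, f.f n a = b := (h.exact n b).1 hb

/-- coboundaries lift along a degreewise surjection -/
lemma exists_mem_B (h : ShortExact f g) {n : ℕ} {c : C.X n} (hc : c ∈ C.B n) :
    ∃ b ∈ B.B n, g.f n b = c := by
  cases n with
  | zero =>
    rw [mem_B_zero] at hc
    exact ⟨0, Submodule.zero_mem _, by rw [hc, map_zero]⟩
  | succ n =>
    obtain ⟨c', rfl⟩ := hc
    obtain ⟨b', rfl⟩ := h.surj n c'
    exact ⟨B.d n b', B.d_mem_B n b', g.comm n b'⟩

/-- the submodule of `B.X n` of elements mapping to cocycles of `C` -/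
def P (_h : ShortExact f g) (n : ℕ) : Submodule k (B.X n) := (C.Z n).comap (g.f n)

lemma d_mem_range (h : ShortExact f g) {n : ℕ} {b : B.X n} (hb : b ∈ h.P n) :
    B.d n b ∈ LinearMap.range (f.f (n + 1)) := by
  apply h.exists_of_g_eq_zero
  rw [g.comm]
  exact hb

/-- `b ↦` the unique `a` with `f a = d b` -/
noncomputable def δaux (h : ShortExact f g) (n : ℕ) : h.P n →ₗ[k] A.X (n + 1) :=
  (LinearEquiv.ofInjective (f.f (n + 1)) (h.inj (n + 1))).symm.toLinearMap ∘ₗ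
    LinearMap.codRestrict (LinearMap.range (f.f (n + 1))) (B.d n ∘ₗ (h.P n).subtype)
      fun b => h.d_mem_range b.2

lemma f_δaux (h : ShortExact f g) (n : ℕ) (b : h.P n) :
    f.f (n + 1) (h.δaux n b) = B.d n b := by
  have := LinearEquiv.apply_symm_apply (LinearEquiv.ofInjective (f.f (n + 1)) (h.inj (n + 1)))
    ⟨B.d n b, h.d_mem_range b.2⟩
  exact congrArg Subtype.val this

lemma δaux_eq (h : ShortExact f g) {n : ℕ} (b : h.P n) (a : A.X (n + 1))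
    (ha : f.f (n + 1) a = B.d n b) : h.δaux n b = a :=
  h.inj (n + 1) ((h.f_δaux n b).trans ha.symm)

lemma δaux_mem_Z (h : ShortExact f g) (n : ℕ) (b : h.P n) : h.δaux n b ∈ A.Z (n + 1) := by
  rw [mem_Z]
  apply h.inj (n + 2)
  rw [f.comm, h.f_δaux, B.d_d, map_zero]

/-- the lift of `δ` to `P n` -/
noncomputable def δP (h : ShortExact f g) (n : ℕ) : h.P n →ₗ[k] A.H (n + 1) :=
  A.Hπ (n + 1) ∘ₗ LinearMap.codRestrict (A.Z (n + 1)) (h.δaux n) (h.δaux_mem_Z n)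

/-- the projection `P n → H n (C)` -/
def q (h : ShortExact f g) (n : ℕ) : h.P n →ₗ[k] C.H n :=
  C.Hπ n ∘ₗ (g.f n).restrict (p := h.P n) (q := C.Z n) fun _ hb => hb

lemma q_surjective (h : ShortExact f g) (n : ℕ) : Function.Surjective (h.q n) := by
  intro x
  obtain ⟨⟨c, hc⟩, rfl⟩ := C.Hπ_surjective n x
  obtain ⟨b, rfl⟩ := h.surj n c
  exact ⟨⟨b, hc⟩, rfl⟩

lemma q_apply (h : ShortExact f g) (n : ℕ) (b : h.P n) :
    h.q n b = C.Hπ n ⟨g.f n b, b.2⟩ := rfl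

lemma δP_apply (h : ShortExact f g) (n : ℕ) (b : h.P n) :
    h.δP n b = A.Hπ (n + 1) ⟨h.δaux n b, h.δaux_mem_Z n b⟩ := rfl

lemma ker_q_le (h : ShortExact f g) (n : ℕ) : LinearMap.ker (h.q n) ≤ LinearMap.ker (h.δP n) := by
  rintro ⟨b, hb⟩ hq
  rw [LinearMap.mem_ker, q_apply, Hπ_eq_zero_iff] at hq
  obtain ⟨b₀, hb₀, hgb₀⟩ := h.exists_mem_B hq
  have hsub : g.f n (b - b₀) = 0 := by
    rw [map_sub, hgb₀]
    exact sub_self _
  obtain ⟨a, ha⟩ := h.exists_of_g_eq_zero hsub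
  rw [LinearMap.mem_ker, δP_apply, Hπ_eq_zero_iff, mem_B_succ]
  refine ⟨a, (h.δaux_eq ⟨b, hb⟩ (A.d n a) ?_).symm⟩
  rw [f.comm, ha, map_sub, B.d_eq_zero_of_mem_B hb₀, sub_zero]

/-- The connecting homomorphism `H n (C) → H (n+1) (A)`. -/
noncomputable def δ (h : ShortExact f g) (n : ℕ) : C.H n →ₗ[k] A.H (n + 1) :=
  (Submodule.liftQ _ (h.δP n) (h.ker_q_le n)) ∘ₗ
    ((h.q n).quotKerEquivOfSurjective (h.q_surjective n)).symm.toLinearMap

lemma δ_q (h : ShortExact f g) (n : ℕ) (b : h.P n) : h.δ n (h.q n b) = h.δP n b := by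
  simp only [δ, LinearMap.coe_comp, LinearEquiv.coe_coe, Function.comp_apply,
    LinearMap.quotKerEquivOfSurjective_symm_apply]
  rfl

/-- Characterisation of `δ`: if `g b` is a cocycle and `f a = d b` then `δ [g b] = [a]`. -/
lemma δ_cls (h : ShortExact f g) (n : ℕ) (b : B.X n) (hb : C.d n (g.f n b) = 0)
    (a : A.X (n + 1)) (ha : f.f (n + 1) a = B.d n b) :
    h.δ n (C.cls n (g.f n b) hb) =
      A.cls (n + 1) a (by
        apply h.inj (n + 2)
        rw [f.comm, ha, B.d_d, map_zero]) := by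
  have h1 : C.cls n (g.f n b) hb = h.q n ⟨b, hb⟩ := rfl
  rw [h1, δ_q, δP_apply]
  show A.Hπ _ _ = A.Hπ _ _
  congr 1
  apply Subtype.ext
  exact h.δaux_eq ⟨b, hb⟩ a ha

/-- every class of `C` is `[g b]` -/
lemma exists_lift (h : ShortExact f g) {n : ℕ} (x : C.H n) :
    ∃ (b : B.X n) (hb : C.d n (g.f n b) = 0) (a : A.X (n + 1)),
      f.f (n + 1) a = B.d n b ∧ x = C.cls n (g.f n b) hb := by
  obtain ⟨b, rfl⟩ := h.q_surjective n x
  exact ⟨b.1, b.2, h.δaux n b, h.f_δaux n b, rfl⟩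

/-- `H⁰` is left exact. -/
lemma mapH_zero_injective (h : ShortExact f g) : Function.Injective (f.mapH 0) := by
  rw [injective_iff_map_eq_zero]
  intro x hx
  obtain ⟨z, rfl⟩ := A.Hπ_surjective 0 x
  rw [Hom.mapH_Hπ, Hπ_eq_zero_iff, mem_B_zero] at hx
  rw [Hπ_eq_zero_iff, mem_B_zero]
  apply h.inj 0
  rw [map_zero]
  exact hx

/-- exactness at `H n (B)` -/
lemma exact_f_g (h : ShortExact f g) (n : ℕ) : Function.Exact (f.mapH n) (g.mapH n) := by
  intro y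
  constructor
  · intro hy
    obtain ⟨⟨b, hb⟩, rfl⟩ := B.Hπ_surjective n y
    rw [Hom.mapH_Hπ, Hπ_eq_zero_iff] at hy
    obtain ⟨b₀, hb₀, hgb₀⟩ := h.exists_mem_B hy
    have hsub : g.f n (b - b₀) = 0 := by
      rw [map_sub, hgb₀]
      exact sub_self _
    obtain ⟨a, ha⟩ := h.exists_of_g_eq_zero hsub
    have haZ : a ∈ A.Z n := by
      rw [mem_Z]
      apply h.inj (n + 1)
      rw [f.comm, ha, map_sub, B.d_eq_zero_of_mem_B hb₀, sub_zero, map_zero]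
      exact hb
    refine ⟨A.Hπ n ⟨a, haZ⟩, ?_⟩
    rw [Hom.mapH_Hπ, Hπ_eq_iff]
    show f.f n a - b ∈ B.B n
    rw [ha, sub_sub_cancel_left]
    exact Submodule.neg_mem _ hb₀
  · rintro ⟨x, rfl⟩
    obtain ⟨z, rfl⟩ := A.Hπ_surjective n x
    rw [Hom.mapH_Hπ, Hom.mapH_Hπ, Hπ_eq_zero_iff]
    show g.f n (f.f n z) ∈ C.B n
    rw [h.g_f]
    exact Submodule.zero_mem _

/-- exactness at `H n (C)` -/
lemma exact_g_δ (h : ShortExact f g) (n : ℕ) : Function.Exact (g.mapH n) (h.δ n) := by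
  intro z
  constructor
  · intro hz
    obtain ⟨b, rfl⟩ := h.q_surjective n z
    rw [δ_q, δP_apply, Hπ_eq_zero_iff, mem_B_succ] at hz
    obtain ⟨a, ha⟩ := hz
    have ha' : A.d n a = h.δaux n b := ha
    have hZ : b.1 - f.f n a ∈ B.Z n := by
      rw [mem_Z, map_sub, ← f.comm, ha', h.f_δaux, sub_self]
    refine ⟨B.Hπ n ⟨b.1 - f.f n a, hZ⟩, ?_⟩
    rw [Hom.mapH_Hπ, q_apply]
    show C.Hπ n _ = C.Hπ n _
    congr 1
    apply Subtype.ext
    show g.f n (b.1 - f.f n a) = g.f n b.1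
    rw [map_sub, h.g_f, sub_zero]
  · rintro ⟨y, rfl⟩
    obtain ⟨⟨b, hb⟩, rfl⟩ := B.Hπ_surjective n y
    have hbP : b ∈ h.P n := by
      show g.f n b ∈ C.Z n
      exact g.map_mem_Z hb
    have h1 : g.mapH n (B.Hπ n ⟨b, hb⟩) = h.q n ⟨b, hbP⟩ := rfl
    rw [h1, δ_q, δP_apply, Hπ_eq_zero_iff]
    have : h.δaux n ⟨b, hbP⟩ = 0 := by
      apply h.δaux_eq
      rw [map_zero]
      exact hb.symm
    show h.δaux n ⟨b, hbP⟩ ∈ A.B (n + 1)
    rw [this]
    exact Submodule.zero_mem _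

/-- exactness at `H (n+1) (A)` -/
lemma exact_δ_f (h : ShortExact f g) (n : ℕ) : Function.Exact (h.δ n) (f.mapH (n + 1)) := by
  intro x
  constructor
  · intro hx
    obtain ⟨⟨a, ha⟩, rfl⟩ := A.Hπ_surjective (n + 1) x
    rw [Hom.mapH_Hπ, Hπ_eq_zero_iff, mem_B_succ] at hx
    obtain ⟨b, hb⟩ := hx
    have hb' : f.f (n + 1) a = B.d n b := hb.symm
    have hbP : b ∈ h.P n := by
      show g.f n b ∈ C.Z n
      rw [mem_Z, ← g.comm, ← hb', h.g_f]
    refine ⟨h.q n ⟨b, hbP⟩, ?_⟩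
    rw [δ_q, δP_apply]
    show A.Hπ _ _ = A.Hπ _ _
    congr 1
    apply Subtype.ext
    exact h.δaux_eq ⟨b, hbP⟩ a hb'
  · rintro ⟨z, rfl⟩
    obtain ⟨b, rfl⟩ := h.q_surjective n z
    rw [δ_q, δP_apply]
    show f.mapH (n + 1) (A.Hπ _ _) = 0
    rw [Hom.mapH_Hπ, Hπ_eq_zero_iff]
    show f.f (n + 1) (h.δaux n b) ∈ B.B (n + 1)
    rw [h.f_δaux]
    exact B.d_mem_B n b

/-- Naturality of the connecting homomorphism. -/
lemma δ_naturality {A' B' C' : Cx k} {f' : Hom A' B'} {g' : Hom B' C'}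
    (h : ShortExact f g) (h' : ShortExact f' g')
    (α : Hom A A') (β : Hom B B') (γ : Hom C C')
    (hf : ∀ n a, β.f n (f.f n a) = f'.f n (α.f n a))
    (hg : ∀ n b, γ.f n (g.f n b) = g'.f n (β.f n b))
    (n : ℕ) (x : C.H n) :
    α.mapH (n + 1) (h.δ n x) = h'.δ n (γ.mapH n x) := by
  obtain ⟨b, hb, a, ha, rfl⟩ := h.exists_lift x
  rw [h.δ_cls n b hb a ha, Hom.mapH_cls, Hom.mapH_cls]
  have hb' : C'.d n (g'.f n (β.f n b)) = 0 := by
    rw [← hg, ← γ.comm, hb, map_zero]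
  have ha' : f'.f (n + 1) (α.f (n + 1) a) = B'.d n (β.f n b) := by
    rw [← hf, ha, β.comm]
  have key := h'.δ_cls n (β.f n b) hb' (α.f (n + 1) a) ha'
  rw [← key]
  congr 1
  show C'.Hπ n _ = C'.Hπ n _
  congr 1
  apply Subtype.ext
  exact (hg n b).symm

end ShortExact

end Cx

end Fermat.Agent.PT
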