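/-
PT layer F (F-EULER, Cx half of F7-COUNT): Euler characteristics along the long exact
cohomology sequence of a short exact sequence of complexes over a field.

* `Cx.chi C N = h⁰ − h¹ + … ± h^N` (truncated Euler characteristic);
* `ShortExact.chi_eq`: `χ_N(A) − χ_N(B) + χ_N(C) = (−1)^N · rank (δ_N)`;
* `ShortExact.chi_two_le`: sub-additivity `χ₂(B) ≤ χ₂(A) + χ₂(C)`;
* `ShortExact.mapH_injective_of_chi_eq`: equality of `χ_N` forces `H^{N+1}(A) → H^{N+1}(B)` to be
  injective (the step of the counting criterion for cohomological dimension);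
* `ShortExact.chi_add`: additivity when `δ_N = 0` (e.g. `H^{N+1}(A) = 0`).
-/
import Mathlib
import Fermat.Agent.PT.Coh.Cx

set_option autoImplicit false

namespace Fermat.Agent.PT

namespace Cx

variable {k : Type} [Field k]

/-- Rank–nullity along an exact pair: `dim V = rank φ + rank ψ`. -/
theorem finrank_eq_of_exact {U V W : Type} [AddCommGroup U] [Module k U] [AddCommGroup V]
    [Module k V] [AddCommGroup W] [Module k W] (φ : U →ₗ[k] V) (ψ : V →ₗ[k] W)
    (hex : Function.Exact φ ψ) [Module.Finite k V] :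
    Module.finrank k V =
      Module.finrank k (LinearMap.range φ) + Module.finrank k (LinearMap.range ψ) := by
  rw [← (LinearMap.exact_iff.mp hex), add_comm]
  exact (LinearMap.finrank_range_add_finrank_ker ψ).symm

/-- The truncated Euler characteristic `h⁰ − h¹ + … ± h^N` of a complex. -/
noncomputable def chi (C : Cx k) (N : ℕ) : ℤ :=
  ∑ n ∈ Finset.range (N + 1), (-1) ^ n * (Module.finrank k (C.H n) : ℤ)

theorem chi_zero (C : Cx k) : chi C 0 = (Module.finrank k (C.H 0) : ℤ) := by
  simp [chi]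

theorem chi_succ (C : Cx k) (N : ℕ) :
    chi C (N + 1) = chi C N + (-1) ^ (N + 1) * (Module.finrank k (C.H (N + 1)) : ℤ) := by
  unfold chi
  rw [Finset.sum_range_succ]

theorem chi_two (C : Cx k) :
    chi C 2 = (Module.finrank k (C.H 0) : ℤ) - Module.finrank k (C.H 1) +
      Module.finrank k (C.H 2) := by
  rw [chi_succ, chi_succ, chi_zero]
  ring

namespace ShortExact

variable {A B C : Cx k} {f : Hom A B} {g : Hom B C}

/-- The rank of the connecting homomorphism `δ_n : H^n(C) → H^{n+1}(A)`. -/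
noncomputable def rδ (h : ShortExact f g) (n : ℕ) : ℕ :=
  Module.finrank k (LinearMap.range (h.δ n))

/-- The degree-`0` identity `a₀ − b₀ + c₀ = rank δ₀`. -/
theorem finrank_zero (h : ShortExact f g) [Module.Finite k (B.H 0)] [Module.Finite k (C.H 0)] :
    (Module.finrank k (A.H 0) : ℤ) - Module.finrank k (B.H 0) + Module.finrank k (C.H 0) =
      h.rδ 0 := by
  have ha : Module.finrank k (LinearMap.range (f.mapH 0)) = Module.finrank k (A.H 0) :=
    LinearMap.finrank_range_of_inj h.mapH_zero_injective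
  have hb := finrank_eq_of_exact (f.mapH 0) (g.mapH 0) (h.exact_f_g 0)
  have hc := finrank_eq_of_exact (g.mapH 0) (h.δ 0) (h.exact_g_δ 0)
  unfold rδ
  omega

/-- The degree-`n+1` identity `a − b + c = rank δ_n + rank δ_{n+1}`. -/
theorem finrank_succ (h : ShortExact f g) (n : ℕ) [Module.Finite k (A.H (n + 1))]
    [Module.Finite k (B.H (n + 1))] [Module.Finite k (C.H (n + 1))] :
    (Module.finrank k (A.H (n + 1)) : ℤ) - Module.finrank k (B.H (n + 1)) +
      Module.finrank k (C.H (n + 1)) = h.rδ n + h.rδ (n + 1) := by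
  have ha := finrank_eq_of_exact (h.δ n) (f.mapH (n + 1)) (h.exact_δ_f n)
  have hb := finrank_eq_of_exact (f.mapH (n + 1)) (g.mapH (n + 1)) (h.exact_f_g (n + 1))
  have hc := finrank_eq_of_exact (g.mapH (n + 1)) (h.δ (n + 1)) (h.exact_g_δ (n + 1))
  unfold rδ
  omega

/-- **Euler characteristic of the long exact sequence**, truncated in degree `N`:
`χ_N(A) − χ_N(B) + χ_N(C) = (−1)^N · rank δ_N`. -/
theorem chi_eq (h : ShortExact f g) (N : ℕ) (hA : ∀ n ≤ N, Module.Finite k (A.H n))
    (hB : ∀ n ≤ N, Module.Finite k (B.H n)) (hC : ∀ n ≤ N, Module.Finite k (C.H n)) :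
    chi A N - chi B N + chi C N = (-1) ^ N * (h.rδ N : ℤ) := by
  induction N with
  | zero =>
    have := hB 0 le_rfl
    have := hC 0 le_rfl
    rw [chi_zero, chi_zero, chi_zero, h.finrank_zero]
    simp
  | succ N ih =>
    have := hA (N + 1) le_rfl
    have := hB (N + 1) le_rfl
    have := hC (N + 1) le_rfl
    have ih' := ih (fun n hn => hA n (Nat.le_succ_of_le hn))
      (fun n hn => hB n (Nat.le_succ_of_le hn)) (fun n hn => hC n (Nat.le_succ_of_le hn))
    have hs := h.finrank_succ N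
    rw [chi_succ, chi_succ, chi_succ]
    have e : chi A N + (-1) ^ (N + 1) * (Module.finrank k (A.H (N + 1)) : ℤ) -
        (chi B N + (-1) ^ (N + 1) * (Module.finrank k (B.H (N + 1)) : ℤ)) +
        (chi C N + (-1) ^ (N + 1) * (Module.finrank k (C.H (N + 1)) : ℤ)) =
        (chi A N - chi B N + chi C N) + (-1) ^ (N + 1) *
          ((Module.finrank k (A.H (N + 1)) : ℤ) - Module.finrank k (B.H (N + 1)) +
            Module.finrank k (C.H (N + 1))) := by ring
    rw [e, ih', hs, pow_succ]
    ring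

/-- Even truncation: `χ_N(B) ≤ χ_N(A) + χ_N(C)`. -/
theorem chi_le_of_even (h : ShortExact f g) (N : ℕ) (hN : Even N)
    (hA : ∀ n ≤ N, Module.Finite k (A.H n)) (hB : ∀ n ≤ N, Module.Finite k (B.H n))
    (hC : ∀ n ≤ N, Module.Finite k (C.H n)) : chi B N ≤ chi A N + chi C N := by
  have h1 := h.chi_eq N hA hB hC
  rw [hN.neg_one_pow, one_mul] at h1
  have h2 : (0 : ℤ) ≤ (h.rδ N : ℤ) := Int.natCast_nonneg _
  omega

/-- **Sub-additivity of `χ₂`**: `χ₂(B) ≤ χ₂(A) + χ₂(C)`. -/
theorem chi_two_le (h : ShortExact f g) (hA : ∀ n ≤ 2, Module.Finite k (A.H n))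
    (hB : ∀ n ≤ 2, Module.Finite k (B.H n)) (hC : ∀ n ≤ 2, Module.Finite k (C.H n)) :
    chi B 2 ≤ chi A 2 + chi C 2 :=
  h.chi_le_of_even 2 (by decide) hA hB hC

/-- `δ_N = 0` iff its rank vanishes (for finite-dimensional `H^N(C)`). -/
theorem δ_eq_zero_of_rδ_eq_zero (h : ShortExact f g) (N : ℕ) [Module.Finite k (C.H N)]
    (hr : h.rδ N = 0) (x : C.H N) : h.δ N x = 0 := by
  have h1 : LinearMap.range (h.δ N) = ⊥ := Submodule.finrank_eq_zero.mp hr
  have h2 : h.δ N x ∈ LinearMap.range (h.δ N) := ⟨x, rfl⟩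
  rw [h1] at h2
  exact (Submodule.mem_bot k).mp h2

/-- If `δ_N = 0` then `H^{N+1}(A) → H^{N+1}(B)` is injective. -/
theorem mapH_injective_of_δ_eq_zero (h : ShortExact f g) (N : ℕ) (hδ : ∀ x, h.δ N x = 0) :
    Function.Injective (f.mapH (N + 1)) := by
  rw [injective_iff_map_eq_zero]
  intro a ha
  obtain ⟨x, rfl⟩ := (h.exact_δ_f N a).mp ha
  exact hδ x

/-- **Counting criterion, one step**: equality `χ_N(B) = χ_N(A) + χ_N(C)` forces
`H^{N+1}(A) → H^{N+1}(B)` to be injective. -/
theorem mapH_injective_of_chi_eq (h : ShortExact f g) (N : ℕ)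
    (hA : ∀ n ≤ N, Module.Finite k (A.H n)) (hB : ∀ n ≤ N, Module.Finite k (B.H n))
    (hC : ∀ n ≤ N, Module.Finite k (C.H n)) (heq : chi B N = chi A N + chi C N) :
    Function.Injective (f.mapH (N + 1)) := by
  have h1 := h.chi_eq N hA hB hC
  have h2 : (-1 : ℤ) ^ N * (h.rδ N : ℤ) = 0 := by
    rw [← h1, heq]
    ring
  have h3 : h.rδ N = 0 := by
    rcases mul_eq_zero.mp h2 with h' | h'
    · exact absurd h' (pow_ne_zero N (by norm_num))
    · exact_mod_cast h'
  have := hC N le_rfl
  exact h.mapH_injective_of_δ_eq_zero N (h.δ_eq_zero_of_rδ_eq_zero N h3)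

/-- **Additivity of the Euler characteristic** when `δ_N = 0`. -/
theorem chi_add (h : ShortExact f g) (N : ℕ) (hA : ∀ n ≤ N, Module.Finite k (A.H n))
    (hB : ∀ n ≤ N, Module.Finite k (B.H n)) (hC : ∀ n ≤ N, Module.Finite k (C.H n))
    (hδ : ∀ x, h.δ N x = 0) : chi B N = chi A N + chi C N := by
  have h1 := h.chi_eq N hA hB hC
  have h3 : h.rδ N = 0 := by
    unfold rδ
    have : LinearMap.range (h.δ N) = ⊥ := by
      rw [eq_bot_iff]
      rintro _ ⟨x, rfl⟩
      rw [hδ x]
      exact Submodule.zero_mem _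
    rw [this]
    exact finrank_bot k _
  rw [h3] at h1
  simp only [Nat.cast_zero, mul_zero] at h1
  omega

/-- Additivity of the Euler characteristic when `H^{N+1}(A)` vanishes. -/
theorem chi_add_of_subsingleton (h : ShortExact f g) (N : ℕ)
    (hA : ∀ n ≤ N, Module.Finite k (A.H n)) (hB : ∀ n ≤ N, Module.Finite k (B.H n))
    (hC : ∀ n ≤ N, Module.Finite k (C.H n)) [Subsingleton (A.H (N + 1))] :
    chi B N = chi A N + chi C N :=
  h.chi_add N hA hB hC fun _ => Subsingleton.elim _ _

/-- Finiteness passes to the middle term. -/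
theorem finite_mid (h : ShortExact f g) (n : ℕ) [Module.Finite k (A.H n)]
    [Module.Finite k (C.H n)] : Module.Finite k (B.H n) := by
  have h1 : Module.Finite k (LinearMap.range (f.mapH n)) := inferInstance
  rw [← LinearMap.exact_iff.mp (h.exact_f_g n)] at h1
  have h2 : Module.Finite k (B.H n ⧸ LinearMap.ker (g.mapH n)) :=
    Module.Finite.equiv (g.mapH n).quotKerEquivRange.symm
  exact Module.Finite.of_submodule_quotient (LinearMap.ker (g.mapH n))

end ShortExact

end Cx

end Fermat.Agent.PT
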