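/-
PT layer F7 (abstract part): the counting criterion along a filtration.

A chain of complexes `C 0 → C 1 → … → C m` with short exact sequences
`0 → C i → C (i+1) → Q → 0` (`i < m`).  Sub-additivity of the truncated Euler characteristic gives
`χ_N(C m) ≤ χ_N(C 0) + m · χ_N(Q)` for even `N`; if equality holds, then every edge map
`H^{N+1}(C i) → H^{N+1}(C (i+1))` is injective (`chain_mapH_injective`), hence so is the composite
`H^{N+1}(C 0) → H^{N+1}(C m)` … and for `i ≥ 1` the composite `H^{N+1}(C 1) → H^{N+1}(C m)`.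
Application: `C i` = level complex of the `i`-th step of the filtration of `Coind_V^U k`
(`[U : V] = p`) with trivial graded pieces, `Q` = level complex of `k`; `χ₂(V) = p · χ₂(U)` then
forces `res : H³(U; k) → H³(V; k)` to be injective.
-/
import Mathlib
import Fermat.Agent.PT.Coh.Euler

set_option autoImplicit false

namespace Fermat.Agent.PT

namespace Cx

variable {k : Type} [Field k]

/-- Finiteness propagates along a chain of short exact sequences with fixed quotient. -/
theorem chain_finite (N m : ℕ) (C : ℕ → Cx k) (Q : Cx k)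
    (f : ∀ i, Hom (C i) (C (i + 1))) (g : ∀ i, Hom (C (i + 1)) Q)
    (hse : ∀ i < m, ShortExact (f i) (g i))
    (hQ : ∀ n ≤ N, Module.Finite k (Q.H n)) (h0 : ∀ n ≤ N, Module.Finite k ((C 0).H n)) :
    ∀ i ≤ m, ∀ n ≤ N, Module.Finite k ((C i).H n) := by
  intro i
  induction i with
  | zero => exact fun _ => h0
  | succ i ih =>
    intro hi n hn
    have := ih (Nat.le_of_succ_le hi) n hn
    have := hQ n hn
    exact (hse i hi).finite_mid n

/-- Sub-additivity along a chain, and the equality case. -/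
theorem chain_chi (N : ℕ) (hN : Even N) (C : ℕ → Cx k) (Q : Cx k)
    (f : ∀ i, Hom (C i) (C (i + 1))) (g : ∀ i, Hom (C (i + 1)) Q)
    (hQ : ∀ n ≤ N, Module.Finite k (Q.H n)) (h0 : ∀ n ≤ N, Module.Finite k ((C 0).H n)) :
    ∀ m : ℕ, (∀ i < m, ShortExact (f i) (g i)) →
      chi (C m) N ≤ chi (C 0) N + m * chi Q N ∧
      (chi (C m) N = chi (C 0) N + m * chi Q N →
        ∀ i < m, chi (C (i + 1)) N = chi (C i) N + chi Q N) := by
  intro m
  induction m with
  | zero =>
    intro _
    refine ⟨by simp, fun _ i hi => absurd hi (Nat.not_lt_zero i)⟩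
  | succ m ih =>
    intro hse
    have hse' : ∀ i < m, ShortExact (f i) (g i) := fun i hi => hse i (Nat.lt_succ_of_lt hi)
    obtain ⟨ih1, ih2⟩ := ih hse'
    have hfin := chain_finite N (m + 1) C Q f g hse hQ h0
    have hstep : chi (C (m + 1)) N ≤ chi (C m) N + chi Q N :=
      (hse m (Nat.lt_succ_self m)).chi_le_of_even N hN
        (hfin m (Nat.le_succ m)) (hfin (m + 1) le_rfl) hQ
    have hcast : ((m + 1 : ℕ) : ℤ) * chi Q N = (m : ℤ) * chi Q N + chi Q N := by
      push_cast
      ring
    refine ⟨by rw [hcast]; linarith, fun heq i hi => ?_⟩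
    rw [hcast] at heq
    have h1 : chi (C (m + 1)) N = chi (C m) N + chi Q N := by linarith
    have h2 : chi (C m) N = chi (C 0) N + m * chi Q N := by linarith
    rcases Nat.lt_succ_iff_lt_or_eq.mp hi with hi' | rfl
    · exact ih2 h2 i hi'
    · exact h1

/-- **Counting criterion along a filtration.**  If `χ_N(C m) = χ_N(C 0) + m · χ_N(Q)` (`N` even),
every edge map `H^{N+1}(C i) → H^{N+1}(C (i+1))`, `i < m`, is injective. -/
theorem chain_mapH_injective (N : ℕ) (hN : Even N) (m : ℕ) (C : ℕ → Cx k) (Q : Cx k)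
    (f : ∀ i, Hom (C i) (C (i + 1))) (g : ∀ i, Hom (C (i + 1)) Q)
    (hse : ∀ i < m, ShortExact (f i) (g i))
    (hQ : ∀ n ≤ N, Module.Finite k (Q.H n)) (h0 : ∀ n ≤ N, Module.Finite k ((C 0).H n))
    (hchi : chi (C m) N = chi (C 0) N + m * chi Q N) :
    ∀ i < m, Function.Injective ((f i).mapH (N + 1)) := by
  intro i hi
  have hfin := chain_finite N m C Q f g hse hQ h0
  have heq := (chain_chi N hN C Q f g hQ h0 m hse).2 hchi i hi
  exact (hse i hi).mapH_injective_of_chi_eq N (hfin i hi.le) (hfin (i + 1) hi) hQ heq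

/-- The composite of the edge maps `C i → C j` of a chain. -/
def chainHom (C : ℕ → Cx k) (f : ∀ i, Hom (C i) (C (i + 1))) (i : ℕ) :
    ∀ d : ℕ, Hom (C i) (C (i + d))
  | 0 => Hom.id (C i)
  | d + 1 => (f (i + d)).comp (chainHom C f i d)

theorem chainHom_zero (C : ℕ → Cx k) (f : ∀ i, Hom (C i) (C (i + 1))) (i : ℕ) :
    chainHom C f i 0 = Hom.id (C i) := rfl

theorem chainHom_succ (C : ℕ → Cx k) (f : ∀ i, Hom (C i) (C (i + 1))) (i d : ℕ) :
    chainHom C f i (d + 1) = (f (i + d)).comp (chainHom C f i d) := rfl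

/-- **Counting criterion, composite form**: under the hypotheses of `chain_mapH_injective` the
composite `H^{N+1}(C i) → H^{N+1}(C (i + d))` is injective whenever `i + d ≤ m`. -/
theorem chainHom_mapH_injective (N : ℕ) (hN : Even N) (m : ℕ) (C : ℕ → Cx k) (Q : Cx k)
    (f : ∀ i, Hom (C i) (C (i + 1))) (g : ∀ i, Hom (C (i + 1)) Q)
    (hse : ∀ i < m, ShortExact (f i) (g i))
    (hQ : ∀ n ≤ N, Module.Finite k (Q.H n)) (h0 : ∀ n ≤ N, Module.Finite k ((C 0).H n))
    (hchi : chi (C m) N = chi (C 0) N + m * chi Q N) (i d : ℕ) (hid : i + d ≤ m) :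
    Function.Injective ((chainHom C f i d).mapH (N + 1)) := by
  have hinj := chain_mapH_injective N hN m C Q f g hse hQ h0 hchi
  induction d with
  | zero =>
    intro x y hxy
    rw [chainHom_zero, Hom.mapH_id, Hom.mapH_id] at hxy
    exact hxy
  | succ d ih =>
    intro x y hxy
    rw [chainHom_succ, Hom.mapH_comp, Hom.mapH_comp] at hxy
    exact ih (by omega) (hinj (i + d) (by omega) hxy)

/-- Variant of the hypothesis when `C 0` is acyclic in degrees `≤ N`:
`χ_N(C 0) = 0`. -/
theorem chi_eq_zero_of_subsingleton (C : Cx k) (N : ℕ) (h : ∀ n ≤ N, Subsingleton (C.H n)) :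
    chi C N = 0 := by
  unfold chi
  refine Finset.sum_eq_zero fun n hn => ?_
  have := h n (Nat.lt_succ_iff.mp (Finset.mem_range.mp hn))
  rw [Module.finrank_zero_of_subsingleton]
  simp

end Cx

end Fermat.Agent.PT
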