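/-
PT layer F7 (group level): the counting criterion for unipotent coefficient modules.

`(Γ, L)` a leveled group, `k = 𝔽_p`.  For a finite-dimensional smooth representation `(M, ρ)` on
which every element of `Γ` acts through an element of `p`-power order ("unipotent"; e.g. `ρ`
factors through a finite `p`-group), and when `H^i(Γ; 𝔽_p)` is finite-dimensional for `i ≤ 2`:

* `unip_finite`   : `H^i(Γ; M)` is finite-dimensional for `i ≤ 2`;
* `unip_chi_le`   : `χ₂(M) ≤ dim M · χ₂(𝔽_p)`;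
* `unip_mapH_three_injective` : if `χ₂(M) = dim M · χ₂(𝔽_p)`, then for every nonzero `Γ`-fixed
  vector `v` of `M` the map `H³(Γ; 𝔽_p) → H³(Γ; M)` induced by `1 ↦ v` is injective.

Application (Serre's counting criterion): `M = Coind_V^Γ 𝔽_p` for `V ≤ Γ` open with `Γ/core` a
`p`-group, `v` = the constant function; with Shapiro `χ₂(M) = χ₂(V; 𝔽_p)`, so
`χ₂(V) = [Γ : V] · χ₂(Γ)` forces `res : H³(Γ; 𝔽_p) → H³(V; 𝔽_p)` to be injective.
-/
import Mathlib
import Fermat.Agent.PT.Coh.LevelCx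
import Fermat.Agent.PT.Coh.Euler
import Fermat.Agent.PT.Coh.Count
import Fermat.Agent.PT.Devissage

set_option autoImplicit false

namespace Fermat.Agent.PT

namespace LevelSys

variable {p : ℕ} [Fact p.Prime] {Γ : Type} [Group Γ] (L : LevelSys Γ)

/-- The trivial representation on `𝔽_p` is smooth. -/
theorem isSmooth_trivial :
    L.IsSmooth (Representation.trivial (ZMod p) Γ (ZMod p)) := by
  intro m
  obtain ⟨N, hN⟩ := L.nonempty
  exact ⟨N, hN, fun s _ => rfl⟩

/-- The level complex of the trivial module `𝔽_p`. -/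
abbrev trivCx (p : ℕ) [Fact p.Prime] : Cx (ZMod p) :=
  L.cx (Representation.trivial (ZMod p) Γ (ZMod p)) L.isSmooth_trivial

variable {M : Type} [AddCommGroup M] [Module (ZMod p) M]

/-- The cohomology of a zero module vanishes. -/
theorem subsingleton_H_of_subsingleton [Subsingleton M] (ρ : Representation (ZMod p) Γ M)
    (hρ : L.IsSmooth ρ) (n : ℕ) : Subsingleton ((L.cx ρ hρ).H n) := by
  have h1 : Subsingleton ((L.cx ρ hρ).X n) :=
    ⟨fun f f' => Subtype.ext (funext fun g => Subsingleton.elim _ _)⟩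
  have h2 : Subsingleton ((L.cx ρ hρ).Z n) := ⟨fun z z' => Subtype.ext (Subsingleton.elim _ _)⟩
  exact ((L.cx ρ hρ).Hπ_surjective n).subsingleton

/-- The line spanned by a vector, as a linear map from `𝔽_p`. -/
def lineMap (v : M) : ZMod p →ₗ[ZMod p] M := LinearMap.toSpanSingleton (ZMod p) M v

theorem lineMap_apply (v : M) (c : ZMod p) : lineMap v c = c • v := rfl

theorem lineMap_injective {v : M} (hv0 : v ≠ 0) : Function.Injective (lineMap (p := p) v) := by
  rw [injective_iff_map_eq_zero]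
  intro c hc
  rw [lineMap_apply] at hc
  exact (smul_eq_zero.mp hc).resolve_right hv0

theorem lineMap_equivariant (ρ : Representation (ZMod p) Γ M) {v : M} (hv : ∀ u, ρ u v = v)
    (g : Γ) (c : ZMod p) :
    lineMap v (Representation.trivial (ZMod p) Γ (ZMod p) g c) = ρ g (lineMap v c) := by
  rw [Representation.trivial_apply, lineMap_apply, map_smul, hv]

theorem span_le_comap (ρ : Representation (ZMod p) Γ M) {v : M} (hv : ∀ u, ρ u v = v) (g : Γ) :
    Submodule.span (ZMod p) {v} ≤ (Submodule.span (ZMod p) {v}).comap (ρ g) := by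
  rw [Submodule.span_le]
  intro x hx
  rw [Set.mem_singleton_iff] at hx
  rw [hx]
  show ρ g v ∈ Submodule.span (ZMod p) {v}
  rw [hv]
  exact Submodule.mem_span_singleton_self v

/-- The representation on the quotient by a fixed line. -/
def quotLine (ρ : Representation (ZMod p) Γ M) {v : M} (hv : ∀ u, ρ u v = v) :
    Representation (ZMod p) Γ (M ⧸ Submodule.span (ZMod p) {v}) :=
  ρ.quotient (Submodule.span (ZMod p) {v}) (span_le_comap ρ hv)

theorem quotLine_mk (ρ : Representation (ZMod p) Γ M) {v : M} (hv : ∀ u, ρ u v = v) (g : Γ)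
    (m : M) : (Submodule.span (ZMod p) {v}).mkQ (ρ g m) =
      quotLine ρ hv g ((Submodule.span (ZMod p) {v}).mkQ m) := rfl

theorem quotLine_smooth {ρ : Representation (ZMod p) Γ M} (hρ : L.IsSmooth ρ) {v : M}
    (hv : ∀ u, ρ u v = v) : L.IsSmooth (quotLine ρ hv) := by
  intro m'
  obtain ⟨m, rfl⟩ := Submodule.mkQ_surjective _ m'
  obtain ⟨N, hN, h⟩ := hρ m
  exact ⟨N, hN, fun s hs => by rw [← quotLine_mk, h s hs]⟩

theorem quotLine_unip {ρ : Representation (ZMod p) Γ M} {v : M} (hv : ∀ u, ρ u v = v)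
    (hunip : ∀ u : Γ, ∃ n : ℕ, ρ u ^ p ^ n = 1) (u : Γ) :
    ∃ n : ℕ, quotLine ρ hv u ^ p ^ n = 1 := by
  obtain ⟨n, hn⟩ := hunip u
  refine ⟨n, ?_⟩
  rw [← map_pow] at hn ⊢
  apply LinearMap.ext
  intro m'
  obtain ⟨m, rfl⟩ := Submodule.mkQ_surjective _ m'
  rw [← quotLine_mk, hn]
  rfl

theorem exact_lineMap_mkQ (v : M) :
    Function.Exact (lineMap (p := p) v) (Submodule.span (ZMod p) {v}).mkQ := by
  intro m
  rw [Submodule.mkQ_apply, Submodule.Quotient.mk_eq_zero, Submodule.mem_span_singleton]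
  constructor
  · rintro ⟨c, rfl⟩
    exact ⟨c, rfl⟩
  · rintro ⟨c, rfl⟩
    exact ⟨c, rfl⟩

/-- The short exact sequence of level complexes attached to a fixed line. -/
theorem shortExact_line {ρ : Representation (ZMod p) Γ M} (hρ : L.IsSmooth ρ) {v : M}
    (hv0 : v ≠ 0) (hv : ∀ u, ρ u v = v) :
    Cx.ShortExact
      (L.mapCoeff L.isSmooth_trivial hρ (lineMap v) (lineMap_equivariant ρ hv))
      (L.mapCoeff hρ (L.quotLine_smooth hρ hv) (Submodule.span (ZMod p) {v}).mkQ
        (quotLine_mk ρ hv)) :=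
  L.shortExact_mapCoeff L.isSmooth_trivial hρ (L.quotLine_smooth hρ hv) (lineMap v)
    (Submodule.span (ZMod p) {v}).mkQ (lineMap_equivariant ρ hv) (quotLine_mk ρ hv)
    (lineMap_injective hv0) (exact_lineMap_mkQ v) (Submodule.mkQ_surjective _)

theorem finrank_quotLine [Module.Finite (ZMod p) M] {v : M} (hv0 : v ≠ 0) {d : ℕ}
    (hd : Module.finrank (ZMod p) M = d + 1) :
    Module.finrank (ZMod p) (M ⧸ Submodule.span (ZMod p) {v}) = d := by
  have h1 := Submodule.finrank_quotient_add_finrank (Submodule.span (ZMod p) {v})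
  rw [finrank_span_singleton hv0, hd] at h1
  omega

/-- **Unipotent counting, bound**: finiteness of `H^{≤2}` and `χ₂(M) ≤ dim M · χ₂(𝔽_p)`. -/
theorem unip_finite_and_chi_le
    (hfin : ∀ n ≤ 2, Module.Finite (ZMod p) ((L.trivCx p).H n)) (d : ℕ) :
    ∀ (M : Type) [AddCommGroup M] [Module (ZMod p) M] [Module.Finite (ZMod p) M]
      (ρ : Representation (ZMod p) Γ M) (hρ : L.IsSmooth ρ),
      (∀ u : Γ, ∃ n : ℕ, ρ u ^ p ^ n = 1) → Module.finrank (ZMod p) M = d →
      (∀ n ≤ 2, Module.Finite (ZMod p) ((L.cx ρ hρ).H n)) ∧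
        Cx.chi (L.cx ρ hρ) 2 ≤ d * Cx.chi (L.trivCx p) 2 := by
  induction d with
  | zero =>
    intro M _ _ _ ρ hρ _ hd
    have hsub : Subsingleton M := Module.finrank_zero_iff.mp hd
    have hH : ∀ n, Subsingleton ((L.cx ρ hρ).H n) := L.subsingleton_H_of_subsingleton ρ hρ
    refine ⟨fun n _ => ?_, ?_⟩
    · have := hH n
      infer_instance
    · rw [Cx.chi_eq_zero_of_subsingleton _ 2 fun n _ => hH n]
      simp
  | succ d ih =>
    intro M _ _ _ ρ hρ hunip hd
    have : Nontrivial M := Module.nontrivial_of_finrank_pos (R := ZMod p) (by omega)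
    obtain ⟨v, hv0, hv⟩ := Devissage.exists_fixed_ne_zero ρ hunip
    obtain ⟨ihfin, ihchi⟩ := ih (M ⧸ Submodule.span (ZMod p) {v}) (quotLine ρ hv)
      (L.quotLine_smooth hρ hv) (quotLine_unip hv hunip) (finrank_quotLine hv0 hd)
    have hse := L.shortExact_line hρ hv0 hv
    have hmid : ∀ n ≤ 2, Module.Finite (ZMod p) ((L.cx ρ hρ).H n) := by
      intro n hn
      have := hfin n hn
      have := ihfin n hn
      exact hse.finite_mid n
    refine ⟨hmid, ?_⟩
    have h1 := hse.chi_two_le hfin hmid ihfin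
    have hcast : ((d + 1 : ℕ) : ℤ) * Cx.chi (L.trivCx p) 2 =
        Cx.chi (L.trivCx p) 2 + d * Cx.chi (L.trivCx p) 2 := by
      push_cast
      ring
    rw [hcast]
    linarith

/-- **Unipotent counting, finiteness.** -/
theorem unip_finite (hfin : ∀ n ≤ 2, Module.Finite (ZMod p) ((L.trivCx p).H n))
    [Module.Finite (ZMod p) M] (ρ : Representation (ZMod p) Γ M) (hρ : L.IsSmooth ρ)
    (hunip : ∀ u : Γ, ∃ n : ℕ, ρ u ^ p ^ n = 1) :
    ∀ n ≤ 2, Module.Finite (ZMod p) ((L.cx ρ hρ).H n) :=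
  (L.unip_finite_and_chi_le hfin _ M ρ hρ hunip rfl).1

/-- **Unipotent counting, sub-additivity**: `χ₂(M) ≤ dim M · χ₂(𝔽_p)`. -/
theorem unip_chi_le (hfin : ∀ n ≤ 2, Module.Finite (ZMod p) ((L.trivCx p).H n))
    [Module.Finite (ZMod p) M] (ρ : Representation (ZMod p) Γ M) (hρ : L.IsSmooth ρ)
    (hunip : ∀ u : Γ, ∃ n : ℕ, ρ u ^ p ^ n = 1) :
    Cx.chi (L.cx ρ hρ) 2 ≤ Module.finrank (ZMod p) M * Cx.chi (L.trivCx p) 2 :=
  (L.unip_finite_and_chi_le hfin _ M ρ hρ hunip rfl).2

/-- **Serre's counting criterion, unipotent form.**  If `χ₂(M) = dim M · χ₂(𝔽_p)` for a unipotent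
module `M`, then for every nonzero fixed vector `v` the map `H³(Γ; 𝔽_p) → H³(Γ; M)` induced by
`1 ↦ v` is injective. -/
theorem unip_mapH_three_injective
    (hfin : ∀ n ≤ 2, Module.Finite (ZMod p) ((L.trivCx p).H n))
    [Module.Finite (ZMod p) M] (ρ : Representation (ZMod p) Γ M) (hρ : L.IsSmooth ρ)
    (hunip : ∀ u : Γ, ∃ n : ℕ, ρ u ^ p ^ n = 1) (v : M) (hv0 : v ≠ 0) (hv : ∀ u, ρ u v = v)
    (heq : Cx.chi (L.cx ρ hρ) 2 = Module.finrank (ZMod p) M * Cx.chi (L.trivCx p) 2) :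
    Function.Injective
      ((L.mapCoeff L.isSmooth_trivial hρ (lineMap v) (lineMap_equivariant ρ hv)).mapH 3) := by
  have : Nontrivial M := ⟨⟨v, 0, hv0⟩⟩
  obtain ⟨d, hd⟩ : ∃ d, Module.finrank (ZMod p) M = d + 1 :=
    ⟨Module.finrank (ZMod p) M - 1, by
      have := Module.finrank_pos (R := ZMod p) (M := M)
      omega⟩
  obtain ⟨ihfin, ihchi⟩ := L.unip_finite_and_chi_le hfin d (M ⧸ Submodule.span (ZMod p) {v})
    (quotLine ρ hv) (L.quotLine_smooth hρ hv) (quotLine_unip hv hunip) (finrank_quotLine hv0 hd)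
  have hse := L.shortExact_line hρ hv0 hv
  have hmid := L.unip_finite hfin ρ hρ hunip
  have h1 := hse.chi_two_le hfin hmid ihfin
  have hcast : ((d + 1 : ℕ) : ℤ) * Cx.chi (L.trivCx p) 2 =
      Cx.chi (L.trivCx p) 2 + d * Cx.chi (L.trivCx p) 2 := by
    push_cast
    ring
  rw [hd, hcast] at heq
  exact hse.mapH_injective_of_chi_eq 2 hfin hmid ihfin (by linarith)

end LevelSys

end Fermat.Agent.PT
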