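/-
PT layer F2: constructions on `Cx`: the shift `D[-1]` (with differential `-d`), products,
and the co-cone `cocone φ = Cone(φ)[-1]` of a morphism `φ : C ⟶ D`, with
`(cocone φ).X (n+1) = C.X (n+1) × D.X n`, `d (c, e) = (d c, φ c - d e)`,
together with its long exact sequence
`H^{n-1}(D) --ι--> H^n(cocone φ) --π--> H^n(C) --φ--> H^n(D)`.
-/
import Fermat.Agent.PT.Coh.Cx

set_option autoImplicit false

namespace Fermat.Agent.PT

namespace Cx

variable {k : Type} [CommRing k]

/-! ### The shift -/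

/-- terms of the shifted complex `D[-1]` -/
def shiftX (D : Cx k) : ℕ → Type
  | 0 => PUnit
  | n + 1 => D.X n

instance shiftAcg (D : Cx k) : ∀ n, AddCommGroup (shiftX D n)
  | 0 => inferInstanceAs (AddCommGroup PUnit)
  | n + 1 => inferInstanceAs (AddCommGroup (D.X n))

instance shiftMod (D : Cx k) : ∀ n, Module k (shiftX D n)
  | 0 => inferInstanceAs (Module k PUnit)
  | n + 1 => inferInstanceAs (Module k (D.X n))

/-- the identification `D.X n ≃ shiftX D (n+1)` (the identity) -/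
def shiftUp (D : Cx k) (n : ℕ) : D.X n ≃ₗ[k] shiftX D (n + 1) := LinearEquiv.refl k (D.X n)

/-- differential of the shifted complex: `-d` -/
def shiftD (D : Cx k) : ∀ n, shiftX D n →ₗ[k] shiftX D (n + 1)
  | 0 => 0
  | n + 1 => (shiftUp D (n + 1)).toLinearMap ∘ₗ (-D.d n) ∘ₗ (shiftUp D n).symm.toLinearMap

lemma shiftD_up (D : Cx k) (n : ℕ) (x : D.X n) :
    shiftD D (n + 1) (shiftUp D n x) = shiftUp D (n + 1) (-D.d n x) := rfl

lemma shiftD_zero (D : Cx k) (x : shiftX D 0) : shiftD D 0 x = 0 := rfl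

lemma shiftX_zero_eq (D : Cx k) (x y : shiftX D 0) : x = y :=
  Subsingleton.elim (α := PUnit) x y

lemma exists_shiftUp (D : Cx k) {n : ℕ} (x : shiftX D (n + 1)) : ∃ y, shiftUp D n y = x :=
  (shiftUp D n).surjective x

/-- The shifted complex `D[-1]`: `(shift D).X (n+1) = D.X n`, differential `-d`. -/
abbrev shift (D : Cx k) : Cx k where
  X := shiftX D
  d := shiftD D
  d_d n x := by
    cases n with
    | zero => rw [shiftD_zero, map_zero]
    | succ n =>
      obtain ⟨y, rfl⟩ := exists_shiftUp D x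
      rw [shiftD_up, shiftD_up]
      simp only [map_neg, D.d_d, neg_zero, map_zero]

lemma shift_d_up (D : Cx k) (n : ℕ) (x : D.X n) :
    (shift D).d (n + 1) (shiftUp D n x) = shiftUp D (n + 1) (-D.d n x) := rfl

lemma shiftUp_mem_Z (D : Cx k) {n : ℕ} {x : D.X n} :
    shiftUp D n x ∈ (shift D).Z (n + 1) ↔ x ∈ D.Z n := by
  rw [mem_Z, mem_Z, shift_d_up, map_neg, neg_eq_zero]
  exact (shiftUp D (n + 1)).map_eq_zero_iff

lemma shiftUp_mem_B (D : Cx k) {n : ℕ} {x : D.X n} :
    shiftUp D n x ∈ (shift D).B (n + 1) ↔ x ∈ D.B n := by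
  rw [mem_B_succ]
  cases n with
  | zero =>
    rw [mem_B_zero]
    constructor
    · rintro ⟨y, hy⟩
      have h0 : (shift D).d 0 y = 0 := rfl
      rw [h0] at hy
      exact ((shiftUp D 0).map_eq_zero_iff).1 hy.symm
    · rintro rfl
      exact ⟨0, by rw [map_zero, map_zero]⟩
  | succ n =>
    rw [mem_B_succ]
    constructor
    · rintro ⟨y, hy⟩
      obtain ⟨y', rfl⟩ := exists_shiftUp D y
      rw [shift_d_up] at hy
      exact ⟨-y', by rw [map_neg]; exact (shiftUp D (n + 1)).injective hy⟩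
    · rintro ⟨y, rfl⟩
      exact ⟨shiftUp D n (-y), by rw [shift_d_up]; simp only [map_neg, neg_neg]⟩

/-- `H^n(D) → H^{n+1}(D[-1])` -/
def toShift (D : Cx k) (n : ℕ) : D.H n →ₗ[k] (shift D).H (n + 1) :=
  Submodule.mapQ _ _
    ((shiftUp D n).toLinearMap.restrict (p := D.Z n) (q := (shift D).Z (n + 1))
      fun _ hz => (shiftUp_mem_Z D).2 hz)
    (by
      intro z hz
      simp only [Submodule.mem_comap, Submodule.subtype_apply] at hz ⊢
      exact (shiftUp_mem_B D).2 hz)

/-- `H^{n+1}(D[-1]) → H^n(D)` -/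
def fromShift (D : Cx k) (n : ℕ) : (shift D).H (n + 1) →ₗ[k] D.H n :=
  Submodule.mapQ _ _
    ((shiftUp D n).symm.toLinearMap.restrict (p := (shift D).Z (n + 1)) (q := D.Z n)
      fun z hz => by
        obtain ⟨y, rfl⟩ := exists_shiftUp D z
        exact (shiftUp_mem_Z D).1 hz)
    (by
      intro z hz
      simp only [Submodule.mem_comap, Submodule.subtype_apply] at hz ⊢
      obtain ⟨z, hz'⟩ := z
      obtain ⟨y, rfl⟩ := exists_shiftUp D z
      exact (shiftUp_mem_B D).1 hz)

lemma fromShift_toShift (D : Cx k) (n : ℕ) (x : D.H n) : fromShift D n (toShift D n x) = x := by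
  obtain ⟨z, rfl⟩ := D.Hπ_surjective n x
  rfl

lemma toShift_fromShift (D : Cx k) (n : ℕ) (x : (shift D).H (n + 1)) :
    toShift D n (fromShift D n x) = x := by
  obtain ⟨z, rfl⟩ := (shift D).Hπ_surjective (n + 1) x
  rfl

lemma toShift_injective (D : Cx k) (n : ℕ) : Function.Injective (toShift D n) :=
  Function.LeftInverse.injective (fromShift_toShift D n)

lemma toShift_surjective (D : Cx k) (n : ℕ) : Function.Surjective (toShift D n) :=
  Function.RightInverse.surjective (toShift_fromShift D n)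

lemma toShift_cls (D : Cx k) (n : ℕ) (x : D.X n) (hx : D.d n x = 0) :
    toShift D n (D.cls n x hx) =
      (shift D).cls (n + 1) (shiftUp D n x) ((shiftUp_mem_Z D).2 hx) := rfl

lemma shift_H_zero (D : Cx k) (x : (shift D).H 0) : x = 0 := by
  obtain ⟨z, rfl⟩ := (shift D).Hπ_surjective 0 x
  have : z = 0 := Subtype.ext (shiftX_zero_eq D _ _)
  rw [this, map_zero]

/-- components of the morphism of shifted complexes -/
def shiftMapF {D D' : Cx k} (β : Hom D D') : ∀ n, shiftX D n →ₗ[k] shiftX D' n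
  | 0 => (LinearMap.id : PUnit →ₗ[k] PUnit)
  | n + 1 => (shiftUp D' n).toLinearMap ∘ₗ β.f n ∘ₗ (shiftUp D n).symm.toLinearMap

lemma shiftMapF_up {D D' : Cx k} (β : Hom D D') (n : ℕ) (x : D.X n) :
    shiftMapF β (n + 1) (shiftUp D n x) = shiftUp D' n (β.f n x) := rfl

/-- morphism of shifted complexes -/
def shiftMap {D D' : Cx k} (β : Hom D D') : Hom (shift D) (shift D') where
  f := shiftMapF β
  comm n x := by
    cases n with
    | zero =>
      have h0 : shiftD D 0 x = 0 := rfl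
      have h0' : shiftD D' 0 (shiftMapF β 0 x) = 0 := rfl
      rw [h0, h0', map_zero]
    | succ n =>
      obtain ⟨y, rfl⟩ := exists_shiftUp D x
      rw [shiftD_up, shiftMapF_up, shiftMapF_up, shiftD_up]
      simp only [map_neg, β.comm]

/-! ### The co-cone -/

variable {C D : Cx k}

/-- The co-cone `Cone(φ)[-1]` of `φ : C ⟶ D`. -/
abbrev cocone (φ : Hom C D) : Cx k where
  X n := C.X n × shiftX D n
  d n := LinearMap.prod (C.d n ∘ₗ LinearMap.fst k _ _)
    ((shiftUp D n).toLinearMap ∘ₗ φ.f n ∘ₗ LinearMap.fst k _ _ +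
      shiftD D n ∘ₗ LinearMap.snd k _ _)
  d_d n x := by
    obtain ⟨c, e⟩ := x
    refine Prod.ext (C.d_d n c) ?_
    show shiftUp D (n + 1) (φ.f (n + 1) (C.d n c)) +
      shiftD D (n + 1) (shiftUp D n (φ.f n c) + shiftD D n e) = 0
    rw [map_add, shiftD_up, φ.comm, map_neg, add_neg_cancel_left]
    exact (shift D).d_d n e

lemma cocone_d_apply (φ : Hom C D) (n : ℕ) (c : C.X n) (e : shiftX D n) :
    (cocone φ).d n ((c, e) : (cocone φ).X n) =
      ((C.d n c, shiftUp D n (φ.f n c) + shiftD D n e) : (cocone φ).X (n + 1)) := rfl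

/-- elements of the co-cone in positive degree -/
def coconeMk (φ : Hom C D) {n : ℕ} (c : C.X (n + 1)) (e : D.X n) : (cocone φ).X (n + 1) :=
  (c, shiftUp D n e)

lemma coconeMk_surjective (φ : Hom C D) {n : ℕ} (x : (cocone φ).X (n + 1)) :
    ∃ c e, coconeMk φ c e = x := by
  obtain ⟨c, e⟩ := x
  obtain ⟨e', rfl⟩ := exists_shiftUp D e
  exact ⟨c, e', rfl⟩

lemma coconeMk_inj (φ : Hom C D) {n : ℕ} {c c' : C.X (n + 1)} {e e' : D.X n} :
    coconeMk φ c e = coconeMk φ c' e' ↔ c = c' ∧ e = e' := by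
  constructor
  · intro h
    exact ⟨congrArg Prod.fst h, (shiftUp D n).injective (congrArg Prod.snd h)⟩
  · rintro ⟨rfl, rfl⟩
    rfl

lemma cocone_d_succ (φ : Hom C D) (n : ℕ) (c : C.X (n + 1)) (e : D.X n) :
    (cocone φ).d (n + 1) (coconeMk φ c e) =
      coconeMk φ (C.d (n + 1) c) (φ.f (n + 1) c - D.d n e) := by
  refine Prod.ext rfl ?_
  show shiftUp D (n + 1) (φ.f (n + 1) c) + shiftD D (n + 1) (shiftUp D n e) = _
  rw [shiftD_up, ← map_add, ← sub_eq_add_neg]
  rfl

lemma cocone_d_zero (φ : Hom C D) (x : (cocone φ).X 0) :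
    (cocone φ).d 0 x = coconeMk φ (C.d 0 x.1) (φ.f 0 x.1) := by
  obtain ⟨c, e⟩ := x
  refine Prod.ext rfl ?_
  show shiftUp D 0 (φ.f 0 c) + shiftD D 0 e = _
  rw [shiftD_zero, add_zero]
  rfl

/-- the inclusion `D[-1] ⟶ cocone φ` -/
def coconeIncl (φ : Hom C D) : Hom (shift D) (cocone φ) where
  f n := LinearMap.inr k (C.X n) (shiftX D n)
  comm n x := by
    refine Prod.ext ?_ ?_
    · show (0 : C.X (n + 1)) = C.d n 0
      rw [map_zero]
    · show shiftD D n x = shiftUp D n (φ.f n 0) + shiftD D n x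
      rw [map_zero, map_zero, zero_add]

/-- the projection `cocone φ ⟶ C` -/
def coconeProj (φ : Hom C D) : Hom (cocone φ) C where
  f n := LinearMap.fst k (C.X n) (shiftX D n)
  comm _ _ := rfl

lemma shortExact_cocone (φ : Hom C D) : ShortExact (coconeIncl φ) (coconeProj φ) where
  inj _ := LinearMap.inr_injective
  exact n := by
    intro x
    constructor
    · intro hx
      exact ⟨x.2, Prod.ext (Eq.symm hx) rfl⟩
    · rintro ⟨e, rfl⟩
      rfl
  surj _ := LinearMap.fst_surjective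

/-- `H^n(D) → H^{n+1}(cocone φ)`, `[e] ↦ [(0, e)]` -/
def coconeι (φ : Hom C D) (n : ℕ) : D.H n →ₗ[k] (cocone φ).H (n + 1) :=
  (coconeIncl φ).mapH (n + 1) ∘ₗ toShift D n

/-- `H^n(cocone φ) → H^n(C)`, `[(c, e)] ↦ [c]` -/
def coconeπ (φ : Hom C D) (n : ℕ) : (cocone φ).H n →ₗ[k] C.H n :=
  (coconeProj φ).mapH n

lemma coconeι_cls (φ : Hom C D) (n : ℕ) (e : D.X n) (he : D.d n e = 0) :
    coconeι φ n (D.cls n e he) =
      (cocone φ).cls (n + 1) (coconeMk φ 0 e) (by
        rw [cocone_d_succ, map_zero, map_zero, he, sub_zero]; rfl) := rfl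

lemma coconeπ_cls (φ : Hom C D) (n : ℕ) (x : (cocone φ).X n) (hx : (cocone φ).d n x = 0) :
    coconeπ φ n ((cocone φ).cls n x hx) = C.cls n x.1 (congrArg Prod.fst hx) := rfl

/-- the connecting map of the co-cone sequence is `φ` -/
lemma cocone_δ (φ : Hom C D) (n : ℕ) (x : C.H n) :
    (shortExact_cocone φ).δ n x = toShift D n (φ.mapH n x) := by
  obtain ⟨c, hc, rfl⟩ := C.exists_cls x
  have hb : C.d n ((coconeProj φ).f n ((c, 0) : (cocone φ).X n)) = 0 := hc
  have ha : (coconeIncl φ).f (n + 1) (shiftUp D n (φ.f n c)) =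
      (cocone φ).d n ((c, 0) : (cocone φ).X n) := by
    rw [cocone_d_apply]
    refine Prod.ext hc.symm ?_
    show shiftUp D n (φ.f n c) = shiftUp D n (φ.f n c) + shiftD D n 0
    rw [map_zero, add_zero]
  exact (shortExact_cocone φ).δ_cls n ((c, 0) : (cocone φ).X n) hb (shiftUp D n (φ.f n c)) ha

/-- exactness of `H^n(cocone φ) → H^n(C) → H^n(D)` -/
lemma cocone_exact_π_φ (φ : Hom C D) (n : ℕ) : Function.Exact (coconeπ φ n) (φ.mapH n) := by
  intro x
  have h := (shortExact_cocone φ).exact_g_δ n x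
  rw [cocone_δ] at h
  rw [← show Set.range ((coconeProj φ).mapH n) = Set.range (coconeπ φ n) from rfl, ← h]
  constructor
  · intro h
    rw [h, map_zero]
  · intro h
    apply toShift_injective D n
    rw [h, map_zero]

/-- exactness of `H^n(C) → H^n(D) → H^{n+1}(cocone φ)` -/
lemma cocone_exact_φ_ι (φ : Hom C D) (n : ℕ) : Function.Exact (φ.mapH n) (coconeι φ n) := by
  intro y
  have h := (shortExact_cocone φ).exact_δ_f n (toShift D n y)
  show (coconeIncl φ).mapH (n + 1) (toShift D n y) = 0 ↔ _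
  rw [h]
  constructor
  · rintro ⟨x, hx⟩
    rw [cocone_δ] at hx
    exact ⟨x, toShift_injective D n hx⟩
  · rintro ⟨x, rfl⟩
    exact ⟨x, cocone_δ φ n x⟩

/-- exactness of `H^n(D) → H^{n+1}(cocone φ) → H^{n+1}(C)` -/
lemma cocone_exact_ι_π (φ : Hom C D) (n : ℕ) :
    Function.Exact (coconeι φ n) (coconeπ φ (n + 1)) := by
  intro x
  have h := (shortExact_cocone φ).exact_f_g (n + 1) x
  show (coconeProj φ).mapH (n + 1) x = 0 ↔ _
  rw [h]
  constructor
  · rintro ⟨y, rfl⟩
    obtain ⟨y', rfl⟩ := toShift_surjective D n y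
    exact ⟨y', rfl⟩
  · rintro ⟨y, rfl⟩
    exact ⟨toShift D n y, rfl⟩

/-- `H^0(cocone φ) → H^0(C)` is injective -/
lemma coconeπ_zero_injective (φ : Hom C D) : Function.Injective (coconeπ φ 0) := by
  rw [injective_iff_map_eq_zero]
  intro x hx
  obtain ⟨y, rfl⟩ := ((shortExact_cocone φ).exact_f_g 0 x).1 hx
  rw [shift_H_zero D y, map_zero]

/-- functoriality of the co-cone in a commutative square -/
def coconeMap {C' D' : Cx k} (φ : Hom C D) (φ' : Hom C' D') (α : Hom C C') (β : Hom D D')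
    (h : ∀ n c, φ'.f n (α.f n c) = β.f n (φ.f n c)) : Hom (cocone φ) (cocone φ') where
  f n := LinearMap.prodMap (α.f n) (shiftMapF β n)
  comm n x := by
    obtain ⟨c, e⟩ := x
    refine Prod.ext (α.comm n c) ?_
    show shiftMapF β (n + 1) (shiftUp D n (φ.f n c) + shiftD D n e) =
      shiftUp D' n (φ'.f n (α.f n c)) + shiftD D' n (shiftMapF β n e)
    rw [map_add, h, shiftMapF_up]
    congr 1
    exact (shiftMap β).comm n e

lemma coconeMap_mk {C' D' : Cx k} (φ : Hom C D) (φ' : Hom C' D') (α : Hom C C') (β : Hom D D')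
    (h : ∀ n c, φ'.f n (α.f n c) = β.f n (φ.f n c)) (n : ℕ) (c : C.X (n + 1)) (e : D.X n) :
    (coconeMap φ φ' α β h).f (n + 1) (coconeMk φ c e) =
      coconeMk φ' (α.f (n + 1) c) (β.f n e) := rfl

lemma coconeπ_coconeMap {C' D' : Cx k} (φ : Hom C D) (φ' : Hom C' D') (α : Hom C C')
    (β : Hom D D') (h : ∀ n c, φ'.f n (α.f n c) = β.f n (φ.f n c)) (n : ℕ)
    (x : (cocone φ).H n) :
    coconeπ φ' n ((coconeMap φ φ' α β h).mapH n x) = α.mapH n (coconeπ φ n x) := by
  obtain ⟨z, rfl⟩ := (cocone φ).Hπ_surjective n x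
  rfl

lemma coconeMap_coconeι {C' D' : Cx k} (φ : Hom C D) (φ' : Hom C' D') (α : Hom C C')
    (β : Hom D D') (h : ∀ n c, φ'.f n (α.f n c) = β.f n (φ.f n c)) (n : ℕ) (y : D.H n) :
    (coconeMap φ φ' α β h).mapH (n + 1) (coconeι φ n y) = coconeι φ' n (β.mapH n y) := by
  obtain ⟨z, rfl⟩ := D.Hπ_surjective n y
  show (cocone φ').Hπ (n + 1) _ = (cocone φ').Hπ (n + 1) _
  congr 1
  apply Subtype.ext
  refine Prod.ext ?_ rfl
  show α.f (n + 1) 0 = 0
  rw [map_zero]

/-- A compatible pair of short exact sequences gives a short exact sequence of co-cones. -/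
lemma shortExact_coconeMap {C' C'' D' D'' : Cx k} (φ' : Hom C' D') (φ : Hom C D)
    (φ'' : Hom C'' D'') (f : Hom C' C) (g : Hom C C'') (f₁ : Hom D' D) (g₁ : Hom D D'')
    (hf : ∀ n c, φ.f n (f.f n c) = f₁.f n (φ'.f n c))
    (hg : ∀ n c, φ''.f n (g.f n c) = g₁.f n (φ.f n c))
    (hC : ShortExact f g) (hD : ShortExact f₁ g₁) :
    ShortExact (coconeMap φ' φ f f₁ hf) (coconeMap φ φ'' g g₁ hg) where
  inj n := by
    rintro ⟨c, e⟩ ⟨c', e'⟩ h
    have h1 : f.f n c = f.f n c' := congrArg Prod.fst h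
    have h2 : shiftMapF f₁ n e = shiftMapF f₁ n e' := congrArg Prod.snd h
    refine Prod.ext (hC.inj n h1) ?_
    cases n with
    | zero => exact shiftX_zero_eq D' _ _
    | succ n =>
      obtain ⟨y, rfl⟩ := exists_shiftUp D' e
      obtain ⟨y', rfl⟩ := exists_shiftUp D' e'
      rw [shiftMapF_up, shiftMapF_up] at h2
      exact congrArg (shiftUp D' n) (hD.inj n ((shiftUp D n).injective h2))
  exact n := by
    rintro ⟨c, e⟩
    constructor
    · intro h
      have h1 : g.f n c = 0 := congrArg Prod.fst h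
      have h2 : shiftMapF g₁ n e = 0 := congrArg Prod.snd h
      obtain ⟨c', hc'⟩ := hC.exists_of_g_eq_zero h1
      cases n with
      | zero => exact ⟨(c', e), Prod.ext hc' (shiftX_zero_eq D _ _)⟩
      | succ n =>
        obtain ⟨y, rfl⟩ := exists_shiftUp D e
        rw [shiftMapF_up] at h2
        obtain ⟨e', he'⟩ := hD.exists_of_g_eq_zero ((shiftUp D'' n).map_eq_zero_iff.1 h2)
        exact ⟨(c', shiftUp D' n e'), Prod.ext hc' (by
          show shiftMapF f₁ (n + 1) (shiftUp D' n e') = _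
          rw [shiftMapF_up, he'])⟩
    · rintro ⟨⟨c', e'⟩, h⟩
      have h1 : f.f n c' = c := congrArg Prod.fst h
      have h2 : shiftMapF f₁ n e' = e := congrArg Prod.snd h
      refine Prod.ext ?_ ?_
      · show g.f n c = 0
        rw [← h1, hC.g_f]
      · show shiftMapF g₁ n e = 0
        rw [← h2]
        cases n with
        | zero => exact shiftX_zero_eq D'' _ _
        | succ n =>
          obtain ⟨y, rfl⟩ := exists_shiftUp D' e'
          rw [shiftMapF_up, shiftMapF_up, hD.g_f, map_zero]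
  surj n := by
    rintro ⟨c, e⟩
    obtain ⟨c', hc'⟩ := hC.surj n c
    cases n with
    | zero => exact ⟨(c', e), Prod.ext hc' (shiftX_zero_eq D'' _ _)⟩
    | succ n =>
      obtain ⟨y, rfl⟩ := exists_shiftUp D'' e
      obtain ⟨e', he'⟩ := hD.surj n y
      exact ⟨(c', shiftUp D n e'), Prod.ext hc' (by
        show shiftMapF g₁ (n + 1) (shiftUp D n e') = _
        rw [shiftMapF_up, he'])⟩

/-! ### Products -/

/-- product of a family of complexes -/
abbrev pi {ι : Type} (D : ι → Cx k) : Cx k where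
  X n := ∀ i, (D i).X n
  d n := LinearMap.pi fun i => (D i).d n ∘ₗ LinearMap.proj i
  d_d n x := funext fun i => (D i).d_d n (x i)

/-- projection from the product -/
def piProj {ι : Type} (D : ι → Cx k) (i : ι) : Hom (pi D) (D i) where
  f _ := LinearMap.proj i
  comm _ _ := rfl

/-- map into the product -/
def piLift {ι : Type} {C : Cx k} (D : ι → Cx k) (φ : ∀ i, Hom C (D i)) : Hom C (pi D) where
  f n := LinearMap.pi fun i => (φ i).f n
  comm n x := funext fun i => (φ i).comm n x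

/-- product of morphisms -/
def piMap {ι : Type} {D D' : ι → Cx k} (φ : ∀ i, Hom (D i) (D' i)) : Hom (pi D) (pi D') where
  f n := LinearMap.pi fun i => (φ i).f n ∘ₗ LinearMap.proj i
  comm n x := funext fun i => (φ i).comm n (x i)

/-- the comparison `H^n(∏ D_i) → ∏ H^n(D_i)` -/
def piH {ι : Type} (D : ι → Cx k) (n : ℕ) : (pi D).H n →ₗ[k] ∀ i, (D i).H n :=
  LinearMap.pi fun i => (piProj D i).mapH n

lemma piH_cls {ι : Type} (D : ι → Cx k) (n : ℕ) (x : (pi D).X n) (hx : (pi D).d n x = 0)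
    (i : ι) : piH D n ((pi D).cls n x hx) i = (D i).cls n (x i) (congrFun hx i) := rfl

lemma piH_bijective {ι : Type} (D : ι → Cx k) (n : ℕ) : Function.Bijective (piH D n) := by
  constructor
  · rw [injective_iff_map_eq_zero]
    intro x hx
    obtain ⟨z, hz, rfl⟩ := (pi D).exists_cls x
    rw [cls_eq_zero_iff]
    have h : ∀ i, z i ∈ (D i).B n := fun i => by
      have := congrFun hx i
      rw [piH_cls] at this
      exact ((D i).cls_eq_zero_iff _ _).1 this
    cases n with
    | zero =>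
      rw [mem_B_zero]
      funext i
      exact ((D i).mem_B_zero).1 (h i)
    | succ n =>
      choose y hy using fun i => ((D i).mem_B_succ).1 (h i)
      exact ⟨y, funext hy⟩
  · intro y
    choose z hz hzy using fun i => (D i).exists_cls (y i)
    exact ⟨(pi D).cls n z (funext hz), funext fun i => by rw [piH_cls, hzy]⟩

lemma shortExact_piMap {ι : Type} {D' D D'' : ι → Cx k} (f : ∀ i, Hom (D' i) (D i))
    (g : ∀ i, Hom (D i) (D'' i)) (h : ∀ i, ShortExact (f i) (g i)) :
    ShortExact (piMap f) (piMap g) where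
  inj n := by
    intro x y hxy
    funext i
    exact (h i).inj n (congrFun hxy i)
  exact n := by
    intro x
    constructor
    · intro hx
      choose y hy using fun i => (h i).exists_of_g_eq_zero (congrFun hx i)
      exact ⟨y, funext hy⟩
    · rintro ⟨y, rfl⟩
      funext i
      exact (h i).g_f n (y i)
  surj n := by
    intro x
    choose y hy using fun i => (h i).surj n (x i)
    exact ⟨y, funext hy⟩

end Cx

end Fermat.Agent.PT
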