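/-
PT layer F1: level cochains.  A `LevelSys Γ` is a downward directed nonempty family of normal
finite-index subgroups ("levels") of a group `Γ`.  A cochain `(Fin n → Γ) → M` is a level
cochain if it is constant modulo some level in each variable.  For a smooth representation
(every vector fixed by a level) the level cochains form a subcomplex of the inhomogeneous
cochain complex; `LevelSys.cx` is that complex (an `ℕ`-indexed `Cx k`), functorial in the
coefficients (`LevelSys.mapCoeff`, exact: `LevelSys.shortExact_mapCoeff`) and contravariant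
in the leveled group (`LevelSys.res`).
-/
import Fermat.Agent.PT.Coh.Cx

set_option autoImplicit false

namespace Fermat.Agent.PT

/-- A system of levels on a group: a nonempty downward directed family of normal subgroups of
finite index. -/
structure LevelSys (Γ : Type) [Group Γ] where
  /-- the levels -/
  lev : Set (Subgroup Γ)
  nonempty : lev.Nonempty
  inter : ∀ N₁ ∈ lev, ∀ N₂ ∈ lev, ∃ N₃ ∈ lev, N₃ ≤ N₁ ⊓ N₂
  normal : ∀ N ∈ lev, N.Normal
  finiteIndex : ∀ N ∈ lev, N.FiniteIndex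

/-- The inhomogeneous differential, as a plain linear map (same formula as Mathlib's
`inhomogeneousCochains.d`). -/
def dLin {k : Type} [CommRing k] {Γ : Type} [Group Γ] {M : Type} [AddCommGroup M] [Module k M]
    (ρ : Representation k Γ M) (n : ℕ) :
    ((Fin n → Γ) → M) →ₗ[k] ((Fin (n + 1) → Γ) → M) where
  toFun f g := ρ (g 0) (f fun i => g i.succ) +
    ∑ j : Fin (n + 1), (-1 : k) ^ ((j : ℕ) + 1) • f (Fin.contractNth j (· * ·) g)
  map_add' f g := by
    ext
    simp [Finset.sum_add_distrib, add_add_add_comm]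
  map_smul' r f := by
    ext
    simp [Finset.smul_sum, ← smul_assoc, mul_comm r]

section dLin

variable {k : Type} [CommRing k] {Γ : Type} [Group Γ] {M : Type} [AddCommGroup M] [Module k M]

lemma dLin_apply (ρ : Representation k Γ M) (n : ℕ) (f : (Fin n → Γ) → M)
    (g : Fin (n + 1) → Γ) :
    dLin ρ n f g = ρ (g 0) (f fun i => g i.succ) +
      ∑ j : Fin (n + 1), (-1 : k) ^ ((j : ℕ) + 1) • f (Fin.contractNth j (· * ·) g) := rfl

lemma dLin_eq_mathlib (ρ : Representation k Γ M) (n : ℕ) :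
    dLin ρ n = (inhomogeneousCochains.d (Rep.of ρ) n).hom := rfl

lemma dLin_dLin (ρ : Representation k Γ M) (n : ℕ) (f : (Fin n → Γ) → M) :
    dLin ρ (n + 1) (dLin ρ n f) = 0 := by
  have h := (groupCohomology.inhomogeneousCochains (Rep.of ρ)).d_comp_d n (n + 1) (n + 2)
  rw [groupCohomology.inhomogeneousCochains.d_def,
    groupCohomology.inhomogeneousCochains.d_def] at h
  exact congrArg (fun φ => φ.hom f) h

end dLin

namespace LevelSys

variable {Γ : Type} [Group Γ] (L : LevelSys Γ)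

/-- `f` is constant modulo some level, in each variable. -/
def IsLevelConst {n : ℕ} {X : Type} (f : (Fin n → Γ) → X) : Prop :=
  ∃ N ∈ L.lev, ∀ g g' : Fin n → Γ, (∀ i, (g i)⁻¹ * g' i ∈ N) → f g = f g'

variable {L}

lemma IsLevelConst.exists_le {n : ℕ} {X : Type} {f : (Fin n → Γ) → X} (hf : L.IsLevelConst f)
    {N₀ : Subgroup Γ} (hN₀ : N₀ ∈ L.lev) :
    ∃ N ∈ L.lev, N ≤ N₀ ∧ ∀ g g' : Fin n → Γ, (∀ i, (g i)⁻¹ * g' i ∈ N) → f g = f g' := by
  obtain ⟨N₁, hN₁, h⟩ := hf
  obtain ⟨N, hN, hle⟩ := L.inter N₀ hN₀ N₁ hN₁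
  exact ⟨N, hN, hle.trans inf_le_left, fun g g' hgg' => h g g' fun i => (hle (hgg' i)).2⟩

lemma isLevelConst_const {n : ℕ} {X : Type} (x : X) :
    L.IsLevelConst (fun _ : Fin n → Γ => x) := by
  obtain ⟨N, hN⟩ := L.nonempty
  exact ⟨N, hN, fun _ _ _ => rfl⟩

lemma IsLevelConst.comp {n : ℕ} {X Y : Type} {f : (Fin n → Γ) → X} (hf : L.IsLevelConst f)
    (φ : X → Y) : L.IsLevelConst (φ ∘ f) := by
  obtain ⟨N, hN, h⟩ := hf
  exact ⟨N, hN, fun g g' hgg' => congrArg φ (h g g' hgg')⟩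

lemma IsLevelConst.map₂ {n : ℕ} {X Y W : Type} {f : (Fin n → Γ) → X} {f' : (Fin n → Γ) → Y}
    (hf : L.IsLevelConst f) (hf' : L.IsLevelConst f') (φ : X → Y → W) :
    L.IsLevelConst (fun g => φ (f g) (f' g)) := by
  obtain ⟨N₁, hN₁, h₁⟩ := hf
  obtain ⟨N, hN, hle, h₂⟩ := hf'.exists_le hN₁
  refine ⟨N, hN, fun g g' hgg' => ?_⟩
  show φ (f g) (f' g) = φ (f g') (f' g')
  rw [h₁ g g' fun i => hle (hgg' i), h₂ g g' hgg']

/-- A level cochain takes only finitely many values. -/
lemma IsLevelConst.finite_range {n : ℕ} {X : Type} {f : (Fin n → Γ) → X}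
    (hf : L.IsLevelConst f) : (Set.range f).Finite := by
  obtain ⟨N, hN, h⟩ := hf
  have := L.finiteIndex N hN
  have : Finite (Γ ⧸ N) := Subgroup.finite_quotient_of_finiteIndex
  have hsub : Set.range f ⊆ Set.range (fun q : Fin n → Γ ⧸ N => f fun i => (q i).out) := by
    rintro _ ⟨g, rfl⟩
    refine ⟨fun i => (g i : Γ ⧸ N), ?_⟩
    refine h _ _ fun i => ?_
    have : ((((g i : Γ ⧸ N)).out : Γ) : Γ ⧸ N) = (g i : Γ ⧸ N) := QuotientGroup.out_eq' _
    exact QuotientGroup.eq.1 this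
  exact (Set.finite_range _).subset hsub

variable (L)

/-- The submodule of level cochains. -/
def cochains (k : Type) [CommRing k] (M : Type) [AddCommGroup M] [Module k M] (n : ℕ) :
    Submodule k ((Fin n → Γ) → M) where
  carrier := {f | L.IsLevelConst f}
  add_mem' hf hf' := hf.map₂ hf' (· + ·)
  zero_mem' := isLevelConst_const (0 : M)
  smul_mem' c _ hf := hf.comp (c • ·)

lemma mem_cochains {k : Type} [CommRing k] {M : Type} [AddCommGroup M] [Module k M] {n : ℕ}
    {f : (Fin n → Γ) → M} : f ∈ L.cochains k M n ↔ L.IsLevelConst f := Iff.rfl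

variable {k : Type} [CommRing k] {M : Type} [AddCommGroup M] [Module k M]

/-- A representation is smooth if every vector is fixed by some level. -/
def IsSmooth (ρ : Representation k Γ M) : Prop := ∀ m : M, ∃ N ∈ L.lev, ∀ s ∈ N, ρ s m = m

variable {L}

/-- finitely many vectors of a smooth representation are fixed by a common level -/
lemma IsSmooth.exists_level {ρ : Representation k Γ M} (hρ : L.IsSmooth ρ) {s : Set M}
    (hs : s.Finite) : ∃ N ∈ L.lev, ∀ m ∈ s, ∀ t ∈ N, ρ t m = m := by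
  induction s, hs using Set.Finite.induction_on with
  | empty =>
    obtain ⟨N, hN⟩ := L.nonempty
    exact ⟨N, hN, fun m hm => (Set.notMem_empty m hm).elim⟩
  | @insert a s _ _ ih =>
    obtain ⟨N₁, hN₁, h₁⟩ := ih
    obtain ⟨N₂, hN₂, h₂⟩ := hρ a
    obtain ⟨N, hN, hle⟩ := L.inter N₁ hN₁ N₂ hN₂
    refine ⟨N, hN, fun m hm t ht => ?_⟩
    rcases Set.mem_insert_iff.1 hm with rfl | hm
    · exact h₂ t (hle ht).2
    · exact h₁ m hm t (hle ht).1

/-- The differential preserves level cochains of a smooth representation. -/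
lemma dLin_mem_cochains {ρ : Representation k Γ M} (hρ : L.IsSmooth ρ) {n : ℕ}
    {f : (Fin n → Γ) → M} (hf : f ∈ L.cochains k M n) : dLin ρ n f ∈ L.cochains k M (n + 1) := by
  obtain ⟨N₁, hN₁, hfix⟩ := hρ.exists_level (IsLevelConst.finite_range hf)
  obtain ⟨N, hN, hle, h⟩ := IsLevelConst.exists_le hf hN₁
  have := L.normal N hN
  refine ⟨N, hN, fun g g' hgg' => ?_⟩
  rw [dLin_apply, dLin_apply]
  have e1 : f (fun i => g i.succ) = f (fun i => g' i.succ) := h _ _ fun i => hgg' i.succ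
  have e2 : ρ (g' 0) (f fun i => g' i.succ) = ρ (g 0) (f fun i => g' i.succ) := by
    have : g' 0 = g 0 * ((g 0)⁻¹ * g' 0) := by group
    rw [this, map_mul, Module.End.mul_apply, hfix _ ⟨_, rfl⟩ _ (hle (hgg' 0))]
  rw [e1, e2]
  congr 1
  refine Finset.sum_congr rfl fun j _ => ?_
  congr 1
  refine h _ _ fun i => ?_
  have hπ : ∀ a b : Γ, ((a * b : Γ) : Γ ⧸ N) = (a : Γ ⧸ N) * (b : Γ ⧸ N) := fun _ _ => rfl
  have hc := Fin.comp_contractNth (f := fun a : Γ => (a : Γ ⧸ N)) (· * ·) (· * ·) hπ j g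
  have hc' := Fin.comp_contractNth (f := fun a : Γ => (a : Γ ⧸ N)) (· * ·) (· * ·) hπ j g'
  have hgg'' : (fun a : Γ => (a : Γ ⧸ N)) ∘ g = (fun a : Γ => (a : Γ ⧸ N)) ∘ g' := by
    funext i
    exact QuotientGroup.eq.2 (hgg' i)
  rw [hgg'', ← hc'] at hc
  exact QuotientGroup.eq.1 (congrFun hc i)

variable (L)

/-- The complex of level cochains of a smooth representation. -/
abbrev cx (ρ : Representation k Γ M) (hρ : L.IsSmooth ρ) : Cx k where
  X n := L.cochains k M n
  d n := (dLin ρ n).restrict fun _ hf => dLin_mem_cochains hρ hf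
  d_d n f := Subtype.ext (dLin_dLin ρ n f.1)

@[simp] lemma cx_d_coe (ρ : Representation k Γ M) (hρ : L.IsSmooth ρ) (n : ℕ)
    (f : (L.cx ρ hρ).X n) : ((L.cx ρ hρ).d n f).1 = dLin ρ n f.1 := rfl

lemma cx_d_apply (ρ : Representation k Γ M) (hρ : L.IsSmooth ρ) (n : ℕ)
    (f : (L.cx ρ hρ).X n) (g : Fin (n + 1) → Γ) :
    ((L.cx ρ hρ).d n f).1 g = ρ (g 0) (f.1 fun i => g i.succ) +
      ∑ j : Fin (n + 1), (-1 : k) ^ ((j : ℕ) + 1) • f.1 (Fin.contractNth j (· * ·) g) := rfl

lemma cx_ext (ρ : Representation k Γ M) (hρ : L.IsSmooth ρ) {n : ℕ}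
    {f f' : (L.cx ρ hρ).X n} (h : ∀ g, f.1 g = f'.1 g) : f = f' :=
  Subtype.ext (funext h)

/-! ### Functoriality in the coefficients -/

variable {M' M'' : Type} [AddCommGroup M'] [Module k M'] [AddCommGroup M''] [Module k M'']

lemma dLin_comp_coeff {ρ : Representation k Γ M} {ρ' : Representation k Γ M'} (φ : M →ₗ[k] M')
    (hφ : ∀ g m, φ (ρ g m) = ρ' g (φ m)) (n : ℕ) (f : (Fin n → Γ) → M) :
    dLin ρ' n (φ ∘ f) = φ ∘ dLin ρ n f := by
  funext g
  simp [dLin_apply, hφ, map_sum]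

/-- The map of level cochain complexes induced by an equivariant linear map. -/
def mapCoeff {ρ : Representation k Γ M} {ρ' : Representation k Γ M'} (hρ : L.IsSmooth ρ)
    (hρ' : L.IsSmooth ρ') (φ : M →ₗ[k] M') (hφ : ∀ g m, φ (ρ g m) = ρ' g (φ m)) :
    Cx.Hom (L.cx ρ hρ) (L.cx ρ' hρ') where
  f n := (φ.compLeft (Fin n → Γ)).restrict fun _ hf => IsLevelConst.comp hf φ
  comm n f := Subtype.ext (dLin_comp_coeff φ hφ n f.1).symm

@[simp] lemma mapCoeff_apply {ρ : Representation k Γ M} {ρ' : Representation k Γ M'}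
    (hρ : L.IsSmooth ρ) (hρ' : L.IsSmooth ρ') (φ : M →ₗ[k] M')
    (hφ : ∀ g m, φ (ρ g m) = ρ' g (φ m)) (n : ℕ) (f : (L.cx ρ hρ).X n) (g : Fin n → Γ) :
    ((L.mapCoeff hρ hρ' φ hφ).f n f).1 g = φ (f.1 g) := rfl

/-- A short exact sequence of smooth representations gives a short exact sequence of level
cochain complexes. -/
lemma shortExact_mapCoeff {ρ : Representation k Γ M} {ρ' : Representation k Γ M'}
    {ρ'' : Representation k Γ M''} (hρ' : L.IsSmooth ρ') (hρ : L.IsSmooth ρ)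
    (hρ'' : L.IsSmooth ρ'') (ι : M' →ₗ[k] M) (π : M →ₗ[k] M'')
    (hι : ∀ g m, ι (ρ' g m) = ρ g (ι m)) (hπ : ∀ g m, π (ρ g m) = ρ'' g (π m))
    (hinj : Function.Injective ι) (hex : Function.Exact ι π) (hsurj : Function.Surjective π) :
    Cx.ShortExact (L.mapCoeff hρ' hρ ι hι) (L.mapCoeff hρ hρ'' π hπ) where
  inj n := by
    intro f f' h
    apply Subtype.ext
    funext g
    apply hinj
    exact congrFun (congrArg Subtype.val h) g
  exact n := by
    intro f
    constructor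
    · intro hf
      have hf' : ∀ g, π (f.1 g) = 0 := fun g => congrFun (congrArg Subtype.val hf) g
      have hex' : ∀ g, ∃ m', ι m' = f.1 g := fun g => (hex _).1 (hf' g)
      choose f' hf'' using hex'
      refine ⟨⟨f', ?_⟩, Subtype.ext (funext hf'')⟩
      obtain ⟨N, hN, h⟩ := f.2
      exact ⟨N, hN, fun g g' hgg' => hinj (by rw [hf'', hf'', h g g' hgg'])⟩
    · rintro ⟨f', rfl⟩
      apply Subtype.ext
      funext g
      exact hex.apply_apply_eq_zero _
  surj n := by
    intro f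
    refine ⟨⟨fun g => Function.surjInv hsurj (f.1 g),
      IsLevelConst.comp (f := f.1) f.2 (Function.surjInv hsurj)⟩, ?_⟩
    apply Subtype.ext
    funext g
    exact Function.surjInv_eq hsurj _

/-! ### Restriction along a continuous homomorphism -/

variable {Γ' : Type} [Group Γ'] (L' : LevelSys Γ')

/-- `r : Γ' →* Γ` is continuous for the level systems. -/
def IsCts (r : Γ' →* Γ) : Prop := ∀ N ∈ L.lev, ∃ N' ∈ L'.lev, N' ≤ N.comap r

variable {L L'}

lemma IsCts.isSmooth {r : Γ' →* Γ} (hr : L.IsCts L' r) {ρ : Representation k Γ M}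
    (hρ : L.IsSmooth ρ) : L'.IsSmooth (ρ.comp r) := by
  intro m
  obtain ⟨N, hN, h⟩ := hρ m
  obtain ⟨N', hN', hle⟩ := hr N hN
  exact ⟨N', hN', fun s hs => h (r s) (hle hs)⟩

lemma IsCts.isLevelConst {r : Γ' →* Γ} (hr : L.IsCts L' r) {n : ℕ} {X : Type}
    {f : (Fin n → Γ) → X} (hf : L.IsLevelConst f) :
    L'.IsLevelConst (fun g : Fin n → Γ' => f (r ∘ g)) := by
  obtain ⟨N, hN, h⟩ := hf
  obtain ⟨N', hN', hle⟩ := hr N hN
  refine ⟨N', hN', fun g g' hgg' => h _ _ fun i => ?_⟩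
  have := hle (hgg' i)
  simpa [Subgroup.mem_comap, map_mul, map_inv] using this

lemma dLin_comp_hom (r : Γ' →* Γ) (ρ : Representation k Γ M) (n : ℕ) (f : (Fin n → Γ) → M) :
    dLin (ρ.comp r) n (fun g => f (r ∘ g)) = fun g => dLin ρ n f (r ∘ g) := by
  funext g
  simp only [dLin_apply, MonoidHom.comp_apply, Function.comp_apply]
  congr 1
  refine Finset.sum_congr rfl fun j _ => ?_
  congr 2
  exact Fin.comp_contractNth (· * ·) (· * ·) (fun a b => map_mul r a b) j g

variable (L L')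

/-- Restriction (pull-back) of level cochains along a continuous homomorphism. -/
def res {r : Γ' →* Γ} (hr : L.IsCts L' r) (ρ : Representation k Γ M) (hρ : L.IsSmooth ρ)
    (hρ' : L'.IsSmooth (ρ.comp r)) : Cx.Hom (L.cx ρ hρ) (L'.cx (ρ.comp r) hρ') where
  f _ :=
    { toFun := fun f => ⟨fun g => f.1 (r ∘ g), hr.isLevelConst f.2⟩
      map_add' := fun _ _ => rfl
      map_smul' := fun _ _ => rfl }
  comm n f := Subtype.ext (dLin_comp_hom r ρ n f.1).symm

@[simp] lemma res_apply {r : Γ' →* Γ} (hr : L.IsCts L' r) (ρ : Representation k Γ M)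
    (hρ : L.IsSmooth ρ) (hρ' : L'.IsSmooth (ρ.comp r)) (n : ℕ) (f : (L.cx ρ hρ).X n)
    (g : Fin n → Γ') :
    ((L.res L' hr ρ hρ hρ').f n f).1 g = f.1 (r ∘ g) := rfl

end LevelSys

end Fermat.Agent.PT
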