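/-
PT layer F (setup): the abstract Poitou–Tate datum.  A group `G` with a level system `L`, a
finite family of subgroups `D v` ("decomposition groups") with their own, finer, level systems.
For a smooth representation `(M, ρ)` of `G` we get the global level complex `C(M)`, the local
complexes `C_v(M)`, the localisation map `loc : C(M) ⟶ ∏_v C_v(M)` and the compactly supported
complex `C_c(M) := cocone loc`; all three are functorial and exact in `M`.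
Also: the induced level system on a subgroup.
-/
import Fermat.Agent.PT.Coh.LevelCx
import Fermat.Agent.PT.Coh.Cone

set_option autoImplicit false

namespace Fermat.Agent.PT

namespace LevelSys

variable {Γ : Type} [Group Γ]

/-- The induced level system on a subgroup `U` (levels `N ∩ U`). -/
def sub (L : LevelSys Γ) (U : Subgroup Γ) : LevelSys U where
  lev := {N' | ∃ N ∈ L.lev, N' = N.subgroupOf U}
  nonempty := by
    obtain ⟨N, hN⟩ := L.nonempty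
    exact ⟨N.subgroupOf U, N, hN, rfl⟩
  inter := by
    rintro _ ⟨N₁, hN₁, rfl⟩ _ ⟨N₂, hN₂, rfl⟩
    obtain ⟨N₃, hN₃, hle⟩ := L.inter N₁ hN₁ N₂ hN₂
    refine ⟨N₃.subgroupOf U, ⟨N₃, hN₃, rfl⟩, ?_⟩
    intro x hx
    exact ⟨(hle hx).1, (hle hx).2⟩
  normal := by
    rintro _ ⟨N, hN, rfl⟩
    have := L.normal N hN
    infer_instance
  finiteIndex := by
    rintro _ ⟨N, hN, rfl⟩
    have := L.finiteIndex N hN
    infer_instance

lemma mem_sub_lev {L : LevelSys Γ} {U : Subgroup Γ} {N : Subgroup Γ} (hN : N ∈ L.lev) :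
    N.subgroupOf U ∈ (L.sub U).lev := ⟨N, hN, rfl⟩

/-- The inclusion of a subgroup is continuous for the induced level system. -/
lemma isCts_sub (L : LevelSys Γ) (U : Subgroup Γ) : L.IsCts (L.sub U) U.subtype :=
  fun N hN => ⟨N.subgroupOf U, mem_sub_lev hN, le_rfl⟩

/-- A level system finer than the induced one still makes the inclusion continuous. -/
lemma isCts_of_sub_le (L : LevelSys Γ) (U : Subgroup Γ) (L' : LevelSys U)
    (h : ∀ N ∈ L.lev, ∃ N' ∈ L'.lev, N' ≤ N.subgroupOf U) : L.IsCts L' U.subtype := h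

end LevelSys

/-- The abstract Poitou–Tate datum: a leveled group with finitely many leveled subgroups. -/
structure LocDatum (G : Type) [Group G] where
  /-- global levels -/
  L : LevelSys G
  /-- index set of the local places -/
  ι : Type
  [fin : Fintype ι]
  /-- the local (decomposition) subgroups -/
  D : ι → Subgroup G
  /-- local levels -/
  Lv : ∀ v, LevelSys (D v)
  cts : ∀ v, L.IsCts (Lv v) (D v).subtype

namespace LocDatum

attribute [instance] LocDatum.fin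

variable {G : Type} [Group G] (𝔇 : LocDatum G)
variable {k : Type} [CommRing k]
variable {M : Type} [AddCommGroup M] [Module k M]

/-- smoothness for the datum = smoothness for the global levels -/
abbrev IsSmooth (ρ : Representation k G M) : Prop := 𝔇.L.IsSmooth ρ

/-- the restriction of a representation to the local group `D v` -/
abbrev resRep (ρ : Representation k G M) (v : 𝔇.ι) : Representation k (𝔇.D v) M :=
  ρ.comp (𝔇.D v).subtype

lemma isSmooth_resRep {ρ : Representation k G M} (hρ : 𝔇.IsSmooth ρ) (v : 𝔇.ι) :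
    (𝔇.Lv v).IsSmooth (𝔇.resRep ρ v) := (𝔇.cts v).isSmooth hρ

/-- the global level complex -/
abbrev C (ρ : Representation k G M) (hρ : 𝔇.IsSmooth ρ) : Cx k := 𝔇.L.cx ρ hρ

/-- the local level complex at `v` -/
abbrev Cv (ρ : Representation k G M) (hρ : 𝔇.IsSmooth ρ) (v : 𝔇.ι) : Cx k :=
  (𝔇.Lv v).cx (𝔇.resRep ρ v) (𝔇.isSmooth_resRep hρ v)

/-- restriction to the local group at `v` -/
abbrev resv (ρ : Representation k G M) (hρ : 𝔇.IsSmooth ρ) (v : 𝔇.ι) :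
    Cx.Hom (𝔇.C ρ hρ) (𝔇.Cv ρ hρ v) :=
  𝔇.L.res (𝔇.Lv v) (𝔇.cts v) ρ hρ (𝔇.isSmooth_resRep hρ v)

/-- the product of the local complexes -/
abbrev Cloc (ρ : Representation k G M) (hρ : 𝔇.IsSmooth ρ) : Cx k :=
  Cx.pi fun v => 𝔇.Cv ρ hρ v

/-- the localisation map -/
abbrev loc (ρ : Representation k G M) (hρ : 𝔇.IsSmooth ρ) : Cx.Hom (𝔇.C ρ hρ) (𝔇.Cloc ρ hρ) :=
  Cx.piLift _ fun v => 𝔇.resv ρ hρ v

/-- the compactly supported complex `Cone(loc)[-1]` -/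
abbrev Cc (ρ : Representation k G M) (hρ : 𝔇.IsSmooth ρ) : Cx k := Cx.cocone (𝔇.loc ρ hρ)

/-- global cohomology -/
abbrev H (ρ : Representation k G M) (hρ : 𝔇.IsSmooth ρ) (n : ℕ) : Type := (𝔇.C ρ hρ).H n

/-- local cohomology at `v` -/
abbrev Hv (ρ : Representation k G M) (hρ : 𝔇.IsSmooth ρ) (v : 𝔇.ι) (n : ℕ) : Type :=
  (𝔇.Cv ρ hρ v).H n

/-- cohomology with compact support -/
abbrev Hc (ρ : Representation k G M) (hρ : 𝔇.IsSmooth ρ) (n : ℕ) : Type := (𝔇.Cc ρ hρ).H n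

/-! ### Functoriality in the coefficients -/

variable {M' M'' : Type} [AddCommGroup M'] [Module k M'] [AddCommGroup M''] [Module k M'']

/-- global map induced by an equivariant linear map -/
abbrev mapC {ρ : Representation k G M} {ρ' : Representation k G M'} (hρ : 𝔇.IsSmooth ρ)
    (hρ' : 𝔇.IsSmooth ρ') (φ : M →ₗ[k] M') (hφ : ∀ g m, φ (ρ g m) = ρ' g (φ m)) :
    Cx.Hom (𝔇.C ρ hρ) (𝔇.C ρ' hρ') := 𝔇.L.mapCoeff hρ hρ' φ hφ

/-- local map induced by an equivariant linear map -/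
abbrev mapCv {ρ : Representation k G M} {ρ' : Representation k G M'} (hρ : 𝔇.IsSmooth ρ)
    (hρ' : 𝔇.IsSmooth ρ') (φ : M →ₗ[k] M') (hφ : ∀ g m, φ (ρ g m) = ρ' g (φ m)) (v : 𝔇.ι) :
    Cx.Hom (𝔇.Cv ρ hρ v) (𝔇.Cv ρ' hρ' v) :=
  (𝔇.Lv v).mapCoeff (𝔇.isSmooth_resRep hρ v) (𝔇.isSmooth_resRep hρ' v) φ fun g m => hφ g m

/-- map of the products of local complexes -/
abbrev mapCloc {ρ : Representation k G M} {ρ' : Representation k G M'} (hρ : 𝔇.IsSmooth ρ)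
    (hρ' : 𝔇.IsSmooth ρ') (φ : M →ₗ[k] M') (hφ : ∀ g m, φ (ρ g m) = ρ' g (φ m)) :
    Cx.Hom (𝔇.Cloc ρ hρ) (𝔇.Cloc ρ' hρ') :=
  Cx.piMap fun v => 𝔇.mapCv hρ hρ' φ hφ v

lemma loc_mapC {ρ : Representation k G M} {ρ' : Representation k G M'} (hρ : 𝔇.IsSmooth ρ)
    (hρ' : 𝔇.IsSmooth ρ') (φ : M →ₗ[k] M') (hφ : ∀ g m, φ (ρ g m) = ρ' g (φ m)) (n : ℕ)
    (c : (𝔇.C ρ hρ).X n) :
    (𝔇.loc ρ' hρ').f n ((𝔇.mapC hρ hρ' φ hφ).f n c) =
      (𝔇.mapCloc hρ hρ' φ hφ).f n ((𝔇.loc ρ hρ).f n c) := rfl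

/-- map of compactly supported complexes induced by an equivariant linear map -/
abbrev mapCc {ρ : Representation k G M} {ρ' : Representation k G M'} (hρ : 𝔇.IsSmooth ρ)
    (hρ' : 𝔇.IsSmooth ρ') (φ : M →ₗ[k] M') (hφ : ∀ g m, φ (ρ g m) = ρ' g (φ m)) :
    Cx.Hom (𝔇.Cc ρ hρ) (𝔇.Cc ρ' hρ') :=
  Cx.coconeMap (𝔇.loc ρ hρ) (𝔇.loc ρ' hρ') (𝔇.mapC hρ hρ' φ hφ) (𝔇.mapCloc hρ hρ' φ hφ)
    (𝔇.loc_mapC hρ hρ' φ hφ)

section Exact

variable {ρ : Representation k G M} {ρ' : Representation k G M'} {ρ'' : Representation k G M''}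
  (hρ' : 𝔇.IsSmooth ρ') (hρ : 𝔇.IsSmooth ρ) (hρ'' : 𝔇.IsSmooth ρ'')
  (i : M' →ₗ[k] M) (π : M →ₗ[k] M'')
  (hi : ∀ g m, i (ρ' g m) = ρ g (i m)) (hπ : ∀ g m, π (ρ g m) = ρ'' g (π m))

include hi hπ in
/-- exactness of the global complexes -/
lemma shortExact_mapC (hinj : Function.Injective i) (hex : Function.Exact i π)
    (hsurj : Function.Surjective π) :
    Cx.ShortExact (𝔇.mapC hρ' hρ i hi) (𝔇.mapC hρ hρ'' π hπ) :=
  𝔇.L.shortExact_mapCoeff hρ' hρ hρ'' i π hi hπ hinj hex hsurj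

include hi hπ in
/-- exactness of the local complexes -/
lemma shortExact_mapCv (hinj : Function.Injective i) (hex : Function.Exact i π)
    (hsurj : Function.Surjective π) (v : 𝔇.ι) :
    Cx.ShortExact (𝔇.mapCv hρ' hρ i hi v) (𝔇.mapCv hρ hρ'' π hπ v) :=
  (𝔇.Lv v).shortExact_mapCoeff (𝔇.isSmooth_resRep hρ' v) (𝔇.isSmooth_resRep hρ v)
    (𝔇.isSmooth_resRep hρ'' v) i π (fun g m => hi g m) (fun g m => hπ g m) hinj hex hsurj

include hi hπ in
/-- exactness of the products of the local complexes -/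
lemma shortExact_mapCloc (hinj : Function.Injective i) (hex : Function.Exact i π)
    (hsurj : Function.Surjective π) :
    Cx.ShortExact (𝔇.mapCloc hρ' hρ i hi) (𝔇.mapCloc hρ hρ'' π hπ) :=
  Cx.shortExact_piMap _ _ fun v => 𝔇.shortExact_mapCv hρ' hρ hρ'' i π hi hπ hinj hex hsurj v

include hi hπ in
/-- exactness of the compactly supported complexes -/
lemma shortExact_mapCc (hinj : Function.Injective i) (hex : Function.Exact i π)
    (hsurj : Function.Surjective π) :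
    Cx.ShortExact (𝔇.mapCc hρ' hρ i hi) (𝔇.mapCc hρ hρ'' π hπ) :=
  Cx.shortExact_coconeMap _ _ _ _ _ _ _ _ _
    (𝔇.shortExact_mapC hρ' hρ hρ'' i π hi hπ hinj hex hsurj)
    (𝔇.shortExact_mapCloc hρ' hρ hρ'' i π hi hπ hinj hex hsurj)

end Exact

/-! ### The cone sequence `H^{n-1}_loc → H^n_c → H^n → H^n_loc` -/

/-- `∏_v H^n_v(M) → H^{n+1}_c(M)` -/
noncomputable def ιc (ρ : Representation k G M) (hρ : 𝔇.IsSmooth ρ) (n : ℕ) :
    (∀ v, 𝔇.Hv ρ hρ v n) →ₗ[k] 𝔇.Hc ρ hρ (n + 1) :=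
  Cx.coconeι (𝔇.loc ρ hρ) n ∘ₗ
    (LinearEquiv.ofBijective (Cx.piH (fun v => 𝔇.Cv ρ hρ v) n)
      (Cx.piH_bijective _ n)).symm.toLinearMap

/-- `H^n_c(M) → H^n(M)` -/
def πc (ρ : Representation k G M) (hρ : 𝔇.IsSmooth ρ) (n : ℕ) :
    𝔇.Hc ρ hρ n →ₗ[k] 𝔇.H ρ hρ n := Cx.coconeπ (𝔇.loc ρ hρ) n

/-- `H^n(M) → ∏_v H^n_v(M)` -/
def locH (ρ : Representation k G M) (hρ : 𝔇.IsSmooth ρ) (n : ℕ) :
    𝔇.H ρ hρ n →ₗ[k] ∀ v, 𝔇.Hv ρ hρ v n :=
  LinearMap.pi fun v => (𝔇.resv ρ hρ v).mapH n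

lemma locH_eq (ρ : Representation k G M) (hρ : 𝔇.IsSmooth ρ) (n : ℕ) (x : 𝔇.H ρ hρ n) :
    𝔇.locH ρ hρ n x = Cx.piH (fun v => 𝔇.Cv ρ hρ v) n ((𝔇.loc ρ hρ).mapH n x) := by
  obtain ⟨z, rfl⟩ := (𝔇.C ρ hρ).Hπ_surjective n x
  rfl

lemma exact_πc_locH (ρ : Representation k G M) (hρ : 𝔇.IsSmooth ρ) (n : ℕ) :
    Function.Exact (𝔇.πc ρ hρ n) (𝔇.locH ρ hρ n) := by
  intro x
  show _ ↔ x ∈ Set.range (Cx.coconeπ (𝔇.loc ρ hρ) n)
  rw [← Cx.cocone_exact_π_φ (𝔇.loc ρ hρ) n x, locH_eq]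
  constructor
  · intro h
    apply (Cx.piH_bijective (fun v => 𝔇.Cv ρ hρ v) n).1
    rw [h, map_zero]
  · intro h
    rw [h, map_zero]

lemma exact_locH_ιc (ρ : Representation k G M) (hρ : 𝔇.IsSmooth ρ) (n : ℕ) :
    Function.Exact (𝔇.locH ρ hρ n) (𝔇.ιc ρ hρ n) := by
  intro y
  set e := LinearEquiv.ofBijective (Cx.piH (fun v => 𝔇.Cv ρ hρ v) n) (Cx.piH_bijective _ n)
    with he
  have h := Cx.cocone_exact_φ_ι (𝔇.loc ρ hρ) n (e.symm y)
  show Cx.coconeι (𝔇.loc ρ hρ) n (e.symm y) = 0 ↔ _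
  rw [h]
  constructor
  · rintro ⟨x, hx⟩
    refine ⟨x, ?_⟩
    rw [locH_eq, hx]
    exact e.apply_symm_apply y
  · rintro ⟨x, rfl⟩
    refine ⟨x, ?_⟩
    rw [locH_eq]
    exact (e.symm_apply_apply _).symm

lemma exact_ιc_πc (ρ : Representation k G M) (hρ : 𝔇.IsSmooth ρ) (n : ℕ) :
    Function.Exact (𝔇.ιc ρ hρ n) (𝔇.πc ρ hρ (n + 1)) := by
  intro x
  set e := LinearEquiv.ofBijective (Cx.piH (fun v => 𝔇.Cv ρ hρ v) n) (Cx.piH_bijective _ n)
    with he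
  have h := Cx.cocone_exact_ι_π (𝔇.loc ρ hρ) n x
  show Cx.coconeπ (𝔇.loc ρ hρ) (n + 1) x = 0 ↔ _
  rw [h]
  constructor
  · rintro ⟨y, rfl⟩
    exact ⟨e y, by
      show Cx.coconeι (𝔇.loc ρ hρ) n (e.symm (e y)) = _
      rw [e.symm_apply_apply]⟩
  · rintro ⟨y, rfl⟩
    exact ⟨e.symm y, rfl⟩

lemma πc_zero_injective (ρ : Representation k G M) (hρ : 𝔇.IsSmooth ρ) :
    Function.Injective (𝔇.πc ρ hρ 0) := Cx.coconeπ_zero_injective (𝔇.loc ρ hρ)

end LocDatum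

end Fermat.Agent.PT
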