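/-
PT layer F7 (end of the counting criterion): every level cohomology class of positive degree
dies on restriction to a small enough level.

`(Γ, L)` a leveled group, `(M, ρ)` smooth.  A level cochain `f` is constant modulo some level `N`;
its restriction to `N` is then a constant cochain, and a constant cocycle of positive degree is a
coboundary.  Hence `res_N x = 0` for `x ∈ H^{n+1}(Γ; M)` (`exists_level_res_eq_zero`), and if the
restrictions to (a cofinal family of) levels are injective on `H^{n+1}`, then `H^{n+1}(Γ; M) = 0`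
(`H_succ_eq_zero_of_res_injective`).
-/
import Mathlib
import Fermat.Agent.PT.Coh.LevelCx
import Fermat.Agent.PT.Coh.Setup

set_option autoImplicit false

namespace Fermat.Agent.PT

namespace LevelSys

variable {Γ : Type} [Group Γ] (L : LevelSys Γ)
variable {k : Type} [CommRing k] {M : Type} [AddCommGroup M] [Module k M]

/-- The alternating sum of signs occurring in the differential. -/
theorem sum_neg_one_pow_succ (m : ℕ) :
    ∑ j : Fin (m + 1), (-1 : k) ^ ((j : ℕ) + 1) =
      ∑ j : Fin m, (-1 : k) ^ ((j : ℕ) + 1) + (-1 : k) ^ (m + 1) := by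
  rw [Fin.sum_univ_castSucc]
  simp

/-- The restriction of level cohomology to a level `N`. -/
abbrev resLev (ρ : Representation k Γ M) (hρ : L.IsSmooth ρ) (N : Subgroup Γ) :
    Cx.Hom (L.cx ρ hρ) ((L.sub N).cx (ρ.comp N.subtype) ((L.isCts_sub N).isSmooth hρ)) :=
  L.res (L.sub N) (L.isCts_sub N) ρ hρ ((L.isCts_sub N).isSmooth hρ)

/-- The restriction to `N` of a cocycle of positive degree which is constant modulo `N` is a
coboundary. -/
theorem resLev_mem_B_of_const (ρ : Representation k Γ M) (hρ : L.IsSmooth ρ) (N : Subgroup Γ)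
    (n : ℕ) (f : (L.cx ρ hρ).X (n + 1)) (hf : (L.cx ρ hρ).d (n + 1) f = 0)
    (hconst : ∀ g g' : Fin (n + 1) → Γ, (∀ i, (g i)⁻¹ * g' i ∈ N) → f.1 g = f.1 g') :
    (L.resLev ρ hρ N).f (n + 1) f ∈
      ((L.sub N).cx (ρ.comp N.subtype) ((L.isCts_sub N).isSmooth hρ)).B (n + 1) := by
  set C' := (L.sub N).cx (ρ.comp N.subtype) ((L.isCts_sub N).isSmooth hρ) with hC'
  set F := (L.resLev ρ hρ N).f (n + 1) f with hF
  set m₀ : M := f.1 (fun _ => 1) with hm₀
  have hFconst : ∀ g : Fin (n + 1) → N, F.1 g = m₀ := by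
    intro g
    show f.1 (N.subtype ∘ g) = f.1 (fun _ => 1)
    refine hconst _ _ fun i => ?_
    simp only [Function.comp_apply, Subgroup.coe_subtype, mul_one]
    exact N.inv_mem (g i).2
  have hcoc : C'.d (n + 1) F = 0 := by
    rw [hF, ← (L.resLev ρ hρ N).comm, hf, map_zero]
  set s₁ : k := ∑ j : Fin (n + 1), (-1 : k) ^ ((j : ℕ) + 1) with hs₁
  set s₂ : k := ∑ j : Fin (n + 2), (-1 : k) ^ ((j : ℕ) + 1) with hs₂
  have hs : s₂ = s₁ + (-1 : k) ^ (n + 2) := sum_neg_one_pow_succ (n + 1)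
  -- the cocycle condition on the constant cochain
  have hfix : ∀ s : N, ρ (s : Γ) m₀ + s₂ • m₀ = 0 := by
    intro s
    have h1 : (C'.d (n + 1) F).1 (fun _ => s) = 0 := by
      rw [hcoc]
      rfl
    rw [cx_d_apply] at h1
    rw [hFconst, Finset.sum_congr rfl (fun j _ => by rw [hFconst]), ← Finset.sum_smul] at h1
    exact h1
  rw [Cx.mem_B_succ]
  refine ⟨⟨fun _ => ((-1 : k) ^ (n + 1)) • m₀, isLevelConst_const _⟩, ?_⟩
  apply cx_ext
  intro g
  rw [cx_d_apply, hFconst]
  simp only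
  rw [← Finset.sum_smul, ← hs₁, map_smul]
  have h2 : (ρ.comp N.subtype) (g 0) m₀ = -(s₂ • m₀) := by
    have := hfix (g 0)
    exact eq_neg_of_add_eq_zero_left this
  rw [h2, hs]
  have e : ∀ a : k, a • -((s₁ + a * (-1 : k)) • m₀) + s₁ • a • m₀ = (a * a) • m₀ := by
    intro a
    module
  rw [pow_succ (-1 : k) (n + 1), e, ← mul_pow]
  simp

/-- **Every class of positive degree dies on a small enough level**: for `x ∈ H^{n+1}(Γ; M)` and
any level `N₀` there is a level `N ≤ N₀` with `res_N x = 0`. -/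
theorem exists_level_res_eq_zero (ρ : Representation k Γ M) (hρ : L.IsSmooth ρ) (n : ℕ)
    (x : (L.cx ρ hρ).H (n + 1)) {N₀ : Subgroup Γ} (hN₀ : N₀ ∈ L.lev) :
    ∃ N ∈ L.lev, N ≤ N₀ ∧ (L.resLev ρ hρ N).mapH (n + 1) x = 0 := by
  obtain ⟨f, hf, rfl⟩ := (L.cx ρ hρ).exists_cls x
  obtain ⟨N, hN, hle, hconst⟩ := IsLevelConst.exists_le f.2 hN₀
  refine ⟨N, hN, hle, ?_⟩
  rw [Cx.Hom.mapH_cls, Cx.cls_eq_zero_iff]
  exact L.resLev_mem_B_of_const ρ hρ N n f hf hconst

/-- **Vanishing criterion**: if restriction to the levels below some level `N₀` is injective on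
`H^{n+1}`, then `H^{n+1}(Γ; M) = 0`. -/
theorem H_succ_eq_zero_of_res_injective (ρ : Representation k Γ M) (hρ : L.IsSmooth ρ) (n : ℕ)
    {N₀ : Subgroup Γ} (hN₀ : N₀ ∈ L.lev)
    (hinj : ∀ N ∈ L.lev, N ≤ N₀ → Function.Injective ((L.resLev ρ hρ N).mapH (n + 1)))
    (x : (L.cx ρ hρ).H (n + 1)) : x = 0 := by
  obtain ⟨N, hN, hle, hx⟩ := L.exists_level_res_eq_zero ρ hρ n x hN₀
  apply hinj N hN hle
  rw [hx, map_zero]

end LevelSys

end Fermat.Agent.PT
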