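import Fermat.Agent.PT.Coh.Shapiro
import Fermat.Agent.PT.Coh.Setup
import Fermat.Agent.PT.Coh.CountUnip

/-!
# PT layer F5: Shapiro for the permutation modules `k[U\Γ]`, in the `L.sub` / `trivCx` vocabulary

* `subLev_eq_sub : Shapiro.subLev L U = L.sub U` (by `rfl`).
* `permRep k U` : the representation of `Γ` on `coind_U^Γ k = {f : Γ → k | f (u g) = f g}` (right
  translation), `permOne` the constant function `1`, `permRep_smooth`, `finrank_perm = U.index`,
  `finite_perm`.
* `shTriv L U hU : Cx.Hom (L.cx (permRep (ZMod p) U) _) ((L.sub U).trivCx p)` with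
  `shTriv_bijective` (every degree) and
  `shTriv_comp_lineMap : shTriv ∘ mapCoeff (lineMap permOne) = resTriv` (the restriction
  `C^•(Γ; 𝔽_p) ⟶ C^•(U; 𝔽_p)`), hence `resTriv_mapH_eq`.
-/

set_option autoImplicit false

namespace Fermat.Agent.PT.Shapiro

open Fermat.Agent.PT Fermat.Agent.PT.Induced

section

variable {Γ : Type} [Group Γ] (L : LevelSys Γ) (U : Subgroup Γ)

theorem subLev_eq_sub : subLev L U = L.sub U := rfl

section Perm

variable (k : Type) [CommRing k]

/-- The permutation representation `k[U\Γ] = coind_U^Γ k`. -/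
abbrev permRep : Representation k Γ
    (Representation.coindV U.subtype (Representation.trivial k U k)) :=
  Representation.coind U.subtype (Representation.trivial k U k)

/-- The constant function `1`. -/
def permOne : Representation.coindV U.subtype (Representation.trivial k U k) :=
  ⟨fun _ => 1, fun _ _ => rfl⟩

lemma permOne_apply (g : Γ) : (permOne U k).1 g = 1 := rfl

lemma permRep_permOne (g : Γ) : permRep U k g (permOne U k) = permOne U k := rfl

lemma isSmooth_trivial' {Γ' : Type} [Group Γ'] (L' : LevelSys Γ') :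
    L'.IsSmooth (Representation.trivial k Γ' k) := by
  intro m
  obtain ⟨N, hN⟩ := L'.nonempty
  exact ⟨N, hN, fun s _ => rfl⟩

lemma permRep_smooth (hU : ∃ N ∈ L.lev, N ≤ U) :
    L.IsSmooth (M := Representation.coindV U.subtype (Representation.trivial k U k))
      (permRep U k) :=
  coind_smooth L U hU _ (isSmooth_trivial' k (subLev L U))

variable {U k} in
/-- Restriction of a function in `k[U\Γ]` to a right transversal is a linear equivalence. -/
noncomputable def permEquiv {T : Set Γ} (hT : Subgroup.IsComplement (U : Set Γ) T) :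
    Representation.coindV U.subtype (Representation.trivial k U k) ≃ₗ[k] (T → k) where
  toFun x t := x.1 t
  map_add' _ _ := rfl
  map_smul' _ _ := rfl
  invFun y := ⟨fun g => y (hT.equiv g).2, fun u g => by
    have := congrArg (fun q : ↥(U : Set Γ) × ↥T => q.2) (hT.equiv_mul_left u g)
    show y (hT.equiv (U.subtype u * g)).2 = y (hT.equiv g).2
    exact congrArg y this⟩
  left_inv x := by
    apply Subtype.ext
    funext g
    have h1 := hT.equiv_fst_mul_equiv_snd g
    have h2 : x.1 (((hT.equiv g).1 : Γ) * ((hT.equiv g).2 : Γ)) = x.1 ((hT.equiv g).2 : Γ) :=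
      x.2 ⟨((hT.equiv g).1 : Γ), (hT.equiv g).1.2⟩ ((hT.equiv g).2 : Γ)
    show x.1 ((hT.equiv g).2 : Γ) = x.1 g
    rw [h1] at h2
    exact h2.symm
  right_inv y := by
    funext t
    show y (hT.equiv (t : Γ)).2 = y t
    have h1 := hT.equiv_snd_eq_self_of_mem_of_one_mem (g := (t : Γ)) U.one_mem t.2
    rw [h1]

/-- `dim k[U\Γ] = [Γ : U]`. -/
theorem finrank_perm [Nontrivial k] [U.FiniteIndex] :
    Module.finrank k (Representation.coindV U.subtype (Representation.trivial k U k)) =
      U.index := by
  classical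
  obtain ⟨T, hT, -⟩ := Subgroup.exists_isComplement_right U (1 : Γ)
  have hTfin : Finite T := hT.finite_right_iff.mpr inferInstance
  have := Fintype.ofFinite T
  rw [LinearEquiv.finrank_eq (permEquiv hT), Module.finrank_fintype_fun_eq_card,
    ← Nat.card_eq_fintype_card, hT.card_right]

theorem finite_perm [U.FiniteIndex] :
    Module.Finite k (Representation.coindV U.subtype (Representation.trivial k U k)) := by
  classical
  obtain ⟨T, hT, -⟩ := Subgroup.exists_isComplement_right U (1 : Γ)
  have hTfin : Finite T := hT.finite_right_iff.mpr inferInstance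
  exact Module.Finite.equiv (permEquiv hT).symm

end Perm

section Triv

variable (p : ℕ) [Fact p.Prime]

/-- The Shapiro map for the permutation module, with values in `(L.sub U).trivCx p`. -/
def shTriv (hU : ∃ N ∈ L.lev, N ≤ U) :
    Cx.Hom (L.cx (M := Representation.coindV U.subtype (Representation.trivial (ZMod p) U (ZMod p)))
      (permRep U (ZMod p)) (permRep_smooth L U (ZMod p) hU)) ((L.sub U).trivCx p) :=
  sh L U hU (Representation.trivial (ZMod p) U (ZMod p)) (L.sub U).isSmooth_trivial

theorem shTriv_apply (hU : ∃ N ∈ L.lev, N ≤ U) (n : ℕ)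
    (f : (L.cx (M := Representation.coindV U.subtype (Representation.trivial (ZMod p) U (ZMod p)))
      (permRep U (ZMod p)) (permRep_smooth L U (ZMod p) hU)).X n) (u : Fin n → U) :
    ((shTriv L U p hU).f n f).1 u = (f.1 (U.subtype ∘ u)).1 1 := rfl

/-- **Shapiro**: `Hⁿ(Γ; 𝔽_p[U\Γ]) ≅ Hⁿ(U; 𝔽_p)` in every degree. -/
theorem shTriv_bijective (hU : ∃ N ∈ L.lev, N ≤ U) (n : ℕ) :
    Function.Bijective ((shTriv L U p hU).mapH n) :=
  shapiro_bijective L U hU n (ZMod p) (Representation.trivial (ZMod p) U (ZMod p))
    (L.sub U).isSmooth_trivial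

/-- Restriction `C^•(Γ; 𝔽_p) ⟶ C^•(U; 𝔽_p)`. -/
def resTriv : Cx.Hom (L.trivCx p) ((L.sub U).trivCx p) :=
  L.res (L.sub U) (L.isCts_sub U) (Representation.trivial (ZMod p) Γ (ZMod p))
    L.isSmooth_trivial (L.sub U).isSmooth_trivial

theorem resTriv_apply (n : ℕ) (f : (L.trivCx p).X n) (u : Fin n → U) :
    ((resTriv L U p).f n f).1 u = f.1 (U.subtype ∘ u) := rfl

/-- The Shapiro map composed with the inclusion of the line of constants is restriction. -/
theorem shTriv_comp_lineMap (hU : ∃ N ∈ L.lev, N ≤ U) :
    (shTriv L U p hU).comp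
      (L.mapCoeff L.isSmooth_trivial (permRep_smooth L U (ZMod p) hU)
        (LevelSys.lineMap (permOne U (ZMod p)))
        (LevelSys.lineMap_equivariant (permRep U (ZMod p)) (permRep_permOne U (ZMod p)))) =
      resTriv L U p := by
  apply Cx.Hom.ext
  intro n f
  apply Subtype.ext
  funext u
  show (f.1 (U.subtype ∘ u)) • (1 : ZMod p) = f.1 (U.subtype ∘ u)
  rw [smul_eq_mul, mul_one]

/-- On cohomology: restriction to `U` is the Shapiro isomorphism after the map induced by the
constants `𝔽_p → 𝔽_p[U\Γ]`. -/
theorem resTriv_mapH_eq (hU : ∃ N ∈ L.lev, N ≤ U) (n : ℕ) (x : (L.trivCx p).H n) :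
    (resTriv L U p).mapH n x =
      (shTriv L U p hU).mapH n
        ((L.mapCoeff L.isSmooth_trivial (permRep_smooth L U (ZMod p) hU)
          (LevelSys.lineMap (permOne U (ZMod p)))
          (LevelSys.lineMap_equivariant (permRep U (ZMod p))
            (permRep_permOne U (ZMod p)))).mapH n x) := by
  rw [← Cx.Hom.mapH_comp, shTriv_comp_lineMap]

end Triv

end

end Fermat.Agent.PT.Shapiro
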