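/-
PT layer F7 (assembly): cohomological dimension `≤ 2` by counting.

`(Γ, L)` a leveled group, `p` a prime, `U₀ ≤ Γ` a normal open subgroup of index prime to `p`.
Hypothesis `ChiLin L p a b U₀` (`a ≠ 0`): for every open subgroup `V ≤ U₀` the groups
`H^i(V; 𝔽_p)`, `i ≤ 2`, are finite and `a · χ₂(V; 𝔽_p) = b · [Γ : V]`.  Then

* `H3_triv_eq_zero`, `H3_sub_triv_eq_zero` : `H³(U; 𝔽_p) = 0` for every open subgroup `U ≤ Γ`;
* `H3_eq_zero`, `subsingleton_H3` : `H³(Γ; M) = 0` for every finite-dimensional smooth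
  `𝔽_p`-representation `M` of `Γ`;
* `finite_H` : finiteness of `H^n(Γ; M)` from finiteness of `H^n(V; 𝔽_p)`, `V ≤ U₀` open.

Tools (all exported):

* `pullTriv`, `pullTriv_bijective` : isomorphic leveled groups have isomorphic level cohomology;
  `nestHom`, `nestHom_bijective`, `nested_finite`, `nested_chi` : for `W ≤ U ≤ Γ` the leveled
  groups `(W, (L.sub U).sub W)` and `(W.map U.subtype, L.sub _)` have the same cohomology;
* `trLin`, `resTriv_injective_of_not_dvd` : restriction to an open subgroup of index prime to `p`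
  is injective on `H^n(·; 𝔽_p)`;
* `finite_sub_of_pgroup`, `chi_sub_le_of_pgroup`, `resTriv_injective_of_pgroup` (and the relative
  versions `finite_of_pgroup_rel`, `chi_le_of_pgroup_rel` for `V ≤ U ≤ Γ`): finiteness,
  `χ₂(V) ≤ [Γ : V] · χ₂(Γ)`, and Serre's criterion (equality forces `res` to be injective on
  `H³`) for an open subgroup `V` containing a normal subgroup with `p`-group quotient;
* `ChiLin.sub` (heredity), `chiLin_of_mul` (multiplicative form of the hypothesis).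
-/
import Mathlib
import Fermat.Agent.PT.Coh.ShapiroTriv
import Fermat.Agent.PT.Coh.ResLevel
import Fermat.Agent.PT.Devissage

set_option autoImplicit false

namespace Fermat.Agent.PT.CdCount

open CategoryTheory Fermat.Agent.PT Fermat.Agent.PT.Shapiro

/-! ### Transfer of finiteness and Euler characteristics along quasi-isomorphisms -/

section Transfer

variable {k : Type} [Field k] {C D : Cx k}

theorem finite_of_bijective (φ : Cx.Hom C D) {n : ℕ} (h : Function.Bijective (φ.mapH n))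
    [Module.Finite k (C.H n)] : Module.Finite k (D.H n) :=
  Module.Finite.equiv (LinearEquiv.ofBijective (φ.mapH n) h)

theorem finite_of_bijective' (φ : Cx.Hom C D) {n : ℕ} (h : Function.Bijective (φ.mapH n))
    [Module.Finite k (D.H n)] : Module.Finite k (C.H n) :=
  Module.Finite.equiv (LinearEquiv.ofBijective (φ.mapH n) h).symm

theorem chi_eq_of_bijective (φ : Cx.Hom C D) (N : ℕ)
    (h : ∀ n ≤ N, Function.Bijective (φ.mapH n)) : Cx.chi C N = Cx.chi D N := by
  unfold Cx.chi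
  refine Finset.sum_congr rfl fun n hn => ?_
  rw [LinearEquiv.finrank_eq (LinearEquiv.ofBijective (φ.mapH n)
    (h n (Nat.lt_succ_iff.mp (Finset.mem_range.mp hn))))]

end Transfer

variable {p : ℕ} [Fact p.Prime]

/-! ### Isomorphic leveled groups have isomorphic level complexes (trivial coefficients) -/

section Iso

variable {Γ₁ Γ₂ : Type} [Group Γ₁] [Group Γ₂] (L₁ : LevelSys Γ₁) (L₂ : LevelSys Γ₂)

/-- Pull-back of level cochains with trivial coefficients along a continuous homomorphism. -/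
def pullTriv (p : ℕ) [Fact p.Prime] {r : Γ₁ →* Γ₂} (hr : L₂.IsCts L₁ r) :
    Cx.Hom (L₂.trivCx p) (L₁.trivCx p) :=
  L₂.res L₁ hr (Representation.trivial (ZMod p) Γ₂ (ZMod p)) L₂.isSmooth_trivial
    L₁.isSmooth_trivial

theorem pullTriv_apply {r : Γ₁ →* Γ₂} (hr : L₂.IsCts L₁ r) (n : ℕ) (f : (L₂.trivCx p).X n)
    (g : Fin n → Γ₁) : ((pullTriv L₁ L₂ p hr).f n f).1 g = f.1 (r ∘ g) := rfl

theorem pullTriv_bijective (e : Γ₁ ≃* Γ₂) (h₁ : L₂.IsCts L₁ e.toMonoidHom)
    (h₂ : L₁.IsCts L₂ e.symm.toMonoidHom) (n : ℕ) :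
    Function.Bijective ((pullTriv L₁ L₂ p h₁).mapH n) := by
  refine Cx.Hom.mapH_bijective_of_inverse _ (pullTriv L₂ L₁ p h₂) ?_ ?_ n
  · intro m f
    apply Subtype.ext
    funext g
    show f.1 (e.toMonoidHom ∘ (e.symm.toMonoidHom ∘ g)) = f.1 g
    exact congrArg f.1 (funext fun i => e.apply_symm_apply (g i))
  · intro m f
    apply Subtype.ext
    funext g
    show f.1 (e.symm.toMonoidHom ∘ (e.toMonoidHom ∘ g)) = f.1 g
    exact congrArg f.1 (funext fun i => e.symm_apply_apply (g i))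

end Iso


/-! ### Nested subgroups -/

section Nested

variable {Γ : Type} [Group Γ] (L : LevelSys Γ) (U : Subgroup Γ) (W : Subgroup U)

/-- The canonical isomorphism `W ≃ W.map U.subtype` for a subgroup `W` of a subgroup `U`. -/
noncomputable def nestEquiv : W ≃* (W.map U.subtype) :=
  W.equivMapOfInjective U.subtype (Subgroup.subtype_injective U)

theorem nestEquiv_coe (w : W) : ((nestEquiv U W w : W.map U.subtype) : Γ) = ((w : U) : Γ) := rfl

theorem nestEquiv_symm_coe (y : W.map U.subtype) :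
    ((((nestEquiv U W).symm y : W) : U) : Γ) = (y : Γ) := by
  rw [← nestEquiv_coe U W ((nestEquiv U W).symm y), MulEquiv.apply_symm_apply]

theorem nest_isCts :
    (L.sub (W.map U.subtype)).IsCts ((L.sub U).sub W) (nestEquiv U W).toMonoidHom := by
  rintro _ ⟨N, hN, rfl⟩
  refine ⟨(N.subgroupOf U).subgroupOf W, LevelSys.mem_sub_lev (LevelSys.mem_sub_lev hN), ?_⟩
  intro w hw
  rw [Subgroup.mem_subgroupOf, Subgroup.mem_subgroupOf] at hw
  rw [Subgroup.mem_comap, Subgroup.mem_subgroupOf]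
  exact hw

theorem nest_isCts_symm :
    ((L.sub U).sub W).IsCts (L.sub (W.map U.subtype)) (nestEquiv U W).symm.toMonoidHom := by
  rintro _ ⟨_, ⟨N, hN, rfl⟩, rfl⟩
  refine ⟨N.subgroupOf (W.map U.subtype), LevelSys.mem_sub_lev hN, ?_⟩
  intro y hy
  rw [Subgroup.mem_subgroupOf] at hy
  rw [Subgroup.mem_comap, Subgroup.mem_subgroupOf, Subgroup.mem_subgroupOf]
  show ((((nestEquiv U W).symm y : W) : U) : Γ) ∈ N
  rw [nestEquiv_symm_coe]
  exact hy

/-- The comparison map between the level complexes of `W.map U.subtype ≤ Γ` and of `W ≤ U`. -/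
noncomputable def nestHom (p : ℕ) [Fact p.Prime] :
    Cx.Hom ((L.sub (W.map U.subtype)).trivCx p) (((L.sub U).sub W).trivCx p) :=
  pullTriv _ _ p (nest_isCts L U W)

theorem nestHom_bijective (n : ℕ) : Function.Bijective ((nestHom L U W p).mapH n) :=
  pullTriv_bijective _ _ (nestEquiv U W) (nest_isCts L U W) (nest_isCts_symm L U W) n

theorem nested_finite
    (h : ∀ n ≤ 2, Module.Finite (ZMod p) (((L.sub (W.map U.subtype)).trivCx p).H n)) :
    ∀ n ≤ 2, Module.Finite (ZMod p) ((((L.sub U).sub W).trivCx p).H n) := by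
  intro n hn
  have := h n hn
  exact finite_of_bijective (nestHom L U W p) (nestHom_bijective L U W n)

theorem nested_chi :
    Cx.chi (((L.sub U).sub W).trivCx p) 2 = Cx.chi ((L.sub (W.map U.subtype)).trivCx p) 2 :=
  (chi_eq_of_bijective (nestHom L U W p) 2 fun n _ => nestHom_bijective L U W n).symm

end Nested


/-! ### Restriction to a subgroup of index prime to `p` is injective -/

section Trace

variable {Γ : Type} [Group Γ] (L : LevelSys Γ) (P : Subgroup Γ)

/-- The function on `Γ ⧸ P` attached to an element of `𝔽_p[P\Γ]`: `g P ↦ x(g⁻¹)`. -/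
noncomputable def trFun
    (x : Representation.coindV P.subtype (Representation.trivial (ZMod p) P (ZMod p))) :
    Γ ⧸ P → ZMod p :=
  fun q => Quotient.liftOn' q (fun g => x.1 g⁻¹) (by
    intro a b hab
    rw [QuotientGroup.leftRel_apply] at hab
    have h1 := x.2 ⟨a⁻¹ * b, hab⟩ b⁻¹
    have h2 : P.subtype ⟨a⁻¹ * b, hab⟩ * b⁻¹ = a⁻¹ := by simp
    rw [h2] at h1
    exact h1)

theorem trFun_mk
    (x : Representation.coindV P.subtype (Representation.trivial (ZMod p) P (ZMod p))) (g : Γ) :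
    trFun P x (g : Γ ⧸ P) = x.1 g⁻¹ := rfl

variable [P.FiniteIndex]

noncomputable local instance : Fintype (Γ ⧸ P) := Fintype.ofFinite _

/-- The trace `𝔽_p[P\Γ] → 𝔽_p` (sum over the cosets). -/
noncomputable def trLin :
    Representation.coindV P.subtype (Representation.trivial (ZMod p) P (ZMod p)) →ₗ[ZMod p]
      ZMod p where
  toFun x := ∑ q : Γ ⧸ P, trFun P x q
  map_add' x y := by
    rw [← Finset.sum_add_distrib]
    refine Finset.sum_congr rfl fun q _ => ?_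
    induction q using QuotientGroup.induction_on with
    | _ g => rfl
  map_smul' c x := by
    rw [RingHom.id_apply, Finset.smul_sum]
    refine Finset.sum_congr rfl fun q _ => ?_
    induction q using QuotientGroup.induction_on with
    | _ g => rfl

theorem trLin_apply
    (x : Representation.coindV P.subtype (Representation.trivial (ZMod p) P (ZMod p))) :
    trLin P x = ∑ q : Γ ⧸ P, trFun P x q := rfl

theorem trLin_equivariant (g₀ : Γ)
    (x : Representation.coindV P.subtype (Representation.trivial (ZMod p) P (ZMod p))) :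
    trLin P (permRep P (ZMod p) g₀ x) =
      Representation.trivial (ZMod p) Γ (ZMod p) g₀ (trLin P x) := by
  show trLin P (permRep P (ZMod p) g₀ x) = trLin P x
  rw [trLin_apply, trLin_apply,
    ← Equiv.sum_comp (MulAction.toPerm g₀⁻¹ : Γ ⧸ P ≃ Γ ⧸ P) (fun q => trFun P x q)]
  refine Finset.sum_congr rfl fun q _ => ?_
  induction q using QuotientGroup.induction_on with
  | _ g =>
    show trFun P _ (g : Γ ⧸ P) = trFun P x (((g₀⁻¹ * g : Γ) : Γ ⧸ P))
    rw [trFun_mk, trFun_mk, mul_inv_rev, inv_inv]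
    rfl

theorem trLin_permOne : trLin P (permOne P (ZMod p)) = ((P.index : ℕ) : ZMod p) := by
  rw [trLin_apply]
  have h1 : ∀ q : Γ ⧸ P, trFun P (permOne P (ZMod p)) q = 1 := by
    intro q
    induction q using QuotientGroup.induction_on with
    | _ g => rfl
  rw [Finset.sum_congr rfl fun q _ => h1 q, Finset.sum_const, Finset.card_univ,
    ← Nat.card_eq_fintype_card, ← Subgroup.index_eq_card, nsmul_eq_mul, mul_one]

/-- **Restriction to a subgroup of index prime to `p` is injective** on `H^n(·; 𝔽_p)`. -/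
theorem resTriv_injective_of_not_dvd (hP : ∃ N ∈ L.lev, N ≤ P) (hidx : ¬ p ∣ P.index) (n : ℕ) :
    Function.Injective ((resTriv L P p).mapH n) := by
  set lam := L.mapCoeff L.isSmooth_trivial (permRep_smooth L P (ZMod p) hP)
    (LevelSys.lineMap (permOne P (ZMod p)))
    (LevelSys.lineMap_equivariant (permRep P (ZMod p)) (permRep_permOne P (ZMod p))) with hlam
  set tau := L.mapCoeff (permRep_smooth L P (ZMod p) hP) L.isSmooth_trivial (trLin P)
    (fun g m => trLin_equivariant P g m) with htau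
  have hcomp : tau.comp lam = (Cx.Hom.id (L.trivCx p)).smul ((P.index : ℕ) : ZMod p) := by
    apply Cx.Hom.ext
    intro m f
    apply Subtype.ext
    funext g
    show trLin P (f.1 g • permOne P (ZMod p)) = ((P.index : ℕ) : ZMod p) • f.1 g
    rw [map_smul, trLin_permOne, smul_eq_mul, smul_eq_mul, mul_comm]
  have hunit : IsUnit ((P.index : ℕ) : ZMod p) := by
    rw [isUnit_iff_ne_zero, Ne, ZMod.natCast_eq_zero_iff]
    exact hidx
  have hlaminj : Function.Injective (lam.mapH n) := by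
    intro x y hxy
    have h1 := congrArg (tau.mapH n) hxy
    rw [← Cx.Hom.mapH_comp, ← Cx.Hom.mapH_comp, hcomp, Cx.Hom.mapH_smul, Cx.Hom.mapH_smul,
      Cx.Hom.mapH_id, Cx.Hom.mapH_id] at h1
    exact hunit.smul_left_cancel.mp h1
  intro x y hxy
  rw [resTriv_mapH_eq L P p hP, resTriv_mapH_eq L P p hP] at hxy
  exact hlaminj ((shTriv_bijective L P p hP n).1 hxy)

end Trace


/-! ### The counting criterion for an open subgroup with unipotent permutation module -/

section Core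

variable {Γ : Type} [Group Γ] (L : LevelSys Γ)

omit [Fact p.Prime] in
/-- A normal subgroup contained in `V` acts trivially on the permutation module `𝔽_p[V\Γ]`. -/
theorem permRep_eq_one_of_mem (V N₁ : Subgroup Γ) [N₁.Normal] (hN₁V : N₁ ≤ V) {s : Γ}
    (hs : s ∈ N₁) : permRep V (ZMod p) s = 1 := by
  apply LinearMap.ext
  intro x
  apply Subtype.ext
  funext g
  have hmem : g * s * g⁻¹ ∈ N₁ := ‹N₁.Normal›.conj_mem s hs g
  have h1 := x.2 ⟨g * s * g⁻¹, hN₁V hmem⟩ g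
  have h3 : V.subtype ⟨g * s * g⁻¹, hN₁V hmem⟩ * g = g * s := by simp
  rw [h3] at h1
  exact h1

omit [Fact p.Prime] in
/-- The permutation module `𝔽_p[V\Γ]` is unipotent if `V` contains a normal subgroup `N₁` of `Γ`
with `Γ/N₁` a `p`-group. -/
theorem permRep_unip (V N₁ : Subgroup Γ) [N₁.Normal] (hN₁V : N₁ ≤ V)
    (hpow : ∀ g : Γ, ∃ n : ℕ, g ^ p ^ n ∈ N₁) (u : Γ) :
    ∃ n : ℕ, permRep V (ZMod p) u ^ p ^ n = 1 := by
  obtain ⟨n, hn⟩ := hpow u
  exact ⟨n, by rw [← map_pow]; exact permRep_eq_one_of_mem V N₁ hN₁V hn⟩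

theorem permOne_ne_zero (V : Subgroup Γ) : permOne V (ZMod p) ≠ 0 := by
  intro h
  have h1 : (permOne V (ZMod p)).1 1 = 0 := by rw [h]; rfl
  rw [permOne_apply] at h1
  exact one_ne_zero h1

/-- **Finiteness passes to open subgroups with `p`-group "quotient".** -/
theorem finite_sub_of_pgroup (V : Subgroup Γ) (hV : ∃ N ∈ L.lev, N ≤ V) (N₁ : Subgroup Γ)
    [N₁.Normal] (hN₁V : N₁ ≤ V) (hpow : ∀ g : Γ, ∃ n : ℕ, g ^ p ^ n ∈ N₁)
    (hfin : ∀ n ≤ 2, Module.Finite (ZMod p) ((L.trivCx p).H n)) :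
    ∀ n ≤ 2, Module.Finite (ZMod p) (((L.sub V).trivCx p).H n) := by
  obtain ⟨N, hN, hNV⟩ := hV
  have := L.finiteIndex N hN
  have : V.FiniteIndex := Subgroup.finiteIndex_of_le hNV
  have hfinM := finite_perm V (ZMod p)
  intro n hn
  have := L.unip_finite hfin (permRep V (ZMod p)) (permRep_smooth L V (ZMod p) ⟨N, hN, hNV⟩)
    (permRep_unip V N₁ hN₁V hpow) n hn
  exact finite_of_bijective (shTriv L V p ⟨N, hN, hNV⟩) (shTriv_bijective L V p ⟨N, hN, hNV⟩ n)

/-- **Sub-multiplicativity of `χ₂`**: `χ₂(V) ≤ [Γ : V] · χ₂(Γ)` for an open subgroup `V`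
containing a normal subgroup `N₁` of `Γ` with `Γ/N₁` a `p`-group. -/
theorem chi_sub_le_of_pgroup (V : Subgroup Γ) (hV : ∃ N ∈ L.lev, N ≤ V) (N₁ : Subgroup Γ)
    [N₁.Normal] (hN₁V : N₁ ≤ V) (hpow : ∀ g : Γ, ∃ n : ℕ, g ^ p ^ n ∈ N₁)
    (hfin : ∀ n ≤ 2, Module.Finite (ZMod p) ((L.trivCx p).H n)) :
    Cx.chi ((L.sub V).trivCx p) 2 ≤ (V.index : ℤ) * Cx.chi (L.trivCx p) 2 := by
  obtain ⟨N, hN, hNV⟩ := hV
  have := L.finiteIndex N hN
  have : V.FiniteIndex := Subgroup.finiteIndex_of_le hNV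
  have hfinM := finite_perm V (ZMod p)
  have h1 := L.unip_chi_le hfin (permRep V (ZMod p)) (permRep_smooth L V (ZMod p) ⟨N, hN, hNV⟩)
    (permRep_unip V N₁ hN₁V hpow)
  rw [finrank_perm] at h1
  rw [← chi_eq_of_bijective (shTriv L V p ⟨N, hN, hNV⟩) 2
    fun n _ => shTriv_bijective L V p ⟨N, hN, hNV⟩ n]
  exact h1

/-- **Serre's counting criterion, one step.**  `V` an open subgroup of `(Γ, L)` containing a
normal subgroup `N₁` of `Γ` with `Γ/N₁` a `p`-group.  If `H^i(Γ; 𝔽_p)` is finite for `i ≤ 2` and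
`χ₂(V) = [Γ : V] · χ₂(Γ)`, then the restriction `H³(Γ; 𝔽_p) → H³(V; 𝔽_p)` is injective. -/
theorem resTriv_injective_of_pgroup (V : Subgroup Γ) (hV : ∃ N ∈ L.lev, N ≤ V)
    (N₁ : Subgroup Γ) [N₁.Normal] (hN₁V : N₁ ≤ V) (hpow : ∀ g : Γ, ∃ n : ℕ, g ^ p ^ n ∈ N₁)
    (hfin : ∀ n ≤ 2, Module.Finite (ZMod p) ((L.trivCx p).H n))
    (heq : Cx.chi ((L.sub V).trivCx p) 2 = (V.index : ℤ) * Cx.chi (L.trivCx p) 2) :
    Function.Injective ((resTriv L V p).mapH 3) := by
  obtain ⟨N, hN, hNV⟩ := hV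
  have hU : ∃ N' ∈ L.lev, N' ≤ V := ⟨N, hN, hNV⟩
  have := L.finiteIndex N hN
  have : V.FiniteIndex := Subgroup.finiteIndex_of_le hNV
  have hfinM := finite_perm V (ZMod p)
  have heq' : Cx.chi (L.cx (permRep V (ZMod p)) (permRep_smooth L V (ZMod p) hU)) 2 =
      (Module.finrank (ZMod p)
        (Representation.coindV V.subtype (Representation.trivial (ZMod p) V (ZMod p))) : ℤ) *
        Cx.chi (L.trivCx p) 2 := by
    rw [finrank_perm, ← heq]
    exact chi_eq_of_bijective (shTriv L V p hU) 2 fun n _ => shTriv_bijective L V p hU n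
  have hinj := L.unip_mapH_three_injective hfin (permRep V (ZMod p))
    (permRep_smooth L V (ZMod p) hU) (permRep_unip V N₁ hN₁V hpow) (permOne V (ZMod p))
    (permOne_ne_zero V) (permRep_permOne V (ZMod p)) heq'
  intro x y hxy
  rw [resTriv_mapH_eq L V p hU, resTriv_mapH_eq L V p hU] at hxy
  exact hinj ((shTriv_bijective L V p hU 3).1 hxy)

/-! Relative versions, for a pair `V ≤ U` of open subgroups of `Γ`. -/

/-- **Finiteness, relative version**: `V ≤ U` open, `N₁ ≤ V` normal in `U` with `U/N₁` a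
`p`-group; if `H^i(U; 𝔽_p)`, `i ≤ 2`, are finite then so are `H^i(V; 𝔽_p)`. -/
theorem finite_of_pgroup_rel (U V : Subgroup Γ) (hVU : V ≤ U) (hV : ∃ N ∈ L.lev, N ≤ V)
    (N₁ : Subgroup Γ) (hN₁V : N₁ ≤ V) [(N₁.subgroupOf U).Normal]
    (hpow : ∀ g ∈ U, ∃ n : ℕ, g ^ p ^ n ∈ N₁)
    (hfin : ∀ n ≤ 2, Module.Finite (ZMod p) (((L.sub U).trivCx p).H n)) :
    ∀ n ≤ 2, Module.Finite (ZMod p) (((L.sub V).trivCx p).H n) := by
  obtain ⟨N, hN, hNV⟩ := hV
  have h1 := finite_sub_of_pgroup (L.sub U) (V.subgroupOf U)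
    ⟨N.subgroupOf U, LevelSys.mem_sub_lev hN, Subgroup.subgroupOf_mono U hNV⟩
    (N₁.subgroupOf U) (Subgroup.subgroupOf_mono U hN₁V)
    (fun g => by
      obtain ⟨n, hn⟩ := hpow g g.2
      exact ⟨n, by rw [Subgroup.mem_subgroupOf]; exact hn⟩) hfin
  have hV₂ : (V.subgroupOf U).map U.subtype = V := Subgroup.map_subgroupOf_eq_of_le hVU
  intro n hn
  have h2 := h1 n hn
  have h3 := finite_of_bijective' (nestHom L U (V.subgroupOf U) p)
    (nestHom_bijective L U (V.subgroupOf U) n)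
  rw [hV₂] at h3
  exact h3

/-- **Sub-multiplicativity of `χ₂`, relative version**: `χ₂(V) ≤ [U : V] · χ₂(U)`. -/
theorem chi_le_of_pgroup_rel (U V : Subgroup Γ) (hVU : V ≤ U) (hV : ∃ N ∈ L.lev, N ≤ V)
    (N₁ : Subgroup Γ) (hN₁V : N₁ ≤ V) [(N₁.subgroupOf U).Normal]
    (hpow : ∀ g ∈ U, ∃ n : ℕ, g ^ p ^ n ∈ N₁)
    (hfin : ∀ n ≤ 2, Module.Finite (ZMod p) (((L.sub U).trivCx p).H n)) :
    Cx.chi ((L.sub V).trivCx p) 2 ≤ (V.relIndex U : ℤ) * Cx.chi ((L.sub U).trivCx p) 2 := by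
  obtain ⟨N, hN, hNV⟩ := hV
  have h1 := chi_sub_le_of_pgroup (L.sub U) (V.subgroupOf U)
    ⟨N.subgroupOf U, LevelSys.mem_sub_lev hN, Subgroup.subgroupOf_mono U hNV⟩
    (N₁.subgroupOf U) (Subgroup.subgroupOf_mono U hN₁V)
    (fun g => by
      obtain ⟨n, hn⟩ := hpow g g.2
      exact ⟨n, by rw [Subgroup.mem_subgroupOf]; exact hn⟩) hfin
  have hV₂ : (V.subgroupOf U).map U.subtype = V := Subgroup.map_subgroupOf_eq_of_le hVU
  have h3 := nested_chi (p := p) L U (V.subgroupOf U)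
  rw [hV₂] at h3
  rw [← h3]
  exact h1

end Core

/-! ### Vanishing of `H³(·; 𝔽_p)` from the multiplicativity of `χ₂` -/

section Main

variable {Γ : Type} [Group Γ]

/-- The counting hypothesis: for every open subgroup `V ≤ U₀` the groups `H^i(V; 𝔽_p)`, `i ≤ 2`,
are finite and `a · χ₂(V; 𝔽_p) = b · [Γ : V]`. -/
def ChiLin (L : LevelSys Γ) (p : ℕ) [Fact p.Prime] (a b : ℤ) (U₀ : Subgroup Γ) : Prop :=
  ∀ V : Subgroup Γ, V ≤ U₀ → (∃ N ∈ L.lev, N ≤ V) →
    (∀ n ≤ 2, Module.Finite (ZMod p) (((L.sub V).trivCx p).H n)) ∧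
      a * Cx.chi ((L.sub V).trivCx p) 2 = b * (V.index : ℤ)

/-- An element with a `p`-power in the normal subgroup `U₀` of index prime to `p` lies in `U₀`. -/
theorem mem_of_pow_mem (U₀ : Subgroup Γ) [U₀.Normal] [U₀.FiniteIndex] (hidx : ¬ p ∣ U₀.index)
    {g : Γ} {n : ℕ} (hg : g ^ p ^ n ∈ U₀) : g ∈ U₀ := by
  have hp : p.Prime := Fact.out
  have h1 : (g : Γ ⧸ U₀) ^ p ^ n = 1 := by
    rw [← QuotientGroup.mk_pow, QuotientGroup.eq_one_iff]
    exact hg
  have h2 : (g : Γ ⧸ U₀) ^ U₀.index = 1 := by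
    rw [Subgroup.index_eq_card]
    exact pow_card_eq_one'
  have h3 : (g : Γ ⧸ U₀) ^ (p ^ n).gcd U₀.index = 1 := pow_gcd_eq_one.mpr ⟨h1, h2⟩
  have h4 : (p ^ n).gcd U₀.index = 1 :=
    Nat.Coprime.pow_left n ((Nat.Prime.coprime_iff_not_dvd hp).mpr hidx)
  rw [h4, pow_one, QuotientGroup.eq_one_iff] at h3
  exact h3

/-- **`H³(Γ; 𝔽_p) = 0` by counting.** -/
theorem H3_triv_eq_zero (L : LevelSys Γ) {a b : ℤ} (ha : a ≠ 0) (U₀ : Subgroup Γ) [U₀.Normal]
    (hU₀ : ∃ N ∈ L.lev, N ≤ U₀) (hidx : ¬ p ∣ U₀.index) (H : ChiLin L p a b U₀)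
    (x : (L.trivCx p).H 3) : x = 0 := by
  obtain ⟨f, hf, rfl⟩ := (L.trivCx p).exists_cls x
  obtain ⟨N₀, hN₀, hN₀U⟩ := hU₀
  have hU₀fin : U₀.FiniteIndex := by
    have := L.finiteIndex N₀ hN₀
    exact Subgroup.finiteIndex_of_le hN₀U
  obtain ⟨N, hN, hle, hconst⟩ := LevelSys.IsLevelConst.exists_le f.2 hN₀
  have hNn := L.normal N hN
  have hNf := L.finiteIndex N hN
  obtain ⟨P, hNP, hPp, hPfin, hPidx⟩ := Devissage.exists_sylow_subgroup p N
  have hPU₀ : P ≤ U₀ := by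
    intro g hg
    obtain ⟨n, hn⟩ := hPp g hg
    exact mem_of_pow_mem U₀ hidx (hN₀U (hle hn))
  have hPopen : ∃ N' ∈ L.lev, N' ≤ P := ⟨N, hN, hNP⟩
  -- restriction to `P` is injective
  apply resTriv_injective_of_not_dvd L P hPopen hPidx 3
  rw [map_zero]
  -- inside `P`
  have hN' : N.subgroupOf P ∈ (L.sub P).lev := LevelSys.mem_sub_lev hN
  have hpow' : ∀ g : P, ∃ n : ℕ, g ^ p ^ n ∈ N.subgroupOf P := by
    intro g
    obtain ⟨n, hn⟩ := hPp g g.2
    exact ⟨n, by rw [Subgroup.mem_subgroupOf]; exact hn⟩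
  obtain ⟨hfinP, hchiP⟩ := H P hPU₀ hPopen
  have hV₂ : (N.subgroupOf P).map P.subtype = N := Subgroup.map_subgroupOf_eq_of_le hNP
  obtain ⟨-, hchiN⟩ := H ((N.subgroupOf P).map P.subtype)
    (by rw [hV₂]; exact hle.trans hN₀U) ⟨N, hN, by rw [hV₂]⟩
  have heq : Cx.chi (((L.sub P).sub (N.subgroupOf P)).trivCx p) 2 =
      ((N.subgroupOf P).index : ℤ) * Cx.chi ((L.sub P).trivCx p) 2 := by
    rw [nested_chi L P (N.subgroupOf P)]
    apply mul_left_cancel₀ ha
    rw [hchiN, Subgroup.index_map_subtype, mul_left_comm, hchiP]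
    push_cast
    ring
  have hNn' : (N.subgroupOf P).Normal := inferInstance
  apply resTriv_injective_of_pgroup (L.sub P) (N.subgroupOf P) ⟨_, hN', le_rfl⟩
    (N.subgroupOf P) le_rfl hpow' hfinP heq
  rw [map_zero, Cx.Hom.mapH_cls, Cx.Hom.mapH_cls, Cx.cls_eq_zero_iff]
  refine (L.sub P).resLev_mem_B_of_const (Representation.trivial (ZMod p) P (ZMod p))
    (L.sub P).isSmooth_trivial (N.subgroupOf P) 2 ((resTriv L P p).f 3 f) ?_ ?_
  · rw [← (resTriv L P p).comm, hf, map_zero]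
  · intro g g' hgg'
    show f.1 (P.subtype ∘ g) = f.1 (P.subtype ∘ g')
    refine hconst _ _ fun i => ?_
    have := hgg' i
    rw [Subgroup.mem_subgroupOf] at this
    exact this


/-- The counting hypothesis is inherited by open subgroups. -/
theorem ChiLin.sub {L : LevelSys Γ} {a b : ℤ} {U₀ : Subgroup Γ} (H : ChiLin L p a b U₀)
    (U : Subgroup Γ) (hU : ∃ N ∈ L.lev, N ≤ U) :
    ChiLin (L.sub U) p a (b * (U.index : ℤ)) (U₀.subgroupOf U) := by
  intro W hW hWopen
  have hVU₀ : W.map U.subtype ≤ U₀ := by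
    rintro _ ⟨w, hw, rfl⟩
    exact Subgroup.mem_subgroupOf.mp (hW hw)
  have hVopen : ∃ N ∈ L.lev, N ≤ W.map U.subtype := by
    obtain ⟨_, ⟨N₁, hN₁, rfl⟩, hN₁W⟩ := hWopen
    obtain ⟨N₂, hN₂, hN₂U⟩ := hU
    obtain ⟨N₃, hN₃, hle⟩ := L.inter N₁ hN₁ N₂ hN₂
    refine ⟨N₃, hN₃, fun g hg => ?_⟩
    have hgU : g ∈ U := hN₂U (hle hg).2
    exact ⟨⟨g, hgU⟩, hN₁W (Subgroup.mem_subgroupOf.mpr (hle hg).1), rfl⟩
  obtain ⟨hfin, hchi⟩ := H (W.map U.subtype) hVU₀ hVopen
  refine ⟨nested_finite L U W hfin, ?_⟩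
  rw [nested_chi L U W, hchi, Subgroup.index_map_subtype]
  push_cast
  ring

/-- **`H³(U; 𝔽_p) = 0` for every open subgroup `U`, by counting.** -/
theorem H3_sub_triv_eq_zero (L : LevelSys Γ) {a b : ℤ} (ha : a ≠ 0) (U₀ : Subgroup Γ)
    [U₀.Normal] (hU₀ : ∃ N ∈ L.lev, N ≤ U₀) (hidx : ¬ p ∣ U₀.index) (H : ChiLin L p a b U₀)
    (U : Subgroup Γ) (hU : ∃ N ∈ L.lev, N ≤ U) (x : ((L.sub U).trivCx p).H 3) : x = 0 := by
  obtain ⟨N₀, hN₀, hN₀U⟩ := hU₀
  refine H3_triv_eq_zero (L.sub U) ha (U₀.subgroupOf U)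
    ⟨N₀.subgroupOf U, LevelSys.mem_sub_lev hN₀, fun g hg => ?_⟩ ?_ (H.sub U hU) x
  · exact Subgroup.mem_subgroupOf.mpr (hN₀U (Subgroup.mem_subgroupOf.mp hg))
  · intro hdvd
    exact hidx (hdvd.trans (Subgroup.relIndex_dvd_index_of_normal U₀ U))


/-- **Cohomological dimension `≤ 2` by counting**: `H³(Γ; M) = 0` for every finite-dimensional
smooth `𝔽_p`-representation `M` of the leveled group `(Γ, L)`, provided that there are a normal
open subgroup `U₀` of index prime to `p` and integers `a ≠ 0`, `b` such that `H^i(V; 𝔽_p)`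
(`i ≤ 2`) is finite and `a · χ₂(V; 𝔽_p) = b · [Γ : V]` for all open subgroups `V ≤ U₀`. -/
theorem H3_eq_zero (L : LevelSys Γ) {a b : ℤ} (ha : a ≠ 0) (U₀ : Subgroup Γ) [U₀.Normal]
    (hU₀ : ∃ N ∈ L.lev, N ≤ U₀) (hidx : ¬ p ∣ U₀.index) (H : ChiLin L p a b U₀)
    {M : Type} [AddCommGroup M] [Module (ZMod p) M] [Module.Finite (ZMod p) M]
    (ρ : Representation (ZMod p) Γ M) (hρ : L.IsSmooth ρ) (x : (L.cx ρ hρ).H 3) : x = 0 := by
  classical
  have hMfin : Finite M := Module.finite_of_finite (ZMod p)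
  obtain ⟨N, hN, hNfix⟩ := hρ.exists_level (Set.finite_univ (α := M))
  have hNn := L.normal N hN
  have hNf := L.finiteIndex N hN
  have hsm : ∀ A : Rep.{0} (ZMod p) Γ, (∀ n ∈ N, A.ρ n = 1) → L.IsSmooth A.ρ :=
    fun A hA m => ⟨N, hN, fun s hs => by rw [hA s hs]; rfl⟩
  have key : ∀ hA : L.IsSmooth (Rep.of ρ).ρ, ∀ y : (L.cx (Rep.of ρ).ρ hA).H 3, y = 0 := by
    refine Devissage.devissage (p := p) N
      (fun A => ∀ hA : L.IsSmooth A.ρ, ∀ y : (L.cx A.ρ hA).H 3, y = 0) ?_ ?_ ?_ (Rep.of ρ) ?_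
    · -- extensions
      intro A B C f g _ _ _ hAN hBN hCN hf hg hfg hPA hPC hB y
      have hA := hsm A hAN
      have hC := hsm C hCN
      have hse := L.shortExact_mapCoeff hA hB hC f.hom.toLinearMap g.hom.toLinearMap
        (Rep.hom_comm_apply f) (Rep.hom_comm_apply g) hf hfg hg
      obtain ⟨z, rfl⟩ := (hse.exact_f_g 3 y).1 (hPC hC _)
      rw [hPA hA z, map_zero]
    · -- direct summands
      intro A B i r _ _ hAN hBN hir hPB hA y
      have hB := hsm B hBN
      have hcomp : (L.mapCoeff hB hA r.hom.toLinearMap (Rep.hom_comm_apply r)).comp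
          (L.mapCoeff hA hB i.hom.toLinearMap (Rep.hom_comm_apply i)) =
          Cx.Hom.id (L.cx A.ρ hA) := by
        apply Cx.Hom.ext
        intro m f
        apply Subtype.ext
        funext g
        show r.hom (i.hom (f.1 g)) = f.1 g
        have h1 : (i ≫ r).hom (f.1 g) = (𝟙 A : A ⟶ A).hom (f.1 g) := by rw [hir]
        exact h1
      have h2 := Cx.Hom.mapH_comp (L.mapCoeff hB hA r.hom.toLinearMap (Rep.hom_comm_apply r))
        (L.mapCoeff hA hB i.hom.toLinearMap (Rep.hom_comm_apply i)) 3 y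
      rw [hcomp, Cx.Hom.mapH_id,
        hPB hB ((L.mapCoeff hA hB i.hom.toLinearMap (Rep.hom_comm_apply i)).mapH 3 y),
        map_zero] at h2
      exact h2
    · -- base modules
      intro U hNU hUp hUfin hUidx hA y
      have hUopen : ∃ N' ∈ L.lev, N' ≤ U := ⟨N, hN, hNU⟩
      apply (shTriv_bijective L U p hUopen 3).1
      exact (H3_sub_triv_eq_zero L ha U₀ hU₀ hidx H U hUopen _).trans
        (H3_sub_triv_eq_zero L ha U₀ hU₀ hidx H U hUopen _).symm
    · intro n hn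
      apply LinearMap.ext
      intro m
      exact hNfix m (Set.mem_univ m) n hn
  exact key hρ x


/-- `Subsingleton` form of `H3_eq_zero` (the shape of the hypothesis `(cd)` of the engine). -/
theorem subsingleton_H3 (L : LevelSys Γ) {a b : ℤ} (ha : a ≠ 0) (U₀ : Subgroup Γ) [U₀.Normal]
    (hU₀ : ∃ N ∈ L.lev, N ≤ U₀) (hidx : ¬ p ∣ U₀.index) (H : ChiLin L p a b U₀)
    {M : Type} [AddCommGroup M] [Module (ZMod p) M] [Module.Finite (ZMod p) M]
    (ρ : Representation (ZMod p) Γ M) (hρ : L.IsSmooth ρ) : Subsingleton ((L.cx ρ hρ).H 3) :=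
  ⟨fun x y => (H3_eq_zero L ha U₀ hU₀ hidx H ρ hρ x).trans
    (H3_eq_zero L ha U₀ hU₀ hidx H ρ hρ y).symm⟩

/-- **Finiteness by dévissage**: if `H^n(V; 𝔽_p)` is finite for all open subgroups `V ≤ U₀`
(`U₀` normal, open, of index prime to `p`), then `H^n(Γ; M)` is finite for every
finite-dimensional smooth `𝔽_p`-representation `M`. -/
theorem finite_H (L : LevelSys Γ) (U₀ : Subgroup Γ) [U₀.Normal]
    (hU₀ : ∃ N ∈ L.lev, N ≤ U₀) (hidx : ¬ p ∣ U₀.index) (n : ℕ)
    (hfin : ∀ V : Subgroup Γ, V ≤ U₀ → (∃ N ∈ L.lev, N ≤ V) →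
      Module.Finite (ZMod p) (((L.sub V).trivCx p).H n))
    {M : Type} [AddCommGroup M] [Module (ZMod p) M] [Module.Finite (ZMod p) M]
    (ρ : Representation (ZMod p) Γ M) (hρ : L.IsSmooth ρ) :
    Module.Finite (ZMod p) ((L.cx ρ hρ).H n) := by
  classical
  have hMfin : Finite M := Module.finite_of_finite (ZMod p)
  obtain ⟨N₁, hN₁, hNfix⟩ := hρ.exists_level (Set.finite_univ (α := M))
  obtain ⟨N₀, hN₀, hN₀U⟩ := hU₀
  have hU₀fin : U₀.FiniteIndex := by
    have := L.finiteIndex N₀ hN₀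
    exact Subgroup.finiteIndex_of_le hN₀U
  obtain ⟨N, hN, hle⟩ := L.inter N₁ hN₁ N₀ hN₀
  have hNn := L.normal N hN
  have hNf := L.finiteIndex N hN
  have hsm : ∀ A : Rep.{0} (ZMod p) Γ, (∀ n ∈ N, A.ρ n = 1) → L.IsSmooth A.ρ :=
    fun A hA m => ⟨N, hN, fun s hs => by rw [hA s hs]; rfl⟩
  have key : ∀ hA : L.IsSmooth (Rep.of ρ).ρ,
      Module.Finite (ZMod p) ((L.cx (Rep.of ρ).ρ hA).H n) := by
    refine Devissage.devissage (p := p) N
      (fun A => ∀ hA : L.IsSmooth A.ρ, Module.Finite (ZMod p) ((L.cx A.ρ hA).H n))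
      ?_ ?_ ?_ (Rep.of ρ) ?_
    · -- extensions
      intro A B C f g _ _ _ hAN hBN hCN hf hg hfg hPA hPC hB
      have hA := hsm A hAN
      have hC := hsm C hCN
      have hse := L.shortExact_mapCoeff hA hB hC f.hom.toLinearMap g.hom.toLinearMap
        (Rep.hom_comm_apply f) (Rep.hom_comm_apply g) hf hfg hg
      have := hPA hA
      have := hPC hC
      exact hse.finite_mid n
    · -- direct summands
      intro A B i r _ _ hAN hBN hir hPB hA
      have hB := hsm B hBN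
      have hcomp : (L.mapCoeff hB hA r.hom.toLinearMap (Rep.hom_comm_apply r)).comp
          (L.mapCoeff hA hB i.hom.toLinearMap (Rep.hom_comm_apply i)) =
          Cx.Hom.id (L.cx A.ρ hA) := by
        apply Cx.Hom.ext
        intro m f
        apply Subtype.ext
        funext g
        show r.hom (i.hom (f.1 g)) = f.1 g
        have h1 : (i ≫ r).hom (f.1 g) = (𝟙 A : A ⟶ A).hom (f.1 g) := by rw [hir]
        exact h1
      have hinj : Function.Injective
          ((L.mapCoeff hA hB i.hom.toLinearMap (Rep.hom_comm_apply i)).mapH n) := by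
        intro y y' hyy'
        have h2 := congrArg
          ((L.mapCoeff hB hA r.hom.toLinearMap (Rep.hom_comm_apply r)).mapH n) hyy'
        rw [← Cx.Hom.mapH_comp, ← Cx.Hom.mapH_comp, hcomp, Cx.Hom.mapH_id, Cx.Hom.mapH_id] at h2
        exact h2
      have := hPB hB
      exact Module.Finite.of_injective _ hinj
    · -- base modules
      intro U hNU hUp hUfin hUidx hA
      have hUopen : ∃ N' ∈ L.lev, N' ≤ U := ⟨N, hN, hNU⟩
      have hUU₀ : U ≤ U₀ := by
        intro g hg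
        obtain ⟨m, hm⟩ := hUp g hg
        exact mem_of_pow_mem U₀ hidx (hN₀U (hle hm).2)
      have := hfin U hUU₀ hUopen
      exact finite_of_bijective' (shTriv L U p hUopen) (shTriv_bijective L U p hUopen n)
    · intro s hs
      apply LinearMap.ext
      intro m
      exact hNfix m (Set.mem_univ m) s (hle hs).1
  exact key hρ

/-- The multiplicative form of the counting hypothesis implies the linear one:
`χ₂(V) = [U₀ : V] · χ₂(U₀)` for all open `V ≤ U₀` gives `ChiLin L p [Γ : U₀] χ₂(U₀) U₀`. -/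
theorem chiLin_of_mul (L : LevelSys Γ) (U₀ : Subgroup Γ)
    (hfin : ∀ V : Subgroup Γ, V ≤ U₀ → (∃ N ∈ L.lev, N ≤ V) →
      ∀ n ≤ 2, Module.Finite (ZMod p) (((L.sub V).trivCx p).H n))
    (hchi : ∀ V : Subgroup Γ, V ≤ U₀ → (∃ N ∈ L.lev, N ≤ V) →
      Cx.chi ((L.sub V).trivCx p) 2 =
        (V.relIndex U₀ : ℤ) * Cx.chi ((L.sub U₀).trivCx p) 2) :
    ChiLin L p (U₀.index : ℤ) (Cx.chi ((L.sub U₀).trivCx p) 2) U₀ := by
  intro V hV hVopen
  refine ⟨hfin V hV hVopen, ?_⟩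
  rw [hchi V hV hVopen, ← Subgroup.relIndex_mul_index hV]
  push_cast
  ring

end Main

end Fermat.Agent.PT.CdCount
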