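/-
PT layer F4 (concrete part): the cup product of inhomogeneous cochains
`(x ∪ y)(g₁,…,g_{m+n}) = β (x(g₁,…,g_m)) (g₁⋯g_m · y(g_{m+1},…,g_{m+n}))`
for an equivariant bilinear map `β : A → B → C`, in every bidegree, with the Leibniz rule
`d (x ∪ y) = d x ∪ y + (-1)^m • x ∪ d y` (`dLin_cupFun`), preservation of level cochains,
and compatibility with restriction and with maps of coefficients.
-/
import Fermat.Agent.PT.Coh.LevelCx

set_option autoImplicit false

namespace Fermat.Agent.PT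

namespace Cup

section tuples

variable {X : Type}

/-- the first `m` entries of a tuple -/
def tk {N : ℕ} (m : ℕ) (h : m ≤ N) (g : Fin N → X) : Fin m → X :=
  fun i => g ⟨i, lt_of_lt_of_le i.2 h⟩

/-- the entries of a tuple from position `m` on -/
def dp {N : ℕ} (m n : ℕ) (h : m + n = N) (g : Fin N → X) : Fin n → X :=
  fun i => g ⟨m + i, by omega⟩

lemma tk_apply {N : ℕ} (m : ℕ) (h : m ≤ N) (g : Fin N → X) (i : Fin m) :
    tk m h g i = g ⟨i, lt_of_lt_of_le i.2 h⟩ := rfl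

lemma dp_apply {N : ℕ} (m n : ℕ) (h : m + n = N) (g : Fin N → X) (i : Fin n) :
    dp m n h g i = g ⟨m + i, by omega⟩ := rfl

lemma tk_succ {N : ℕ} (m : ℕ) (h : m ≤ N) (g : Fin (N + 1) → X) :
    tk m h (fun i => g i.succ) = fun i => tk (m + 1) (by omega) g i.succ := rfl

lemma dp_succ {N : ℕ} (m n : ℕ) (h : m + n = N) (g : Fin (N + 1) → X) :
    dp m n h (fun i => g i.succ) = dp (m + 1) n (by omega) g := by
  funext i
  simp only [dp]
  congr 1
  ext
  simp only [Fin.val_succ]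
  omega

lemma dp_tail {N : ℕ} (m n : ℕ) (h : m + (n + 1) = N) (g : Fin N → X) :
    (fun i : Fin n => dp m (n + 1) h g i.succ) = dp (m + 1) n (by omega) g := by
  funext i
  simp only [dp]
  congr 1
  ext
  simp only [Fin.val_succ]
  omega

lemma dp_zero {N : ℕ} (m n : ℕ) (h : m + (n + 1) = N) (g : Fin N → X) :
    dp m (n + 1) h g 0 = g ⟨m, by omega⟩ := rfl

lemma tk_contractNth_lt {N : ℕ} (op : X → X → X) (m : ℕ) (h : m ≤ N) (g : Fin (N + 1) → X)
    (j : Fin (N + 1)) (hj : (j : ℕ) < m) :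
    tk m h (Fin.contractNth j op g) =
      Fin.contractNth ⟨j, by omega⟩ op (tk (m + 1) (by omega) g) := rfl

lemma tk_contractNth_last {N : ℕ} (op : X → X → X) (m : ℕ) (h : m + 1 ≤ N) (g : Fin N → X) :
    Fin.contractNth (Fin.last m) op (tk (m + 1) h g) = tk m (by omega) g := by
  funext i
  rw [Fin.contractNth_apply_of_lt _ _ _ _ (by simp)]
  rfl

lemma dp_contractNth_lt {N : ℕ} (op : X → X → X) (m n : ℕ) (h : m + n = N)
    (g : Fin (N + 1) → X) (j : Fin (N + 1)) (hj : (j : ℕ) < m) :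
    dp m n h (Fin.contractNth j op g) = dp (m + 1) n (by omega) g := by
  funext i
  simp only [dp]
  rw [Fin.contractNth_apply_of_gt _ _ _ _ (by simp only; omega)]
  congr 1
  ext
  simp only [Fin.val_succ]
  omega

lemma tk_contractNth_ge {N : ℕ} (op : X → X → X) (m : ℕ) (h : m ≤ N) (g : Fin (N + 1) → X)
    (j : Fin (N + 1)) (hj : m ≤ (j : ℕ)) :
    tk m h (Fin.contractNth j op g) = tk m (by omega) g := by
  funext i
  simp only [tk]
  rw [Fin.contractNth_apply_of_lt _ _ _ _ (by simp only; omega)]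
  rfl

lemma dp_contractNth_ge {N : ℕ} (op : X → X → X) (m n : ℕ) (h : m + n = N)
    (g : Fin (N + 1) → X) (i : Fin (n + 1)) :
    dp m n h (Fin.contractNth ⟨m + i, by omega⟩ op g) =
      Fin.contractNth i op (dp m (n + 1) (by omega) g) := by
  funext t
  simp only [dp]
  rcases lt_trichotomy (t : ℕ) (i : ℕ) with ht | ht | ht
  · rw [Fin.contractNth_apply_of_lt _ _ _ _ (by simp only; omega),
      Fin.contractNth_apply_of_lt _ _ _ _ ht]
    rfl
  · rw [Fin.contractNth_apply_of_eq _ _ _ _ (by simp only; omega),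
      Fin.contractNth_apply_of_eq _ _ _ _ ht]
    rfl
  · rw [Fin.contractNth_apply_of_gt _ _ _ _ (by simp only; omega),
      Fin.contractNth_apply_of_gt _ _ _ _ ht]
    rfl

end tuples

section prods

variable {Γ : Type} [Group Γ]

/-- the product of the first `m` entries of a tuple -/
def pp {N : ℕ} (m : ℕ) (h : m ≤ N) (g : Fin N → Γ) : Γ := Fin.partialProd g ⟨m, by omega⟩

lemma pp_zero {N : ℕ} (g : Fin N → Γ) : pp 0 (Nat.zero_le N) g = 1 := Fin.partialProd_zero g

lemma pp_succ' {N : ℕ} (m : ℕ) (h : m ≤ N) (g : Fin (N + 1) → Γ) :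
    g 0 * pp m h (fun i => g i.succ) = pp (m + 1) (by omega) g :=
  (Fin.partialProd_succ' g ⟨m, by omega⟩).symm

lemma pp_succ {N : ℕ} (m : ℕ) (h : m + 1 ≤ N) (g : Fin N → Γ) :
    pp (m + 1) h g = pp m (by omega) g * g ⟨m, by omega⟩ :=
  Fin.partialProd_succ g ⟨m, by omega⟩

lemma pp_contractNth_lt {N : ℕ} (m : ℕ) (h : m ≤ N) (g : Fin (N + 1) → Γ) (j : Fin (N + 1))
    (hj : (j : ℕ) < m) :
    pp m h (Fin.contractNth j (· * ·) g) = pp (m + 1) (by omega) g := by
  unfold pp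
  rw [Fin.partialProd_contractNth]
  simp only [Function.comp_apply]
  congr 1
  rw [Fin.succAbove_of_le_castSucc _ _ (by simp only [Fin.le_def, Fin.val_succ, Fin.val_castSucc]; omega)]
  rfl

lemma pp_contractNth_ge {N : ℕ} (m : ℕ) (h : m ≤ N) (g : Fin (N + 1) → Γ) (j : Fin (N + 1))
    (hj : m ≤ (j : ℕ)) :
    pp m h (Fin.contractNth j (· * ·) g) = pp m (by omega) g := by
  unfold pp
  rw [Fin.partialProd_contractNth]
  simp only [Function.comp_apply]
  congr 1
  rw [Fin.succAbove_of_castSucc_lt _ _ (by simp only [Fin.lt_def, Fin.val_succ, Fin.val_castSucc]; omega)]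
  rfl

end prods

end Cup

section cup

variable {k : Type} [CommRing k] {Γ : Type} [Group Γ]
variable {A B C : Type} [AddCommGroup A] [Module k A] [AddCommGroup B] [Module k B]
  [AddCommGroup C] [Module k C]

/-- The cup product of inhomogeneous cochains with respect to a bilinear map `β`:
`(x ∪ y)(g₁,…,g_N) = β (x(g₁,…,g_m)) (g₁⋯g_m · y(g_{m+1},…,g_N))`, `N = m + n`. -/
def cupFun (β : A →ₗ[k] B →ₗ[k] C) (ρB : Representation k Γ B) (m n N : ℕ) (h : m + n = N)
    (x : (Fin m → Γ) → A) (y : (Fin n → Γ) → B) : (Fin N → Γ) → C :=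
  fun g => β (x (Cup.tk m (by omega) g)) (ρB (Cup.pp m (by omega) g) (y (Cup.dp m n h g)))

lemma cupFun_apply (β : A →ₗ[k] B →ₗ[k] C) (ρB : Representation k Γ B) (m n N : ℕ)
    (h : m + n = N) (x : (Fin m → Γ) → A) (y : (Fin n → Γ) → B) (g : Fin N → Γ) :
    cupFun β ρB m n N h x y g =
      β (x (Cup.tk m (by omega) g)) (ρB (Cup.pp m (by omega) g) (y (Cup.dp m n h g))) := rfl

lemma cupFun_add_left (β : A →ₗ[k] B →ₗ[k] C) (ρB : Representation k Γ B) (m n N : ℕ)
    (h : m + n = N) (x x' : (Fin m → Γ) → A) (y : (Fin n → Γ) → B) :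
    cupFun β ρB m n N h (x + x') y = cupFun β ρB m n N h x y + cupFun β ρB m n N h x' y := by
  funext g
  simp [cupFun_apply]

lemma cupFun_smul_left (β : A →ₗ[k] B →ₗ[k] C) (ρB : Representation k Γ B) (m n N : ℕ)
    (h : m + n = N) (c : k) (x : (Fin m → Γ) → A) (y : (Fin n → Γ) → B) :
    cupFun β ρB m n N h (c • x) y = c • cupFun β ρB m n N h x y := by
  funext g
  simp [cupFun_apply]

lemma cupFun_add_right (β : A →ₗ[k] B →ₗ[k] C) (ρB : Representation k Γ B) (m n N : ℕ)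
    (h : m + n = N) (x : (Fin m → Γ) → A) (y y' : (Fin n → Γ) → B) :
    cupFun β ρB m n N h x (y + y') = cupFun β ρB m n N h x y + cupFun β ρB m n N h x y' := by
  funext g
  simp [cupFun_apply]

lemma cupFun_smul_right (β : A →ₗ[k] B →ₗ[k] C) (ρB : Representation k Γ B) (m n N : ℕ)
    (h : m + n = N) (c : k) (x : (Fin m → Γ) → A) (y : (Fin n → Γ) → B) :
    cupFun β ρB m n N h x (c • y) = c • cupFun β ρB m n N h x y := by
  funext g
  simp [cupFun_apply]

/-- **Leibniz rule** for the cup product of inhomogeneous cochains. -/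
theorem dLin_cupFun {ρA : Representation k Γ A} {ρB : Representation k Γ B}
    {ρC : Representation k Γ C} (β : A →ₗ[k] B →ₗ[k] C)
    (hβ : ∀ g a b, β (ρA g a) (ρB g b) = ρC g (β a b)) (m n N : ℕ) (h : m + n = N)
    (x : (Fin m → Γ) → A) (y : (Fin n → Γ) → B) :
    dLin ρC N (cupFun β ρB m n N h x y) =
      cupFun β ρB (m + 1) n (N + 1) (by omega) (dLin ρA m x) y +
        (-1 : k) ^ m • cupFun β ρB m (n + 1) (N + 1) (by omega) x (dLin ρB n y) := by
  subst h
  funext g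
  -- abbreviations
  have hW : ρB (Cup.pp (m + 1) (by omega) g) (y (Cup.dp (m + 1) n (by omega) g)) =
      ρB (Cup.pp m (by omega) g) (ρB (g ⟨m, by omega⟩)
        (y fun i => Cup.dp m (n + 1) (by omega) g i.succ)) := by
    rw [Cup.pp_succ m (by omega) g, map_mul, Module.End.mul_apply, Cup.dp_tail m n (by omega) g]
  -- the leading term
  have hfirst : ρC (g 0) (cupFun β ρB m n (m + n) rfl x y fun i => g i.succ) =
      β (ρA (g 0) (x fun i => Cup.tk (m + 1) (by omega) g i.succ))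
        (ρB (Cup.pp (m + 1) (by omega) g) (y (Cup.dp (m + 1) n (by omega) g))) := by
    rw [cupFun_apply, ← hβ, ← Module.End.mul_apply, ← map_mul, Cup.pp_succ' m (by omega) g,
      Cup.dp_succ m n rfl g, Cup.tk_succ m (by omega) g]
  -- the terms `j < m`
  have hlow : ∀ j : Fin m,
      cupFun β ρB m n (m + n) rfl x y
        (Fin.contractNth (Fin.castAdd (n + 1) j : Fin (m + n + 1)) (· * ·) g) =
      β (x (Fin.contractNth j.castSucc (· * ·) (Cup.tk (m + 1) (by omega) g)))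
        (ρB (Cup.pp (m + 1) (by omega) g) (y (Cup.dp (m + 1) n (by omega) g))) := by
    intro j
    have hj : ((Fin.castAdd (n + 1) j : Fin (m + n + 1)) : ℕ) < m := j.2
    rw [cupFun_apply, Cup.tk_contractNth_lt (· * ·) m (by omega) g _ hj,
      Cup.pp_contractNth_lt m (by omega) g _ hj, Cup.dp_contractNth_lt (· * ·) m n rfl g _ hj]
    rfl
  -- the terms `j = m + i`
  have hhigh : ∀ i : Fin (n + 1),
      cupFun β ρB m n (m + n) rfl x y
        (Fin.contractNth (Fin.natAdd m i : Fin (m + n + 1)) (· * ·) g) =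
      β (x (Cup.tk m (by omega) g)) (ρB (Cup.pp m (by omega) g)
        (y (Fin.contractNth i (· * ·) (Cup.dp m (n + 1) (by omega) g)))) := by
    intro i
    have hj : m ≤ ((Fin.natAdd m i : Fin (m + n + 1)) : ℕ) := by
      simp only [Fin.val_natAdd]; omega
    rw [cupFun_apply, Cup.tk_contractNth_ge (· * ·) m (by omega) g _ hj,
      Cup.pp_contractNth_ge m (by omega) g _ hj]
    exact congrArg (fun t => β (x (Cup.tk m (by omega) g)) (ρB (Cup.pp m (by omega) g) (y t)))
      (Cup.dp_contractNth_ge (· * ·) m n rfl g i)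
  rw [dLin_apply, hfirst]
  rw [show (∑ j : Fin (m + n + 1), (-1 : k) ^ ((j : ℕ) + 1) •
        cupFun β ρB m n (m + n) rfl x y (Fin.contractNth j (· * ·) g)) =
      ∑ j : Fin m, (-1 : k) ^ (((Fin.castAdd (n + 1) j : Fin (m + n + 1)) : ℕ) + 1) •
        cupFun β ρB m n (m + n) rfl x y
          (Fin.contractNth (Fin.castAdd (n + 1) j : Fin (m + n + 1)) (· * ·) g) +
      ∑ i : Fin (n + 1), (-1 : k) ^ (((Fin.natAdd m i : Fin (m + n + 1)) : ℕ) + 1) •
        cupFun β ρB m n (m + n) rfl x y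
          (Fin.contractNth (Fin.natAdd m i : Fin (m + n + 1)) (· * ·) g) from
    Fin.sum_univ_add (a := m) (b := n + 1) _]
  simp only [hlow, hhigh, Fin.val_castAdd, Fin.val_natAdd]
  rw [Pi.add_apply, Pi.smul_apply, cupFun_apply, cupFun_apply, dLin_apply, dLin_apply,
    Fin.sum_univ_castSucc (f := fun j : Fin (m + 1) => (-1 : k) ^ ((j : ℕ) + 1) •
      x (Fin.contractNth j (· * ·) (Cup.tk (m + 1) (by omega) g)))]
  simp only [Fin.val_castSucc, Fin.val_last, Cup.tk_contractNth_last, map_add, map_sum, map_smul,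
    LinearMap.add_apply, LinearMap.sum_apply, LinearMap.smul_apply, Cup.dp_zero, hW]
  rw [smul_add, Finset.smul_sum]
  simp only [smul_smul, ← pow_add]
  have e1 : ∀ i : ℕ, m + i + 1 = m + (i + 1) := fun i => rfl
  simp only [e1]
  have e2 : (-1 : k) ^ (m + 1) = -((-1 : k) ^ m) := by rw [pow_succ]; ring
  have e3 : Cup.tk (m + 1) (by omega) g 0 = g 0 := rfl
  rw [e2, neg_smul, e3]
  abel

/-! ### Compatibility with homomorphisms and maps of coefficients -/

lemma Cup.map_pp {Γ' : Type} [Group Γ'] (r : Γ' →* Γ) {N : ℕ} (m : ℕ) (h : m ≤ N)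
    (g : Fin N → Γ') : Cup.pp m h (r ∘ g) = r (Cup.pp m h g) := by
  unfold Cup.pp Fin.partialProd
  rw [map_list_prod, List.map_take, List.map_ofFn]

/-- cup products commute with pull-back along a group homomorphism -/
lemma cupFun_comp_hom {Γ' : Type} [Group Γ'] (r : Γ' →* Γ) (β : A →ₗ[k] B →ₗ[k] C)
    (ρB : Representation k Γ B) (m n N : ℕ) (h : m + n = N) (x : (Fin m → Γ) → A)
    (y : (Fin n → Γ) → B) :
    cupFun β (ρB.comp r) m n N h (fun g => x (r ∘ g)) (fun g => y (r ∘ g)) =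
      fun g => cupFun β ρB m n N h x y (r ∘ g) := by
  funext g
  rw [cupFun_apply, cupFun_apply, Cup.map_pp]
  rfl

/-- cup products commute with maps of coefficients -/
lemma cupFun_map {A₂ B₂ C₂ : Type} [AddCommGroup A₂] [Module k A₂] [AddCommGroup B₂]
    [Module k B₂] [AddCommGroup C₂] [Module k C₂] (β : A →ₗ[k] B →ₗ[k] C)
    (β₂ : A₂ →ₗ[k] B₂ →ₗ[k] C₂) {ρB : Representation k Γ B} {ρB₂ : Representation k Γ B₂}
    (a : A → A₂) (b : B → B₂) (c : C → C₂)
    (hb : ∀ g v, b (ρB g v) = ρB₂ g (b v)) (hc : ∀ u v, c (β u v) = β₂ (a u) (b v))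
    (m n N : ℕ) (h : m + n = N) (x : (Fin m → Γ) → A) (y : (Fin n → Γ) → B) :
    cupFun β₂ ρB₂ m n N h (a ∘ x) (b ∘ y) = c ∘ cupFun β ρB m n N h x y := by
  funext g
  simp only [cupFun_apply, Function.comp_apply, hc, hb]

/-- cup products and a pair of adjoint maps of coefficients -/
lemma cupFun_adjoint {A₂ B₂ : Type} [AddCommGroup A₂] [Module k A₂] [AddCommGroup B₂]
    [Module k B₂] (β : A →ₗ[k] B →ₗ[k] C) (β₂ : A₂ →ₗ[k] B₂ →ₗ[k] C)
    {ρB : Representation k Γ B} {ρB₂ : Representation k Γ B₂}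
    (a : A₂ → A) (b : B → B₂)
    (hb : ∀ g v, b (ρB g v) = ρB₂ g (b v)) (hadj : ∀ u v, β (a u) v = β₂ u (b v))
    (m n N : ℕ) (h : m + n = N) (x : (Fin m → Γ) → A₂) (y : (Fin n → Γ) → B) :
    cupFun β ρB m n N h (a ∘ x) y = cupFun β₂ ρB₂ m n N h x (b ∘ y) := by
  funext g
  simp only [cupFun_apply, Function.comp_apply, hadj, hb]

end cup

section

variable {Γ : Type} [Group Γ]

lemma Cup.pp_mem {N₀ : Subgroup Γ} [N₀.Normal] {N : ℕ} (m : ℕ) (h : m ≤ N) (g g' : Fin N → Γ)
    (hgg' : ∀ i, (g i)⁻¹ * g' i ∈ N₀) : (Cup.pp m h g)⁻¹ * Cup.pp m h g' ∈ N₀ := by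
  have e : (fun a : Γ => (a : Γ ⧸ N₀)) ∘ g = (fun a : Γ => (a : Γ ⧸ N₀)) ∘ g' := by
    funext i
    exact QuotientGroup.eq.2 (hgg' i)
  have h1 := Cup.map_pp (QuotientGroup.mk' N₀) m h g
  have h2 := Cup.map_pp (QuotientGroup.mk' N₀) m h g'
  have e' : (⇑(QuotientGroup.mk' N₀)) ∘ g = (⇑(QuotientGroup.mk' N₀)) ∘ g' := e
  rw [e'] at h1
  exact QuotientGroup.eq.1 (h1.symm.trans h2)

end

/-! ### Level cochains -/

namespace LevelSys

variable {Γ : Type} [Group Γ] {L : LevelSys Γ}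

variable {k : Type} [CommRing k]
variable {A B C : Type} [AddCommGroup A] [Module k A] [AddCommGroup B] [Module k B]
  [AddCommGroup C] [Module k C]

/-- The cup product of level cochains (second factor with smooth coefficients) is a level
cochain. -/
lemma isLevelConst_cupFun (β : A →ₗ[k] B →ₗ[k] C) {ρB : Representation k Γ B}
    (hρ : L.IsSmooth ρB) (m n N : ℕ) (h : m + n = N) {x : (Fin m → Γ) → A}
    {y : (Fin n → Γ) → B} (hx : L.IsLevelConst x) (hy : L.IsLevelConst y) :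
    L.IsLevelConst (cupFun β ρB m n N h x y) := by
  obtain ⟨N₁, hN₁, hfix⟩ := hρ.exists_level (IsLevelConst.finite_range hy)
  obtain ⟨N₂, hN₂, hle₂, hx'⟩ := hx.exists_le hN₁
  obtain ⟨N₃, hN₃, hle₃, hy'⟩ := hy.exists_le hN₂
  have := L.normal N₃ hN₃
  refine ⟨N₃, hN₃, fun g g' hgg' => ?_⟩
  rw [cupFun_apply, cupFun_apply]
  have e1 : x (Cup.tk m (by omega) g) = x (Cup.tk m (by omega) g') :=
    hx' _ _ fun i => hle₃ (hgg' _)
  have e2 : y (Cup.dp m n h g) = y (Cup.dp m n h g') := hy' _ _ fun i => hgg' _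
  have e3 : ρB (Cup.pp m (by omega) g') (y (Cup.dp m n h g')) =
      ρB (Cup.pp m (by omega) g) (y (Cup.dp m n h g')) := by
    have hmem := Cup.pp_mem m (by omega) g g' hgg'
    have : Cup.pp m (by omega) g' =
        Cup.pp m (by omega) g * ((Cup.pp m (by omega) g)⁻¹ * Cup.pp m (by omega) g') := by
      group
    rw [this, map_mul, Module.End.mul_apply, hfix _ ⟨_, rfl⟩ _ (hle₂ (hle₃ hmem))]
  rw [e1, e2, e3]

end LevelSys

end Fermat.Agent.PT
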