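/-
PT layer F4 (abstract part): pairings of complexes.  A `Cx.Pairing A B C` is a family of
bilinear maps `A.X i × B.X j → C.X N` (`i + j = N`) satisfying the Leibniz rule
`d (a ∪ b) = d a ∪ b + (-1)^i • a ∪ d b`.  It induces bilinear maps on cohomology
(`Cx.Pairing.cupH`); pairings pull back along morphisms, extend to products, to the shift
and to the co-cone (`Cx.Pairing.cocone`: the pairing `H^i(A) × H^j_c → H^{i+j}_c`), and are
compatible with connecting homomorphisms up to the sign `(-1)^(i+1)`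
(`Cx.Pairing.cupH_δ`).
-/
import Fermat.Agent.PT.Coh.Cone

set_option autoImplicit false

namespace Fermat.Agent.PT

namespace Cx

variable {k : Type} [CommRing k]

/-- A pairing of complexes `A × B → C` (a cochain-level cup product). -/
structure Pairing (A B C : Cx k) where
  /-- the bilinear maps `A.X i × B.X j → C.X N`, `i + j = N` -/
  cup : ∀ (i j N : ℕ), i + j = N → A.X i →ₗ[k] B.X j →ₗ[k] C.X N
  /-- the Leibniz rule -/
  leibniz : ∀ (i j N : ℕ) (h : i + j = N) (a : A.X i) (b : B.X j),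
    C.d N (cup i j N h a b) =
      cup (i + 1) j (N + 1) (by omega) (A.d i a) b +
        (-1 : k) ^ i • cup i (j + 1) (N + 1) (by omega) a (B.d j b)

namespace Pairing

variable {A B C : Cx k}

lemma neg_one_pow_mul_self (i : ℕ) : (-1 : k) ^ i * (-1 : k) ^ i = 1 := by
  rw [← mul_pow]; simp

/-- the Leibniz rule solved for the last term -/
lemma cup_d_right (P : Pairing A B C) (i j N : ℕ) (h : i + j = N) (a : A.X i) (b : B.X j) :
    P.cup i (j + 1) (N + 1) (by omega) a (B.d j b) =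
      (-1 : k) ^ i • (C.d N (P.cup i j N h a b) -
        P.cup (i + 1) j (N + 1) (by omega) (A.d i a) b) := by
  rw [P.leibniz i j N h a b, add_sub_cancel_left, smul_smul, neg_one_pow_mul_self, one_smul]

lemma cup_mem_Z (P : Pairing A B C) (i j N : ℕ) (h : i + j = N) {a : A.X i} {b : B.X j}
    (ha : A.d i a = 0) (hb : B.d j b = 0) : C.d N (P.cup i j N h a b) = 0 := by
  rw [P.leibniz, ha, hb, map_zero, map_zero, LinearMap.zero_apply, smul_zero, add_zero]

lemma cup_mem_B_left (P : Pairing A B C) (i j N : ℕ) (h : i + j = N) {a : A.X i} {b : B.X j}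
    (ha : a ∈ A.B i) (hb : B.d j b = 0) : P.cup i j N h a b ∈ C.B N := by
  cases i with
  | zero =>
    rw [mem_B_zero] at ha
    rw [ha, map_zero, LinearMap.zero_apply]
    exact Submodule.zero_mem _
  | succ i =>
    obtain ⟨a', rfl⟩ := ha
    obtain rfl : N = i + j + 1 := by omega
    refine (mem_B_succ C).2 ⟨P.cup i j (i + j) rfl a' b, ?_⟩
    rw [P.leibniz, hb, map_zero, smul_zero, add_zero]

lemma cup_mem_B_right (P : Pairing A B C) (i j N : ℕ) (h : i + j = N) {a : A.X i} {b : B.X j}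
    (ha : A.d i a = 0) (hb : b ∈ B.B j) : P.cup i j N h a b ∈ C.B N := by
  cases j with
  | zero =>
    rw [mem_B_zero] at hb
    rw [hb, map_zero]
    exact Submodule.zero_mem _
  | succ j =>
    obtain ⟨b', rfl⟩ := hb
    obtain rfl : N = i + j + 1 := by omega
    rw [P.cup_d_right i j (i + j) rfl a b', ha, map_zero, LinearMap.zero_apply, sub_zero]
    exact Submodule.smul_mem _ _ (C.d_mem_B _ _)

/-- the pairing on cocycles -/
def cupZ (P : Pairing A B C) (i j N : ℕ) (h : i + j = N) : A.Z i →ₗ[k] B.Z j →ₗ[k] C.Z N :=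
  LinearMap.mk₂ k (fun a b => ⟨P.cup i j N h a.1 b.1, P.cup_mem_Z i j N h a.2 b.2⟩)
    (fun a a' b => Subtype.ext (by simp))
    (fun c a b => Subtype.ext (by simp))
    (fun a b b' => Subtype.ext (by simp))
    (fun c a b => Subtype.ext (by simp))

@[simp] lemma cupZ_coe (P : Pairing A B C) (i j N : ℕ) (h : i + j = N) (a : A.Z i) (b : B.Z j) :
    ((P.cupZ i j N h a b : C.Z N) : C.X N) = P.cup i j N h a.1 b.1 := rfl

/-- auxiliary: the pairing `H^i(A) × Z^j(B) → H^N(C)` -/
def cupHZ (P : Pairing A B C) (i j N : ℕ) (h : i + j = N) : A.H i →ₗ[k] B.Z j →ₗ[k] C.H N :=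
  Submodule.liftQ _ ((P.cupZ i j N h).compr₂ (C.Hπ N)) (by
    intro a ha
    simp only [Submodule.mem_comap, Submodule.subtype_apply] at ha
    rw [LinearMap.mem_ker]
    refine LinearMap.ext fun b => ?_
    rw [LinearMap.compr₂_apply, LinearMap.zero_apply, Hπ_eq_zero_iff]
    exact P.cup_mem_B_left i j N h ha b.2)

/-- The pairing induced on cohomology, `H^i(A) × H^j(B) → H^N(C)` for `i + j = N`. -/
def cupH (P : Pairing A B C) (i j N : ℕ) (h : i + j = N) : A.H i →ₗ[k] B.H j →ₗ[k] C.H N :=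
  (Submodule.liftQ _ (P.cupHZ i j N h).flip (by
    intro b hb
    simp only [Submodule.mem_comap, Submodule.subtype_apply] at hb
    rw [LinearMap.mem_ker]
    refine LinearMap.ext fun x => ?_
    obtain ⟨a, rfl⟩ := A.Hπ_surjective i x
    rw [LinearMap.flip_apply, LinearMap.zero_apply]
    show C.Hπ N (P.cupZ i j N h a b) = 0
    rw [Hπ_eq_zero_iff]
    exact P.cup_mem_B_right i j N h a.2 hb)).flip

lemma cupH_Hπ (P : Pairing A B C) (i j N : ℕ) (h : i + j = N) (a : A.Z i) (b : B.Z j) :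
    P.cupH i j N h (A.Hπ i a) (B.Hπ j b) = C.Hπ N (P.cupZ i j N h a b) := rfl

lemma cupH_cls (P : Pairing A B C) (i j N : ℕ) (h : i + j = N) (a : A.X i) (ha : A.d i a = 0)
    (b : B.X j) (hb : B.d j b = 0) :
    P.cupH i j N h (A.cls i a ha) (B.cls j b hb) =
      C.cls N (P.cup i j N h a b) (P.cup_mem_Z i j N h ha hb) := rfl

/-! ### Pull-back and push-forward -/

/-- pull back a pairing along a morphism in the first variable -/
def comapLeft {A' : Cx k} (P : Pairing A B C) (r : Hom A' A) : Pairing A' B C where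
  cup i j N h := P.cup i j N h ∘ₗ r.f i
  leibniz i j N h a b := by
    simp only [LinearMap.comp_apply]
    rw [P.leibniz, r.comm]

/-- pull back a pairing along a morphism in the second variable -/
def comapRight {B' : Cx k} (P : Pairing A B C) (s : Hom B' B) : Pairing A B' C where
  cup i j N h := (P.cup i j N h).compl₂ (s.f j)
  leibniz i j N h a b := by
    simp only [LinearMap.compl₂_apply]
    rw [P.leibniz, s.comm]

/-- push a pairing forward along a morphism of the target -/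
def mapTarget {C' : Cx k} (P : Pairing A B C) (t : Hom C C') : Pairing A B C' where
  cup i j N h := (P.cup i j N h).compr₂ (t.f N)
  leibniz i j N h a b := by
    simp only [LinearMap.compr₂_apply]
    rw [← t.comm, P.leibniz, map_add, map_smul]

@[simp] lemma comapLeft_cup {A' : Cx k} (P : Pairing A B C) (r : Hom A' A) (i j N : ℕ)
    (h : i + j = N) (a : A'.X i) (b : B.X j) :
    (P.comapLeft r).cup i j N h a b = P.cup i j N h (r.f i a) b := rfl

@[simp] lemma comapRight_cup {B' : Cx k} (P : Pairing A B C) (s : Hom B' B) (i j N : ℕ)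
    (h : i + j = N) (a : A.X i) (b : B'.X j) :
    (P.comapRight s).cup i j N h a b = P.cup i j N h a (s.f j b) := rfl

@[simp] lemma mapTarget_cup {C' : Cx k} (P : Pairing A B C) (t : Hom C C') (i j N : ℕ)
    (h : i + j = N) (a : A.X i) (b : B.X j) :
    (P.mapTarget t).cup i j N h a b = t.f N (P.cup i j N h a b) := rfl

lemma comapLeft_cupH {A' : Cx k} (P : Pairing A B C) (r : Hom A' A) (i j N : ℕ)
    (h : i + j = N) (y : A'.H i) (x : B.H j) :
    (P.comapLeft r).cupH i j N h y x = P.cupH i j N h (r.mapH i y) x := by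
  obtain ⟨a, rfl⟩ := A'.Hπ_surjective i y
  obtain ⟨b, rfl⟩ := B.Hπ_surjective j x
  rfl

lemma comapRight_cupH {B' : Cx k} (P : Pairing A B C) (s : Hom B' B) (i j N : ℕ)
    (h : i + j = N) (y : A.H i) (x : B'.H j) :
    (P.comapRight s).cupH i j N h y x = P.cupH i j N h y (s.mapH j x) := by
  obtain ⟨a, rfl⟩ := A.Hπ_surjective i y
  obtain ⟨b, rfl⟩ := B'.Hπ_surjective j x
  rfl

lemma mapTarget_cupH {C' : Cx k} (P : Pairing A B C) (t : Hom C C') (i j N : ℕ)
    (h : i + j = N) (y : A.H i) (x : B.H j) :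
    (P.mapTarget t).cupH i j N h y x = t.mapH N (P.cupH i j N h y x) := by
  obtain ⟨a, rfl⟩ := A.Hπ_surjective i y
  obtain ⟨b, rfl⟩ := B.Hπ_surjective j x
  rfl

/-- two pairings that agree on cochains agree on cohomology -/
lemma cupH_congr {A' B' : Cx k} (P : Pairing A B C) (P' : Pairing A' B' C) (r : Hom A' A)
    (s : Hom B B')
    (hadj : ∀ (i j N : ℕ) (h : i + j = N) (a : A'.X i) (b : B.X j),
      P.cup i j N h (r.f i a) b = P'.cup i j N h a (s.f j b))
    (i j N : ℕ) (h : i + j = N) (y : A'.H i) (x : B.H j) :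
    P.cupH i j N h (r.mapH i y) x = P'.cupH i j N h y (s.mapH j x) := by
  obtain ⟨a, rfl⟩ := A'.Hπ_surjective i y
  obtain ⟨b, rfl⟩ := B.Hπ_surjective j x
  show C.Hπ N _ = C.Hπ N _
  congr 1
  exact Subtype.ext (hadj i j N h a.1 b.1)

/-! ### Products -/

/-- the product of a family of pairings with a fixed first factor -/
def pi {ι : Type} {D D'' : ι → Cx k} (Q : ∀ w, Pairing A (D w) (D'' w)) :
    Pairing A (Cx.pi D) (Cx.pi D'') where
  cup i j N h := LinearMap.mk₂ k (fun a b w => (Q w).cup i j N h a (b w))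
    (fun a a' b => funext fun w => by simp)
    (fun c a b => funext fun w => by simp)
    (fun a b b' => funext fun w => by simp)
    (fun c a b => funext fun w => by simp)
  leibniz i j N h a b := by
    funext w
    exact (Q w).leibniz i j N h a (b w)

@[simp] lemma pi_cup {ι : Type} {D D'' : ι → Cx k} (Q : ∀ w, Pairing A (D w) (D'' w))
    (i j N : ℕ) (h : i + j = N) (a : A.X i) (b : (Cx.pi D).X j) (w : ι) :
    (pi Q).cup i j N h a b w = (Q w).cup i j N h a (b w) := rfl

/-! ### The shift and the co-cone -/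

/-- the components of the shifted pairing `A × D[-1] → D''[-1]`: `a ∪ e := (-1)^i • (a ∪ e)` -/
def shiftCup {D D'' : Cx k} (Q : Pairing A D D'') :
    ∀ (i j N : ℕ), i + j = N → A.X i →ₗ[k] shiftX D j →ₗ[k] shiftX D'' N
  | _, 0, _, _ => 0
  | _, _ + 1, 0, _ => 0
  | i, j + 1, N + 1, h =>
    (-1 : k) ^ i • (((Q.cup i j N (by omega)).compr₂ (shiftUp D'' N).toLinearMap).compl₂
      (shiftUp D j).symm.toLinearMap)

lemma shiftCup_zero {D D'' : Cx k} (Q : Pairing A D D'') (i N : ℕ) (h : i + 0 = N) (a : A.X i)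
    (e : shiftX D 0) : shiftCup Q i 0 N h a e = 0 := rfl

lemma shiftCup_up {D D'' : Cx k} (Q : Pairing A D D'') (i j N : ℕ) (h : i + (j + 1) = N + 1)
    (a : A.X i) (e : D.X j) :
    shiftCup Q i (j + 1) (N + 1) h a (shiftUp D j e) =
      shiftUp D'' N ((-1 : k) ^ i • Q.cup i j N (by omega) a e) := by
  rw [map_smul]
  rfl

/-- the shifted pairing `A × D[-1] → D''[-1]` -/
def shift {D D'' : Cx k} (Q : Pairing A D D'') : Pairing A (Cx.shift D) (Cx.shift D'') where
  cup := shiftCup Q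
  leibniz i j N h a e := by
    cases j with
    | zero =>
      have h0 : (Cx.shift D).d 0 e = 0 := rfl
      rw [h0, map_zero, smul_zero, add_zero, shiftCup_zero, shiftCup_zero, map_zero]
    | succ j =>
      obtain ⟨e', rfl⟩ := exists_shiftUp D e
      obtain rfl : N = i + j + 1 := by omega
      rw [shiftCup_up Q i j (i + j) h a e', shift_d_up, shift_d_up,
        shiftCup_up Q (i + 1) j (i + j + 1) (by omega) (A.d i a) e',
        shiftCup_up Q i (j + 1) (i + j + 1) (by omega) a (-D.d j e'),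
        ← (shiftUp D'' (i + j + 1)).map_smul, ← (shiftUp D'' (i + j + 1)).map_add]
      congr 1
      rw [map_smul, Q.leibniz i j (i + j) rfl a e', map_neg, pow_succ]
      module

/-- The pairing with the co-cone: given pairings `P : A × C → C''` and `Q : A × D → D''`
compatible with `φ : C ⟶ D` and `φ'' : C'' ⟶ D''`, the pairing
`A × cocone φ → cocone φ''`, `a ∪ (c, e) = (a ∪ c, (-1)^i • a ∪ e)`. -/
def cocone {C D C'' D'' : Cx k} (P : Pairing A C C'') (Q : Pairing A D D'') (φ : Hom C D)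
    (φ'' : Hom C'' D'')
    (hφ : ∀ (i j N : ℕ) (h : i + j = N) (a : A.X i) (c : C.X j),
      φ''.f N (P.cup i j N h a c) = Q.cup i j N h a (φ.f j c)) :
    Pairing A (Cx.cocone φ) (Cx.cocone φ'') where
  cup i j N h := LinearMap.mk₂ k
    (fun a x => ((P.cup i j N h a x.1, shiftCup Q i j N h a x.2) : (Cx.cocone φ'').X N))
    (fun a a' x => Prod.ext (by simp) (by simp))
    (fun c a x => Prod.ext (by simp) (by simp))
    (fun a x x' => Prod.ext (by simp) (by simp))
    (fun c a x => Prod.ext (by simp) (by simp))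
  leibniz i j N h a x := by
    obtain ⟨c, e⟩ := x
    refine Prod.ext (P.leibniz i j N h a c) ?_
    show shiftUp D'' N (φ''.f N (P.cup i j N h a c)) + shiftD D'' N (shiftCup Q i j N h a e) =
      shiftCup Q (i + 1) j (N + 1) (by omega) (A.d i a) e +
        (-1 : k) ^ i • shiftCup Q i (j + 1) (N + 1) (by omega) a
          (shiftUp D j (φ.f j c) + shiftD D j e)
    have h1 := Q.shift.leibniz i j N h a e
    have h2 : shiftD D'' N (shiftCup Q i j N h a e) =
        shiftCup Q (i + 1) j (N + 1) (by omega) (A.d i a) e +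
          (-1 : k) ^ i • shiftCup Q i (j + 1) (N + 1) (by omega) a (shiftD D j e) := h1
    rw [h2, map_add, smul_add, shiftCup_up Q i j N (by omega) a (φ.f j c), hφ, map_smul,
      smul_smul, neg_one_pow_mul_self, one_smul]
    abel

lemma cocone_cup_fst {C D C'' D'' : Cx k} (P : Pairing A C C'') (Q : Pairing A D D'')
    (φ : Hom C D) (φ'' : Hom C'' D'')
    (hφ : ∀ (i j N : ℕ) (h : i + j = N) (a : A.X i) (c : C.X j),
      φ''.f N (P.cup i j N h a c) = Q.cup i j N h a (φ.f j c))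
    (i j N : ℕ) (h : i + j = N) (a : A.X i) (x : (Cx.cocone φ).X j) :
    ((cocone P Q φ φ'' hφ).cup i j N h a x).1 = P.cup i j N h a x.1 := rfl

lemma cocone_cup_mk {C D C'' D'' : Cx k} (P : Pairing A C C'') (Q : Pairing A D D'')
    (φ : Hom C D) (φ'' : Hom C'' D'')
    (hφ : ∀ (i j N : ℕ) (h : i + j = N) (a : A.X i) (c : C.X j),
      φ''.f N (P.cup i j N h a c) = Q.cup i j N h a (φ.f j c))
    (i j N : ℕ) (h : i + j = N) (a : A.X i) (c : C.X (j + 1)) (e : D.X j) :
    (cocone P Q φ φ'' hφ).cup i (j + 1) (N + 1) (by omega) a (coconeMk φ c e) =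
      coconeMk φ'' (P.cup i (j + 1) (N + 1) (by omega) a c)
        ((-1 : k) ^ i • Q.cup i j N h a e) :=
  Prod.ext rfl (shiftCup_up Q i j N (by omega) a e)

/-- compatibility of the co-cone pairing with the projection `H^n(cocone) → H^n(C)` -/
lemma coconeπ_cupH {C D C'' D'' : Cx k} (P : Pairing A C C'') (Q : Pairing A D D'')
    (φ : Hom C D) (φ'' : Hom C'' D'')
    (hφ : ∀ (i j N : ℕ) (h : i + j = N) (a : A.X i) (c : C.X j),
      φ''.f N (P.cup i j N h a c) = Q.cup i j N h a (φ.f j c))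
    (i j N : ℕ) (h : i + j = N) (y : A.H i) (x : (Cx.cocone φ).H j) :
    coconeπ φ'' N ((cocone P Q φ φ'' hφ).cupH i j N h y x) =
      P.cupH i j N h y (coconeπ φ j x) := by
  obtain ⟨a, rfl⟩ := A.Hπ_surjective i y
  obtain ⟨b, rfl⟩ := (Cx.cocone φ).Hπ_surjective j x
  rfl

/-- compatibility of the co-cone pairing with `H^{n}(D) → H^{n+1}(cocone)` -/
lemma cupH_coconeι {C D C'' D'' : Cx k} (P : Pairing A C C'') (Q : Pairing A D D'')
    (φ : Hom C D) (φ'' : Hom C'' D'')
    (hφ : ∀ (i j N : ℕ) (h : i + j = N) (a : A.X i) (c : C.X j),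
      φ''.f N (P.cup i j N h a c) = Q.cup i j N h a (φ.f j c))
    (i j N : ℕ) (h : i + j = N) (y : A.H i) (x : D.H j) :
    (cocone P Q φ φ'' hφ).cupH i (j + 1) (N + 1) (by omega) y (coconeι φ j x) =
      (-1 : k) ^ i • coconeι φ'' N (Q.cupH i j N h y x) := by
  obtain ⟨a, ha, rfl⟩ := A.exists_cls y
  obtain ⟨e, he, rfl⟩ := D.exists_cls x
  rw [coconeι_cls, cupH_cls, cupH_cls, coconeι_cls]
  show (Cx.cocone φ'').Hπ (N + 1) _ = (-1 : k) ^ i • (Cx.cocone φ'').Hπ (N + 1) _
  rw [← map_smul]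
  congr 1
  apply Subtype.ext
  show (cocone P Q φ φ'' hφ).cup i (j + 1) (N + 1) (by omega) a (coconeMk φ 0 e) =
    (-1 : k) ^ i • coconeMk φ'' 0 (Q.cup i j N h a e)
  rw [cocone_cup_mk P Q φ φ'' hφ i j N h a 0 e, map_zero]
  refine Prod.ext ?_ ?_
  · show (0 : C''.X (N + 1)) = (-1 : k) ^ i • (0 : C''.X (N + 1))
    rw [smul_zero]
  · show shiftUp D'' N ((-1 : k) ^ i • Q.cup i j N h a e) =
      (-1 : k) ^ i • shiftUp D'' N (Q.cup i j N h a e)
    rw [map_smul]

/-! ### Compatibility with connecting homomorphisms -/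

/-- **δ-compatibility.**  For short exact sequences `0 → A₃ → A₂ → A₁ → 0` and
`0 → B₁ → B₂ → B₃ → 0` and pairings `P_i : A_i × B_i → C` which are adjoint along the maps,
`δ y ∪ x = (-1)^(i+1) • y ∪ δ x` for `y ∈ H^i(A₁)`, `x ∈ H^j(B₃)`. -/
theorem cupH_δ {A₁ A₂ A₃ B₁ B₂ B₃ : Cx k} {f' : Hom A₃ A₂} {g' : Hom A₂ A₁} {f : Hom B₁ B₂}
    {g : Hom B₂ B₃} (hA : ShortExact f' g') (hB : ShortExact f g)
    (P₁ : Pairing A₁ B₁ C) (P₂ : Pairing A₂ B₂ C) (P₃ : Pairing A₃ B₃ C)
    (h₁ : ∀ (i j N : ℕ) (h : i + j = N) (a : A₂.X i) (b : B₁.X j),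
      P₂.cup i j N h a (f.f j b) = P₁.cup i j N h (g'.f i a) b)
    (h₃ : ∀ (i j N : ℕ) (h : i + j = N) (a : A₃.X i) (b : B₂.X j),
      P₂.cup i j N h (f'.f i a) b = P₃.cup i j N h a (g.f j b))
    (i j N : ℕ) (h : i + j + 1 = N) (y : A₁.H i) (x : B₃.H j) :
    P₃.cupH (i + 1) j N (by omega) (hA.δ i y) x =
      (-1 : k) ^ (i + 1) • P₁.cupH i (j + 1) N (by omega) y (hB.δ j x) := by
  obtain ⟨y', hy', z, hz, rfl⟩ := hA.exists_lift y
  obtain ⟨x', hx', w, hw, rfl⟩ := hB.exists_lift x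
  rw [hA.δ_cls i y' hy' z hz, hB.δ_cls j x' hx' w hw, cupH_cls, cupH_cls]
  show C.Hπ N _ = (-1 : k) ^ (i + 1) • C.Hπ N _
  rw [← map_smul, Hπ_eq_iff]
  show P₃.cup (i + 1) j N (by omega) z (g.f j x') -
    (-1 : k) ^ (i + 1) • P₁.cup i (j + 1) N (by omega) (g'.f i y') w ∈ C.B N
  obtain rfl : N = i + j + 1 := by omega
  refine (mem_B_succ C).2 ⟨P₂.cup i j (i + j) rfl y' x', ?_⟩
  rw [P₂.leibniz, ← hz, ← hw, h₃, h₁, pow_succ]
  module

/-! ### Adjoint maps, degree-zero classes, products on cohomology -/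

/-- adjointness passes to the shifted pairing -/
lemma shiftCup_adj {A' D D' D'' : Cx k} (Q : Pairing A D D'') (Q' : Pairing A' D' D'')
    (r : Hom A' A) (s : Hom D D')
    (hadj : ∀ (i j N : ℕ) (h : i + j = N) (a : A'.X i) (e : D.X j),
      Q.cup i j N h (r.f i a) e = Q'.cup i j N h a (s.f j e))
    (i j N : ℕ) (h : i + j = N) (a : A'.X i) (e : shiftX D j) :
    shiftCup Q i j N h (r.f i a) e = shiftCup Q' i j N h a (shiftMapF s j e) := by
  cases j with
  | zero => rfl
  | succ j =>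
    obtain ⟨e', rfl⟩ := exists_shiftUp D e
    obtain rfl : N = i + j + 1 := by omega
    rw [shiftCup_up Q i j (i + j) h (r.f i a) e', shiftMapF_up,
      shiftCup_up Q' i j (i + j) h a (s.f j e'), hadj]

/-- adjointness passes to the co-cone pairing -/
lemma cocone_cup_adj {A' C D C' D' C'' D'' : Cx k}
    (P : Pairing A C C'') (Q : Pairing A D D'') (φ : Hom C D) (φ'' : Hom C'' D'')
    (hφ : ∀ (i j N : ℕ) (h : i + j = N) (a : A.X i) (c : C.X j),
      φ''.f N (P.cup i j N h a c) = Q.cup i j N h a (φ.f j c))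
    (P' : Pairing A' C' C'') (Q' : Pairing A' D' D'') (φ' : Hom C' D')
    (hφ' : ∀ (i j N : ℕ) (h : i + j = N) (a : A'.X i) (c : C'.X j),
      φ''.f N (P'.cup i j N h a c) = Q'.cup i j N h a (φ'.f j c))
    (r : Hom A' A) (sC : Hom C C') (sD : Hom D D')
    (hs : ∀ n c, φ'.f n (sC.f n c) = sD.f n (φ.f n c))
    (hP : ∀ (i j N : ℕ) (h : i + j = N) (a : A'.X i) (c : C.X j),
      P.cup i j N h (r.f i a) c = P'.cup i j N h a (sC.f j c))
    (hQ : ∀ (i j N : ℕ) (h : i + j = N) (a : A'.X i) (e : D.X j),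
      Q.cup i j N h (r.f i a) e = Q'.cup i j N h a (sD.f j e))
    (i j N : ℕ) (h : i + j = N) (a : A'.X i) (x : (Cx.cocone φ).X j) :
    (cocone P Q φ φ'' hφ).cup i j N h (r.f i a) x =
      (cocone P' Q' φ' φ'' hφ').cup i j N h a ((coconeMap φ φ' sC sD hs).f j x) :=
  Prod.ext (hP i j N h a x.1) (shiftCup_adj Q Q' r sD hQ i j N h a x.2)

/-- the shifted pairing with a degree-zero element which acts through a morphism -/
lemma shiftCup_zero_left {D D'' : Cx k} (Q : Pairing A D D'') (u : A.X 0) (s : Hom D D'')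
    (hs : ∀ (j : ℕ) (h : 0 + j = j) (e : D.X j), Q.cup 0 j j h u e = s.f j e)
    (j : ℕ) (h : 0 + j = j) (e : shiftX D j) :
    shiftCup Q 0 j j h u e = shiftMapF s j e := by
  cases j with
  | zero => exact shiftX_zero_eq D'' _ _
  | succ j =>
    obtain ⟨e', rfl⟩ := exists_shiftUp D e
    rw [shiftCup_up Q 0 j j h u e', shiftMapF_up, pow_zero, one_smul, hs]

/-- the co-cone pairing with a degree-zero element which acts through morphisms -/
lemma cocone_cup_zero_left {C D C'' D'' : Cx k} (P : Pairing A C C'') (Q : Pairing A D D'')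
    (φ : Hom C D) (φ'' : Hom C'' D'')
    (hφ : ∀ (i j N : ℕ) (h : i + j = N) (a : A.X i) (c : C.X j),
      φ''.f N (P.cup i j N h a c) = Q.cup i j N h a (φ.f j c))
    (u : A.X 0) (sC : Hom C C'') (sD : Hom D D'')
    (hs : ∀ n c, φ''.f n (sC.f n c) = sD.f n (φ.f n c))
    (hP : ∀ (j : ℕ) (h : 0 + j = j) (c : C.X j), P.cup 0 j j h u c = sC.f j c)
    (hQ : ∀ (j : ℕ) (h : 0 + j = j) (e : D.X j), Q.cup 0 j j h u e = sD.f j e)
    (j : ℕ) (h : 0 + j = j) (x : (Cx.cocone φ).X j) :
    (cocone P Q φ φ'' hφ).cup 0 j j h u x = (coconeMap φ φ'' sC sD hs).f j x :=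
  Prod.ext (hP j h x.1) (shiftCup_zero_left Q u sD hQ j h x.2)

/-- the cup product with a degree-zero class which acts through a morphism (left) -/
lemma cupH_zero_left (P : Pairing A B C) (u : A.X 0) (hu : A.d 0 u = 0) (s : Hom B C)
    (hs : ∀ (j : ℕ) (h : 0 + j = j) (b : B.X j), P.cup 0 j j h u b = s.f j b)
    (j : ℕ) (h : 0 + j = j) (x : B.H j) :
    P.cupH 0 j j h (A.cls 0 u hu) x = s.mapH j x := by
  obtain ⟨b, rfl⟩ := B.Hπ_surjective j x
  show C.Hπ j _ = C.Hπ j _
  congr 1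
  exact Subtype.ext (hs j h b.1)

/-- the cup product with a degree-zero class which acts through a morphism (right) -/
lemma cupH_zero_right (P : Pairing A B C) (w : B.X 0) (hw : B.d 0 w = 0) (s : Hom A C)
    (hs : ∀ (i : ℕ) (h : i + 0 = i) (a : A.X i), P.cup i 0 i h a w = s.f i a)
    (i : ℕ) (h : i + 0 = i) (y : A.H i) :
    P.cupH i 0 i h y (B.cls 0 w hw) = s.mapH i y := by
  obtain ⟨a, rfl⟩ := A.Hπ_surjective i y
  show C.Hπ i _ = C.Hπ i _
  congr 1
  exact Subtype.ext (hs i h a.1)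

/-- the product pairing on cohomology, componentwise -/
lemma piH_pi_cupH {ι : Type} {D D'' : ι → Cx k} (Q : ∀ w, Pairing A (D w) (D'' w))
    (i j N : ℕ) (h : i + j = N) (y : A.H i) (x : (Cx.pi D).H j) (w : ι) :
    piH D'' N ((pi Q).cupH i j N h y x) w = (Q w).cupH i j N h y (piH D j x w) := by
  obtain ⟨a, rfl⟩ := A.Hπ_surjective i y
  obtain ⟨b, rfl⟩ := (Cx.pi D).Hπ_surjective j x
  rfl

end Pairing

end Cx

end Fermat.Agent.PT
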