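/-
PT layer F4 (instance): the cup products of the Poitou–Tate datum.  For an equivariant
bilinear map `β : A → B → T` of smooth representations:
* `LevelSys.cupPairing` : the pairing `C(A) × C(B) → C(T)` of level cochain complexes,
* `LocDatum.cupCc` : the pairing `C(A) × C_c(B) → C_c(T)`,
* `LocDatum.cup β i j N h : H^i(A) × H^j_c(B) → H^N_c(T)` (`cup12`, `cup21`),
with naturality (`cup_nat`), compatibility with connecting homomorphisms (`cup_δ`), with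
`ιc` (`cup_ιc`) and `πc` (`πc_cup`), and the description of the products with classes of
degree zero (`cup_zero_left`, `cupV_zero_right`).
-/
import Fermat.Agent.PT.Coh.Cup
import Fermat.Agent.PT.Coh.Pairing
import Fermat.Agent.PT.Coh.Setup

set_option autoImplicit false

namespace Fermat.Agent.PT

/-! ### Cup products in degree zero, on cochains -/

section deg0

variable {k : Type} [CommRing k] {Γ : Type} [Group Γ]
variable {A B T : Type} [AddCommGroup A] [Module k A] [AddCommGroup B] [Module k B]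
  [AddCommGroup T] [Module k T]

lemma cupFun_zero_left (β : A →ₗ[k] B →ₗ[k] T) (ρB : Representation k Γ B) (n : ℕ)
    (h : 0 + n = n) (x : (Fin 0 → Γ) → A) (y : (Fin n → Γ) → B) :
    cupFun β ρB 0 n n h x y = fun g => β (x default) (y g) := by
  funext g
  have e1 : Cup.tk 0 (by omega) g = default := Subsingleton.elim _ _
  have e2 : Cup.dp 0 n h g = g := funext fun i => by
    rw [Cup.dp_apply]
    congr 1
    ext
    simp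
  rw [cupFun_apply, Cup.pp_zero, map_one, Module.End.one_apply, e1, e2]

lemma cupFun_zero_right (β : A →ₗ[k] B →ₗ[k] T) (ρB : Representation k Γ B) (n : ℕ)
    (h : n + 0 = n) (x : (Fin n → Γ) → A) (y : (Fin 0 → Γ) → B)
    (hy : ∀ g, ρB g (y default) = y default) :
    cupFun β ρB n 0 n h x y = fun g => β (x g) (y default) := by
  funext g
  rw [cupFun_apply]
  have e1 : Cup.tk n (by omega) g = g := rfl
  have e2 : Cup.dp n 0 h g = default := Subsingleton.elim _ _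
  rw [e1, e2, hy]

end deg0

namespace LevelSys

variable {Γ : Type} [Group Γ] (L : LevelSys Γ) {k : Type} [CommRing k]
variable {A B T : Type} [AddCommGroup A] [Module k A] [AddCommGroup B] [Module k B]
  [AddCommGroup T] [Module k T]
variable {ρA : Representation k Γ A} {ρB : Representation k Γ B} {ρT : Representation k Γ T}

/-- The cup-product pairing `C(A) × C(B) → C(T)` of level cochain complexes attached to an
equivariant bilinear map `β`. -/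
def cupPairing (hA : L.IsSmooth ρA) (hB : L.IsSmooth ρB) (hT : L.IsSmooth ρT)
    (β : A →ₗ[k] B →ₗ[k] T) (hβ : ∀ g a b, β (ρA g a) (ρB g b) = ρT g (β a b)) :
    Cx.Pairing (L.cx ρA hA) (L.cx ρB hB) (L.cx ρT hT) where
  cup i j N h := LinearMap.mk₂ k
    (fun x y => (⟨cupFun β ρB i j N h x.1 y.1,
      isLevelConst_cupFun β hB i j N h x.2 y.2⟩ : L.cochains k T N))
    (fun x x' y => Subtype.ext (cupFun_add_left β ρB i j N h x.1 x'.1 y.1))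
    (fun c x y => Subtype.ext (cupFun_smul_left β ρB i j N h c x.1 y.1))
    (fun x y y' => Subtype.ext (cupFun_add_right β ρB i j N h x.1 y.1 y'.1))
    (fun c x y => Subtype.ext (cupFun_smul_right β ρB i j N h c x.1 y.1))
  leibniz i j N h x y := Subtype.ext (dLin_cupFun β hβ i j N h x.1 y.1)

lemma cupPairing_cup_coe (hA : L.IsSmooth ρA) (hB : L.IsSmooth ρB) (hT : L.IsSmooth ρT)
    (β : A →ₗ[k] B →ₗ[k] T) (hβ : ∀ g a b, β (ρA g a) (ρB g b) = ρT g (β a b))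
    (i j N : ℕ) (h : i + j = N) (x : (L.cx ρA hA).X i) (y : (L.cx ρB hB).X j) :
    ((L.cupPairing hA hB hT β hβ).cup i j N h x y).1 = cupFun β ρB i j N h x.1 y.1 := rfl

/-- explicit formula for the cup product of level cochains -/
lemma cupPairing_cup_apply (hA : L.IsSmooth ρA) (hB : L.IsSmooth ρB) (hT : L.IsSmooth ρT)
    (β : A →ₗ[k] B →ₗ[k] T) (hβ : ∀ g a b, β (ρA g a) (ρB g b) = ρT g (β a b))
    (i j N : ℕ) (h : i + j = N) (x : (L.cx ρA hA).X i) (y : (L.cx ρB hB).X j)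
    (g : Fin N → Γ) :
    ((L.cupPairing hA hB hT β hβ).cup i j N h x y).1 g =
      β (x.1 (Cup.tk i (by omega) g)) (ρB (Cup.pp i (by omega) g) (y.1 (Cup.dp i j h g))) := rfl

/-- cup products commute with restriction -/
lemma res_cupPairing {Γ' : Type} [Group Γ'] (L' : LevelSys Γ') {r : Γ' →* Γ}
    (hr : L.IsCts L' r) (hA : L.IsSmooth ρA) (hB : L.IsSmooth ρB) (hT : L.IsSmooth ρT)
    (hA' : L'.IsSmooth (ρA.comp r)) (hB' : L'.IsSmooth (ρB.comp r))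
    (hT' : L'.IsSmooth (ρT.comp r))
    (β : A →ₗ[k] B →ₗ[k] T) (hβ : ∀ g a b, β (ρA g a) (ρB g b) = ρT g (β a b))
    (i j N : ℕ) (h : i + j = N) (x : (L.cx ρA hA).X i) (y : (L.cx ρB hB).X j) :
    (L.res L' hr ρT hT hT').f N ((L.cupPairing hA hB hT β hβ).cup i j N h x y) =
      (L'.cupPairing hA' hB' hT' β (fun g a b => hβ (r g) a b)).cup i j N h
        ((L.res L' hr ρA hA hA').f i x) ((L.res L' hr ρB hB hB').f j y) :=
  Subtype.ext (cupFun_comp_hom r β ρB i j N h x.1 y.1).symm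

/-- cup products and adjoint maps of coefficients -/
lemma cupPairing_adj {A₂ B₂ : Type} [AddCommGroup A₂] [Module k A₂] [AddCommGroup B₂]
    [Module k B₂] {ρA₂ : Representation k Γ A₂} {ρB₂ : Representation k Γ B₂}
    (hA : L.IsSmooth ρA) (hB : L.IsSmooth ρB) (hT : L.IsSmooth ρT)
    (hA₂ : L.IsSmooth ρA₂) (hB₂ : L.IsSmooth ρB₂)
    (β : A →ₗ[k] B →ₗ[k] T) (hβ : ∀ g a b, β (ρA g a) (ρB g b) = ρT g (β a b))
    (β₂ : A₂ →ₗ[k] B₂ →ₗ[k] T) (hβ₂ : ∀ g a b, β₂ (ρA₂ g a) (ρB₂ g b) = ρT g (β₂ a b))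
    (a : A₂ →ₗ[k] A) (ha : ∀ g m, a (ρA₂ g m) = ρA g (a m))
    (b : B →ₗ[k] B₂) (hb : ∀ g m, b (ρB g m) = ρB₂ g (b m))
    (hadj : ∀ u v, β (a u) v = β₂ u (b v))
    (i j N : ℕ) (h : i + j = N) (x : (L.cx ρA₂ hA₂).X i) (y : (L.cx ρB hB).X j) :
    (L.cupPairing hA hB hT β hβ).cup i j N h ((L.mapCoeff hA₂ hA a ha).f i x) y =
      (L.cupPairing hA₂ hB₂ hT β₂ hβ₂).cup i j N h x ((L.mapCoeff hB hB₂ b hb).f j y) :=
  Subtype.ext (cupFun_adjoint β β₂ a b hb hadj i j N h x.1 y.1)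

/-- the value of a cochain of degree zero -/
def ev0 {M : Type} [AddCommGroup M] [Module k M] {ρ : Representation k Γ M}
    (hρ : L.IsSmooth ρ) : (L.cx ρ hρ).X 0 →ₗ[k] M where
  toFun x := x.1 default
  map_add' _ _ := rfl
  map_smul' _ _ := rfl

lemma ev0_apply {M : Type} [AddCommGroup M] [Module k M] {ρ : Representation k Γ M}
    (hρ : L.IsSmooth ρ) (x : (L.cx ρ hρ).X 0) : L.ev0 hρ x = x.1 default := rfl

/-- a cocycle of degree zero is an invariant vector -/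
lemma ev0_fixed {M : Type} [AddCommGroup M] [Module k M] {ρ : Representation k Γ M}
    (hρ : L.IsSmooth ρ) (x : (L.cx ρ hρ).X 0) (hx : (L.cx ρ hρ).d 0 x = 0) (g : Γ) :
    ρ g (L.ev0 hρ x) = L.ev0 hρ x := by
  have h := congrFun (congrArg Subtype.val hx) (fun _ : Fin 1 => g)
  rw [cx_d_apply, Fin.sum_univ_succ, Fin.sum_univ_zero] at h
  simp only [Fin.val_zero, zero_add, pow_one, neg_smul, one_smul, add_zero] at h
  have e1 : (fun i : Fin 0 => (fun _ : Fin 1 => g) i.succ) = default := Subsingleton.elim _ _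
  have e2 : Fin.contractNth (0 : Fin 1) (· * ·) (fun _ : Fin 1 => g) = default :=
    Subsingleton.elim _ _
  rw [e1, e2] at h
  exact sub_eq_zero.1 (by rw [sub_eq_add_neg]; exact h)

/-- a cochain of degree zero is a cocycle iff its value is an invariant vector -/
lemma d_zero_eq_zero_iff {M : Type} [AddCommGroup M] [Module k M] {ρ : Representation k Γ M}
    (hρ : L.IsSmooth ρ) (x : (L.cx ρ hρ).X 0) :
    (L.cx ρ hρ).d 0 x = 0 ↔ ∀ g, ρ g (L.ev0 hρ x) = L.ev0 hρ x := by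
  refine ⟨fun hx g => L.ev0_fixed hρ x hx g, fun hx => ?_⟩
  apply cx_ext
  intro g
  rw [cx_d_apply, Fin.sum_univ_succ, Fin.sum_univ_zero]
  simp only [Fin.val_zero, zero_add, pow_one, neg_smul, one_smul, add_zero]
  have e1 : (fun i : Fin 0 => g i.succ) = default := Subsingleton.elim _ _
  have e2 : Fin.contractNth (0 : Fin 1) (· * ·) g = default := Subsingleton.elim _ _
  rw [e1, e2]
  have := hx (g 0)
  rw [ev0_apply] at this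
  rw [this, add_neg_cancel]
  rfl

/-- the cochain of degree zero with a given value -/
def const0 {M : Type} [AddCommGroup M] [Module k M] {ρ : Representation k Γ M}
    (hρ : L.IsSmooth ρ) (m : M) : (L.cx ρ hρ).X 0 :=
  ⟨fun _ => m, isLevelConst_const m⟩

@[simp] lemma ev0_const0 {M : Type} [AddCommGroup M] [Module k M] {ρ : Representation k Γ M}
    (hρ : L.IsSmooth ρ) (m : M) : L.ev0 hρ (L.const0 hρ m) = m := rfl

lemma const0_ev0 {M : Type} [AddCommGroup M] [Module k M] {ρ : Representation k Γ M}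
    (hρ : L.IsSmooth ρ) (x : (L.cx ρ hρ).X 0) : L.const0 hρ (L.ev0 hρ x) = x := by
  apply cx_ext
  intro g
  show x.1 default = x.1 g
  exact congrArg x.1 (Subsingleton.elim _ _)

/-- left multiplication by an invariant vector is equivariant -/
lemma cup_left_equivariant (β : A →ₗ[k] B →ₗ[k] T)
    (hβ : ∀ g a b, β (ρA g a) (ρB g b) = ρT g (β a b)) {a : A} (ha : ∀ g, ρA g a = a)
    (g : Γ) (b : B) : β a (ρB g b) = ρT g (β a b) := by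
  rw [← hβ, ha]

/-- right multiplication by an invariant vector is equivariant -/
lemma cup_right_equivariant (β : A →ₗ[k] B →ₗ[k] T)
    (hβ : ∀ g a b, β (ρA g a) (ρB g b) = ρT g (β a b)) {b : B} (hb : ∀ g, ρB g b = b)
    (g : Γ) (a : A) : β.flip b (ρA g a) = ρT g (β.flip b a) := by
  rw [LinearMap.flip_apply, LinearMap.flip_apply, ← hβ, hb]

/-- the cup product with a 0-cochain with invariant value (left) is a coefficient map -/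
lemma cupPairing_zero_left (hA : L.IsSmooth ρA) (hB : L.IsSmooth ρB) (hT : L.IsSmooth ρT)
    (β : A →ₗ[k] B →ₗ[k] T) (hβ : ∀ g a b, β (ρA g a) (ρB g b) = ρT g (β a b))
    (u : (L.cx ρA hA).X 0) (a₀ : A) (hu : L.ev0 hA u = a₀) (ha₀ : ∀ g, ρA g a₀ = a₀)
    (j : ℕ) (h : 0 + j = j) (b : (L.cx ρB hB).X j) :
    (L.cupPairing hA hB hT β hβ).cup 0 j j h u b =
      (L.mapCoeff hB hT (β a₀) (cup_left_equivariant β hβ ha₀)).f j b := by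
  subst hu
  exact Subtype.ext (cupFun_zero_left β ρB j h u.1 b.1)

/-- the cup product with a 0-cochain with invariant value (right) is a coefficient map -/
lemma cupPairing_zero_right (hA : L.IsSmooth ρA) (hB : L.IsSmooth ρB) (hT : L.IsSmooth ρT)
    (β : A →ₗ[k] B →ₗ[k] T) (hβ : ∀ g a b, β (ρA g a) (ρB g b) = ρT g (β a b))
    (w : (L.cx ρB hB).X 0) (b₀ : B) (hw : L.ev0 hB w = b₀) (hb₀ : ∀ g, ρB g b₀ = b₀)
    (i : ℕ) (h : i + 0 = i) (a : (L.cx ρA hA).X i) :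
    (L.cupPairing hA hB hT β hβ).cup i 0 i h a w =
      (L.mapCoeff hA hT (β.flip b₀) (cup_right_equivariant β hβ hb₀)).f i a := by
  subst hw
  exact Subtype.ext (cupFun_zero_right β ρB i h a.1 w.1 hb₀)

end LevelSys

namespace LocDatum

variable {G : Type} [Group G] (𝔇 : LocDatum G) {k : Type} [CommRing k]
variable {A B T : Type} [AddCommGroup A] [Module k A] [AddCommGroup B] [Module k B]
  [AddCommGroup T] [Module k T]
variable {ρA : Representation k G A} {ρB : Representation k G B} {ρT : Representation k G T}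

section defs

variable (hA : 𝔇.IsSmooth ρA) (hB : 𝔇.IsSmooth ρB) (hT : 𝔇.IsSmooth ρT)
  (β : A →ₗ[k] B →ₗ[k] T) (hβ : ∀ g a b, β (ρA g a) (ρB g b) = ρT g (β a b))

/-- the global pairing `C(A) × C(B) → C(T)` -/
def cupC : Cx.Pairing (𝔇.C ρA hA) (𝔇.C ρB hB) (𝔇.C ρT hT) := 𝔇.L.cupPairing hA hB hT β hβ

/-- the local pairing `C_v(A) × C_v(B) → C_v(T)` -/
def cupCv (v : 𝔇.ι) : Cx.Pairing (𝔇.Cv ρA hA v) (𝔇.Cv ρB hB v) (𝔇.Cv ρT hT v) :=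
  (𝔇.Lv v).cupPairing (𝔇.isSmooth_resRep hA v) (𝔇.isSmooth_resRep hB v)
    (𝔇.isSmooth_resRep hT v) β (fun g a b => hβ g a b)

/-- the pairing `C(A) × ∏_v C_v(B) → ∏_v C_v(T)`, `(a, (b_v)) ↦ (a|_v ∪ b_v)` -/
def cupCloc : Cx.Pairing (𝔇.C ρA hA) (𝔇.Cloc ρB hB) (𝔇.Cloc ρT hT) :=
  Cx.Pairing.pi fun v => (𝔇.cupCv hA hB hT β hβ v).comapLeft (𝔇.resv ρA hA v)

lemma loc_cupC (i j N : ℕ) (h : i + j = N) (a : (𝔇.C ρA hA).X i) (c : (𝔇.C ρB hB).X j) :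
    (𝔇.loc ρT hT).f N ((𝔇.cupC hA hB hT β hβ).cup i j N h a c) =
      (𝔇.cupCloc hA hB hT β hβ).cup i j N h a ((𝔇.loc ρB hB).f j c) :=
  funext fun v => LevelSys.res_cupPairing 𝔇.L (𝔇.Lv v) (𝔇.cts v) hA hB hT
    (𝔇.isSmooth_resRep hA v) (𝔇.isSmooth_resRep hB v) (𝔇.isSmooth_resRep hT v) β hβ i j N h a c

/-- The pairing `C(A) × C_c(B) → C_c(T)`: `a ∪ (c, (e_v)) = (a ∪ c, ((-1)^i • a|_v ∪ e_v))`. -/
def cupCc : Cx.Pairing (𝔇.C ρA hA) (𝔇.Cc ρB hB) (𝔇.Cc ρT hT) :=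
  Cx.Pairing.cocone (𝔇.cupC hA hB hT β hβ) (𝔇.cupCloc hA hB hT β hβ) (𝔇.loc ρB hB)
    (𝔇.loc ρT hT) (𝔇.loc_cupC hA hB hT β hβ)

/-- The cup product `H^i(A) × H^j_c(B) → H^N_c(T)`, `i + j = N`. -/
def cup (i j N : ℕ) (h : i + j = N) :
    𝔇.H ρA hA i →ₗ[k] 𝔇.Hc ρB hB j →ₗ[k] 𝔇.Hc ρT hT N :=
  (𝔇.cupCc hA hB hT β hβ).cupH i j N h

/-- The cup product `H^i(A) × H^j(B) → H^N(T)`, `i + j = N`. -/
def cupG (i j N : ℕ) (h : i + j = N) :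
    𝔇.H ρA hA i →ₗ[k] 𝔇.H ρB hB j →ₗ[k] 𝔇.H ρT hT N :=
  (𝔇.cupC hA hB hT β hβ).cupH i j N h

/-- The local cup product `H^i_v(A) × H^j_v(B) → H^N_v(T)`, `i + j = N`. -/
def cupV (v : 𝔇.ι) (i j N : ℕ) (h : i + j = N) :
    𝔇.Hv ρA hA v i →ₗ[k] 𝔇.Hv ρB hB v j →ₗ[k] 𝔇.Hv ρT hT v N :=
  (𝔇.cupCv hA hB hT β hβ v).cupH i j N h

/-- `H¹(A) × H²_c(B) → H³_c(T)` -/
abbrev cup12 : 𝔇.H ρA hA 1 →ₗ[k] 𝔇.Hc ρB hB 2 →ₗ[k] 𝔇.Hc ρT hT 3 :=
  𝔇.cup hA hB hT β hβ 1 2 3 rfl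

/-- `H²(A) × H¹_c(B) → H³_c(T)` -/
abbrev cup21 : 𝔇.H ρA hA 2 →ₗ[k] 𝔇.Hc ρB hB 1 →ₗ[k] 𝔇.Hc ρT hT 3 :=
  𝔇.cup hA hB hT β hβ 2 1 3 rfl

/-- the cup product on classes of cocycles -/
lemma cup_cls (i j N : ℕ) (h : i + j = N) (a : (𝔇.C ρA hA).X i)
    (ha : (𝔇.C ρA hA).d i a = 0) (x : (𝔇.Cc ρB hB).X j) (hx : (𝔇.Cc ρB hB).d j x = 0) :
    𝔇.cup hA hB hT β hβ i j N h ((𝔇.C ρA hA).cls i a ha) ((𝔇.Cc ρB hB).cls j x hx) =
      (𝔇.Cc ρT hT).cls N ((𝔇.cupCc hA hB hT β hβ).cup i j N h a x)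
        ((𝔇.cupCc hA hB hT β hβ).cup_mem_Z i j N h ha hx) := rfl

/-- compatibility with `H^n_c → H^n` -/
lemma πc_cup (i j N : ℕ) (h : i + j = N) (y : 𝔇.H ρA hA i) (x : 𝔇.Hc ρB hB j) :
    𝔇.πc ρT hT N (𝔇.cup hA hB hT β hβ i j N h y x) =
      𝔇.cupG hA hB hT β hβ i j N h y (𝔇.πc ρB hB j x) :=
  Cx.Pairing.coconeπ_cupH _ _ _ _ _ i j N h y x

/-- compatibility with `∏_v H^n_v → H^{n+1}_c`:
`y ∪ ιc (m_v) = (-1)^i • ιc (y|_v ∪ m_v)`. -/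
lemma cup_ιc (i j N : ℕ) (h : i + j = N) (y : 𝔇.H ρA hA i) (m : ∀ v, 𝔇.Hv ρB hB v j) :
    𝔇.cup hA hB hT β hβ i (j + 1) (N + 1) (by omega) y (𝔇.ιc ρB hB j m) =
      (-1 : k) ^ i • 𝔇.ιc ρT hT N (fun v =>
        𝔇.cupV hA hB hT β hβ v i j N h ((𝔇.resv ρA hA v).mapH i y) (m v)) := by
  set eB := LinearEquiv.ofBijective (Cx.piH (fun v => 𝔇.Cv ρB hB v) j) (Cx.piH_bijective _ j)
    with heB
  set eT := LinearEquiv.ofBijective (Cx.piH (fun v => 𝔇.Cv ρT hT v) N) (Cx.piH_bijective _ N)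
    with heT
  have h1 := Cx.Pairing.cupH_coconeι (𝔇.cupC hA hB hT β hβ) (𝔇.cupCloc hA hB hT β hβ)
    (𝔇.loc ρB hB) (𝔇.loc ρT hT) (𝔇.loc_cupC hA hB hT β hβ) i j N h y (eB.symm m)
  have h2 : (𝔇.cupCloc hA hB hT β hβ).cupH i j N h y (eB.symm m) =
      eT.symm (fun v => 𝔇.cupV hA hB hT β hβ v i j N h ((𝔇.resv ρA hA v).mapH i y) (m v)) := by
    rw [LinearEquiv.eq_symm_apply]
    funext v
    show Cx.piH (fun v => 𝔇.Cv ρT hT v) N ((𝔇.cupCloc hA hB hT β hβ).cupH i j N h y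
      (eB.symm m)) v = _
    rw [cupCloc, Cx.Pairing.piH_pi_cupH, Cx.Pairing.comapLeft_cupH]
    have h3 : Cx.piH (fun v => 𝔇.Cv ρB hB v) j (eB.symm m) = m := eB.apply_symm_apply m
    rw [h3]
    rfl
  rw [h2] at h1
  exact h1

/-- the product with a 0-cocycle on the left is the coefficient map of `β û` -/
theorem cup_zero_left (u : (𝔇.C ρA hA).X 0) (hu : (𝔇.C ρA hA).d 0 u = 0) (j : ℕ)
    (h : 0 + j = j) (x : 𝔇.Hc ρB hB j) :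
    𝔇.cup hA hB hT β hβ 0 j j h ((𝔇.C ρA hA).cls 0 u hu) x =
      (𝔇.mapCc hB hT (β (𝔇.L.ev0 hA u))
        (LevelSys.cup_left_equivariant β hβ (𝔇.L.ev0_fixed hA u hu))).mapH j x := by
  refine Cx.Pairing.cupH_zero_left (𝔇.cupCc hA hB hT β hβ) u hu _ (fun j h b => ?_) j h x
  refine Cx.Pairing.cocone_cup_zero_left (𝔇.cupC hA hB hT β hβ) (𝔇.cupCloc hA hB hT β hβ)
    (𝔇.loc ρB hB) (𝔇.loc ρT hT) (𝔇.loc_cupC hA hB hT β hβ) u _ _ _ (fun j h c => ?_)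
    (fun j h e => ?_) j h b
  · exact LevelSys.cupPairing_zero_left 𝔇.L hA hB hT β hβ u _ rfl
      (𝔇.L.ev0_fixed hA u hu) j h c
  · funext v
    exact LevelSys.cupPairing_zero_left (𝔇.Lv v) (𝔇.isSmooth_resRep hA v)
      (𝔇.isSmooth_resRep hB v) (𝔇.isSmooth_resRep hT v) β (fun g a b => hβ g a b)
      ((𝔇.resv ρA hA v).f 0 u) _ (congrArg u.1 (Subsingleton.elim _ _))
      (fun g => 𝔇.L.ev0_fixed hA u hu g) j h (e v)

/-- the local product with a 0-cocycle on the right is the coefficient map of `β · ŵ` -/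
theorem cupV_zero_right (v : 𝔇.ι) (w : (𝔇.Cv ρB hB v).X 0) (hw : (𝔇.Cv ρB hB v).d 0 w = 0)
    (i : ℕ) (h : i + 0 = i) (y : 𝔇.Hv ρA hA v i) :
    𝔇.cupV hA hB hT β hβ v i 0 i h y ((𝔇.Cv ρB hB v).cls 0 w hw) =
      ((𝔇.Lv v).mapCoeff (𝔇.isSmooth_resRep hA v) (𝔇.isSmooth_resRep hT v)
        (β.flip ((𝔇.Lv v).ev0 (𝔇.isSmooth_resRep hB v) w))
        (LevelSys.cup_right_equivariant (ρA := 𝔇.resRep ρA v) (ρB := 𝔇.resRep ρB v)
          (ρT := 𝔇.resRep ρT v) β (fun g a b => hβ g a b)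
          ((𝔇.Lv v).ev0_fixed (𝔇.isSmooth_resRep hB v) w hw))).mapH i y :=
  Cx.Pairing.cupH_zero_right (𝔇.cupCv hA hB hT β hβ v) w hw _
    (fun i h a => LevelSys.cupPairing_zero_right (𝔇.Lv v) (𝔇.isSmooth_resRep hA v)
      (𝔇.isSmooth_resRep hB v) (𝔇.isSmooth_resRep hT v) β (fun g a b => hβ g a b) w _ rfl
      ((𝔇.Lv v).ev0_fixed (𝔇.isSmooth_resRep hB v) w hw) i h a) i h y

/-- `y ∪ ιc (ŵ_v) = (-1)^i • ιc ((β · ŵ_v)_* (y|_v))` for local invariant vectors `ŵ_v`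
(given as 0-cocycles `w v`). -/
theorem cup_ιc_zero (w : ∀ v, (𝔇.Cv ρB hB v).X 0) (hw : ∀ v, (𝔇.Cv ρB hB v).d 0 (w v) = 0)
    (i : ℕ) (y : 𝔇.H ρA hA i) :
    𝔇.cup hA hB hT β hβ i 1 (i + 1) rfl y
        (𝔇.ιc ρB hB 0 fun v => (𝔇.Cv ρB hB v).cls 0 (w v) (hw v)) =
      (-1 : k) ^ i • 𝔇.ιc ρT hT i (fun v =>
        ((𝔇.Lv v).mapCoeff (𝔇.isSmooth_resRep hA v) (𝔇.isSmooth_resRep hT v)
          (β.flip ((𝔇.Lv v).ev0 (𝔇.isSmooth_resRep hB v) (w v)))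
          (LevelSys.cup_right_equivariant (ρA := 𝔇.resRep ρA v) (ρB := 𝔇.resRep ρB v)
            (ρT := 𝔇.resRep ρT v) β (fun g a b => hβ g a b)
            ((𝔇.Lv v).ev0_fixed (𝔇.isSmooth_resRep hB v) (w v) (hw v)))).mapH i
          ((𝔇.resv ρA hA v).mapH i y)) := by
  rw [𝔇.cup_ιc hA hB hT β hβ i 0 i (add_zero i) y]
  congr 2
  funext v
  exact 𝔇.cupV_zero_right hA hB hT β hβ v (w v) (hw v) i (add_zero i) _

end defs

/-! ### Naturality and connecting homomorphisms -/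

section nat

variable {A₁ A₂ B₁ B₂ : Type} [AddCommGroup A₁] [Module k A₁] [AddCommGroup A₂] [Module k A₂]
  [AddCommGroup B₁] [Module k B₁] [AddCommGroup B₂] [Module k B₂]
  {ρA₁ : Representation k G A₁} {ρA₂ : Representation k G A₂}
  {ρB₁ : Representation k G B₁} {ρB₂ : Representation k G B₂}

/-- adjoint coefficient maps, on cochains: `(f a) ∪ x = a ∪ (g x)` -/
lemma cupCc_adj (hA₁ : 𝔇.IsSmooth ρA₁) (hA₂ : 𝔇.IsSmooth ρA₂) (hB₁ : 𝔇.IsSmooth ρB₁)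
    (hB₂ : 𝔇.IsSmooth ρB₂) (hT : 𝔇.IsSmooth ρT)
    (β₁ : A₁ →ₗ[k] B₁ →ₗ[k] T) (hβ₁ : ∀ g a b, β₁ (ρA₁ g a) (ρB₁ g b) = ρT g (β₁ a b))
    (β₂ : A₂ →ₗ[k] B₂ →ₗ[k] T) (hβ₂ : ∀ g a b, β₂ (ρA₂ g a) (ρB₂ g b) = ρT g (β₂ a b))
    (f : A₁ →ₗ[k] A₂) (hf : ∀ g m, f (ρA₁ g m) = ρA₂ g (f m))
    (g : B₂ →ₗ[k] B₁) (hg : ∀ s m, g (ρB₂ s m) = ρB₁ s (g m))
    (hadj : ∀ a b, β₂ (f a) b = β₁ a (g b))
    (i j N : ℕ) (h : i + j = N) (a : (𝔇.C ρA₁ hA₁).X i) (x : (𝔇.Cc ρB₂ hB₂).X j) :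
    (𝔇.cupCc hA₂ hB₂ hT β₂ hβ₂).cup i j N h ((𝔇.mapC hA₁ hA₂ f hf).f i a) x =
      (𝔇.cupCc hA₁ hB₁ hT β₁ hβ₁).cup i j N h a ((𝔇.mapCc hB₂ hB₁ g hg).f j x) := by
  refine Cx.Pairing.cocone_cup_adj (𝔇.cupC hA₂ hB₂ hT β₂ hβ₂) (𝔇.cupCloc hA₂ hB₂ hT β₂ hβ₂)
    (𝔇.loc ρB₂ hB₂) (𝔇.loc ρT hT) (𝔇.loc_cupC hA₂ hB₂ hT β₂ hβ₂)
    (𝔇.cupC hA₁ hB₁ hT β₁ hβ₁) (𝔇.cupCloc hA₁ hB₁ hT β₁ hβ₁) (𝔇.loc ρB₁ hB₁)
    (𝔇.loc_cupC hA₁ hB₁ hT β₁ hβ₁) (𝔇.mapC hA₁ hA₂ f hf) (𝔇.mapC hB₂ hB₁ g hg)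
    (𝔇.mapCloc hB₂ hB₁ g hg) (𝔇.loc_mapC hB₂ hB₁ g hg) (fun i j N h a c => ?_)
    (fun i j N h a e => ?_) i j N h a x
  · exact LevelSys.cupPairing_adj 𝔇.L hA₂ hB₂ hT hA₁ hB₁ β₂ hβ₂ β₁ hβ₁ f hf g hg hadj
      i j N h a c
  · funext v
    exact LevelSys.cupPairing_adj (𝔇.Lv v) (𝔇.isSmooth_resRep hA₂ v)
      (𝔇.isSmooth_resRep hB₂ v) (𝔇.isSmooth_resRep hT v) (𝔇.isSmooth_resRep hA₁ v)
      (𝔇.isSmooth_resRep hB₁ v) β₂ (fun g a b => hβ₂ g a b) β₁ (fun g a b => hβ₁ g a b)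
      f (fun g m => hf g m) g (fun s m => hg s m) hadj i j N h
      ((𝔇.resv ρA₁ hA₁ v).f i a) (e v)

/-- **Naturality** of the cup product: for `f : A₁ → A₂`, `g : B₂ → B₁` with
`β₁ a (g b) = β₂ (f a) b`:  `y ∪ g_* x = f_* y ∪ x`. -/
theorem cup_nat (hA₁ : 𝔇.IsSmooth ρA₁) (hA₂ : 𝔇.IsSmooth ρA₂) (hB₁ : 𝔇.IsSmooth ρB₁)
    (hB₂ : 𝔇.IsSmooth ρB₂) (hT : 𝔇.IsSmooth ρT)
    (β₁ : A₁ →ₗ[k] B₁ →ₗ[k] T) (hβ₁ : ∀ g a b, β₁ (ρA₁ g a) (ρB₁ g b) = ρT g (β₁ a b))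
    (β₂ : A₂ →ₗ[k] B₂ →ₗ[k] T) (hβ₂ : ∀ g a b, β₂ (ρA₂ g a) (ρB₂ g b) = ρT g (β₂ a b))
    (f : A₁ →ₗ[k] A₂) (hf : ∀ g m, f (ρA₁ g m) = ρA₂ g (f m))
    (g : B₂ →ₗ[k] B₁) (hg : ∀ s m, g (ρB₂ s m) = ρB₁ s (g m))
    (hadj : ∀ a b, β₁ a (g b) = β₂ (f a) b)
    (i j N : ℕ) (h : i + j = N) (y : 𝔇.H ρA₁ hA₁ i) (x : 𝔇.Hc ρB₂ hB₂ j) :
    𝔇.cup hA₁ hB₁ hT β₁ hβ₁ i j N h y ((𝔇.mapCc hB₂ hB₁ g hg).mapH j x) =
      𝔇.cup hA₂ hB₂ hT β₂ hβ₂ i j N h ((𝔇.mapC hA₁ hA₂ f hf).mapH i y) x :=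
  (Cx.Pairing.cupH_congr (𝔇.cupCc hA₂ hB₂ hT β₂ hβ₂) (𝔇.cupCc hA₁ hB₁ hT β₁ hβ₁)
    (𝔇.mapC hA₁ hA₂ f hf) (𝔇.mapCc hB₂ hB₁ g hg)
    (𝔇.cupCc_adj hA₁ hA₂ hB₁ hB₂ hT β₁ hβ₁ β₂ hβ₂ f hf g hg (fun a b => (hadj a b).symm))
    i j N h y x).symm

end nat

section delta

variable {A' A'' B' B'' : Type} [AddCommGroup A'] [Module k A'] [AddCommGroup A'']
  [Module k A''] [AddCommGroup B'] [Module k B'] [AddCommGroup B''] [Module k B'']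
  {ρA' : Representation k G A'} {ρA'' : Representation k G A''}
  {ρB' : Representation k G B'} {ρB'' : Representation k G B''}

/-- **Compatibility with connecting homomorphisms.**  For short exact sequences
`0 → A' → A → A'' → 0` and `0 → B'' → B → B' → 0` and pairings `β' : A' × B' → T`,
`β : A × B → T`, `β'' : A'' × B'' → T` adjoint along the maps:
`δ y ∪ x = (-1)^(i+1) • y ∪ δ x` for `y ∈ H^i(A'')`, `x ∈ H^j_c(B')`. -/
theorem cup_δ (hA' : 𝔇.IsSmooth ρA') (hA : 𝔇.IsSmooth ρA) (hA'' : 𝔇.IsSmooth ρA'')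
    (hB'' : 𝔇.IsSmooth ρB'') (hB : 𝔇.IsSmooth ρB) (hB' : 𝔇.IsSmooth ρB')
    (hT : 𝔇.IsSmooth ρT)
    (iA : A' →ₗ[k] A) (qA : A →ₗ[k] A'')
    (hiA : ∀ g m, iA (ρA' g m) = ρA g (iA m)) (hqA : ∀ g m, qA (ρA g m) = ρA'' g (qA m))
    (hAinj : Function.Injective iA) (hAex : Function.Exact iA qA)
    (hAsurj : Function.Surjective qA)
    (jB : B'' →ₗ[k] B) (pB : B →ₗ[k] B')
    (hjB : ∀ g m, jB (ρB'' g m) = ρB g (jB m)) (hpB : ∀ g m, pB (ρB g m) = ρB' g (pB m))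
    (hBinj : Function.Injective jB) (hBex : Function.Exact jB pB)
    (hBsurj : Function.Surjective pB)
    (β' : A' →ₗ[k] B' →ₗ[k] T) (hβ' : ∀ g a b, β' (ρA' g a) (ρB' g b) = ρT g (β' a b))
    (β : A →ₗ[k] B →ₗ[k] T) (hβ : ∀ g a b, β (ρA g a) (ρB g b) = ρT g (β a b))
    (β'' : A'' →ₗ[k] B'' →ₗ[k] T) (hβ'' : ∀ g a b, β'' (ρA'' g a) (ρB'' g b) = ρT g (β'' a b))
    (adj' : ∀ a' b, β (iA a') b = β' a' (pB b))
    (adj'' : ∀ a b'', β a (jB b'') = β'' (qA a) b'')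
    (i j N : ℕ) (h : i + j + 1 = N) (y : 𝔇.H ρA'' hA'' i) (x : 𝔇.Hc ρB' hB' j) :
    𝔇.cup hA' hB' hT β' hβ' (i + 1) j N (by omega)
        ((𝔇.shortExact_mapC hA' hA hA'' iA qA hiA hqA hAinj hAex hAsurj).δ i y) x =
      (-1 : k) ^ (i + 1) • 𝔇.cup hA'' hB'' hT β'' hβ'' i (j + 1) N (by omega) y
        ((𝔇.shortExact_mapCc hB'' hB hB' jB pB hjB hpB hBinj hBex hBsurj).δ j x) :=
  Cx.Pairing.cupH_δ (𝔇.shortExact_mapC hA' hA hA'' iA qA hiA hqA hAinj hAex hAsurj)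
    (𝔇.shortExact_mapCc hB'' hB hB' jB pB hjB hpB hBinj hBex hBsurj)
    (𝔇.cupCc hA'' hB'' hT β'' hβ'') (𝔇.cupCc hA hB hT β hβ) (𝔇.cupCc hA' hB' hT β' hβ')
    (fun i j N h a b => (𝔇.cupCc_adj hA hA'' hB hB'' hT β hβ β'' hβ'' qA hqA jB hjB
      (fun a b => (adj'' a b).symm) i j N h a b).symm)
    (fun i j N h a b => 𝔇.cupCc_adj hA' hA hB' hB hT β' hβ' β hβ iA hiA pB hpB adj' i j N h a b)
    i j N h y x

/-- The square between `cup12` and the functoriality pairing `H⁰ × H³_c`: for a 0-cocycle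
`u` of `A''` with value `û` and `x ∈ H²_c(B')`:
`δ[u] ∪ x = - (β'' û)_* (δ x)` in `H³_c(T)`. -/
theorem cup12_δ_zero (hA' : 𝔇.IsSmooth ρA') (hA : 𝔇.IsSmooth ρA) (hA'' : 𝔇.IsSmooth ρA'')
    (hB'' : 𝔇.IsSmooth ρB'') (hB : 𝔇.IsSmooth ρB) (hB' : 𝔇.IsSmooth ρB')
    (hT : 𝔇.IsSmooth ρT)
    (iA : A' →ₗ[k] A) (qA : A →ₗ[k] A'')
    (hiA : ∀ g m, iA (ρA' g m) = ρA g (iA m)) (hqA : ∀ g m, qA (ρA g m) = ρA'' g (qA m))
    (hAinj : Function.Injective iA) (hAex : Function.Exact iA qA)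
    (hAsurj : Function.Surjective qA)
    (jB : B'' →ₗ[k] B) (pB : B →ₗ[k] B')
    (hjB : ∀ g m, jB (ρB'' g m) = ρB g (jB m)) (hpB : ∀ g m, pB (ρB g m) = ρB' g (pB m))
    (hBinj : Function.Injective jB) (hBex : Function.Exact jB pB)
    (hBsurj : Function.Surjective pB)
    (β' : A' →ₗ[k] B' →ₗ[k] T) (hβ' : ∀ g a b, β' (ρA' g a) (ρB' g b) = ρT g (β' a b))
    (β : A →ₗ[k] B →ₗ[k] T) (hβ : ∀ g a b, β (ρA g a) (ρB g b) = ρT g (β a b))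
    (β'' : A'' →ₗ[k] B'' →ₗ[k] T) (hβ'' : ∀ g a b, β'' (ρA'' g a) (ρB'' g b) = ρT g (β'' a b))
    (adj' : ∀ a' b, β (iA a') b = β' a' (pB b))
    (adj'' : ∀ a b'', β a (jB b'') = β'' (qA a) b'')
    (u : (𝔇.C ρA'' hA'').X 0) (hu : (𝔇.C ρA'' hA'').d 0 u = 0) (x : 𝔇.Hc ρB' hB' 2) :
    𝔇.cup12 hA' hB' hT β' hβ'
        ((𝔇.shortExact_mapC hA' hA hA'' iA qA hiA hqA hAinj hAex hAsurj).δ 0
          ((𝔇.C ρA'' hA'').cls 0 u hu)) x =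
      -(𝔇.mapCc hB'' hT (β'' (𝔇.L.ev0 hA'' u))
          (LevelSys.cup_left_equivariant β'' hβ'' (𝔇.L.ev0_fixed hA'' u hu))).mapH 3
        ((𝔇.shortExact_mapCc hB'' hB hB' jB pB hjB hpB hBinj hBex hBsurj).δ 2 x) := by
  have h1 := 𝔇.cup_δ hA' hA hA'' hB'' hB hB' hT iA qA hiA hqA hAinj hAex hAsurj jB pB hjB hpB
    hBinj hBex hBsurj β' hβ' β hβ β'' hβ'' adj' adj'' 0 2 3 rfl ((𝔇.C ρA'' hA'').cls 0 u hu) x
  rw [𝔇.cup_zero_left hA'' hB'' hT β'' hβ'' u hu 3 (zero_add 3)] at h1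
  have e : (-1 : k) ^ (0 + 1) = -1 := by norm_num
  rw [e, neg_smul, one_smul] at h1
  exact h1

end delta

end LocDatum

end Fermat.Agent.PT
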