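/-
PT layer F (F-REX): the right-exact-functor lemma behind (C1) and its local twin.

A `CohFun k L` is a "cohomological functor" on the smooth representations of a leveled group
`(Γ, L)`: a complex `K ρ` for every smooth `ρ`, functorial and `k`-linear in equivariant maps.
Instances: the level complex itself (`levelFun k L`) and, for a Poitou–Tate datum `𝔇`, the
compactly supported complex (`ccFun k 𝔇`).

For a smooth `τ` on `T` and a functional `tr` on `H^n(K τ)` we get the natural map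
`F.alpha n hρ hτ tr : H^n(K ρ) → Hom_Γ(M, T)^*`, `x ↦ (y ↦ tr (y_* x))`, where
`eqHom ρ τ = Hom_Γ(M, T)` is the module of equivariant linear maps.  The target is right exact
in `M` (we are over a field), so:

* `CohFun.alpha_surjective_of_cover` : `P ↠ M` equivariant and `alpha P` surjective ⇒ `alpha M`
  surjective;
* `CohFun.alpha_injective_of_cover` : `P ↠ M` with kernel `K`, `alpha P` injective, `alpha K`
  surjective and `H^n(K P) → H^n(K M)` surjective ⇒ `alpha M` injective;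
* `CohFun.alpha_bijective_of_sum` : if `id_M = ∑ ι_j ∘ p_j` factors through an object `Y` with
  `alpha Y` bijective, then `alpha M` is bijective;
* `PN N k V`, `pnRep` : the permutation module of functions `Γ/N → V` with `Γ` acting by right
  translation; `pnSum ρ N : P_N(M) ↠ M` for an `N`-trivial `M`;
* `CohFun.alpha_bijective` : **F-REX** — right exactness of `H^n` on finite smooth
  representations + bijectivity of `alpha` on `P_N(k)` for a cofinal family of levels `N` ⇒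
  bijectivity of `alpha` on every finite smooth representation;
* `level_rex`, `cc_rex` : right exactness of `H^n(Γ; ·)`, resp. of `H^{n+1}_c`, from the vanishing
  of `H^{n+1}` (resp. of the global and local `H^{n+1}`); `ιc_natural`;
* `cc_alpha_bijective` : **(C1)**;  `level_alpha_bijective` : its local twin;
  `finrank_eq_of_alpha_bijective` : the dimension form.
-/
import Fermat.Agent.PT.Coh.Setup

set_option autoImplicit false

namespace Fermat.Agent.PT.Rex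

open Fermat.Agent.PT

/-! ### Functoriality of the level complex, of products and of co-cones -/

section CxLemmas

variable {k : Type} [CommRing k]

lemma piMap_id {ι : Type} (D : ι → Cx k) :
    Cx.piMap (fun i => Cx.Hom.id (D i)) = Cx.Hom.id (Cx.pi D) :=
  Cx.Hom.ext fun _ _ => rfl

lemma piMap_comp {ι : Type} {D D' D'' : ι → Cx k} (ψ : ∀ i, Cx.Hom (D' i) (D'' i))
    (φ : ∀ i, Cx.Hom (D i) (D' i)) :
    Cx.piMap (fun i => (ψ i).comp (φ i)) = (Cx.piMap ψ).comp (Cx.piMap φ) :=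
  Cx.Hom.ext fun _ _ => rfl

lemma piMap_add {ι : Type} {D D' : ι → Cx k} (φ ψ : ∀ i, Cx.Hom (D i) (D' i)) :
    Cx.piMap (fun i => (φ i).add (ψ i)) = (Cx.piMap φ).add (Cx.piMap ψ) :=
  Cx.Hom.ext fun _ _ => rfl

lemma piMap_smul {ι : Type} {D D' : ι → Cx k} (c : k) (φ : ∀ i, Cx.Hom (D i) (D' i)) :
    Cx.piMap (fun i => (φ i).smul c) = (Cx.piMap φ).smul c :=
  Cx.Hom.ext fun _ _ => rfl

variable {C D C' D' C'' D'' : Cx k}

/-- two morphisms out of a co-cone agree if they agree on both components -/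
lemma coconeHom_ext {E : Cx k} {φ : Cx.Hom C D} (F₁ F₂ : Cx.Hom (Cx.cocone φ) E)
    (h0 : ∀ x, F₁.f 0 x = F₂.f 0 x)
    (h : ∀ n c e, F₁.f (n + 1) (Cx.coconeMk φ c e) = F₂.f (n + 1) (Cx.coconeMk φ c e)) :
    F₁ = F₂ := by
  refine Cx.Hom.ext fun n x => ?_
  cases n with
  | zero => exact h0 x
  | succ n =>
    obtain ⟨c, e, rfl⟩ := Cx.coconeMk_surjective φ x
    exact h n c e

lemma coconeMap_zero_apply (φ : Cx.Hom C D) (φ' : Cx.Hom C' D') (α : Cx.Hom C C')
    (β : Cx.Hom D D') (h : ∀ n c, φ'.f n (α.f n c) = β.f n (φ.f n c)) (x : (Cx.cocone φ).X 0) :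
    ((Cx.coconeMap φ φ' α β h).f 0 x).1 = α.f 0 x.1 := rfl

lemma cocone_zero_ext (φ : Cx.Hom C D) {x y : (Cx.cocone φ).X 0} (h : x.1 = y.1) : x = y :=
  Prod.ext h (Cx.shiftX_zero_eq D _ _)

lemma coconeMap_id (φ : Cx.Hom C D)
    (h : ∀ n c, φ.f n ((Cx.Hom.id C).f n c) = (Cx.Hom.id D).f n (φ.f n c)) :
    Cx.coconeMap φ φ (Cx.Hom.id C) (Cx.Hom.id D) h = Cx.Hom.id (Cx.cocone φ) := by
  refine coconeHom_ext _ _ (fun x => cocone_zero_ext φ rfl) fun n c e => ?_
  rw [Cx.coconeMap_mk]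
  rfl

lemma coconeMap_comp (φ : Cx.Hom C D) (φ' : Cx.Hom C' D') (φ'' : Cx.Hom C'' D'')
    (α : Cx.Hom C C') (β : Cx.Hom D D') (h : ∀ n c, φ'.f n (α.f n c) = β.f n (φ.f n c))
    (α' : Cx.Hom C' C'') (β' : Cx.Hom D' D'')
    (h' : ∀ n c, φ''.f n (α'.f n c) = β'.f n (φ'.f n c))
    (h'' : ∀ n c, φ''.f n ((α'.comp α).f n c) = (β'.comp β).f n (φ.f n c)) :
    Cx.coconeMap φ φ'' (α'.comp α) (β'.comp β) h'' =
      (Cx.coconeMap φ' φ'' α' β' h').comp (Cx.coconeMap φ φ' α β h) := by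
  refine coconeHom_ext _ _ (fun x => cocone_zero_ext φ'' rfl) fun n c e => ?_
  rw [Cx.coconeMap_mk]
  show _ = (Cx.coconeMap φ' φ'' α' β' h').f (n + 1)
    ((Cx.coconeMap φ φ' α β h).f (n + 1) (Cx.coconeMk φ c e))
  rw [Cx.coconeMap_mk, Cx.coconeMap_mk]
  rfl

lemma coconeMap_add (φ : Cx.Hom C D) (φ' : Cx.Hom C' D')
    (α : Cx.Hom C C') (β : Cx.Hom D D') (h : ∀ n c, φ'.f n (α.f n c) = β.f n (φ.f n c))
    (α' : Cx.Hom C C') (β' : Cx.Hom D D') (h' : ∀ n c, φ'.f n (α'.f n c) = β'.f n (φ.f n c))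
    (h'' : ∀ n c, φ'.f n ((α.add α').f n c) = (β.add β').f n (φ.f n c)) :
    Cx.coconeMap φ φ' (α.add α') (β.add β') h'' =
      (Cx.coconeMap φ φ' α β h).add (Cx.coconeMap φ φ' α' β' h') := by
  refine coconeHom_ext _ _ (fun x => cocone_zero_ext φ' rfl) fun n c e => ?_
  rw [Cx.coconeMap_mk]
  show _ = (Cx.coconeMap φ φ' α β h).f (n + 1) (Cx.coconeMk φ c e) +
    (Cx.coconeMap φ φ' α' β' h').f (n + 1) (Cx.coconeMk φ c e)
  rw [Cx.coconeMap_mk, Cx.coconeMap_mk]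
  rfl

lemma coconeMap_smul (φ : Cx.Hom C D) (φ' : Cx.Hom C' D') (a : k)
    (α : Cx.Hom C C') (β : Cx.Hom D D') (h : ∀ n c, φ'.f n (α.f n c) = β.f n (φ.f n c))
    (h'' : ∀ n c, φ'.f n ((α.smul a).f n c) = (β.smul a).f n (φ.f n c)) :
    Cx.coconeMap φ φ' (α.smul a) (β.smul a) h'' = (Cx.coconeMap φ φ' α β h).smul a := by
  refine coconeHom_ext _ _ (fun x => cocone_zero_ext φ' rfl) fun n c e => ?_
  rw [Cx.coconeMap_mk]
  show _ = a • (Cx.coconeMap φ φ' α β h).f (n + 1) (Cx.coconeMk φ c e)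
  rw [Cx.coconeMap_mk]
  rfl

end CxLemmas

/-! ### Cohomological functors on smooth representations -/

/-- A `k`-linear functor from the smooth representations of `(Γ, L)` to complexes. -/
structure CohFun (k : Type) [CommRing k] {Γ : Type} [Group Γ] (L : LevelSys Γ) where
  /-- the complex attached to a smooth representation -/
  K : ∀ {M : Type} [AddCommGroup M] [Module k M] (ρ : Representation k Γ M),
    L.IsSmooth ρ → Cx k
  /-- the map attached to an equivariant linear map -/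
  map : ∀ {M M' : Type} [AddCommGroup M] [Module k M] [AddCommGroup M'] [Module k M']
    {ρ : Representation k Γ M} {ρ' : Representation k Γ M'} (hρ : L.IsSmooth ρ)
    (hρ' : L.IsSmooth ρ') (φ : M →ₗ[k] M') (_ : ∀ g m, φ (ρ g m) = ρ' g (φ m)),
    Cx.Hom (K ρ hρ) (K ρ' hρ')
  map_id : ∀ {M : Type} [AddCommGroup M] [Module k M] {ρ : Representation k Γ M}
    (hρ : L.IsSmooth ρ) (h : ∀ g m, (LinearMap.id : M →ₗ[k] M) (ρ g m) = ρ g (LinearMap.id m)),
    map hρ hρ LinearMap.id h = Cx.Hom.id (K ρ hρ)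
  map_comp : ∀ {M M' M'' : Type} [AddCommGroup M] [Module k M] [AddCommGroup M'] [Module k M']
    [AddCommGroup M''] [Module k M''] {ρ : Representation k Γ M} {ρ' : Representation k Γ M'}
    {ρ'' : Representation k Γ M''} (hρ : L.IsSmooth ρ) (hρ' : L.IsSmooth ρ')
    (hρ'' : L.IsSmooth ρ'') (φ : M →ₗ[k] M') (hφ : ∀ g m, φ (ρ g m) = ρ' g (φ m))
    (ψ : M' →ₗ[k] M'') (hψ : ∀ g m, ψ (ρ' g m) = ρ'' g (ψ m))
    (h : ∀ g m, (ψ ∘ₗ φ) (ρ g m) = ρ'' g ((ψ ∘ₗ φ) m)),
    map hρ hρ'' (ψ ∘ₗ φ) h = (map hρ' hρ'' ψ hψ).comp (map hρ hρ' φ hφ)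
  map_add : ∀ {M M' : Type} [AddCommGroup M] [Module k M] [AddCommGroup M'] [Module k M']
    {ρ : Representation k Γ M} {ρ' : Representation k Γ M'} (hρ : L.IsSmooth ρ)
    (hρ' : L.IsSmooth ρ') (φ : M →ₗ[k] M') (hφ : ∀ g m, φ (ρ g m) = ρ' g (φ m))
    (ψ : M →ₗ[k] M') (hψ : ∀ g m, ψ (ρ g m) = ρ' g (ψ m))
    (h : ∀ g m, (φ + ψ) (ρ g m) = ρ' g ((φ + ψ) m)),
    map hρ hρ' (φ + ψ) h = (map hρ hρ' φ hφ).add (map hρ hρ' ψ hψ)
  map_smul : ∀ {M M' : Type} [AddCommGroup M] [Module k M] [AddCommGroup M'] [Module k M']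
    {ρ : Representation k Γ M} {ρ' : Representation k Γ M'} (hρ : L.IsSmooth ρ)
    (hρ' : L.IsSmooth ρ') (c : k) (φ : M →ₗ[k] M') (hφ : ∀ g m, φ (ρ g m) = ρ' g (φ m))
    (h : ∀ g m, (c • φ) (ρ g m) = ρ' g ((c • φ) m)),
    map hρ hρ' (c • φ) h = (map hρ hρ' φ hφ).smul c

/-- The level complex as a cohomological functor. -/
def levelFun (k : Type) [CommRing k] {Γ : Type} [Group Γ] (L : LevelSys Γ) : CohFun k L where
  K ρ hρ := L.cx ρ hρ
  map hρ hρ' φ hφ := L.mapCoeff hρ hρ' φ hφ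
  map_id _ _ := Cx.Hom.ext fun _ _ => rfl
  map_comp _ _ _ _ _ _ _ _ := Cx.Hom.ext fun _ _ => rfl
  map_add _ _ _ _ _ _ _ := Cx.Hom.ext fun _ _ => rfl
  map_smul _ _ _ _ _ _ := Cx.Hom.ext fun _ _ => rfl

/-- The compactly supported complex of a Poitou–Tate datum as a cohomological functor. -/
def ccFun (k : Type) [CommRing k] {G : Type} [Group G] (𝔇 : LocDatum G) : CohFun k 𝔇.L where
  K ρ hρ := 𝔇.Cc ρ hρ
  map hρ hρ' φ hφ := 𝔇.mapCc hρ hρ' φ hφ
  map_id hρ h := by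
    have e1 : 𝔇.mapC hρ hρ LinearMap.id h = Cx.Hom.id _ := Cx.Hom.ext fun _ _ => rfl
    have e2 : 𝔇.mapCloc hρ hρ LinearMap.id h = Cx.Hom.id _ := Cx.Hom.ext fun _ _ => rfl
    show Cx.coconeMap _ _ (𝔇.mapC hρ hρ LinearMap.id h) (𝔇.mapCloc hρ hρ LinearMap.id h) _ = _
    have key : ∀ (α : Cx.Hom (𝔇.C _ hρ) (𝔇.C _ hρ)) (β : Cx.Hom (𝔇.Cloc _ hρ) (𝔇.Cloc _ hρ))
        (hα : α = Cx.Hom.id _) (hβ : β = Cx.Hom.id _)
        (hc : ∀ n c, (𝔇.loc _ hρ).f n (α.f n c) = β.f n ((𝔇.loc _ hρ).f n c)),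
        Cx.coconeMap (𝔇.loc _ hρ) (𝔇.loc _ hρ) α β hc = Cx.Hom.id _ := by
      intro α β hα hβ hc
      subst hα hβ
      exact coconeMap_id _ hc
    exact key _ _ e1 e2 _
  map_comp hρ hρ' hρ'' φ hφ ψ hψ h := by
    have e1 : 𝔇.mapC hρ hρ'' (ψ ∘ₗ φ) h = (𝔇.mapC hρ' hρ'' ψ hψ).comp (𝔇.mapC hρ hρ' φ hφ) :=
      Cx.Hom.ext fun _ _ => rfl
    have e2 : 𝔇.mapCloc hρ hρ'' (ψ ∘ₗ φ) h =
        (𝔇.mapCloc hρ' hρ'' ψ hψ).comp (𝔇.mapCloc hρ hρ' φ hφ) := Cx.Hom.ext fun _ _ => rfl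
    have key : ∀ (α : Cx.Hom (𝔇.C _ hρ) (𝔇.C _ hρ'')) (β : Cx.Hom (𝔇.Cloc _ hρ) (𝔇.Cloc _ hρ''))
        (hα : α = (𝔇.mapC hρ' hρ'' ψ hψ).comp (𝔇.mapC hρ hρ' φ hφ))
        (hβ : β = (𝔇.mapCloc hρ' hρ'' ψ hψ).comp (𝔇.mapCloc hρ hρ' φ hφ))
        (hc : ∀ n c, (𝔇.loc _ hρ'').f n (α.f n c) = β.f n ((𝔇.loc _ hρ).f n c)),
        Cx.coconeMap (𝔇.loc _ hρ) (𝔇.loc _ hρ'') α β hc =
          (𝔇.mapCc hρ' hρ'' ψ hψ).comp (𝔇.mapCc hρ hρ' φ hφ) := by
      intro α β hα hβ hc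
      subst hα hβ
      exact coconeMap_comp _ _ _ _ _ _ _ _ _ hc
    exact key _ _ e1 e2 _
  map_add hρ hρ' φ hφ ψ hψ h := by
    have e1 : 𝔇.mapC hρ hρ' (φ + ψ) h = (𝔇.mapC hρ hρ' φ hφ).add (𝔇.mapC hρ hρ' ψ hψ) :=
      Cx.Hom.ext fun _ _ => rfl
    have e2 : 𝔇.mapCloc hρ hρ' (φ + ψ) h =
        (𝔇.mapCloc hρ hρ' φ hφ).add (𝔇.mapCloc hρ hρ' ψ hψ) := Cx.Hom.ext fun _ _ => rfl
    have key : ∀ (α : Cx.Hom (𝔇.C _ hρ) (𝔇.C _ hρ')) (β : Cx.Hom (𝔇.Cloc _ hρ) (𝔇.Cloc _ hρ'))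
        (hα : α = (𝔇.mapC hρ hρ' φ hφ).add (𝔇.mapC hρ hρ' ψ hψ))
        (hβ : β = (𝔇.mapCloc hρ hρ' φ hφ).add (𝔇.mapCloc hρ hρ' ψ hψ))
        (hc : ∀ n c, (𝔇.loc _ hρ').f n (α.f n c) = β.f n ((𝔇.loc _ hρ).f n c)),
        Cx.coconeMap (𝔇.loc _ hρ) (𝔇.loc _ hρ') α β hc =
          (𝔇.mapCc hρ hρ' φ hφ).add (𝔇.mapCc hρ hρ' ψ hψ) := by
      intro α β hα hβ hc
      subst hα hβ
      exact coconeMap_add _ _ _ _ _ _ _ _ hc
    exact key _ _ e1 e2 _
  map_smul hρ hρ' c φ hφ h := by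
    have e1 : 𝔇.mapC hρ hρ' (c • φ) h = (𝔇.mapC hρ hρ' φ hφ).smul c :=
      Cx.Hom.ext fun _ _ => rfl
    have e2 : 𝔇.mapCloc hρ hρ' (c • φ) h = (𝔇.mapCloc hρ hρ' φ hφ).smul c :=
      Cx.Hom.ext fun _ _ => rfl
    have key : ∀ (α : Cx.Hom (𝔇.C _ hρ) (𝔇.C _ hρ')) (β : Cx.Hom (𝔇.Cloc _ hρ) (𝔇.Cloc _ hρ'))
        (hα : α = (𝔇.mapC hρ hρ' φ hφ).smul c) (hβ : β = (𝔇.mapCloc hρ hρ' φ hφ).smul c)
        (hc : ∀ n c, (𝔇.loc _ hρ').f n (α.f n c) = β.f n ((𝔇.loc _ hρ).f n c)),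
        Cx.coconeMap (𝔇.loc _ hρ) (𝔇.loc _ hρ') α β hc = (𝔇.mapCc hρ hρ' φ hφ).smul c := by
      intro α β hα hβ hc
      subst hα hβ
      exact coconeMap_smul _ _ _ _ _ _ hc
    exact key _ _ e1 e2 _

/-! ### Equivariant maps, subrepresentations -/

section EqHom

variable {k : Type} [CommRing k] {Γ : Type} [Group Γ]
variable {M M' T : Type} [AddCommGroup M] [Module k M] [AddCommGroup M'] [Module k M']
  [AddCommGroup T] [Module k T]

/-- The module of equivariant linear maps `M → T` (`= H⁰` of the twisted dual). -/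
def eqHom (ρ : Representation k Γ M) (τ : Representation k Γ T) : Submodule k (M →ₗ[k] T) where
  carrier := {y | ∀ g m, y (ρ g m) = τ g (y m)}
  add_mem' := by
    intro y y' hy hy' g m
    rw [LinearMap.add_apply, LinearMap.add_apply, hy, hy', map_add]
  zero_mem' := by
    intro g m
    rw [LinearMap.zero_apply, LinearMap.zero_apply, map_zero]
  smul_mem' := by
    intro c y hy g m
    rw [LinearMap.smul_apply, LinearMap.smul_apply, hy, map_smul]

lemma mem_eqHom {ρ : Representation k Γ M} {τ : Representation k Γ T} {y : M →ₗ[k] T} :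
    y ∈ eqHom ρ τ ↔ ∀ g m, y (ρ g m) = τ g (y m) := Iff.rfl

lemma eqHom_comm {ρ : Representation k Γ M} {τ : Representation k Γ T} (y : eqHom ρ τ) :
    ∀ g m, (y : M →ₗ[k] T) (ρ g m) = τ g ((y : M →ₗ[k] T) m) := y.2

/-- Precomposition with an equivariant map. -/
def eqHomMap {ρ : Representation k Γ M} {ρ' : Representation k Γ M'}
    (τ : Representation k Γ T) (f : M →ₗ[k] M') (hf : ∀ g m, f (ρ g m) = ρ' g (f m)) :
    eqHom ρ' τ →ₗ[k] eqHom ρ τ where
  toFun y := ⟨y.1 ∘ₗ f, fun g m => by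
    rw [LinearMap.comp_apply, LinearMap.comp_apply, hf, eqHom_comm y]⟩
  map_add' _ _ := rfl
  map_smul' _ _ := rfl

@[simp] lemma eqHomMap_coe {ρ : Representation k Γ M} {ρ' : Representation k Γ M'}
    (τ : Representation k Γ T) (f : M →ₗ[k] M') (hf : ∀ g m, f (ρ g m) = ρ' g (f m))
    (y : eqHom ρ' τ) : ((eqHomMap τ f hf y : eqHom ρ τ) : M →ₗ[k] T) = y.1 ∘ₗ f := rfl

lemma eqHomMap_injective {ρ : Representation k Γ M} {ρ' : Representation k Γ M'}
    (τ : Representation k Γ T) (f : M →ₗ[k] M') (hf : ∀ g m, f (ρ g m) = ρ' g (f m))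
    (hsurj : Function.Surjective f) : Function.Injective (eqHomMap τ f hf) := by
  intro y y' h
  apply Subtype.ext
  apply LinearMap.ext
  intro m'
  obtain ⟨m, rfl⟩ := hsurj m'
  exact congrArg (fun z : eqHom ρ τ => z.1 m) h

/-- The restriction of a representation to an invariant submodule. -/
def subRep (ρ : Representation k Γ M) (W : Submodule k M) (hW : ∀ g, ∀ w ∈ W, ρ g w ∈ W) :
    Representation k Γ W where
  toFun g := (ρ g).restrict (hW g)
  map_one' := by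
    ext w
    show ρ 1 (w : M) = w
    rw [map_one, Module.End.one_apply]
  map_mul' g h := by
    ext w
    show ρ (g * h) (w : M) = ρ g (ρ h (w : M))
    rw [map_mul, Module.End.mul_apply]

@[simp] lemma subRep_coe (ρ : Representation k Γ M) (W : Submodule k M)
    (hW : ∀ g, ∀ w ∈ W, ρ g w ∈ W) (g : Γ) (w : W) : ((subRep ρ W hW g w : W) : M) = ρ g w :=
  rfl

lemma subRep_smooth {L : LevelSys Γ} {ρ : Representation k Γ M} (hρ : L.IsSmooth ρ)
    (W : Submodule k M) (hW : ∀ g, ∀ w ∈ W, ρ g w ∈ W) : L.IsSmooth (subRep ρ W hW) := by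
  intro w
  obtain ⟨N, hN, h⟩ := hρ (w : M)
  exact ⟨N, hN, fun s hs => Subtype.ext (h s hs)⟩

lemma ker_invariant {ρ : Representation k Γ M} {ρ' : Representation k Γ M'} (f : M →ₗ[k] M')
    (hf : ∀ g m, f (ρ g m) = ρ' g (f m)) (g : Γ) (w : M) (hw : w ∈ LinearMap.ker f) :
    ρ g w ∈ LinearMap.ker f := by
  rw [LinearMap.mem_ker] at hw ⊢
  rw [hf, hw, map_zero]

end EqHom

/-! ### The map `alpha` -/

section Alpha

variable {k : Type} [Field k] {Γ : Type} [Group Γ] {L : LevelSys Γ} (F : CohFun k L) (n : ℕ)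
variable {M M' T : Type} [AddCommGroup M] [Module k M] [AddCommGroup M'] [Module k M']
  [AddCommGroup T] [Module k T]
variable {ρ : Representation k Γ M} {ρ' : Representation k Γ M'} {τ : Representation k Γ T}

/-- `alpha : H^n(K ρ) → Hom_Γ(M, T)^*`, `x ↦ (y ↦ tr (y_* x))`. -/
def CohFun.alpha (hρ : L.IsSmooth ρ) (hτ : L.IsSmooth τ) (tr : (F.K τ hτ).H n →ₗ[k] k) :
    (F.K ρ hρ).H n →ₗ[k] Module.Dual k (eqHom ρ τ) :=
  LinearMap.mk₂ k (fun x y => tr ((F.map hρ hτ y.1 (eqHom_comm y)).mapH n x))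
    (fun x x' y => by rw [_root_.map_add, _root_.map_add])
    (fun c x y => by rw [_root_.map_smul, _root_.map_smul])
    (fun x y y' => by
      have h : F.map hρ hτ (y + y').1 (eqHom_comm (y + y')) =
          (F.map hρ hτ y.1 (eqHom_comm y)).add (F.map hρ hτ y'.1 (eqHom_comm y')) :=
        F.map_add hρ hτ y.1 (eqHom_comm y) y'.1 (eqHom_comm y') (eqHom_comm (y + y'))
      rw [h, Cx.Hom.mapH_add, _root_.map_add])
    (fun c x y => by
      have h : F.map hρ hτ (c • y).1 (eqHom_comm (c • y)) =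
          (F.map hρ hτ y.1 (eqHom_comm y)).smul c :=
        F.map_smul hρ hτ c y.1 (eqHom_comm y) (eqHom_comm (c • y))
      rw [h, Cx.Hom.mapH_smul, _root_.map_smul])

lemma CohFun.alpha_apply (hρ : L.IsSmooth ρ) (hτ : L.IsSmooth τ)
    (tr : (F.K τ hτ).H n →ₗ[k] k) (x : (F.K ρ hρ).H n) (y : eqHom ρ τ) :
    F.alpha n hρ hτ tr x y = tr ((F.map hρ hτ y.1 (eqHom_comm y)).mapH n x) := rfl

/-- Naturality of `alpha` in the coefficients. -/
lemma CohFun.alpha_map (hρ : L.IsSmooth ρ) (hρ' : L.IsSmooth ρ') (hτ : L.IsSmooth τ)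
    (tr : (F.K τ hτ).H n →ₗ[k] k) (f : M →ₗ[k] M') (hf : ∀ g m, f (ρ g m) = ρ' g (f m))
    (x : (F.K ρ hρ).H n) :
    F.alpha n hρ' hτ tr ((F.map hρ hρ' f hf).mapH n x) =
      (eqHomMap τ f hf).dualMap (F.alpha n hρ hτ tr x) := by
  apply LinearMap.ext
  intro y
  rw [LinearMap.dualMap_apply, F.alpha_apply, F.alpha_apply, ← Cx.Hom.mapH_comp]
  have h : F.map hρ hτ (eqHomMap τ f hf y).1 (eqHom_comm (eqHomMap τ f hf y)) =
      (F.map hρ' hτ y.1 (eqHom_comm y)).comp (F.map hρ hρ' f hf) :=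
    F.map_comp hρ hρ' hτ f hf y.1 (eqHom_comm y) (eqHom_comm (eqHomMap τ f hf y))
  rw [h]

/-- `F.map` only depends on the underlying linear map. -/
lemma CohFun.map_congr (hρ : L.IsSmooth ρ) (hρ' : L.IsSmooth ρ') {φ ψ : M →ₗ[k] M'}
    (e : φ = ψ) (hφ : ∀ g m, φ (ρ g m) = ρ' g (φ m)) (hψ : ∀ g m, ψ (ρ g m) = ρ' g (ψ m)) :
    F.map hρ hρ' φ hφ = F.map hρ hρ' ψ hψ := by
  subst e
  rfl

/-- `F` of the zero map is zero on cohomology. -/
lemma CohFun.mapH_zero (hρ : L.IsSmooth ρ) (hρ' : L.IsSmooth ρ')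
    (h : ∀ g m, (0 : M →ₗ[k] M') (ρ g m) = ρ' g ((0 : M →ₗ[k] M') m)) (x : (F.K ρ hρ).H n) :
    (F.map hρ hρ' 0 h).mapH n x = 0 := by
  have h0 : ∀ g m, ((0 : k) • (0 : M →ₗ[k] M')) (ρ g m) =
      ρ' g (((0 : k) • (0 : M →ₗ[k] M')) m) := by
    intro g m
    rw [smul_zero]
    exact h g m
  have h1 := F.map_smul hρ hρ' (0 : k) (0 : M →ₗ[k] M') h h0
  rw [F.map_congr hρ hρ' (smul_zero (0 : k)).symm h h0, h1, Cx.Hom.mapH_smul, zero_smul]

/-- **Surjectivity passes to quotients.** -/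
theorem CohFun.alpha_surjective_of_cover {P : Type} [AddCommGroup P] [Module k P]
    {σ : Representation k Γ P} (hσ : L.IsSmooth σ) (hρ : L.IsSmooth ρ) (hτ : L.IsSmooth τ)
    (tr : (F.K τ hτ).H n →ₗ[k] k) (π : P →ₗ[k] M) (hπ : ∀ g m, π (σ g m) = ρ g (π m))
    (hsurj : Function.Surjective π) (hP : Function.Surjective (F.alpha n hσ hτ tr)) :
    Function.Surjective (F.alpha n hρ hτ tr) := by
  intro ξ
  obtain ⟨η, hη⟩ := LinearMap.dualMap_surjective_of_injective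
    (eqHomMap_injective τ π hπ hsurj) ξ
  obtain ⟨x, rfl⟩ := hP η
  exact ⟨(F.map hσ hρ π hπ).mapH n x, by rw [F.alpha_map, hη]⟩

/-- **Injectivity passes to quotients** of objects on which `alpha` is bijective, when `H^n` is
right exact and `alpha` is surjective on the kernel. -/
theorem CohFun.alpha_injective_of_cover {P : Type} [AddCommGroup P] [Module k P]
    {σ : Representation k Γ P} (hσ : L.IsSmooth σ) (hρ : L.IsSmooth ρ) (hτ : L.IsSmooth τ)
    (tr : (F.K τ hτ).H n →ₗ[k] k) (π : P →ₗ[k] M) (hπ : ∀ g m, π (σ g m) = ρ g (π m))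
    (hsurj : Function.Surjective π)
    (hrex : Function.Surjective ((F.map hσ hρ π hπ).mapH n))
    (hP : Function.Injective (F.alpha n hσ hτ tr))
    (hK : Function.Surjective (F.alpha n
      (subRep_smooth hσ (LinearMap.ker π) (ker_invariant π hπ)) hτ tr)) :
    Function.Injective (F.alpha n hρ hτ tr) := by
  rw [injective_iff_map_eq_zero]
  intro x hx
  set κ := subRep σ (LinearMap.ker π) (ker_invariant π hπ) with hκdef
  have hκ : L.IsSmooth κ := subRep_smooth hσ (LinearMap.ker π) (ker_invariant π hπ)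
  have hi : ∀ g (w : LinearMap.ker π), (LinearMap.ker π).subtype (κ g w) =
      σ g ((LinearMap.ker π).subtype w) := fun _ _ => rfl
  obtain ⟨x₀, rfl⟩ := hrex x
  rw [F.alpha_map] at hx
  -- the functional `alpha x₀` kills the maps which vanish on the kernel
  have hann : F.alpha n hσ hτ tr x₀ ∈
      (LinearMap.ker (eqHomMap τ (LinearMap.ker π).subtype hi)).dualAnnihilator := by
    rw [Submodule.mem_dualAnnihilator]
    intro y hy
    rw [LinearMap.mem_ker] at hy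
    -- `y` factors through `π`
    obtain ⟨s, hs⟩ := LinearMap.exists_rightInverse_of_surjective π
      (LinearMap.range_eq_top.2 hsurj)
    have hs' : ∀ m, π (s m) = m := fun m => congrArg (fun f : M →ₗ[k] M => f m) hs
    have hyk : ∀ w : P, π w = 0 → y.1 w = 0 := fun w hw =>
      congrArg (fun z : eqHom κ τ => z.1 ⟨w, hw⟩) hy
    have hys : ∀ w : P, y.1 (s (π w)) = y.1 w := by
      intro w
      have : y.1 (s (π w) - w) = 0 := hyk _ (by rw [_root_.map_sub, hs', sub_self])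
      rwa [_root_.map_sub, sub_eq_zero] at this
    have hy' : y.1 ∘ₗ s ∈ eqHom ρ τ := by
      intro g m
      obtain ⟨w, rfl⟩ := hsurj m
      rw [LinearMap.comp_apply, LinearMap.comp_apply, ← hπ, hys, hys, eqHom_comm y]
    have hy'' : eqHomMap τ π hπ ⟨y.1 ∘ₗ s, hy'⟩ = y := by
      apply Subtype.ext
      apply LinearMap.ext
      intro w
      exact hys w
    rw [← hy'', ← LinearMap.dualMap_apply, hx, LinearMap.zero_apply]
  rw [← LinearMap.range_dualMap_eq_dualAnnihilator_ker] at hann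
  obtain ⟨ζ, hζ⟩ := hann
  obtain ⟨x₁, rfl⟩ := hK ζ
  rw [← F.alpha_map (ρ := κ) n hκ hσ hτ tr (LinearMap.ker π).subtype hi x₁] at hζ
  have hx₀ := hP hζ
  rw [← hx₀, ← Cx.Hom.mapH_comp,
    ← F.map_comp hκ hσ hρ (LinearMap.ker π).subtype hi π hπ (by
      intro g w
      rw [LinearMap.comp_apply, LinearMap.comp_apply, hi, hπ])]
  have key : ∀ (ψ : LinearMap.ker π →ₗ[k] M) (hψ : ∀ g m, ψ (κ g m) = ρ g (ψ m)), ψ = 0 →
      (F.map hκ hρ ψ hψ).mapH n x₁ = 0 := by
    intro ψ hψ e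
    subst e
    exact F.mapH_zero n hκ hρ hψ x₁
  exact key _ _ (LinearMap.ext fun w => LinearMap.mem_ker.1 w.2)

/-- `F` of a finite sum of equivariant maps. -/
lemma CohFun.mapH_sum {J : Type} (hρ : L.IsSmooth ρ) (hρ' : L.IsSmooth ρ')
    (f : J → (M →ₗ[k] M')) (hf : ∀ j g m, f j (ρ g m) = ρ' g (f j m)) (x : (F.K ρ hρ).H n) :
    ∀ (s : Finset J) (h : ∀ g m, (∑ j ∈ s, f j) (ρ g m) = ρ' g ((∑ j ∈ s, f j) m)),
      (F.map hρ hρ' (∑ j ∈ s, f j) h).mapH n x =
        ∑ j ∈ s, (F.map hρ hρ' (f j) (hf j)).mapH n x := by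
  classical
  intro s
  induction s using Finset.induction_on with
  | empty =>
    intro h
    have h0 : ∀ g m, (0 : M →ₗ[k] M') (ρ g m) = ρ' g ((0 : M →ₗ[k] M') m) := by
      intro g m
      rw [LinearMap.zero_apply, LinearMap.zero_apply, _root_.map_zero]
    rw [F.map_congr hρ hρ' Finset.sum_empty h h0, F.mapH_zero n hρ hρ' h0, Finset.sum_empty]
  | insert a s ha ih =>
    intro h
    have hs : ∀ g m, (∑ j ∈ s, f j) (ρ g m) = ρ' g ((∑ j ∈ s, f j) m) := by
      intro g m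
      rw [LinearMap.sum_apply, LinearMap.sum_apply, _root_.map_sum]
      exact Finset.sum_congr rfl fun j _ => hf j g m
    have hadd : ∀ g m, (f a + ∑ j ∈ s, f j) (ρ g m) = ρ' g ((f a + ∑ j ∈ s, f j) m) := by
      intro g m
      rw [LinearMap.add_apply, LinearMap.add_apply, _root_.map_add, hf a g m, hs g m]
    rw [F.map_congr hρ hρ' (Finset.sum_insert ha) h hadd,
      F.map_add hρ hρ' (f a) (hf a) _ hs hadd, Cx.Hom.mapH_add, ih hs, Finset.sum_insert ha]

/-- **Retracts of sums.** If the identity of `M` is a finite sum of maps factoring through an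
object on which `alpha` is bijective, then `alpha` is bijective on `M`. -/
theorem CohFun.alpha_bijective_of_sum {J : Type} [Fintype J] {Y : Type} [AddCommGroup Y]
    [Module k Y] {σ : Representation k Γ Y} (hσ : L.IsSmooth σ) (hρ : L.IsSmooth ρ)
    (hτ : L.IsSmooth τ) (tr : (F.K τ hτ).H n →ₗ[k] k)
    (ι : J → (Y →ₗ[k] M)) (hι : ∀ j g y, ι j (σ g y) = ρ g (ι j y))
    (p : J → (M →ₗ[k] Y)) (hp : ∀ j g m, p j (ρ g m) = σ g (p j m))
    (hsum : ∀ m, ∑ j, ι j (p j m) = m) (hY : Function.Bijective (F.alpha n hσ hτ tr)) :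
    Function.Bijective (F.alpha n hρ hτ tr) := by
  have hcomp : ∀ j g m, (ι j ∘ₗ p j) (ρ g m) = ρ g ((ι j ∘ₗ p j) m) := by
    intro j g m
    rw [LinearMap.comp_apply, LinearMap.comp_apply, hp, hι]
  have hid : (∑ j, ι j ∘ₗ p j) = (LinearMap.id : M →ₗ[k] M) := by
    apply LinearMap.ext
    intro m
    rw [LinearMap.sum_apply]
    exact hsum m
  have hidc : ∀ g m, (LinearMap.id : M →ₗ[k] M) (ρ g m) =
      ρ g ((LinearMap.id : M →ₗ[k] M) m) := fun _ _ => rfl
  have hsumc : ∀ g m, (∑ j, ι j ∘ₗ p j) (ρ g m) = ρ g ((∑ j, ι j ∘ₗ p j) m) := by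
    intro g m
    rw [hid]
    rfl
  -- every class is the sum of its components
  have hdecomp : ∀ x : (F.K ρ hρ).H n,
      x = ∑ j, (F.map hσ hρ (ι j) (hι j)).mapH n ((F.map hρ hσ (p j) (hp j)).mapH n x) := by
    intro x
    have h1 : (F.map hρ hρ (∑ j, ι j ∘ₗ p j) hsumc).mapH n x = x := by
      rw [F.map_congr hρ hρ hid hsumc hidc, F.map_id hρ hidc, Cx.Hom.mapH_id]
    rw [F.mapH_sum n hρ hρ (fun j => ι j ∘ₗ p j) hcomp x Finset.univ hsumc] at h1
    conv_lhs => rw [← h1]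
    refine Finset.sum_congr rfl fun j _ => ?_
    rw [F.map_comp hρ hσ hρ (p j) (hp j) (ι j) (hι j) (hcomp j), Cx.Hom.mapH_comp]
  constructor
  · rw [injective_iff_map_eq_zero]
    intro x hx
    rw [hdecomp x]
    refine Finset.sum_eq_zero fun j _ => ?_
    have h1 : F.alpha n hσ hτ tr ((F.map hρ hσ (p j) (hp j)).mapH n x) = 0 := by
      rw [F.alpha_map, hx, _root_.map_zero]
    rw [(injective_iff_map_eq_zero _).1 hY.1 _ h1, _root_.map_zero]
  · intro ξ
    choose x hx using fun j => hY.2 ((eqHomMap τ (p j) (hp j)).dualMap ξ)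
    refine ⟨∑ j, (F.map hσ hρ (ι j) (hι j)).mapH n (x j), ?_⟩
    apply LinearMap.ext
    intro y
    rw [_root_.map_sum, LinearMap.sum_apply]
    have h1 : ∀ j, F.alpha n hρ hτ tr ((F.map hσ hρ (ι j) (hι j)).mapH n (x j)) y =
        ξ (eqHomMap τ (p j) (hp j) (eqHomMap τ (ι j) (hι j) y)) := by
      intro j
      rw [F.alpha_map, LinearMap.dualMap_apply, hx j, LinearMap.dualMap_apply]
    rw [Finset.sum_congr rfl fun j _ => h1 j, ← _root_.map_sum]
    congr 1
    apply Subtype.ext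
    apply LinearMap.ext
    intro m
    rw [Submodule.coe_sum, LinearMap.sum_apply]
    show ∑ j, y.1 (ι j (p j m)) = y.1 m
    rw [← _root_.map_sum, hsum]

end Alpha

/-! ### The permutation modules `P_N(V)` = functions `Γ/N → V` -/

section PN

variable {Γ : Type} [Group Γ] (N : Subgroup Γ) (k : Type) [CommRing k]
  (V : Type) [AddCommGroup V] [Module k V]

/-- Functions `Γ → V` which are right-invariant under `N`. -/
def PN : Submodule k (Γ → V) where
  carrier := {φ | ∀ x, ∀ n ∈ N, φ (x * n) = φ x}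
  add_mem' := by
    intro φ ψ hφ hψ x n hn
    show φ (x * n) + ψ (x * n) = φ x + ψ x
    rw [hφ x n hn, hψ x n hn]
  zero_mem' := fun _ _ _ => rfl
  smul_mem' := by
    intro c φ hφ x n hn
    show c • φ (x * n) = c • φ x
    rw [hφ x n hn]

variable {N k V}

lemma PN_apply_mul (φ : PN N k V) (x : Γ) {n : Γ} (hn : n ∈ N) : φ.1 (x * n) = φ.1 x :=
  φ.2 x n hn

lemma PN_apply_out (φ : PN N k V) (x : Γ) : φ.1 ((x : Γ ⧸ N).out) = φ.1 x := by
  have h : ((x : Γ ⧸ N).out)⁻¹ * x ∈ N := QuotientGroup.eq.1 (QuotientGroup.out_eq' _)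
  have h2 : x = (x : Γ ⧸ N).out * (((x : Γ ⧸ N).out)⁻¹ * x) := by group
  conv_rhs => rw [h2]
  exact (PN_apply_mul φ _ h).symm

variable (N k V)

/-- `Γ` acts on `P_N(V)` by right translation. -/
def pnRep (hN : N.Normal) : Representation k Γ (PN N k V) where
  toFun g :=
    { toFun := fun φ => ⟨fun x => φ.1 (x * g), fun x n hn => by
        have h1 : x * n * g = x * g * (g⁻¹ * n * g) := by group
        have h2 : g⁻¹ * n * g ∈ N := by
          have := hN.conj_mem n hn g⁻¹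
          rwa [inv_inv] at this
        show φ.1 (x * n * g) = φ.1 (x * g)
        rw [h1, PN_apply_mul φ _ h2]⟩
      map_add' := fun _ _ => rfl
      map_smul' := fun _ _ => rfl }
  map_one' := by
    ext φ x
    show φ.1 (x * 1) = φ.1 x
    rw [mul_one]
  map_mul' g h := by
    ext φ x
    show φ.1 (x * (g * h)) = φ.1 (x * g * h)
    rw [mul_assoc]

variable {N k V}

lemma pnRep_apply (hN : N.Normal) (g : Γ) (φ : PN N k V) (x : Γ) :
    (pnRep N k V hN g φ).1 x = φ.1 (x * g) := rfl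

lemma pnRep_smooth {L : LevelSys Γ} (hN : N ∈ L.lev) :
    L.IsSmooth (pnRep N k V (L.normal N hN)) := fun φ =>
  ⟨N, hN, fun _ hs => Subtype.ext (funext fun x => PN_apply_mul φ x hs)⟩

variable (N k) in
/-- Functoriality of `P_N` in the coefficient module. -/
def pnMap {V' : Type} [AddCommGroup V'] [Module k V'] (f : V →ₗ[k] V') :
    PN N k V →ₗ[k] PN N k V' where
  toFun φ := ⟨fun x => f (φ.1 x), fun x n hn => by
    show f (φ.1 (x * n)) = f (φ.1 x)
    rw [PN_apply_mul φ x hn]⟩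
  map_add' φ ψ := Subtype.ext (funext fun x => map_add f (φ.1 x) (ψ.1 x))
  map_smul' c φ := Subtype.ext (funext fun x => map_smul f c (φ.1 x))

lemma pnMap_apply {V' : Type} [AddCommGroup V'] [Module k V'] (f : V →ₗ[k] V')
    (φ : PN N k V) (x : Γ) : (pnMap N k f φ).1 x = f (φ.1 x) := rfl

lemma pnMap_equivariant {V' : Type} [AddCommGroup V'] [Module k V'] (hN : N.Normal)
    (f : V →ₗ[k] V') (g : Γ) (φ : PN N k V) :
    pnMap N k f (pnRep N k V hN g φ) = pnRep N k V' hN g (pnMap N k f φ) := rfl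

/-- `P_N(V)` is finite when `V` is and `N` has finite index. -/
lemma pn_finite [IsNoetherianRing k] [Module.Finite k V] (hfin : N.FiniteIndex) :
    Module.Finite k (PN N k V) := by
  have : Finite (Γ ⧸ N) := Subgroup.finite_quotient_of_finiteIndex
  let e : PN N k V →ₗ[k] (Γ ⧸ N → V) :=
    { toFun := fun φ q => φ.1 q.out
      map_add' := fun _ _ => rfl
      map_smul' := fun _ _ => rfl }
  have he : Function.Injective e := by
    intro φ ψ h
    apply Subtype.ext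
    funext x
    have := congrFun h (x : Γ ⧸ N)
    rw [← PN_apply_out φ x, ← PN_apply_out ψ x]
    exact this
  exact Module.Finite.of_injective e he

section Sum

variable {M : Type} [AddCommGroup M] [Module k M] (ρ : Representation k Γ M)

/-- The summation map `P_N(M) → M`, `φ ↦ ∑_{x ∈ Γ/N} x⁻¹ • φ(x)`, for an `N`-trivial `M`. -/
noncomputable def pnSum (N : Subgroup Γ) [Finite (Γ ⧸ N)] : PN N k M →ₗ[k] M :=
  letI : Fintype (Γ ⧸ N) := Fintype.ofFinite _
  { toFun := fun φ => ∑ q : Γ ⧸ N, ρ (q.out)⁻¹ (φ.1 q.out)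
    map_add' := fun φ ψ => by
      rw [← Finset.sum_add_distrib]
      refine Finset.sum_congr rfl fun q _ => ?_
      show ρ (q.out)⁻¹ (φ.1 q.out + ψ.1 q.out) = _
      rw [map_add]
    map_smul' := fun c φ => by
      rw [RingHom.id_apply, Finset.smul_sum]
      refine Finset.sum_congr rfl fun q _ => ?_
      show ρ (q.out)⁻¹ (c • φ.1 q.out) = _
      rw [map_smul] }

lemma pnSum_apply [Finite (Γ ⧸ N)] (φ : PN N k M) :
    letI : Fintype (Γ ⧸ N) := Fintype.ofFinite _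
    pnSum ρ N φ = ∑ q : Γ ⧸ N, ρ (q.out)⁻¹ (φ.1 q.out) := rfl

/-- the summand only depends on the coset -/
lemma pnSum_aux (hM : ∀ n ∈ N, ρ n = 1) (φ : PN N k M) (x : Γ) :
    ρ ((x : Γ ⧸ N).out)⁻¹ (φ.1 (x : Γ ⧸ N).out) = ρ x⁻¹ (φ.1 x) := by
  have h : ((x : Γ ⧸ N).out)⁻¹ * x ∈ N := QuotientGroup.eq.1 (QuotientGroup.out_eq' _)
  have h2 : ((x : Γ ⧸ N).out)⁻¹ = (((x : Γ ⧸ N).out)⁻¹ * x) * x⁻¹ := by group
  rw [PN_apply_out φ x]
  conv_lhs => rw [h2]
  rw [map_mul, hM _ h, one_mul]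

lemma pnSum_equivariant (hN : N.Normal) [Finite (Γ ⧸ N)] (hM : ∀ n ∈ N, ρ n = 1) (g : Γ)
    (φ : PN N k M) : pnSum ρ N (pnRep N k M hN g φ) = ρ g (pnSum ρ N φ) := by
  have := hN
  let _ : Fintype (Γ ⧸ N) := Fintype.ofFinite _
  rw [pnSum_apply, pnSum_apply, map_sum]
  have e1 : ∀ q : Γ ⧸ N, ρ (q.out)⁻¹ ((pnRep N k M hN g φ).1 q.out) =
      ρ g (ρ ((q * (g : Γ ⧸ N)).out)⁻¹ (φ.1 (q * (g : Γ ⧸ N)).out)) := by
    intro q
    have hq : (q * (g : Γ ⧸ N)) = ((q.out * g : Γ) : Γ ⧸ N) := by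
      rw [QuotientGroup.mk_mul, QuotientGroup.out_eq']
    rw [hq, pnSum_aux ρ hM φ (q.out * g), pnRep_apply, ← Module.End.mul_apply, ← map_mul]
    congr 2
    group
  rw [Finset.sum_congr rfl fun q _ => e1 q]
  exact Equiv.sum_comp (Equiv.mulRight (g : Γ ⧸ N))
    fun q : Γ ⧸ N => ρ g (ρ (q.out)⁻¹ (φ.1 q.out))

open Classical in
/-- the function `m · 1_N` -/
noncomputable def pnDelta (N : Subgroup Γ) (m : M) : PN N k M :=
  ⟨fun x => if x ∈ N then m else 0, fun x n hn => by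
    have : x * n ∈ N ↔ x ∈ N := ⟨fun h => by simpa using N.mul_mem h (N.inv_mem hn),
      fun h => N.mul_mem h hn⟩
    show (if x * n ∈ N then m else 0) = if x ∈ N then m else 0
    rw [if_congr this rfl rfl]⟩

lemma pnSum_pnDelta [Finite (Γ ⧸ N)] (hM : ∀ n ∈ N, ρ n = 1) (m : M) :
    pnSum ρ N (pnDelta (k := k) N m) = m := by
  classical
  let _ : Fintype (Γ ⧸ N) := Fintype.ofFinite _
  rw [pnSum_apply, Finset.sum_eq_single ((1 : Γ) : Γ ⧸ N)]
  · have h1 : ((((1 : Γ) : Γ ⧸ N)).out : Γ) ∈ N := by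
      have : (((((1 : Γ) : Γ ⧸ N)).out : Γ) : Γ ⧸ N) = ((1 : Γ) : Γ ⧸ N) :=
        QuotientGroup.out_eq' _
      have h := QuotientGroup.eq.1 this
      have h2 := N.inv_mem h
      simpa using h2
    show ρ ((((1 : Γ) : Γ ⧸ N)).out)⁻¹
      (if ((((1 : Γ) : Γ ⧸ N)).out : Γ) ∈ N then m else 0) = m
    rw [if_pos h1, hM _ (N.inv_mem h1), Module.End.one_apply]
  · intro q _ hq
    have h1 : (q.out : Γ) ∉ N := by
      intro h
      apply hq
      rw [← QuotientGroup.out_eq' q]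
      refine QuotientGroup.eq.2 ?_
      rw [mul_one]
      exact N.inv_mem h
    show ρ (q.out)⁻¹ (if (q.out : Γ) ∈ N then m else 0) = 0
    rw [if_neg h1, map_zero]
  · intro h
    exact absurd (Finset.mem_univ _) h

lemma pnSum_surjective [Finite (Γ ⧸ N)] (hM : ∀ n ∈ N, ρ n = 1) :
    Function.Surjective (pnSum (k := k) ρ N) := fun m =>
  ⟨pnDelta N m, pnSum_pnDelta ρ hM m⟩

end Sum

end PN

/-! ### The main theorem -/

section Main

variable {k : Type} [Field k] {Γ : Type} [Group Γ] {L : LevelSys Γ}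

/-- A finite smooth representation is trivial on some level. -/
lemma exists_level_trivial {M : Type} [AddCommGroup M] [Module k M] [Module.Finite k M]
    {ρ : Representation k Γ M} (hρ : L.IsSmooth ρ) : ∃ N₀ ∈ L.lev, ∀ t ∈ N₀, ρ t = 1 := by
  obtain ⟨S, hS⟩ := (Module.Finite.fg_top : (⊤ : Submodule k M).FG)
  obtain ⟨N₀, hN₀, h⟩ := hρ.exists_level S.finite_toSet
  refine ⟨N₀, hN₀, fun t ht => ?_⟩
  apply LinearMap.ext
  intro m
  have hm : m ∈ Submodule.span k (S : Set M) := by rw [hS]; exact Submodule.mem_top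
  have := LinearMap.eqOn_span (f := ρ t) (g := (1 : Module.End k M))
    (fun s hs => h s hs t ht) hm
  exact this

variable (F : CohFun k L) (n : ℕ) {T : Type} [AddCommGroup T] [Module k T]
  {τ : Representation k Γ T}

/-- `alpha` is bijective on `P_N(V)`, `V` finite-dimensional, if it is on `P_N(k)`. -/
theorem CohFun.alpha_bijective_pn (hτ : L.IsSmooth τ) (tr : (F.K τ hτ).H n →ₗ[k] k)
    {N : Subgroup Γ} (hN : N ∈ L.lev)
    (hbase : Function.Bijective (F.alpha n (pnRep_smooth (k := k) (V := k) hN) hτ tr))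
    (V : Type) [AddCommGroup V] [Module k V] [Module.Finite k V] :
    Function.Bijective (F.alpha n (pnRep_smooth (k := k) (V := V) hN) hτ tr) := by
  let b := Module.finBasis k V
  refine F.alpha_bijective_of_sum n (pnRep_smooth (k := k) (V := k) hN)
    (pnRep_smooth (k := k) (V := V) hN) hτ tr
    (fun j => pnMap N k (LinearMap.toSpanSingleton k V (b j)))
    (fun j g y => pnMap_equivariant (L.normal N hN) _ g y)
    (fun j => pnMap N k (b.coord j))
    (fun j g y => pnMap_equivariant (L.normal N hN) _ g y) ?_ hbase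
  intro φ
  apply Subtype.ext
  funext x
  rw [Submodule.coe_sum, Finset.sum_apply]
  show ∑ j, LinearMap.toSpanSingleton k V (b j) (b.coord j (φ.1 x)) = φ.1 x
  simp only [LinearMap.toSpanSingleton_apply, Module.Basis.coord_apply]
  exact b.sum_repr (φ.1 x)

/-- **F-REX.** Let `F` be a cohomological functor whose `H^n` is right exact on finite smooth
representations, and suppose that `alpha` is bijective on the permutation modules `P_N(k)` for a
cofinal family of levels `N`.  Then `alpha` is bijective on every finite smooth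
representation. -/
theorem CohFun.alpha_bijective (hτ : L.IsSmooth τ) (tr : (F.K τ hτ).H n →ₗ[k] k)
    (hrex : ∀ {P M : Type} [AddCommGroup P] [Module k P] [AddCommGroup M] [Module k M]
      [Module.Finite k P] [Module.Finite k M] {σ : Representation k Γ P}
      {ρ : Representation k Γ M} (hσ : L.IsSmooth σ) (hρ : L.IsSmooth ρ) (π : P →ₗ[k] M)
      (hπ : ∀ g m, π (σ g m) = ρ g (π m)), Function.Surjective π →
      Function.Surjective ((F.map hσ hρ π hπ).mapH n))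
    (hbase : ∀ N₀ ∈ L.lev, ∃ N, ∃ hN : N ∈ L.lev, N ≤ N₀ ∧
      Function.Bijective (F.alpha n (pnRep_smooth (k := k) (V := k) hN) hτ tr))
    {M : Type} [AddCommGroup M] [Module k M] [Module.Finite k M] {ρ : Representation k Γ M}
    (hρ : L.IsSmooth ρ) : Function.Bijective (F.alpha n hρ hτ tr) := by
  -- surjectivity, for all finite smooth representations
  have hsurj : ∀ (M : Type) [AddCommGroup M] [Module k M] [Module.Finite k M]
      (ρ : Representation k Γ M) (hρ : L.IsSmooth ρ),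
      Function.Surjective (F.alpha n hρ hτ tr) := by
    intro M _ _ _ ρ hρ
    obtain ⟨N₀, hN₀, htriv⟩ := exists_level_trivial hρ
    obtain ⟨N, hN, hle, hb⟩ := hbase N₀ hN₀
    have hfin := L.finiteIndex N hN
    have : Finite (Γ ⧸ N) := Subgroup.finite_quotient_of_finiteIndex
    have hM : ∀ t ∈ N, ρ t = 1 := fun t ht => htriv t (hle ht)
    exact F.alpha_surjective_of_cover n (pnRep_smooth (k := k) (V := M) hN) hρ hτ tr
      (pnSum ρ N) (pnSum_equivariant ρ (L.normal N hN) hM) (pnSum_surjective ρ hM)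
      (F.alpha_bijective_pn n hτ tr hN hb M).2
  refine ⟨?_, hsurj M ρ hρ⟩
  obtain ⟨N₀, hN₀, htriv⟩ := exists_level_trivial hρ
  obtain ⟨N, hN, hle, hb⟩ := hbase N₀ hN₀
  have hfin := L.finiteIndex N hN
  have : Finite (Γ ⧸ N) := Subgroup.finite_quotient_of_finiteIndex
  have hM : ∀ t ∈ N, ρ t = 1 := fun t ht => htriv t (hle ht)
  have hPfin : Module.Finite k (PN N k M) := pn_finite hfin
  exact F.alpha_injective_of_cover n (pnRep_smooth (k := k) (V := M) hN) hρ hτ tr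
    (pnSum ρ N) (pnSum_equivariant ρ (L.normal N hN) hM) (pnSum_surjective ρ hM)
    (hrex _ hρ _ _ (pnSum_surjective ρ hM))
    (F.alpha_bijective_pn n hτ tr hN hb M).1
    (hsurj _ _ _)

end Main

/-! ### Right exactness for the two instances -/

section Instances

variable {k : Type} [CommRing k]

/-- Right exactness of `H^n` of a leveled group when `H^{n+1}` of the kernel vanishes. -/
theorem level_rex {Γ : Type} [Group Γ] (L : LevelSys Γ) {P M : Type} [AddCommGroup P]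
    [Module k P] [AddCommGroup M] [Module k M] {σ : Representation k Γ P}
    {ρ : Representation k Γ M} (hσ : L.IsSmooth σ) (hρ : L.IsSmooth ρ) (π : P →ₗ[k] M)
    (hπ : ∀ g m, π (σ g m) = ρ g (π m)) (hsurj : Function.Surjective π) (n : ℕ)
    (hvan : Subsingleton ((L.cx (subRep σ (LinearMap.ker π) (ker_invariant π hπ))
      (subRep_smooth hσ (LinearMap.ker π) (ker_invariant π hπ))).H (n + 1))) :
    Function.Surjective ((L.mapCoeff hσ hρ π hπ).mapH n) := by
  have hse := L.shortExact_mapCoeff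
    (subRep_smooth hσ (LinearMap.ker π) (ker_invariant π hπ)) hσ hρ
    (LinearMap.ker π).subtype π (fun _ _ => rfl) hπ (Submodule.injective_subtype _)
    (LinearMap.exact_subtype_ker_map π) hsurj
  intro x
  exact (hse.exact_g_δ n x).1 (Subsingleton.elim _ _)

variable {G : Type} [Group G] (𝔇 : LocDatum G)

lemma piH_piMap {ι : Type} {D D' : ι → Cx k} (f : ∀ i, Cx.Hom (D i) (D' i)) (n : ℕ)
    (w : (Cx.pi D).H n) (i : ι) :
    Cx.piH D' n ((Cx.piMap f).mapH n w) i = (f i).mapH n (Cx.piH D n w i) := by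
  obtain ⟨z, rfl⟩ := (Cx.pi D).Hπ_surjective n w
  rfl

/-- Naturality of `ιc : ∏_v H^n_v → H^{n+1}_c` in the coefficients. -/
theorem ιc_natural {M M' : Type} [AddCommGroup M] [Module k M] [AddCommGroup M'] [Module k M']
    {ρ : Representation k G M} {ρ' : Representation k G M'} (hρ : 𝔇.IsSmooth ρ)
    (hρ' : 𝔇.IsSmooth ρ') (φ : M →ₗ[k] M') (hφ : ∀ g m, φ (ρ g m) = ρ' g (φ m)) (n : ℕ)
    (y : ∀ v, 𝔇.Hv ρ hρ v n) :
    (𝔇.mapCc hρ hρ' φ hφ).mapH (n + 1) (𝔇.ιc ρ hρ n y) =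
      𝔇.ιc ρ' hρ' n (fun v => (𝔇.mapCv hρ hρ' φ hφ v).mapH n (y v)) := by
  set e := LinearEquiv.ofBijective (Cx.piH (fun v => 𝔇.Cv ρ hρ v) n) (Cx.piH_bijective _ n)
    with he
  set e' := LinearEquiv.ofBijective (Cx.piH (fun v => 𝔇.Cv ρ' hρ' v) n)
    (Cx.piH_bijective _ n) with he'
  show (Cx.coconeMap (𝔇.loc ρ hρ) (𝔇.loc ρ' hρ') (𝔇.mapC hρ hρ' φ hφ)
      (𝔇.mapCloc hρ hρ' φ hφ) (𝔇.loc_mapC hρ hρ' φ hφ)).mapH (n + 1)
      (Cx.coconeι (𝔇.loc ρ hρ) n (e.symm y)) =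
    Cx.coconeι (𝔇.loc ρ' hρ') n (e'.symm fun v => (𝔇.mapCv hρ hρ' φ hφ v).mapH n (y v))
  rw [Cx.coconeMap_coconeι]
  congr 1
  apply e'.injective
  rw [LinearEquiv.apply_symm_apply]
  funext v
  show Cx.piH (fun v => 𝔇.Cv ρ' hρ' v) n ((𝔇.mapCloc hρ hρ' φ hφ).mapH n (e.symm y)) v = _
  rw [piH_piMap]
  congr 1
  exact congrFun (e.apply_symm_apply y) v

/-- Right exactness of `H^{n+1}_c` when `H^{n+1}` of the quotient and the local `H^{n+1}` of the
kernel vanish. -/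
theorem cc_rex {P M : Type} [AddCommGroup P] [Module k P] [AddCommGroup M] [Module k M]
    {σ : Representation k G P} {ρ : Representation k G M} (hσ : 𝔇.IsSmooth σ)
    (hρ : 𝔇.IsSmooth ρ) (π : P →ₗ[k] M) (hπ : ∀ g m, π (σ g m) = ρ g (π m))
    (hsurj : Function.Surjective π) (n : ℕ) (hG : Subsingleton (𝔇.H ρ hρ (n + 1)))
    (hv : ∀ v, Subsingleton (𝔇.Hv (subRep σ (LinearMap.ker π) (ker_invariant π hπ))
      (subRep_smooth hσ (LinearMap.ker π) (ker_invariant π hπ)) v (n + 1))) :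
    Function.Surjective ((𝔇.mapCc hσ hρ π hπ).mapH (n + 1)) := by
  intro x
  have h0 : 𝔇.πc ρ hρ (n + 1) x = 0 := Subsingleton.elim _ _
  obtain ⟨y, rfl⟩ := (𝔇.exact_ιc_πc ρ hρ n x).1 h0
  have hloc : ∀ v, ∃ z, (𝔇.mapCv hσ hρ π hπ v).mapH n z = y v := by
    intro v
    have hse := 𝔇.shortExact_mapCv
      (subRep_smooth hσ (LinearMap.ker π) (ker_invariant π hπ)) hσ hρ
      (LinearMap.ker π).subtype π (fun _ _ => rfl) hπ (Submodule.injective_subtype _)
      (LinearMap.exact_subtype_ker_map π) hsurj v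
    have := hv v
    exact (hse.exact_g_δ n (y v)).1 (Subsingleton.elim _ _)
  choose z hz using hloc
  refine ⟨𝔇.ιc σ hσ n z, ?_⟩
  rw [ιc_natural]
  congr 1
  funext v
  exact hz v

end Instances

/-! ### (C1) and its local twin -/

section Final

variable {k : Type} [Field k]

/-- **Local twin of (C1).** For a leveled group `(Γ, L)` with `H^{n+1} = 0` on finite smooth
representations: if `alpha : H^n(P_N(k)) → Hom_Γ(P_N(k), T)^*` is bijective for a cofinal family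
of levels `N`, then `alpha : H^n(M) → Hom_Γ(M, T)^*` is bijective for every finite smooth `M`. -/
theorem level_alpha_bijective {Γ : Type} [Group Γ] (L : LevelSys Γ) (n : ℕ) {T : Type}
    [AddCommGroup T] [Module k T] {τ : Representation k Γ T} (hτ : L.IsSmooth τ)
    (tr : (L.cx τ hτ).H n →ₗ[k] k)
    (hvan : ∀ (M : Type) [AddCommGroup M] [Module k M] [Module.Finite k M]
      (ρ : Representation k Γ M) (hρ : L.IsSmooth ρ), Subsingleton ((L.cx ρ hρ).H (n + 1)))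
    (hbase : ∀ N₀ ∈ L.lev, ∃ N, ∃ hN : N ∈ L.lev, N ≤ N₀ ∧
      Function.Bijective ((levelFun k L).alpha n (pnRep_smooth (k := k) (V := k) hN) hτ tr))
    {M : Type} [AddCommGroup M] [Module k M] [Module.Finite k M] {ρ : Representation k Γ M}
    (hρ : L.IsSmooth ρ) : Function.Bijective ((levelFun k L).alpha n hρ hτ tr) := by
  refine (levelFun k L).alpha_bijective n hτ tr ?_ hbase hρ
  intro P M _ _ _ _ _ _ σ ρ hσ hρ π hπ hsurj
  exact level_rex L hσ hρ π hπ hsurj n (hvan _ _ _)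

lemma level_alpha_apply {Γ : Type} [Group Γ] (L : LevelSys Γ) (n : ℕ) {M T : Type}
    [AddCommGroup M] [Module k M] [AddCommGroup T] [Module k T] {ρ : Representation k Γ M}
    {τ : Representation k Γ T} (hρ : L.IsSmooth ρ) (hτ : L.IsSmooth τ)
    (tr : (L.cx τ hτ).H n →ₗ[k] k) (x : (L.cx ρ hρ).H n) (y : eqHom ρ τ) :
    (levelFun k L).alpha n hρ hτ tr x y =
      tr ((L.mapCoeff hρ hτ y.1 (eqHom_comm y)).mapH n x) := rfl

variable {G : Type} [Group G] (𝔇 : LocDatum G)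

/-- **(C1).** For a Poitou–Tate datum with `H^{n+1}(G; ·) = 0` and `H^{n+1}(D_v; ·) = 0` on
finite smooth representations: if `alpha : H^{n+1}_c(P_N(k)) → Hom_G(P_N(k), T)^*` is bijective
for a cofinal family of levels `N`, then `alpha : H^{n+1}_c(M) → Hom_G(M, T)^*` is bijective for
every finite smooth `M`.  (`n = 2` in the application.) -/
theorem cc_alpha_bijective (n : ℕ) {T : Type} [AddCommGroup T] [Module k T]
    {τ : Representation k G T} (hτ : 𝔇.IsSmooth τ) (tr : 𝔇.Hc τ hτ (n + 1) →ₗ[k] k)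
    (hG : ∀ (M : Type) [AddCommGroup M] [Module k M] [Module.Finite k M]
      (ρ : Representation k G M) (hρ : 𝔇.IsSmooth ρ), Subsingleton (𝔇.H ρ hρ (n + 1)))
    (hv : ∀ (M : Type) [AddCommGroup M] [Module k M] [Module.Finite k M]
      (ρ : Representation k G M) (hρ : 𝔇.IsSmooth ρ) (v : 𝔇.ι),
      Subsingleton (𝔇.Hv ρ hρ v (n + 1)))
    (hbase : ∀ N₀ ∈ 𝔇.L.lev, ∃ N, ∃ hN : N ∈ 𝔇.L.lev, N ≤ N₀ ∧
      Function.Bijective
        ((ccFun k 𝔇).alpha (n + 1) (pnRep_smooth (k := k) (V := k) hN) hτ tr))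
    {M : Type} [AddCommGroup M] [Module k M] [Module.Finite k M] {ρ : Representation k G M}
    (hρ : 𝔇.IsSmooth ρ) : Function.Bijective ((ccFun k 𝔇).alpha (n + 1) hρ hτ tr) := by
  refine (ccFun k 𝔇).alpha_bijective (n + 1) hτ tr ?_ hbase hρ
  intro P M _ _ _ _ _ _ σ ρ hσ hρ π hπ hsurj
  exact cc_rex 𝔇 hσ hρ π hπ hsurj n (hG _ _ _) (fun v => hv _ _ _ v)

lemma cc_alpha_apply (n : ℕ) {M T : Type} [AddCommGroup M] [Module k M] [AddCommGroup T]
    [Module k T] {ρ : Representation k G M} {τ : Representation k G T} (hρ : 𝔇.IsSmooth ρ)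
    (hτ : 𝔇.IsSmooth τ) (tr : 𝔇.Hc τ hτ n →ₗ[k] k) (x : 𝔇.Hc ρ hρ n) (y : eqHom ρ τ) :
    (ccFun k 𝔇).alpha n hρ hτ tr x y =
      tr ((𝔇.mapCc hρ hτ y.1 (eqHom_comm y)).mapH n x) := rfl

/-- Dimension form: if `alpha` is bijective then `dim H^n = dim Hom_Γ(M, T)`. -/
theorem finrank_eq_of_alpha_bijective {Γ : Type} [Group Γ] {L : LevelSys Γ} (F : CohFun k L)
    (n : ℕ) {M T : Type} [AddCommGroup M] [Module k M] [AddCommGroup T] [Module k T]
    {ρ : Representation k Γ M} {τ : Representation k Γ T} (hρ : L.IsSmooth ρ)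
    (hτ : L.IsSmooth τ) (tr : (F.K τ hτ).H n →ₗ[k] k)
    (h : Function.Bijective (F.alpha n hρ hτ tr)) :
    Module.finrank k ((F.K ρ hρ).H n) = Module.finrank k (eqHom ρ τ) := by
  rw [LinearEquiv.finrank_eq (LinearEquiv.ofBijective _ h), Subspace.dual_finrank_eq]

end Final

end Fermat.Agent.PT.Rex
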