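/-
PT layer F (F-REX, part 2): (C1) and its local twin with the base case on the permutation
modules `Shapiro.permRep U k = coind_U^Γ k` of `ShapiroTriv.lean`, and the "one-dimensional"
criterion for the base case.

* `CohFun.alpha_bijective_of_equiv` : `alpha` bijective is invariant under equivariant
  isomorphisms;
* `pnPermEquiv` : for a normal `N`, `P_N(k) ≃ coind_N^Γ k` (the same functions), equivariantly;
* `permDelta U k` : the indicator function of `U` in `coind_U^Γ k`; `eqHom_perm_ext` : an
  equivariant map out of `coind_U^Γ k` is determined by its value on `permDelta`;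
  `finrank_eqHom_perm_le` : `dim Hom_Γ(coind_U^Γ k, T) ≤ dim T`;
* `CohFun.alpha_bijective_of_finrank_one` : if `H^n(K σ)` is one-dimensional,
  `dim Hom_Γ(P, T) ≤ 1` and `alpha x y ≠ 0` for some `x`, `y`, then `alpha` is bijective;
* `CohFun.alpha_perm_bijective` : the same for `P = coind_U^Γ k`, `dim T = 1`;
* `cc_alpha_bijective_of_perm` (**(C1)**), `level_alpha_bijective_of_perm` (local twin): base
  case on `permRep N k` for a cofinal family of levels `N`.
-/
import Fermat.Agent.PT.Coh.Rex
import Fermat.Agent.PT.Coh.ShapiroTriv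

set_option autoImplicit false

namespace Fermat.Agent.PT.Rex

open Fermat.Agent.PT Fermat.Agent.PT.Shapiro

section Equiv

variable {k : Type} [Field k] {Γ : Type} [Group Γ] {L : LevelSys Γ} (F : CohFun k L) (n : ℕ)
variable {M Y T : Type} [AddCommGroup M] [Module k M] [AddCommGroup Y] [Module k Y]
  [AddCommGroup T] [Module k T]
variable {ρ : Representation k Γ M} {σ : Representation k Γ Y} {τ : Representation k Γ T}

/-- `alpha` bijective is invariant under equivariant isomorphisms. -/
theorem CohFun.alpha_bijective_of_equiv (hσ : L.IsSmooth σ) (hρ : L.IsSmooth ρ)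
    (hτ : L.IsSmooth τ) (tr : (F.K τ hτ).H n →ₗ[k] k) (e : Y ≃ₗ[k] M)
    (he : ∀ g y, e (σ g y) = ρ g (e y)) (hY : Function.Bijective (F.alpha n hσ hτ tr)) :
    Function.Bijective (F.alpha n hρ hτ tr) := by
  refine F.alpha_bijective_of_sum n (J := Unit) hσ hρ hτ tr (fun _ => e.toLinearMap)
    (fun _ g y => he g y) (fun _ => e.symm.toLinearMap) (fun _ g m => ?_) (fun m => ?_) hY
  · apply e.injective
    show e (e.symm (ρ g m)) = e (σ g (e.symm m))
    rw [he, e.apply_symm_apply, e.apply_symm_apply]
  · show ∑ _j : Unit, e (e.symm m) = m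
    rw [Fintype.sum_unique, e.apply_symm_apply]

/-- **One-dimensional criterion.** If `H^n(K σ)` is one-dimensional, `Hom_Γ(Y, T)` is at most
one-dimensional and some `alpha x y` is non-zero, then `alpha` is bijective. -/
theorem CohFun.alpha_bijective_of_finrank_one [Module.Finite k Y] [Module.Finite k T]
    (hσ : L.IsSmooth σ) (hτ : L.IsSmooth τ) (tr : (F.K τ hτ).H n →ₗ[k] k)
    (hH : Module.finrank k ((F.K σ hσ).H n) = 1) (hE : Module.finrank k (eqHom σ τ) ≤ 1)
    (x : (F.K σ hσ).H n) (y : eqHom σ τ) (hxy : F.alpha n hσ hτ tr x y ≠ 0) :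
    Function.Bijective (F.alpha n hσ hτ tr) := by
  have hfinH : Module.Finite k ((F.K σ hσ).H n) := Module.finite_of_finrank_eq_succ hH
  have hx0 : x ≠ 0 := by
    rintro rfl
    exact hxy (by rw [_root_.map_zero, LinearMap.zero_apply])
  have hy0 : y ≠ 0 := by
    rintro rfl
    exact hxy (by rw [_root_.map_zero])
  have hinj : Function.Injective (F.alpha n hσ hτ tr) := by
    rw [injective_iff_map_eq_zero]
    intro z hz
    obtain ⟨c, rfl⟩ := exists_smul_eq_of_finrank_eq_one hH hx0 z
    rw [_root_.map_smul] at hz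
    have hc : c = 0 := by
      by_contra hc
      apply hxy
      have := congrArg (fun ξ : Module.Dual k (eqHom σ τ) => ξ y) hz
      simp only [LinearMap.smul_apply, LinearMap.zero_apply, smul_eq_mul] at this
      exact (mul_eq_zero.1 this).resolve_left hc
    rw [hc, zero_smul]
  refine ⟨hinj, ?_⟩
  have hE1 : Module.finrank k (eqHom σ τ) = 1 := by
    refine le_antisymm hE ?_
    exact Module.finrank_pos_iff_exists_ne_zero.2 ⟨y, hy0⟩
  have hdim : Module.finrank k ((F.K σ hσ).H n) =
      Module.finrank k (Module.Dual k (eqHom σ τ)) := by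
    rw [hH, Subspace.dual_finrank_eq, hE1]
  exact (LinearMap.injective_iff_surjective_of_finrank_eq_finrank hdim).1 hinj

end Equiv

/-! ### `P_N(k)` and `coind_N^Γ k` -/

section Perm

variable {Γ : Type} [Group Γ] (k : Type) [CommRing k]

/-- For a normal subgroup `N`, right-`N`-invariant and left-`N`-invariant functions agree. -/
def pnPermEquiv (N : Subgroup Γ) (hN : N.Normal) :
    PN N k k ≃ₗ[k] Representation.coindV N.subtype (Representation.trivial k N k) where
  toFun φ := ⟨φ.1, fun n h => by
    have h1 : N.subtype n * h = h * (h⁻¹ * (n : Γ) * h) := by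
      show (n : Γ) * h = _
      group
    have h2 : h⁻¹ * (n : Γ) * h ∈ N := by
      have := hN.conj_mem n n.2 h⁻¹
      rwa [inv_inv] at this
    show φ.1 (N.subtype n * h) = φ.1 h
    rw [h1, PN_apply_mul φ h h2]⟩
  map_add' _ _ := rfl
  map_smul' _ _ := rfl
  invFun f := ⟨f.1, fun x n hn => by
    have h1 : x * n = N.subtype ⟨x * n * x⁻¹, hN.conj_mem n hn x⟩ * x := by
      show x * n = x * n * x⁻¹ * x
      group
    show f.1 (x * n) = f.1 x
    rw [h1]
    exact f.2 ⟨x * n * x⁻¹, hN.conj_mem n hn x⟩ x⟩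
  left_inv _ := rfl
  right_inv _ := rfl

lemma pnPermEquiv_equivariant (N : Subgroup Γ) (hN : N.Normal) (g : Γ) (φ : PN N k k) :
    pnPermEquiv k N hN (pnRep N k k hN g φ) = permRep N k g (pnPermEquiv k N hN φ) := rfl

open Classical in
/-- The indicator function of `U`, an element of `coind_U^Γ k`. -/
noncomputable def permDelta (U : Subgroup Γ) :
    Representation.coindV U.subtype (Representation.trivial k U k) :=
  ⟨fun g => if g ∈ U then 1 else 0, fun u h => by
    have : U.subtype u * h ∈ U ↔ h ∈ U := ⟨fun hh => by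
      have := U.mul_mem (U.inv_mem u.2) hh
      simpa using this, fun hh => U.mul_mem u.2 hh⟩
    show (if U.subtype u * h ∈ U then (1 : k) else 0) = if h ∈ U then 1 else 0
    rw [if_congr this rfl rfl]⟩

open Classical in
lemma permDelta_apply (U : Subgroup Γ) (g : Γ) :
    (permDelta k U).1 g = if g ∈ U then 1 else 0 := rfl

variable {k}

/-- An equivariant map out of `coind_U^Γ k` (finite index) which kills the indicator function
of `U` is zero. -/
theorem eqHom_perm_eq_zero {T : Type} [AddCommGroup T] [Module k T] (U : Subgroup Γ)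
    [U.FiniteIndex] {τ : Representation k Γ T} (y : eqHom (permRep U k) τ)
    (hy : y.1 (permDelta k U) = 0) : y = 0 := by
  classical
  obtain ⟨S, hS, -⟩ := Subgroup.exists_isComplement_right U (1 : Γ)
  have hSfin : Finite S := hS.finite_right_iff.mpr inferInstance
  have := Fintype.ofFinite S
  -- the image of a basis function is a translate of the indicator function
  have key : ∀ t : S, (permEquiv (k := k) hS).symm (Pi.single t 1) =
      permRep U k ((t : Γ)⁻¹) (permDelta k U) := by
    intro t
    apply Subtype.ext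
    funext g
    show (Pi.single t (1 : k) : S → k) (hS.equiv g).2 = (permDelta k U).1 (g * (t : Γ)⁻¹)
    rw [permDelta_apply]
    by_cases h : (hS.equiv g).2 = t
    · rw [h, Pi.single_eq_same, if_pos]
      have h1 := hS.equiv_fst_mul_equiv_snd g
      rw [h] at h1
      have h2 : g * (t : Γ)⁻¹ = ((hS.equiv g).1 : Γ) :=
        calc g * (t : Γ)⁻¹ = ((hS.equiv g).1 : Γ) * (t : Γ) * (t : Γ)⁻¹ := by rw [h1]
          _ = ((hS.equiv g).1 : Γ) := by group
      rw [h2]
      exact (hS.equiv g).1.2
    · rw [Pi.single_eq_of_ne h, if_neg]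
      intro hmem
      apply h
      have h1 : g = U.subtype ⟨g * (t : Γ)⁻¹, hmem⟩ * (t : Γ) := by
        show g = g * (t : Γ)⁻¹ * (t : Γ)
        group
      have h2 := congrArg (fun q : ↥(U : Set Γ) × ↥S => q.2)
        (hS.equiv_mul_left ⟨g * (t : Γ)⁻¹, hmem⟩ (t : Γ))
      have h3 := hS.equiv_snd_eq_self_of_mem_of_one_mem (g := (t : Γ)) U.one_mem t.2
      apply Subtype.ext
      rw [h1]
      exact (congrArg Subtype.val h2).trans (congrArg Subtype.val h3)
  have hzero : y.1 ∘ₗ (permEquiv (k := k) hS).symm.toLinearMap = 0 := by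
    apply LinearMap.pi_ext
    intro t c
    have hc : (Pi.single t c : S → k) = c • Pi.single t 1 := by
      rw [← Pi.single_smul, smul_eq_mul, mul_one]
    rw [hc, map_smul, LinearMap.comp_apply, LinearEquiv.coe_coe, key, eqHom_comm y, hy,
      map_zero, smul_zero, LinearMap.zero_apply]
  apply Subtype.ext
  apply LinearMap.ext
  intro f
  have := congrArg (fun φ : (S → k) →ₗ[k] T => φ (permEquiv (k := k) hS f)) hzero
  simpa using this

/-- `dim Hom_Γ(coind_U^Γ k, T) ≤ dim T`. -/
theorem finrank_eqHom_perm_le {k : Type} [Field k] {T : Type} [AddCommGroup T] [Module k T]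
    [Module.Finite k T] (U : Subgroup Γ) [U.FiniteIndex] (τ : Representation k Γ T) :
    Module.finrank k (eqHom (permRep U k) τ) ≤ Module.finrank k T := by
  let E : eqHom (permRep U k) τ →ₗ[k] T :=
    { toFun := fun y => y.1 (permDelta k U)
      map_add' := fun _ _ => rfl
      map_smul' := fun _ _ => rfl }
  refine LinearMap.finrank_le_finrank_of_injective (f := E) ?_
  rw [injective_iff_map_eq_zero]
  intro y hy
  exact eqHom_perm_eq_zero U y hy

end Perm

/-! ### The base case on permutation modules -/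

section Final

variable {k : Type} [Field k] {Γ : Type} [Group Γ] {L : LevelSys Γ} (F : CohFun k L) (n : ℕ)
variable {T : Type} [AddCommGroup T] [Module k T] {τ : Representation k Γ T}

/-- **Base case criterion.** For an open subgroup `U` of finite index and a one-dimensional `T`:
if `H^n(K (coind_U^Γ k))` is one-dimensional and `tr (y_* x) ≠ 0` for some class `x` and some
equivariant `y : coind_U^Γ k → T`, then `alpha` is bijective on `coind_U^Γ k`. -/
theorem CohFun.alpha_perm_bijective (U : Subgroup Γ) [U.FiniteIndex]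
    (hU : ∃ N ∈ L.lev, N ≤ U) (hτ : L.IsSmooth τ) (tr : (F.K τ hτ).H n →ₗ[k] k)
    (hT : Module.finrank k T = 1)
    (hH : Module.finrank k ((F.K (permRep U k) (permRep_smooth L U k hU)).H n) = 1)
    (x : (F.K (permRep U k) (permRep_smooth L U k hU)).H n) (y : eqHom (permRep U k) τ)
    (hxy : tr ((F.map (permRep_smooth L U k hU) hτ y.1 (eqHom_comm y)).mapH n x) ≠ 0) :
    Function.Bijective (F.alpha n (permRep_smooth L U k hU) hτ tr) := by
  have hTfin : Module.Finite k T := Module.finite_of_finrank_eq_succ hT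
  have hPfin : Module.Finite k
      (Representation.coindV U.subtype (Representation.trivial k U k)) := finite_perm U k
  exact F.alpha_bijective_of_finrank_one n (permRep_smooth L U k hU) hτ tr hH
    ((finrank_eqHom_perm_le U τ).trans hT.le) x y hxy

/-- Transport of the base case from `coind_N^Γ k` to `P_N(k)`. -/
theorem CohFun.alpha_pn_of_perm (hτ : L.IsSmooth τ) (tr : (F.K τ hτ).H n →ₗ[k] k)
    {N : Subgroup Γ} (hN : N ∈ L.lev)
    (h : Function.Bijective (F.alpha n (permRep_smooth L N k ⟨N, hN, le_rfl⟩) hτ tr)) :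
    Function.Bijective (F.alpha n (pnRep_smooth (k := k) (V := k) hN) hτ tr) :=
  F.alpha_bijective_of_equiv n (permRep_smooth L N k ⟨N, hN, le_rfl⟩)
    (pnRep_smooth (k := k) (V := k) hN) hτ tr (pnPermEquiv k N (L.normal N hN)).symm
    (fun g f => by
      apply (pnPermEquiv k N (L.normal N hN)).injective
      rw [LinearEquiv.apply_symm_apply, pnPermEquiv_equivariant, LinearEquiv.apply_symm_apply])
    h

/-- **Local twin of (C1)**, base case on the permutation modules `coind_N^Γ k`. -/
theorem level_alpha_bijective_of_perm (L : LevelSys Γ) (n : ℕ) (hτ : L.IsSmooth τ)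
    (tr : (L.cx τ hτ).H n →ₗ[k] k)
    (hvan : ∀ (M : Type) [AddCommGroup M] [Module k M] [Module.Finite k M]
      (ρ : Representation k Γ M) (hρ : L.IsSmooth ρ), Subsingleton ((L.cx ρ hρ).H (n + 1)))
    (hbase : ∀ N₀ ∈ L.lev, ∃ N, ∃ hN : N ∈ L.lev, N ≤ N₀ ∧
      Function.Bijective
        ((levelFun k L).alpha n (permRep_smooth L N k ⟨N, hN, le_rfl⟩) hτ tr))
    {M : Type} [AddCommGroup M] [Module k M] [Module.Finite k M] {ρ : Representation k Γ M}
    (hρ : L.IsSmooth ρ) : Function.Bijective ((levelFun k L).alpha n hρ hτ tr) := by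
  refine level_alpha_bijective L n hτ tr hvan (fun N₀ hN₀ => ?_) hρ
  obtain ⟨N, hN, hle, hb⟩ := hbase N₀ hN₀
  exact ⟨N, hN, hle, (levelFun k L).alpha_pn_of_perm n hτ tr hN hb⟩

/-- **(C1)**, base case on the permutation modules `coind_N^G k`. -/
theorem cc_alpha_bijective_of_perm {G : Type} [Group G] (𝔇 : LocDatum G) (n : ℕ) {T : Type}
    [AddCommGroup T] [Module k T] {τ : Representation k G T} (hτ : 𝔇.IsSmooth τ)
    (tr : 𝔇.Hc τ hτ (n + 1) →ₗ[k] k)
    (hG : ∀ (M : Type) [AddCommGroup M] [Module k M] [Module.Finite k M]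
      (ρ : Representation k G M) (hρ : 𝔇.IsSmooth ρ), Subsingleton (𝔇.H ρ hρ (n + 1)))
    (hv : ∀ (M : Type) [AddCommGroup M] [Module k M] [Module.Finite k M]
      (ρ : Representation k G M) (hρ : 𝔇.IsSmooth ρ) (v : 𝔇.ι),
      Subsingleton (𝔇.Hv ρ hρ v (n + 1)))
    (hbase : ∀ N₀ ∈ 𝔇.L.lev, ∃ N, ∃ hN : N ∈ 𝔇.L.lev, N ≤ N₀ ∧
      Function.Bijective
        ((ccFun k 𝔇).alpha (n + 1) (permRep_smooth 𝔇.L N k ⟨N, hN, le_rfl⟩) hτ tr))
    {M : Type} [AddCommGroup M] [Module k M] [Module.Finite k M] {ρ : Representation k G M}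
    (hρ : 𝔇.IsSmooth ρ) : Function.Bijective ((ccFun k 𝔇).alpha (n + 1) hρ hτ tr) := by
  refine cc_alpha_bijective 𝔇 n hτ tr hG hv (fun N₀ hN₀ => ?_) hρ
  obtain ⟨N, hN, hle, hb⟩ := hbase N₀ hN₀
  exact ⟨N, hN, hle, (ccFun k 𝔇).alpha_pn_of_perm (n + 1) hτ tr hN hb⟩

end Final

end Fermat.Agent.PT.Rex
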