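/-
PT layer F (F-REX, part 3): the engine hypotheses (e3) and (ev) in dimension form.

* `toH0`, `finrank_H0` : `H⁰` of the level complex is the module of invariants;
* `finrank_invariants_eq_eqHom` : for the twisted dual `ρ' = ρ.dual.twist χ` and a
  one-dimensional `T` on which the group acts through `χ`:
  `dim (M')^Γ = dim Hom_Γ(M, T)`;
* `exists_functional_ne_zero` : a functional on a one-dimensional space which does not vanish on
  a given non-zero vector;
* `e3_of_base` : **(e3)** `finrank (𝔇.Hc ρ hρ 3) = finrank (𝔇.H (ρ.dual.twist χ) hρ' 0)` for every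
  finite smooth `(M, ρ)`, from `H³(G; ·) = 0`, `H³(D_v; ·) = 0` and the base case on the
  permutation modules `coind_N^G k` (`h³_c = 1` and a non-zero augmentation);
* `ev_of_base` : **(ev)** `finrank H²(Γ; ρ) = finrank H⁰(Γ; ρ')` for a leveled group with
  `H³ = 0` (local twin; `ev_of_base_datum` is the literal shape for `𝔇.Hv`).
-/
import Fermat.Agent.PT.Coh.RexPerm
import Fermat.Agent.PT.Coh.CupSetup
import Fermat.Prelude.Def_GroupCohomology_Selmer

set_option autoImplicit false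

namespace Fermat.Agent.PT.Rex

open Fermat.Agent.PT Fermat.Agent.PT.Shapiro

/-! ### `H⁰` is the module of invariants -/

section H0

variable {k : Type} [CommRing k] {Γ : Type} [Group Γ] (L : LevelSys Γ)
  {M : Type} [AddCommGroup M] [Module k M] {ρ : Representation k Γ M} (hρ : L.IsSmooth ρ)

/-- the constant cochain of degree zero, linearly -/
def const0Lin : M →ₗ[k] (L.cx ρ hρ).X 0 where
  toFun := L.const0 hρ
  map_add' _ _ := rfl
  map_smul' _ _ := rfl

lemma const0Lin_mem_Z (m : ρ.invariants) : const0Lin L hρ (m : M) ∈ (L.cx ρ hρ).Z 0 := by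
  rw [Cx.mem_Z]
  refine (L.d_zero_eq_zero_iff hρ _).2 fun g => ?_
  show ρ g (L.ev0 hρ (L.const0 hρ (m : M))) = L.ev0 hρ (L.const0 hρ (m : M))
  rw [LevelSys.ev0_const0]
  exact (Representation.mem_invariants ρ _).1 m.2 g

/-- The map from the invariants to `H⁰`. -/
noncomputable def toH0 : ρ.invariants →ₗ[k] (L.cx ρ hρ).H 0 :=
  (L.cx ρ hρ).Hπ 0 ∘ₗ
    LinearMap.codRestrict ((L.cx ρ hρ).Z 0) (const0Lin L hρ ∘ₗ ρ.invariants.subtype)
      (fun m => const0Lin_mem_Z L hρ m)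

theorem toH0_bijective : Function.Bijective (toH0 L hρ) := by
  constructor
  · rw [injective_iff_map_eq_zero]
    intro m hm
    have h1 : (L.cx ρ hρ).Hπ 0 ⟨const0Lin L hρ (m : M), const0Lin_mem_Z L hρ m⟩ = 0 := hm
    rw [Cx.Hπ_eq_zero_iff, Cx.mem_B_zero] at h1
    have h2 : L.ev0 hρ (L.const0 hρ (m : M)) = 0 := by
      have : L.const0 hρ (m : M) = 0 := h1
      rw [this, map_zero]
    rw [LevelSys.ev0_const0] at h2
    exact Subtype.ext h2
  · intro h
    obtain ⟨x, hx, rfl⟩ := (L.cx ρ hρ).exists_cls h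
    have hinv : L.ev0 hρ x ∈ ρ.invariants :=
      (Representation.mem_invariants ρ _).2 ((L.d_zero_eq_zero_iff hρ x).1 hx)
    refine ⟨⟨L.ev0 hρ x, hinv⟩, ?_⟩
    show (L.cx ρ hρ).Hπ 0 ⟨L.const0 hρ (L.ev0 hρ x), _⟩ = (L.cx ρ hρ).Hπ 0 ⟨x, hx⟩
    congr 1
    exact Subtype.ext (L.const0_ev0 hρ x)

/-- `dim H⁰ = dim` of the invariants. -/
theorem finrank_H0 :
    Module.finrank k ((L.cx ρ hρ).H 0) = Module.finrank k ρ.invariants :=
  (LinearEquiv.finrank_eq (LinearEquiv.ofBijective (toH0 L hρ) (toH0_bijective L hρ))).symm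

end H0

/-! ### Invariants of the twisted dual -/

section DualTwist

variable {k : Type} [Field k] {Γ : Type} [Group Γ]
  {M T : Type} [AddCommGroup M] [Module k M] [AddCommGroup T] [Module k T]

/-- a functional on a one-dimensional space which does not vanish at any non-zero vector -/
theorem exists_functional_ne_zero {W : Type} [AddCommGroup W] [Module k W]
    (hW : Module.finrank k W = 1) : ∃ tr : W →ₗ[k] k, ∀ w : W, w ≠ 0 → tr w ≠ 0 := by
  have hfin : Module.Finite k W := Module.finite_of_finrank_eq_succ hW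
  let b := Module.finBasisOfFinrankEq k W hW
  refine ⟨b.coord 0, fun w hw h => hw ?_⟩
  have h1 := b.sum_repr w
  rw [Fin.sum_univ_one] at h1
  rw [← h1]
  rw [Module.Basis.coord_apply] at h
  rw [h, zero_smul]

/-- For a representation `ρ'` on the dual of `M` of the shape `ρ' g φ = c g • (φ ∘ ρ g⁻¹)` and a
one-dimensional `T` with `τ g = c g • id`: `dim (M')^Γ = dim Hom_Γ(M, T)`. -/
theorem finrank_invariants_eq_eqHom (ρ : Representation k Γ M)
    (ρ' : Representation k Γ (Module.Dual k M)) (τ : Representation k Γ T) (c : Γ → k)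
    (h1 : ∀ g φ m, ρ' g φ m = c g * φ (ρ g⁻¹ m)) (h2 : ∀ g t, τ g t = c g • t)
    (hT : Module.finrank k T = 1) :
    Module.finrank k ρ'.invariants = Module.finrank k (eqHom ρ τ) := by
  have hfin : Module.Finite k T := Module.finite_of_finrank_eq_succ hT
  let b := Module.finBasisOfFinrankEq k T hT
  have hb0 : b 0 ≠ 0 := b.ne_zero 0
  have hrepr : ∀ t : T, b.repr t 0 • b 0 = t := by
    intro t
    have h := b.sum_repr t
    rwa [Fin.sum_univ_one] at h
  have hinvρ : ∀ g m, ρ g⁻¹ (ρ g m) = m := by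
    intro g m
    rw [← Module.End.mul_apply, ← map_mul, inv_mul_cancel, map_one, Module.End.one_apply]
  have hinvρ' : ∀ g m, ρ g (ρ g⁻¹ m) = m := by
    intro g m
    rw [← Module.End.mul_apply, ← map_mul, mul_inv_cancel, map_one, Module.End.one_apply]
  -- an invariant functional is `c`-equivariant
  have hequiv : ∀ φ : Module.Dual k M, φ ∈ ρ'.invariants → ∀ g m, φ (ρ g m) = c g * φ m := by
    intro φ hφ g m
    have := congrArg (fun ψ : Module.Dual k M => ψ (ρ g m))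
      ((Representation.mem_invariants ρ' φ).1 hφ g)
    simp only [h1, hinvρ] at this
    exact this.symm
  let Ψ : ρ'.invariants →ₗ[k] eqHom ρ τ :=
    { toFun := fun φ => ⟨LinearMap.toSpanSingleton k T (b 0) ∘ₗ φ.1, fun g m => by
        rw [LinearMap.comp_apply, LinearMap.comp_apply, LinearMap.toSpanSingleton_apply,
          LinearMap.toSpanSingleton_apply, h2, hequiv φ.1 φ.2 g m, mul_smul]⟩
      map_add' := fun φ ψ => by
        apply Subtype.ext
        apply LinearMap.ext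
        intro m
        show (φ.1 m + ψ.1 m) • b 0 = φ.1 m • b 0 + ψ.1 m • b 0
        rw [add_smul]
      map_smul' := fun a φ => by
        apply Subtype.ext
        apply LinearMap.ext
        intro m
        show (a * φ.1 m) • b 0 = a • (φ.1 m • b 0)
        rw [mul_smul] }
  have hΨ : Function.Bijective Ψ := by
    constructor
    · rw [injective_iff_map_eq_zero]
      intro φ hφ
      apply Subtype.ext
      apply LinearMap.ext
      intro m
      have := congrArg (fun y : eqHom ρ τ => y.1 m) hφ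
      have h3 : φ.1 m • b 0 = 0 := this
      exact (smul_eq_zero.1 h3).resolve_right hb0
    · intro y
      have hy := eqHom_comm y
      have hφ : (b.coord 0 ∘ₗ y.1) ∈ ρ'.invariants := by
        rw [Representation.mem_invariants]
        intro g
        apply LinearMap.ext
        intro m
        rw [h1, LinearMap.comp_apply, LinearMap.comp_apply]
        have h4 : y.1 m = c g • y.1 (ρ g⁻¹ m) := by
          rw [← h2, ← hy, hinvρ']
        rw [h4, map_smul, smul_eq_mul]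
      refine ⟨⟨b.coord 0 ∘ₗ y.1, hφ⟩, ?_⟩
      apply Subtype.ext
      apply LinearMap.ext
      intro m
      show (b.coord 0 (y.1 m)) • b 0 = y.1 m
      rw [Module.Basis.coord_apply]
      exact hrepr (y.1 m)
  exact LinearEquiv.finrank_eq (LinearEquiv.ofBijective Ψ hΨ)

end DualTwist

/-! ### (e3) and (ev) -/

section Engine

variable {k : Type} [Field k]

/-- **(ev)**, for a leveled group `(Γ, L)` with `H³ = 0` on finite smooth representations: if for
a cofinal family of levels `N` the group `H²(Γ; coind_N^Γ k)` is one-dimensional and some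
equivariant `y : coind_N^Γ k → T` is non-zero on it after `tr`, then for every finite smooth
`(M, ρ)`:  `dim H²(Γ; M) = dim H⁰(Γ; M')`,  `M' = ρ.dual.twist χ`. -/
theorem ev_of_base {Γ : Type} [Group Γ] (L : LevelSys Γ) (χ : Γ →* kˣ) {T : Type}
    [AddCommGroup T] [Module k T] {τ : Representation k Γ T} (hτ : L.IsSmooth τ)
    (hT : Module.finrank k T = 1) (hτχ : ∀ g t, τ g t = (χ g : k) • t)
    (tr : (L.cx τ hτ).H 2 →ₗ[k] k)
    (hvan : ∀ (M : Type) [AddCommGroup M] [Module k M] [Module.Finite k M]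
      (ρ : Representation k Γ M) (hρ : L.IsSmooth ρ), Subsingleton ((L.cx ρ hρ).H 3))
    (hbase : ∀ N₀ ∈ L.lev, ∃ N, ∃ hN : N ∈ L.lev, N ≤ N₀ ∧
      Module.finrank k ((L.cx (permRep N k) (permRep_smooth L N k ⟨N, hN, le_rfl⟩)).H 2) = 1 ∧
      ∃ (x : (L.cx (permRep N k) (permRep_smooth L N k ⟨N, hN, le_rfl⟩)).H 2)
        (y : eqHom (permRep N k) τ),
        tr ((L.mapCoeff (permRep_smooth L N k ⟨N, hN, le_rfl⟩) hτ y.1
          (eqHom_comm y)).mapH 2 x) ≠ 0)
    {M : Type} [AddCommGroup M] [Module k M] [Module.Finite k M] {ρ : Representation k Γ M}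
    (hρ : L.IsSmooth ρ) (hρ' : L.IsSmooth (ρ.dual.twist χ)) :
    Module.finrank k ((L.cx ρ hρ).H 2) =
      Module.finrank k ((L.cx (ρ.dual.twist χ) hρ').H 0) := by
  have hbij : Function.Bijective ((levelFun k L).alpha 2 hρ hτ tr) := by
    refine level_alpha_bijective_of_perm L 2 hτ tr hvan (fun N₀ hN₀ => ?_) hρ
    obtain ⟨N, hN, hle, h1, x, y, hxy⟩ := hbase N₀ hN₀
    have := L.finiteIndex N hN
    exact ⟨N, hN, hle, (levelFun k L).alpha_perm_bijective 2 N ⟨N, hN, le_rfl⟩ hτ tr hT h1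
      x y hxy⟩
  have e1 : Module.finrank k ((L.cx ρ hρ).H 2) = Module.finrank k (eqHom ρ τ) :=
    finrank_eq_of_alpha_bijective (levelFun k L) 2 hρ hτ tr hbij
  rw [e1, finrank_H0 L hρ',
    finrank_invariants_eq_eqHom ρ (ρ.dual.twist χ) τ (fun g => (χ g : k)) (fun _ _ _ => rfl)
      hτχ hT]

variable {G : Type} [Group G] (𝔇 : LocDatum G)

/-- **(ev)** in the literal shape of the engine, at a place `v` of a Poitou–Tate datum. -/
theorem ev_of_base_datum (v : 𝔇.ι) (χ : G →* kˣ) {T : Type} [AddCommGroup T] [Module k T]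
    {τ : Representation k G T} (hτ : 𝔇.IsSmooth τ) (hT : Module.finrank k T = 1)
    (hτχ : ∀ g t, τ g t = (χ g : k) • t) (tr : 𝔇.Hv τ hτ v 2 →ₗ[k] k)
    (hvan : ∀ (M : Type) [AddCommGroup M] [Module k M] [Module.Finite k M]
      (ρ : Representation k (𝔇.D v) M) (hρ : (𝔇.Lv v).IsSmooth ρ),
      Subsingleton (((𝔇.Lv v).cx ρ hρ).H 3))
    (hbase : ∀ N₀ ∈ (𝔇.Lv v).lev, ∃ N, ∃ hN : N ∈ (𝔇.Lv v).lev, N ≤ N₀ ∧
      Module.finrank k (((𝔇.Lv v).cx (permRep N k)
        (permRep_smooth (𝔇.Lv v) N k ⟨N, hN, le_rfl⟩)).H 2) = 1 ∧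
      ∃ (x : ((𝔇.Lv v).cx (permRep N k) (permRep_smooth (𝔇.Lv v) N k ⟨N, hN, le_rfl⟩)).H 2)
        (y : eqHom (permRep N k) (𝔇.resRep τ v)),
        tr (((𝔇.Lv v).mapCoeff (permRep_smooth (𝔇.Lv v) N k ⟨N, hN, le_rfl⟩)
          (𝔇.isSmooth_resRep hτ v) y.1 (eqHom_comm y)).mapH 2 x) ≠ 0)
    {M : Type} [AddCommGroup M] [Module k M] [Module.Finite k M] {ρ : Representation k G M}
    (hρ : 𝔇.IsSmooth ρ) (hρ' : 𝔇.IsSmooth (ρ.dual.twist χ)) :
    Module.finrank k (𝔇.Hv ρ hρ v 2) = Module.finrank k (𝔇.Hv (ρ.dual.twist χ) hρ' v 0) := by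
  have hbij : Function.Bijective ((levelFun k (𝔇.Lv v)).alpha 2 (𝔇.isSmooth_resRep hρ v)
      (𝔇.isSmooth_resRep hτ v) tr) := by
    refine level_alpha_bijective_of_perm (𝔇.Lv v) 2 (𝔇.isSmooth_resRep hτ v) tr hvan
      (fun N₀ hN₀ => ?_) (𝔇.isSmooth_resRep hρ v)
    obtain ⟨N, hN, hle, h1, x, y, hxy⟩ := hbase N₀ hN₀
    have := (𝔇.Lv v).finiteIndex N hN
    exact ⟨N, hN, hle, (levelFun k (𝔇.Lv v)).alpha_perm_bijective 2 N ⟨N, hN, le_rfl⟩
      (𝔇.isSmooth_resRep hτ v) tr hT h1 x y hxy⟩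
  have e1 : Module.finrank k (𝔇.Hv ρ hρ v 2) =
      Module.finrank k (eqHom (𝔇.resRep ρ v) (𝔇.resRep τ v)) :=
    finrank_eq_of_alpha_bijective (levelFun k (𝔇.Lv v)) 2 (𝔇.isSmooth_resRep hρ v)
      (𝔇.isSmooth_resRep hτ v) tr hbij
  have e2 : Module.finrank k (𝔇.Hv (ρ.dual.twist χ) hρ' v 0) =
      Module.finrank k (𝔇.resRep (ρ.dual.twist χ) v).invariants :=
    finrank_H0 (𝔇.Lv v) (𝔇.isSmooth_resRep hρ' v)
  rw [e1, e2, finrank_invariants_eq_eqHom (𝔇.resRep ρ v) (𝔇.resRep (ρ.dual.twist χ) v)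
    (𝔇.resRep τ v) (fun g => (χ g : k)) (fun _ _ _ => rfl) (fun g t => hτχ g t) hT]

/-- **(e3).** For a Poitou–Tate datum with `H³(G; ·) = 0` and `H³(D_v; ·) = 0` on finite smooth
representations: if for a cofinal family of levels `N` the group `H³_c(coind_N^G k)` is
one-dimensional and some equivariant `y : coind_N^G k → T` is non-zero on it after `tr`, then
for every finite smooth `(M, ρ)`:  `dim H³_c(M) = dim H⁰(G; M')`,  `M' = ρ.dual.twist χ`. -/
theorem e3_of_base (χ : G →* kˣ) {T : Type} [AddCommGroup T] [Module k T]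
    {τ : Representation k G T} (hτ : 𝔇.IsSmooth τ) (hT : Module.finrank k T = 1)
    (hτχ : ∀ g t, τ g t = (χ g : k) • t) (tr : 𝔇.Hc τ hτ 3 →ₗ[k] k)
    (hG : ∀ (M : Type) [AddCommGroup M] [Module k M] [Module.Finite k M]
      (ρ : Representation k G M) (hρ : 𝔇.IsSmooth ρ), Subsingleton (𝔇.H ρ hρ 3))
    (hv : ∀ (M : Type) [AddCommGroup M] [Module k M] [Module.Finite k M]
      (ρ : Representation k G M) (hρ : 𝔇.IsSmooth ρ) (v : 𝔇.ι), Subsingleton (𝔇.Hv ρ hρ v 3))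
    (hbase : ∀ N₀ ∈ 𝔇.L.lev, ∃ N, ∃ hN : N ∈ 𝔇.L.lev, N ≤ N₀ ∧
      Module.finrank k (𝔇.Hc (permRep N k) (permRep_smooth 𝔇.L N k ⟨N, hN, le_rfl⟩) 3) = 1 ∧
      ∃ (x : 𝔇.Hc (permRep N k) (permRep_smooth 𝔇.L N k ⟨N, hN, le_rfl⟩) 3)
        (y : eqHom (permRep N k) τ),
        tr ((𝔇.mapCc (permRep_smooth 𝔇.L N k ⟨N, hN, le_rfl⟩) hτ y.1
          (eqHom_comm y)).mapH 3 x) ≠ 0)
    {M : Type} [AddCommGroup M] [Module k M] [Module.Finite k M] {ρ : Representation k G M}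
    (hρ : 𝔇.IsSmooth ρ) (hρ' : 𝔇.IsSmooth (ρ.dual.twist χ)) :
    Module.finrank k (𝔇.Hc ρ hρ 3) = Module.finrank k (𝔇.H (ρ.dual.twist χ) hρ' 0) := by
  have hbij : Function.Bijective ((ccFun k 𝔇).alpha 3 hρ hτ tr) := by
    refine cc_alpha_bijective_of_perm 𝔇 2 hτ tr hG hv (fun N₀ hN₀ => ?_) hρ
    obtain ⟨N, hN, hle, h1, x, y, hxy⟩ := hbase N₀ hN₀
    have := 𝔇.L.finiteIndex N hN
    exact ⟨N, hN, hle, (ccFun k 𝔇).alpha_perm_bijective 3 N ⟨N, hN, le_rfl⟩ hτ tr hT h1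
      x y hxy⟩
  have e1 : Module.finrank k (𝔇.Hc ρ hρ 3) = Module.finrank k (eqHom ρ τ) :=
    finrank_eq_of_alpha_bijective (ccFun k 𝔇) 3 hρ hτ tr hbij
  have e2 : Module.finrank k (𝔇.H (ρ.dual.twist χ) hρ' 0) =
      Module.finrank k (ρ.dual.twist χ).invariants := finrank_H0 𝔇.L hρ'
  rw [e1, e2, finrank_invariants_eq_eqHom ρ (ρ.dual.twist χ) τ (fun g => (χ g : k))
    (fun _ _ _ => rfl) hτχ hT]

/-- **(e3)**, trace-free form: `H³_c(T)` one-dimensional, and for a cofinal family of levels `N`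
the group `H³_c(coind_N^G k)` is one-dimensional with a non-zero map to `H³_c(T)` induced by some
equivariant `y : coind_N^G k → T`. -/
theorem e3_of_base' (χ : G →* kˣ) {T : Type} [AddCommGroup T] [Module k T]
    {τ : Representation k G T} (hτ : 𝔇.IsSmooth τ) (hT : Module.finrank k T = 1)
    (hτχ : ∀ g t, τ g t = (χ g : k) • t) (hT3 : Module.finrank k (𝔇.Hc τ hτ 3) = 1)
    (hG : ∀ (M : Type) [AddCommGroup M] [Module k M] [Module.Finite k M]
      (ρ : Representation k G M) (hρ : 𝔇.IsSmooth ρ), Subsingleton (𝔇.H ρ hρ 3))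
    (hv : ∀ (M : Type) [AddCommGroup M] [Module k M] [Module.Finite k M]
      (ρ : Representation k G M) (hρ : 𝔇.IsSmooth ρ) (v : 𝔇.ι), Subsingleton (𝔇.Hv ρ hρ v 3))
    (hbase : ∀ N₀ ∈ 𝔇.L.lev, ∃ N, ∃ hN : N ∈ 𝔇.L.lev, N ≤ N₀ ∧
      Module.finrank k (𝔇.Hc (permRep N k) (permRep_smooth 𝔇.L N k ⟨N, hN, le_rfl⟩) 3) = 1 ∧
      ∃ (x : 𝔇.Hc (permRep N k) (permRep_smooth 𝔇.L N k ⟨N, hN, le_rfl⟩) 3)
        (y : eqHom (permRep N k) τ),
        (𝔇.mapCc (permRep_smooth 𝔇.L N k ⟨N, hN, le_rfl⟩) hτ y.1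
          (eqHom_comm y)).mapH 3 x ≠ 0)
    {M : Type} [AddCommGroup M] [Module k M] [Module.Finite k M] {ρ : Representation k G M}
    (hρ : 𝔇.IsSmooth ρ) (hρ' : 𝔇.IsSmooth (ρ.dual.twist χ)) :
    Module.finrank k (𝔇.Hc ρ hρ 3) = Module.finrank k (𝔇.H (ρ.dual.twist χ) hρ' 0) := by
  obtain ⟨tr, htr⟩ := exists_functional_ne_zero hT3
  refine e3_of_base 𝔇 χ hτ hT hτχ tr hG hv (fun N₀ hN₀ => ?_) hρ hρ'
  obtain ⟨N, hN, hle, h1, x, y, hxy⟩ := hbase N₀ hN₀
  exact ⟨N, hN, hle, h1, x, y, htr _ hxy⟩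

/-- **(ev)** at a place `v`, trace-free form: `H²(D_v; T)` one-dimensional, and for a cofinal
family of local levels `N` the group `H²(D_v; coind_N^{D_v} k)` is one-dimensional with a non-zero
map to `H²(D_v; T)` induced by some equivariant `y`. -/
theorem ev_of_base_datum' (v : 𝔇.ι) (χ : G →* kˣ) {T : Type} [AddCommGroup T] [Module k T]
    {τ : Representation k G T} (hτ : 𝔇.IsSmooth τ) (hT : Module.finrank k T = 1)
    (hτχ : ∀ g t, τ g t = (χ g : k) • t) (hT2 : Module.finrank k (𝔇.Hv τ hτ v 2) = 1)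
    (hvan : ∀ (M : Type) [AddCommGroup M] [Module k M] [Module.Finite k M]
      (ρ : Representation k (𝔇.D v) M) (hρ : (𝔇.Lv v).IsSmooth ρ),
      Subsingleton (((𝔇.Lv v).cx ρ hρ).H 3))
    (hbase : ∀ N₀ ∈ (𝔇.Lv v).lev, ∃ N, ∃ hN : N ∈ (𝔇.Lv v).lev, N ≤ N₀ ∧
      Module.finrank k (((𝔇.Lv v).cx (permRep N k)
        (permRep_smooth (𝔇.Lv v) N k ⟨N, hN, le_rfl⟩)).H 2) = 1 ∧
      ∃ (x : ((𝔇.Lv v).cx (permRep N k) (permRep_smooth (𝔇.Lv v) N k ⟨N, hN, le_rfl⟩)).H 2)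
        (y : eqHom (permRep N k) (𝔇.resRep τ v)),
        ((𝔇.Lv v).mapCoeff (permRep_smooth (𝔇.Lv v) N k ⟨N, hN, le_rfl⟩)
          (𝔇.isSmooth_resRep hτ v) y.1 (eqHom_comm y)).mapH 2 x ≠ 0)
    {M : Type} [AddCommGroup M] [Module k M] [Module.Finite k M] {ρ : Representation k G M}
    (hρ : 𝔇.IsSmooth ρ) (hρ' : 𝔇.IsSmooth (ρ.dual.twist χ)) :
    Module.finrank k (𝔇.Hv ρ hρ v 2) = Module.finrank k (𝔇.Hv (ρ.dual.twist χ) hρ' v 0) := by
  obtain ⟨tr, htr⟩ := exists_functional_ne_zero hT2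
  refine ev_of_base_datum 𝔇 v χ hτ hT hτχ tr hvan (fun N₀ hN₀ => ?_) hρ hρ'
  obtain ⟨N, hN, hle, h1, x, y, hxy⟩ := hbase N₀ hN₀
  exact ⟨N, hN, hle, h1, x, y, htr _ hxy⟩

end Engine

end Fermat.Agent.PT.Rex
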