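/-
PT layer F ((E3/EV) ⇒ `CountHyp.e3`, `CountHyp.ev`): the final shapes, with the base case reduced
to pure dimension statements.

`T = k` with a representation `τ` such that `τ g x = χ g * x` (e.g. `Base.chiRep χ`).

* `permAug τ N hN` : the augmentation `coind_N^Γ k → k(χ)`, `f ↦ ∑_{x ∈ Γ/N} τ(x⁻¹) f(x)`, for a
  normal subgroup `N` of finite index on which `τ` is trivial; equivariant and surjective;
* `exists_tr_alpha3_bijective` : if `H³(G;·) = 0`, `H³(D_v;·) = 0` on finite smooth modules,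
  `H³_c(T) ≠ 0` and `h³_c(coind_N^G k) = 1` for a cofinal family of levels `N`, then there is a
  trace `tr : H³_c(T) → k` with `alpha³` bijective on every finite smooth representation;
  `e3_of_dim` : hence **(e3)** in the `CountHyp` shape;
* `exists_tr_alpha2v_bijective`, `ev_of_dim` : the local twins at a place `v` (**(ev)**).
-/
import Fermat.Agent.PT.Coh.RexDual

set_option autoImplicit false

namespace Fermat.Agent.PT.Rex

open Fermat.Agent.PT Fermat.Agent.PT.Shapiro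

/-! ### The augmentation -/

section Aug

variable {k : Type} [CommRing k] {Γ : Type} [Group Γ] (τ : Representation k Γ k)

/-- The augmentation `coind_N^Γ k → k(χ)`. -/
noncomputable def permAug (N : Subgroup Γ) (hN : N.Normal) [Finite (Γ ⧸ N)] :
    Representation.coindV N.subtype (Representation.trivial k N k) →ₗ[k] k :=
  pnSum τ N ∘ₗ (pnPermEquiv k N hN).symm.toLinearMap

lemma permAug_equivariant (N : Subgroup Γ) (hN : N.Normal) [Finite (Γ ⧸ N)]
    (hτ : ∀ n ∈ N, τ n = 1) (g : Γ)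
    (f : Representation.coindV N.subtype (Representation.trivial k N k)) :
    permAug τ N hN (permRep N k g f) = τ g (permAug τ N hN f) := by
  have h1 : (pnPermEquiv k N hN).symm (permRep N k g f) =
      pnRep N k k hN g ((pnPermEquiv k N hN).symm f) := by
    apply (pnPermEquiv k N hN).injective
    rw [LinearEquiv.apply_symm_apply, pnPermEquiv_equivariant, LinearEquiv.apply_symm_apply]
  show pnSum τ N ((pnPermEquiv k N hN).symm (permRep N k g f)) = _
  rw [h1, pnSum_equivariant τ hN hτ]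
  rfl

lemma permAug_surjective (N : Subgroup Γ) (hN : N.Normal) [Finite (Γ ⧸ N)]
    (hτ : ∀ n ∈ N, τ n = 1) : Function.Surjective (permAug τ N hN) := by
  intro t
  obtain ⟨φ, hφ⟩ := pnSum_surjective (k := k) τ hτ t
  exact ⟨pnPermEquiv k N hN φ, by
    show pnSum τ N ((pnPermEquiv k N hN).symm (pnPermEquiv k N hN φ)) = t
    rw [LinearEquiv.symm_apply_apply, hφ]⟩

/-- the augmentation as an element of `Hom_Γ(coind_N^Γ k, k(χ))` -/
noncomputable def permAugHom (N : Subgroup Γ) (hN : N.Normal) [Finite (Γ ⧸ N)]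
    (hτ : ∀ n ∈ N, τ n = 1) : eqHom (permRep N k) τ :=
  ⟨permAug τ N hN, fun g f => permAug_equivariant τ N hN hτ g f⟩

end Aug

/-! ### Small linear algebra -/

section LinAlg

variable {k : Type} [Field k]

/-- the image of a one-dimensional space under a surjection onto a nontrivial space is
one-dimensional -/
lemma finrank_eq_one_of_surjective {V W : Type} [AddCommGroup V] [Module k V] [AddCommGroup W]
    [Module k W] (f : V →ₗ[k] W) (hf : Function.Surjective f) (hV : Module.finrank k V = 1)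
    [Nontrivial W] : Module.finrank k W = 1 := by
  have hVfin : Module.Finite k V := Module.finite_of_finrank_eq_succ hV
  have hWfin : Module.Finite k W := Module.Finite.of_surjective f hf
  have h1 : Module.finrank k W ≤ 1 := by
    have := LinearMap.finrank_range_le f
    rw [LinearMap.range_eq_top.2 hf, finrank_top, hV] at this
    exact this
  have h2 : 0 < Module.finrank k W := Module.finrank_pos
  omega

end LinAlg

/-! ### (e3) -/

section E3

variable {k : Type} [Field k] {G : Type} [Group G] (𝔇 : LocDatum G)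
variable {τ : Representation k G k}

/-- **The trace and `alpha³`.** -/
theorem exists_tr_alpha3_bijective (hτ : 𝔇.IsSmooth τ) [Nontrivial (𝔇.Hc τ hτ 3)]
    (hG : ∀ (M : Type) [AddCommGroup M] [Module k M] [Module.Finite k M]
      (ρ : Representation k G M) (hρ : 𝔇.IsSmooth ρ), Subsingleton (𝔇.H ρ hρ 3))
    (hv : ∀ (M : Type) [AddCommGroup M] [Module k M] [Module.Finite k M]
      (ρ : Representation k G M) (hρ : 𝔇.IsSmooth ρ) (v : 𝔇.ι), Subsingleton (𝔇.Hv ρ hρ v 3))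
    (hbase : ∀ N₀ ∈ 𝔇.L.lev, ∃ N, ∃ hN : N ∈ 𝔇.L.lev, N ≤ N₀ ∧
      Module.finrank k (𝔇.Hc (permRep N k) (permRep_smooth 𝔇.L N k ⟨N, hN, le_rfl⟩) 3) = 1) :
    ∃ tr : 𝔇.Hc τ hτ 3 →ₗ[k] k, (∀ z : 𝔇.Hc τ hτ 3, z ≠ 0 → tr z ≠ 0) ∧
      ∀ (E : Type) [AddCommGroup E] [Module k E] [Module.Finite k E]
        (σ : Representation k G E) (hσ : 𝔇.IsSmooth σ),
        Function.Bijective ((ccFun k 𝔇).alpha 3 hσ hτ tr) := by
  -- a level on which `τ` is trivial
  obtain ⟨Nτ, hNτ, hτtriv⟩ := exists_level_trivial (L := 𝔇.L) hτ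
  -- the augmentation is onto on `H³_c`, for every level below `Nτ`
  have haug : ∀ (N : Subgroup G) (hN : N ∈ 𝔇.L.lev) (hle : N ≤ Nτ),
      ∃ y : eqHom (permRep N k) τ,
        Function.Surjective ((𝔇.mapCc (permRep_smooth 𝔇.L N k ⟨N, hN, le_rfl⟩) hτ y.1
          (eqHom_comm y)).mapH 3) := by
    intro N hN hle
    have hnorm := 𝔇.L.normal N hN
    have hfin := 𝔇.L.finiteIndex N hN
    have : Finite (G ⧸ N) := Subgroup.finite_quotient_of_finiteIndex
    have hτN : ∀ n ∈ N, τ n = 1 := fun n hn => hτtriv n (hle hn)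
    have hPfin : Module.Finite k
        (Representation.coindV N.subtype (Representation.trivial k N k)) := finite_perm N k
    refine ⟨permAugHom τ N hnorm hτN, ?_⟩
    exact cc_rex 𝔇 (permRep_smooth 𝔇.L N k ⟨N, hN, le_rfl⟩) hτ (permAug τ N hnorm)
      (fun g f => permAug_equivariant τ N hnorm hτN g f) (permAug_surjective τ N hnorm hτN) 2
      (hG _ _ _) (fun v => hv _ _ _ v)
  -- `H³_c(T)` is one-dimensional
  have hT3 : Module.finrank k (𝔇.Hc τ hτ 3) = 1 := by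
    obtain ⟨N, hN, hle, h1⟩ := hbase Nτ hNτ
    obtain ⟨y, hy⟩ := haug N hN hle
    exact finrank_eq_one_of_surjective _ hy h1
  obtain ⟨tr, htr⟩ := exists_functional_ne_zero hT3
  refine ⟨tr, htr, ?_⟩
  intro E _ _ _ σ hσ
  refine cc_alpha_bijective_of_perm 𝔇 2 hτ tr hG hv (fun N₀ hN₀ => ?_) hσ
  obtain ⟨N₁, hN₁, hle₁⟩ := 𝔇.L.inter N₀ hN₀ Nτ hNτ
  obtain ⟨N, hN, hle, h1⟩ := hbase N₁ hN₁
  have hleτ : N ≤ Nτ := fun x hx => (hle₁ (hle hx)).2
  have hle0 : N ≤ N₀ := fun x hx => (hle₁ (hle hx)).1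
  obtain ⟨y, hy⟩ := haug N hN hleτ
  obtain ⟨z, hz⟩ := exists_ne (0 : 𝔇.Hc τ hτ 3)
  obtain ⟨x, rfl⟩ := hy z
  have := 𝔇.L.finiteIndex N hN
  exact ⟨N, hN, hle0, (ccFun k 𝔇).alpha_perm_bijective 3 N ⟨N, hN, le_rfl⟩ hτ tr
    (Module.finrank_self k) h1 x y (htr _ hz)⟩

/-- **(e3)** in the `CountHyp` shape: `h³_c(X) = h⁰(X')`, from `H³ = 0` (global and local),
`H³_c(T) ≠ 0` and `h³_c(coind_N^G k) = 1` for a cofinal family of levels `N`. -/
theorem e3_of_dim (χ : G →* kˣ) (hτ : 𝔇.IsSmooth τ) (hτχ : ∀ g x, τ g x = (χ g : k) * x)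
    [Nontrivial (𝔇.Hc τ hτ 3)]
    (hG : ∀ (M : Type) [AddCommGroup M] [Module k M] [Module.Finite k M]
      (ρ : Representation k G M) (hρ : 𝔇.IsSmooth ρ), Subsingleton (𝔇.H ρ hρ 3))
    (hv : ∀ (M : Type) [AddCommGroup M] [Module k M] [Module.Finite k M]
      (ρ : Representation k G M) (hρ : 𝔇.IsSmooth ρ) (v : 𝔇.ι), Subsingleton (𝔇.Hv ρ hρ v 3))
    (hbase : ∀ N₀ ∈ 𝔇.L.lev, ∃ N, ∃ hN : N ∈ 𝔇.L.lev, N ≤ N₀ ∧
      Module.finrank k (𝔇.Hc (permRep N k) (permRep_smooth 𝔇.L N k ⟨N, hN, le_rfl⟩) 3) = 1)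
    {M : Type} [AddCommGroup M] [Module k M] [Module.Finite k M] (ρ : Representation k G M)
    (hρ : 𝔇.IsSmooth ρ) (hρ' : 𝔇.IsSmooth (ρ.dual.twist χ)) :
    Module.finrank k (𝔇.Hc ρ hρ 3) = Module.finrank k (𝔇.H (ρ.dual.twist χ) hρ' 0) := by
  obtain ⟨tr, -, hbij⟩ := exists_tr_alpha3_bijective 𝔇 hτ hG hv hbase
  have e1 : Module.finrank k (𝔇.Hc ρ hρ 3) = Module.finrank k (eqHom ρ τ) :=
    finrank_eq_of_alpha_bijective (ccFun k 𝔇) 3 hρ hτ tr (hbij M ρ hρ)
  have e2 : Module.finrank k (𝔇.H (ρ.dual.twist χ) hρ' 0) =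
      Module.finrank k (ρ.dual.twist χ).invariants := finrank_H0 𝔇.L hρ'
  rw [e1, e2, finrank_invariants_eq_eqHom ρ (ρ.dual.twist χ) τ (fun g => (χ g : k))
    (fun _ _ _ => rfl) (fun g t => hτχ g t) (Module.finrank_self k)]

end E3

/-! ### (ev) -/

section EV

variable {k : Type} [Field k]

/-- **The local trace and `alpha²`**, for a leveled group with `H³ = 0`. -/
theorem exists_tr_alpha2_bijective {Γ : Type} [Group Γ] (L : LevelSys Γ)
    {τ : Representation k Γ k} (hτ : L.IsSmooth τ) [Nontrivial ((L.cx τ hτ).H 2)]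
    (hvan : ∀ (M : Type) [AddCommGroup M] [Module k M] [Module.Finite k M]
      (ρ : Representation k Γ M) (hρ : L.IsSmooth ρ), Subsingleton ((L.cx ρ hρ).H 3))
    (hbase : ∀ N₀ ∈ L.lev, ∃ N, ∃ hN : N ∈ L.lev, N ≤ N₀ ∧
      Module.finrank k ((L.cx (permRep N k) (permRep_smooth L N k ⟨N, hN, le_rfl⟩)).H 2) = 1) :
    ∃ tr : (L.cx τ hτ).H 2 →ₗ[k] k, (∀ z : (L.cx τ hτ).H 2, z ≠ 0 → tr z ≠ 0) ∧
      ∀ (E : Type) [AddCommGroup E] [Module k E] [Module.Finite k E]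
        (σ : Representation k Γ E) (hσ : L.IsSmooth σ),
        Function.Bijective ((levelFun k L).alpha 2 hσ hτ tr) := by
  obtain ⟨Nτ, hNτ, hτtriv⟩ := exists_level_trivial (L := L) hτ
  have haug : ∀ (N : Subgroup Γ) (hN : N ∈ L.lev) (hle : N ≤ Nτ),
      ∃ y : eqHom (permRep N k) τ,
        Function.Surjective ((L.mapCoeff (permRep_smooth L N k ⟨N, hN, le_rfl⟩) hτ y.1
          (eqHom_comm y)).mapH 2) := by
    intro N hN hle
    have hnorm := L.normal N hN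
    have hfin := L.finiteIndex N hN
    have : Finite (Γ ⧸ N) := Subgroup.finite_quotient_of_finiteIndex
    have hτN : ∀ n ∈ N, τ n = 1 := fun n hn => hτtriv n (hle hn)
    have hPfin : Module.Finite k
        (Representation.coindV N.subtype (Representation.trivial k N k)) := finite_perm N k
    refine ⟨permAugHom τ N hnorm hτN, ?_⟩
    exact level_rex L (permRep_smooth L N k ⟨N, hN, le_rfl⟩) hτ (permAug τ N hnorm)
      (fun g f => permAug_equivariant τ N hnorm hτN g f) (permAug_surjective τ N hnorm hτN) 2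
      (hvan _ _ _)
  have hT2 : Module.finrank k ((L.cx τ hτ).H 2) = 1 := by
    obtain ⟨N, hN, hle, h1⟩ := hbase Nτ hNτ
    obtain ⟨y, hy⟩ := haug N hN hle
    exact finrank_eq_one_of_surjective _ hy h1
  obtain ⟨tr, htr⟩ := exists_functional_ne_zero hT2
  refine ⟨tr, htr, ?_⟩
  intro E _ _ _ σ hσ
  refine level_alpha_bijective_of_perm L 2 hτ tr hvan (fun N₀ hN₀ => ?_) hσ
  obtain ⟨N₁, hN₁, hle₁⟩ := L.inter N₀ hN₀ Nτ hNτ
  obtain ⟨N, hN, hle, h1⟩ := hbase N₁ hN₁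
  have hleτ : N ≤ Nτ := fun x hx => (hle₁ (hle hx)).2
  have hle0 : N ≤ N₀ := fun x hx => (hle₁ (hle hx)).1
  obtain ⟨y, hy⟩ := haug N hN hleτ
  obtain ⟨z, hz⟩ := exists_ne (0 : (L.cx τ hτ).H 2)
  obtain ⟨x, rfl⟩ := hy z
  have := L.finiteIndex N hN
  exact ⟨N, hN, hle0, (levelFun k L).alpha_perm_bijective 2 N ⟨N, hN, le_rfl⟩ hτ tr
    (Module.finrank_self k) h1 x y (htr _ hz)⟩

variable {G : Type} [Group G] (𝔇 : LocDatum G) {τ : Representation k G k}

/-- **(ev)** in the `CountHyp` shape: `h²_v(X) = h⁰_v(X')`, from `H³(D_v; ·) = 0` on the finite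
smooth `D_v`-modules, `H²(D_v; T) ≠ 0` and `h²(D_v; coind_N^{D_v} k) = 1` for a cofinal family of
local levels `N`. -/
theorem ev_of_dim (v : 𝔇.ι) (χ : G →* kˣ) (hτ : 𝔇.IsSmooth τ)
    (hτχ : ∀ g x, τ g x = (χ g : k) * x) [Nontrivial (𝔇.Hv τ hτ v 2)]
    (hvan : ∀ (M : Type) [AddCommGroup M] [Module k M] [Module.Finite k M]
      (ρ : Representation k (𝔇.D v) M) (hρ : (𝔇.Lv v).IsSmooth ρ),
      Subsingleton (((𝔇.Lv v).cx ρ hρ).H 3))
    (hbase : ∀ N₀ ∈ (𝔇.Lv v).lev, ∃ N, ∃ hN : N ∈ (𝔇.Lv v).lev, N ≤ N₀ ∧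
      Module.finrank k (((𝔇.Lv v).cx (permRep N k)
        (permRep_smooth (𝔇.Lv v) N k ⟨N, hN, le_rfl⟩)).H 2) = 1)
    {M : Type} [AddCommGroup M] [Module k M] [Module.Finite k M] (ρ : Representation k G M)
    (hρ : 𝔇.IsSmooth ρ) (hρ' : 𝔇.IsSmooth (ρ.dual.twist χ)) :
    Module.finrank k (𝔇.Hv ρ hρ v 2) = Module.finrank k (𝔇.Hv (ρ.dual.twist χ) hρ' v 0) := by
  obtain ⟨tr, -, hbij⟩ := exists_tr_alpha2_bijective (𝔇.Lv v) (𝔇.isSmooth_resRep hτ v) hvan hbase
  have e1 : Module.finrank k (𝔇.Hv ρ hρ v 2) =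
      Module.finrank k (eqHom (𝔇.resRep ρ v) (𝔇.resRep τ v)) :=
    finrank_eq_of_alpha_bijective (levelFun k (𝔇.Lv v)) 2 (𝔇.isSmooth_resRep hρ v)
      (𝔇.isSmooth_resRep hτ v) tr (hbij M _ (𝔇.isSmooth_resRep hρ v))
  have e2 : Module.finrank k (𝔇.Hv (ρ.dual.twist χ) hρ' v 0) =
      Module.finrank k (𝔇.resRep (ρ.dual.twist χ) v).invariants :=
    finrank_H0 (𝔇.Lv v) (𝔇.isSmooth_resRep hρ' v)
  rw [e1, e2, finrank_invariants_eq_eqHom (𝔇.resRep ρ v) (𝔇.resRep (ρ.dual.twist χ) v)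
    (𝔇.resRep τ v) (fun g => (χ g : k)) (fun _ _ _ => rfl) (fun g t => hτχ g t)
    (Module.finrank_self k)]

end EV

end Fermat.Agent.PT.Rex
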