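/-
PT layer F8, part 1: naturality of the cone sequence in the coefficients, `H⁰_c = 0`,
right-exactness of `H³_c`, and some representation algebra (quotients, twisted duals,
biduality) in the unbundled language of `Setup.lean`.
-/
import Mathlib
import Fermat.Prelude.Def_GroupCohomology_Selmer
import Fermat.Agent.PT.Coh.Setup

set_option autoImplicit false

namespace Fermat.Agent.PT

namespace LocDatum

variable {G : Type} [Group G] (𝔇 : LocDatum G)
variable {k : Type} [CommRing k]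
variable {M : Type} [AddCommGroup M] [Module k M]

/-! ### `H⁰_c = 0` -/

/-- restriction to a subgroup is injective on `H⁰` -/
lemma resv_mapH_zero_injective (ρ : Representation k G M) (hρ : 𝔇.IsSmooth ρ) (v : 𝔇.ι) :
    Function.Injective ((𝔇.resv ρ hρ v).mapH 0) := by
  rw [injective_iff_map_eq_zero]
  intro x hx
  obtain ⟨f, hf, rfl⟩ := (𝔇.C ρ hρ).exists_cls x
  rw [Cx.Hom.mapH_cls, Cx.cls_eq_zero_iff, Cx.mem_B_zero] at hx
  rw [Cx.cls_eq_zero_iff, Cx.mem_B_zero]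
  apply LevelSys.cx_ext
  intro g
  have h1 := congrArg (fun c => c.1 (fun i : Fin 0 => i.elim0)) hx
  have h2 : g = (𝔇.D v).subtype ∘ (fun i : Fin 0 => i.elim0) := funext fun i => i.elim0
  rw [h2]
  exact h1

/-- the localisation map is injective on `H⁰` as soon as there is one local place -/
lemma locH_zero_injective [Nonempty 𝔇.ι] (ρ : Representation k G M) (hρ : 𝔇.IsSmooth ρ) :
    Function.Injective (𝔇.locH ρ hρ 0) := by
  intro x y hxy
  obtain ⟨v⟩ := ‹Nonempty 𝔇.ι›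
  exact 𝔇.resv_mapH_zero_injective ρ hρ v (congrFun hxy v)

/-- `H⁰_c = 0` as soon as there is one local place -/
lemma Hc_zero_eq_zero [Nonempty 𝔇.ι] (ρ : Representation k G M) (hρ : 𝔇.IsSmooth ρ)
    (x : 𝔇.Hc ρ hρ 0) : x = 0 := by
  apply 𝔇.πc_zero_injective ρ hρ
  rw [map_zero]
  apply 𝔇.locH_zero_injective ρ hρ
  rw [map_zero]
  exact (𝔇.exact_πc_locH ρ hρ 0 _).mpr ⟨x, rfl⟩

instance Hc_zero_subsingleton [Nonempty 𝔇.ι] (ρ : Representation k G M) (hρ : 𝔇.IsSmooth ρ) :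
    Subsingleton (𝔇.Hc ρ hρ 0) :=
  ⟨fun x y => by rw [𝔇.Hc_zero_eq_zero ρ hρ x, 𝔇.Hc_zero_eq_zero ρ hρ y]⟩

/-! ### Naturality of the cone sequence in the coefficients -/

variable {M' : Type} [AddCommGroup M'] [Module k M']

section Nat

variable {ρ : Representation k G M} {ρ' : Representation k G M'} (hρ : 𝔇.IsSmooth ρ)
  (hρ' : 𝔇.IsSmooth ρ') (φ : M →ₗ[k] M') (hφ : ∀ g m, φ (ρ g m) = ρ' g (φ m))

/-- `π_c` is natural in the coefficients -/
lemma πc_mapCc (n : ℕ) (x : 𝔇.Hc ρ hρ n) :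
    𝔇.πc ρ' hρ' n ((𝔇.mapCc hρ hρ' φ hφ).mapH n x) =
      (𝔇.mapC hρ hρ' φ hφ).mapH n (𝔇.πc ρ hρ n x) :=
  Cx.coconeπ_coconeMap _ _ _ _ _ n x

/-- `loc` is natural in the coefficients -/
lemma locH_mapC (n : ℕ) (x : 𝔇.H ρ hρ n) (v : 𝔇.ι) :
    𝔇.locH ρ' hρ' n ((𝔇.mapC hρ hρ' φ hφ).mapH n x) v =
      (𝔇.mapCv hρ hρ' φ hφ v).mapH n (𝔇.locH ρ hρ n x v) := by
  obtain ⟨z, rfl⟩ := (𝔇.C ρ hρ).Hπ_surjective n x
  rfl

/-- `ι_c` is natural in the coefficients -/
lemma ιc_mapCv (n : ℕ) (y : ∀ v, 𝔇.Hv ρ hρ v n) :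
    (𝔇.mapCc hρ hρ' φ hφ).mapH (n + 1) (𝔇.ιc ρ hρ n y) =
      𝔇.ιc ρ' hρ' n (fun v => (𝔇.mapCv hρ hρ' φ hφ v).mapH n (y v)) := by
  set e := LinearEquiv.ofBijective (Cx.piH (fun v => 𝔇.Cv ρ hρ v) n) (Cx.piH_bijective _ n)
    with he
  set e' := LinearEquiv.ofBijective (Cx.piH (fun v => 𝔇.Cv ρ' hρ' v) n) (Cx.piH_bijective _ n)
    with he'
  show (𝔇.mapCc hρ hρ' φ hφ).mapH (n + 1) (Cx.coconeι (𝔇.loc ρ hρ) n (e.symm y)) =
    Cx.coconeι (𝔇.loc ρ' hρ') n (e'.symm _)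
  rw [Cx.coconeMap_coconeι]
  congr 1
  apply e'.injective
  rw [LinearEquiv.apply_symm_apply]
  obtain ⟨z, rfl⟩ := e.surjective y
  rw [LinearEquiv.symm_apply_apply]
  obtain ⟨w, rfl⟩ := (𝔇.Cloc ρ hρ).Hπ_surjective n z
  rfl

end Nat

/-! ### Right-exactness -/

section RightExact

variable {M'' : Type} [AddCommGroup M''] [Module k M'']
variable {ρ : Representation k G M} {ρ' : Representation k G M'} {ρ'' : Representation k G M''}
  (hρ' : 𝔇.IsSmooth ρ') (hρ : 𝔇.IsSmooth ρ) (hρ'' : 𝔇.IsSmooth ρ'')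
  (i : M' →ₗ[k] M) (π : M →ₗ[k] M'')
  (hi : ∀ g m, i (ρ' g m) = ρ g (i m)) (hπ : ∀ g m, π (ρ g m) = ρ'' g (π m))

include hi in
/-- if `H^{n+1}(M') = 0` then `H^n(M) → H^n(M'')` is onto -/
lemma mapC_mapH_surjective (hinj : Function.Injective i) (hex : Function.Exact i π)
    (hsurj : Function.Surjective π) (n : ℕ) [Subsingleton (𝔇.H ρ' hρ' (n + 1))] :
    Function.Surjective ((𝔇.mapC hρ hρ'' π hπ).mapH n) := by
  intro x
  have h := 𝔇.shortExact_mapC hρ' hρ hρ'' i π hi hπ hinj hex hsurj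
  exact (h.exact_g_δ n x).mp (Subsingleton.elim _ _)

include hi in
/-- if `H^{n+1}_v(M') = 0` then `H^n_v(M) → H^n_v(M'')` is onto -/
lemma mapCv_mapH_surjective (hinj : Function.Injective i) (hex : Function.Exact i π)
    (hsurj : Function.Surjective π) (v : 𝔇.ι) (n : ℕ) [Subsingleton (𝔇.Hv ρ' hρ' v (n + 1))] :
    Function.Surjective ((𝔇.mapCv hρ hρ'' π hπ v).mapH n) := by
  intro x
  have h := 𝔇.shortExact_mapCv hρ' hρ hρ'' i π hi hπ hinj hex hsurj v
  exact (h.exact_g_δ n x).mp (Subsingleton.elim _ _)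

include hi in
/-- **Right-exactness of `H^{n+1}_c`** when `H^{n+1}(M'') = 0` and `H^{n+1}_v(M') = 0`. -/
lemma mapCc_mapH_surjective (hinj : Function.Injective i) (hex : Function.Exact i π)
    (hsurj : Function.Surjective π) (n : ℕ) [Subsingleton (𝔇.H ρ'' hρ'' (n + 1))]
    [∀ v, Subsingleton (𝔇.Hv ρ' hρ' v (n + 1))] :
    Function.Surjective ((𝔇.mapCc hρ hρ'' π hπ).mapH (n + 1)) := by
  intro x
  obtain ⟨y, rfl⟩ := (𝔇.exact_ιc_πc ρ'' hρ'' n x).mp (Subsingleton.elim _ _)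
  have hv : ∀ v, ∃ y' : 𝔇.Hv ρ hρ v n, (𝔇.mapCv hρ hρ'' π hπ v).mapH n y' = y v := fun v =>
    𝔇.mapCv_mapH_surjective hρ' hρ hρ'' i π hi hπ hinj hex hsurj v n (y v)
  choose y' hy' using hv
  refine ⟨𝔇.ιc ρ hρ n y', ?_⟩
  rw [𝔇.ιc_mapCv hρ hρ'' π hπ n y']
  congr 1
  exact funext hy'

include hi in
/-- the connecting map `H^{n+1}_c(M'') → H^{n+2}_c(M')` vanishes under the same hypotheses -/
lemma δc_eq_zero (hinj : Function.Injective i) (hex : Function.Exact i π)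
    (hsurj : Function.Surjective π) (n : ℕ) [Subsingleton (𝔇.H ρ'' hρ'' (n + 1))]
    [∀ v, Subsingleton (𝔇.Hv ρ' hρ' v (n + 1))] (x : 𝔇.Hc ρ'' hρ'' (n + 1)) :
    (𝔇.shortExact_mapCc hρ' hρ hρ'' i π hi hπ hinj hex hsurj).δ (n + 1) x = 0 := by
  obtain ⟨b, rfl⟩ := 𝔇.mapCc_mapH_surjective hρ' hρ hρ'' i π hi hπ hinj hex hsurj n x
  exact ((𝔇.shortExact_mapCc hρ' hρ hρ'' i π hi hπ hinj hex hsurj).exact_g_δ (n + 1) _).mpr
    ⟨b, rfl⟩

end RightExact

/-! ### Isomorphic coefficients -/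

section Iso

variable {ρ : Representation k G M} {ρ' : Representation k G M'} (hρ : 𝔇.IsSmooth ρ)
  (hρ' : 𝔇.IsSmooth ρ') (e : M ≃ₗ[k] M') (he : ∀ g m, e (ρ g m) = ρ' g (e m))

include he in
lemma equivariant_symm (g : G) (m : M') : e.symm (ρ' g m) = ρ g (e.symm m) := by
  apply e.injective
  rw [he, e.apply_symm_apply, e.apply_symm_apply]

/-- an equivariant isomorphism induces bijections on global cohomology -/
lemma mapC_bijective (n : ℕ) :
    Function.Bijective ((𝔇.mapC hρ hρ' e.toLinearMap he).mapH n) :=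
  Cx.Hom.mapH_bijective_of_inverse _
    (𝔇.mapC hρ' hρ e.symm.toLinearMap (equivariant_symm e he))
    (fun _ _ => LevelSys.cx_ext _ _ _ fun _ => e.symm_apply_apply _)
    (fun _ _ => LevelSys.cx_ext _ _ _ fun _ => e.apply_symm_apply _) n

/-- an equivariant isomorphism induces bijections on local cohomology -/
lemma mapCv_bijective (v : 𝔇.ι) (n : ℕ) :
    Function.Bijective ((𝔇.mapCv hρ hρ' e.toLinearMap he v).mapH n) :=
  Cx.Hom.mapH_bijective_of_inverse _
    (𝔇.mapCv hρ' hρ e.symm.toLinearMap (equivariant_symm e he) v)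
    (fun _ _ => LevelSys.cx_ext _ _ _ fun _ => e.symm_apply_apply _)
    (fun _ _ => LevelSys.cx_ext _ _ _ fun _ => e.apply_symm_apply _) n

/-- an equivariant isomorphism induces bijections on compactly supported cohomology -/
lemma mapCc_bijective (n : ℕ) :
    Function.Bijective ((𝔇.mapCc hρ hρ' e.toLinearMap he).mapH n) := by
  refine Cx.Hom.mapH_bijective_of_inverse _
    (𝔇.mapCc hρ' hρ e.symm.toLinearMap (equivariant_symm e he)) ?_ ?_ n
  · intro m x
    cases m with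
    | zero =>
      refine Prod.ext (LevelSys.cx_ext _ _ _ fun g => e.symm_apply_apply _) ?_
      exact Subsingleton.elim (α := PUnit) _ _
    | succ m =>
      obtain ⟨c, y, rfl⟩ := Cx.coconeMk_surjective (𝔇.loc ρ hρ) x
      rw [Cx.coconeMap_mk, Cx.coconeMap_mk]
      congr 1
      · exact LevelSys.cx_ext _ _ _ fun g => e.symm_apply_apply _
      · funext v
        exact LevelSys.cx_ext _ _ _ fun g => e.symm_apply_apply _
  · intro m x
    cases m with
    | zero =>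
      refine Prod.ext (LevelSys.cx_ext _ _ _ fun g => e.apply_symm_apply _) ?_
      exact Subsingleton.elim (α := PUnit) _ _
    | succ m =>
      obtain ⟨c, y, rfl⟩ := Cx.coconeMk_surjective (𝔇.loc ρ' hρ') x
      rw [Cx.coconeMap_mk, Cx.coconeMap_mk]
      congr 1
      · exact LevelSys.cx_ext _ _ _ fun g => e.apply_symm_apply _
      · funext v
        exact LevelSys.cx_ext _ _ _ fun g => e.apply_symm_apply _

end Iso

/-! ### Quotient representations -/

section Quot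

variable {P : Type} [AddCommGroup P] [Module k P]
variable {ρ : Representation k G M} {σ : Representation k G P}
  (i : M →ₗ[k] P) (hi : ∀ g m, i (ρ g m) = σ g (i m))

include hi in
lemma range_le_comap (g : G) : LinearMap.range i ≤ (LinearMap.range i).comap (σ g) := by
  rintro _ ⟨m, rfl⟩
  exact ⟨ρ g m, hi g m⟩

/-- the representation on the cokernel of an equivariant map -/
abbrev cokerRep : Representation k G (P ⧸ LinearMap.range i) :=
  σ.quotient (LinearMap.range i) (range_le_comap i hi)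

lemma mkQ_equivariant (g : G) (x : P) :
    (LinearMap.range i).mkQ (σ g x) = cokerRep i hi g ((LinearMap.range i).mkQ x) := rfl

lemma exact_mkQ : Function.Exact i (LinearMap.range i).mkQ := by
  intro x
  rw [Submodule.mkQ_apply, Submodule.Quotient.mk_eq_zero]
  rfl

include 𝔇 in
lemma isSmooth_cokerRep (hσ : 𝔇.IsSmooth σ) : 𝔇.IsSmooth (cokerRep i hi) := by
  intro x
  obtain ⟨x, rfl⟩ := (LinearMap.range i).mkQ_surjective x
  obtain ⟨N, hN, h⟩ := hσ x
  refine ⟨N, hN, fun s hs => ?_⟩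
  rw [← mkQ_equivariant i hi, h s hs]

end Quot

/-! ### Twisted duals -/

section Dual

variable (χ : G →* kˣ)

/-- the twisted dual representation `Hom_k(M, k)(χ)` (the Prelude's `Rep.dualTwist`, unbundled) -/
abbrev dualTw (ρ : Representation k G M) : Representation k G (Module.Dual k M) :=
  ρ.dual.twist χ

lemma dualTw_apply (ρ : Representation k G M) (g : G) (φ : Module.Dual k M) (m : M) :
    dualTw χ ρ g φ m = (χ g : k) * φ (ρ g⁻¹ m) := rfl

/-- the transpose of an equivariant map is equivariant for the twisted duals -/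
lemma dualMap_equivariant {ρ : Representation k G M} {ρ' : Representation k G M'}
    (f : M →ₗ[k] M') (hf : ∀ g m, f (ρ g m) = ρ' g (f m)) (g : G) (φ : Module.Dual k M') :
    f.dualMap (dualTw χ ρ' g φ) = dualTw χ ρ g (f.dualMap φ) := by
  refine LinearMap.ext fun m => ?_
  show (χ g : k) * φ (ρ' g⁻¹ (f m)) = (χ g : k) * φ (f (ρ g⁻¹ m))
  rw [hf]

include 𝔇 in
/-- a finitely generated smooth representation is trivial on a level -/
lemma exists_level_trivial [Module.Finite k M] {ρ : Representation k G M} (hρ : 𝔇.IsSmooth ρ) :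
    ∃ N ∈ 𝔇.L.lev, ∀ s ∈ N, ρ s = 1 := by
  obtain ⟨S, hS⟩ := (Module.Finite.fg_top : (⊤ : Submodule k M).FG)
  obtain ⟨N, hN, h⟩ := LevelSys.IsSmooth.exists_level hρ S.finite_toSet
  refine ⟨N, hN, fun s hs => ?_⟩
  refine LinearMap.ext_on_range (v := fun x : (S : Set M) => (x : M)) ?_ ?_
  · rw [Subtype.range_coe]
    exact hS
  · intro x
    exact h x.1 x.2 s hs

include 𝔇 in
/-- the twisted dual of a finitely generated smooth representation is smooth -/
lemma isSmooth_dualTw [Module.Finite k M] {ρ : Representation k G M} (hρ : 𝔇.IsSmooth ρ)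
    (hχ : ∃ N ∈ 𝔇.L.lev, ∀ s ∈ N, χ s = 1) : 𝔇.IsSmooth (dualTw χ ρ) := by
  obtain ⟨N₁, hN₁, h₁⟩ := 𝔇.exists_level_trivial hρ
  obtain ⟨N₂, hN₂, h₂⟩ := hχ
  obtain ⟨N₃, hN₃, hle⟩ := 𝔇.L.inter N₁ hN₁ N₂ hN₂
  intro φ
  refine ⟨N₃, hN₃, fun s hs => ?_⟩
  refine LinearMap.ext fun m => ?_
  have hs1 : s⁻¹ ∈ N₁ := N₁.inv_mem (hle hs).1
  rw [dualTw_apply, h₂ s (hle hs).2, h₁ s⁻¹ hs1]
  simp

/-- biduality is equivariant -/
lemma eval_equivariant (ρ : Representation k G M) (g : G) (m : M) :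
    Module.Dual.eval k M (ρ g m) = dualTw χ (dualTw χ ρ) g (Module.Dual.eval k M m) := by
  refine LinearMap.ext fun φ => ?_
  show φ (ρ g m) = (χ g : k) * ((χ g⁻¹ : k) * φ (ρ g⁻¹⁻¹ m))
  rw [inv_inv, ← mul_assoc, ← Units.val_mul, ← map_mul, mul_inv_cancel, map_one, Units.val_one,
    one_mul]

end Dual

end LocDatum

end Fermat.Agent.PT
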