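/-
PT layer F8: the counting engine.  For an abstract Poitou–Tate datum `𝔇` over a field `k` and
a character `χ`, with `X' := Hom_k(X, k)(χ)`:

* `finrank_sha_add`, `finrank_sha_one_add` : the dimensions of `Ш^n = ker (H^n → ∏_v H^n_v)`
  read off from the cone sequence;
* `finrank_sha_eq_of` : `dim Ш²(M) = dim Ш¹(N)` from `h¹_c(N) = h²(M)`, `h³_c(M) = h⁰(N)`,
  `h²_v(M) = h⁰_v(N)` (C5);
* `Et` : the defect `Ẽ(X) = [h²(X') − h¹_c(X)] + [h²_c(X) − h¹(X')]`, which is a sum of two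
  Euler characteristics, hence additive in short exact sequences (`CountHyp.Et_add`), and
  non-negative under the hypotheses `CountHyp` (C4);
* `CountHyp.finrank_sha_eq` : the abstract duality count `dim Ш²(M) = dim Ш¹(M')`.
-/
import Mathlib
import Fermat.Agent.PT.Coh.EngineNat
import Fermat.Agent.PT.Coh.Euler

set_option autoImplicit false

namespace Fermat.Agent.PT

namespace LocDatum

open Module

variable {G : Type} [Group G] (𝔇 : LocDatum G)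
variable {k : Type} [Field k]
variable {M : Type} [AddCommGroup M] [Module k M]

/-- finiteness of the middle term of an exact pair -/
theorem finite_of_exact {U V W : Type} [AddCommGroup U] [Module k U] [AddCommGroup V]
    [Module k V] [AddCommGroup W] [Module k W] (φ : U →ₗ[k] V) (ψ : V →ₗ[k] W)
    (hex : Function.Exact φ ψ) [Module.Finite k U] [Module.Finite k W] : Module.Finite k V := by
  have h1 : Module.Finite k (LinearMap.range φ) := inferInstance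
  rw [← LinearMap.exact_iff.mp hex] at h1
  have h2 : Module.Finite k (V ⧸ LinearMap.ker ψ) :=
    Module.Finite.equiv ψ.quotKerEquivRange.symm
  exact Module.Finite.of_submodule_quotient (LinearMap.ker ψ)

/-! ### The count (C5) -/

/-- `Ш^n(M) = ker (H^n(M) → ∏_v H^n_v(M))` -/
abbrev sha (ρ : Representation k G M) (hρ : 𝔇.IsSmooth ρ) (n : ℕ) : Submodule k (𝔇.H ρ hρ n) :=
  LinearMap.ker (𝔇.locH ρ hρ n)

/-- `H^{n+1}_c` is finite-dimensional if `H^n_v` and `H^{n+1}` are -/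
theorem finite_Hc_succ (ρ : Representation k G M) (hρ : 𝔇.IsSmooth ρ) (n : ℕ)
    [∀ v, Module.Finite k (𝔇.Hv ρ hρ v n)] [Module.Finite k (𝔇.H ρ hρ (n + 1))] :
    Module.Finite k (𝔇.Hc ρ hρ (n + 1)) :=
  finite_of_exact (𝔇.ιc ρ hρ n) (𝔇.πc ρ hρ (n + 1)) (𝔇.exact_ιc_πc ρ hρ n)

/-- `dim Ш^n + Σ_v h^n_v = h^n + h^{n+1}_c` when `H^{n+1} = 0` -/
theorem finrank_sha_add (ρ : Representation k G M) (hρ : 𝔇.IsSmooth ρ) (n : ℕ)
    [Module.Finite k (𝔇.H ρ hρ n)] [∀ v, Module.Finite k (𝔇.Hv ρ hρ v n)]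
    [Subsingleton (𝔇.H ρ hρ (n + 1))] :
    finrank k (𝔇.sha ρ hρ n) + ∑ v, finrank k (𝔇.Hv ρ hρ v n) =
      finrank k (𝔇.H ρ hρ n) + finrank k (𝔇.Hc ρ hρ (n + 1)) := by
  have h1 : finrank k (LinearMap.range (𝔇.locH ρ hρ n)) + finrank k (𝔇.sha ρ hρ n) =
      finrank k (𝔇.H ρ hρ n) := LinearMap.finrank_range_add_finrank_ker (𝔇.locH ρ hρ n)
  have h2 := Cx.finrank_eq_of_exact (𝔇.locH ρ hρ n) (𝔇.ιc ρ hρ n) (𝔇.exact_locH_ιc ρ hρ n)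
  have h3 : LinearMap.range (𝔇.ιc ρ hρ n) = ⊤ := by
    rw [eq_top_iff]
    intro x _
    exact (𝔇.exact_ιc_πc ρ hρ n x).mp (Subsingleton.elim _ _)
  rw [h3, finrank_top, Module.finrank_pi_fintype] at h2
  omega

/-- `dim Ш¹ + Σ_v h⁰_v = h⁰ + h¹_c` -/
theorem finrank_sha_one_add [Nonempty 𝔇.ι] (ρ : Representation k G M) (hρ : 𝔇.IsSmooth ρ)
    [Module.Finite k (𝔇.H ρ hρ 0)] [∀ v, Module.Finite k (𝔇.Hv ρ hρ v 0)]
    [Module.Finite k (𝔇.H ρ hρ 1)] :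
    finrank k (𝔇.sha ρ hρ 1) + ∑ v, finrank k (𝔇.Hv ρ hρ v 0) =
      finrank k (𝔇.H ρ hρ 0) + finrank k (𝔇.Hc ρ hρ 1) := by
  have := 𝔇.finite_Hc_succ ρ hρ 0
  have h1 : finrank k (LinearMap.range (𝔇.locH ρ hρ 0)) = finrank k (𝔇.H ρ hρ 0) :=
    LinearMap.finrank_range_of_inj (𝔇.locH_zero_injective ρ hρ)
  have h2 := Cx.finrank_eq_of_exact (𝔇.locH ρ hρ 0) (𝔇.ιc ρ hρ 0) (𝔇.exact_locH_ιc ρ hρ 0)
  have h3 : finrank k (𝔇.Hc ρ hρ 1) = finrank k (LinearMap.range (𝔇.ιc ρ hρ 0)) +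
      finrank k (LinearMap.range (𝔇.πc ρ hρ 1)) :=
    Cx.finrank_eq_of_exact (𝔇.ιc ρ hρ 0) (𝔇.πc ρ hρ 1) (𝔇.exact_ιc_πc ρ hρ 0)
  have h4 : LinearMap.range (𝔇.πc ρ hρ 1) = 𝔇.sha ρ hρ 1 :=
    (LinearMap.exact_iff.mp (𝔇.exact_πc_locH ρ hρ 1)).symm
  rw [h4] at h3
  rw [Module.finrank_pi_fintype] at h2
  omega

variable {M' : Type} [AddCommGroup M'] [Module k M']

/-- **The count (C5).** `dim Ш²(M) = dim Ш¹(N)` if `h¹_c(N) = h²(M)`, `h³_c(M) = h⁰(N)` and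
`h²_v(M) = h⁰_v(N)` for all `v`. -/
theorem finrank_sha_eq_of [Nonempty 𝔇.ι] (ρ : Representation k G M) (hρ : 𝔇.IsSmooth ρ)
    (ρ' : Representation k G M') (hρ' : 𝔇.IsSmooth ρ')
    [Module.Finite k (𝔇.H ρ hρ 2)] [∀ v, Module.Finite k (𝔇.Hv ρ hρ v 2)]
    [Subsingleton (𝔇.H ρ hρ 3)]
    [Module.Finite k (𝔇.H ρ' hρ' 0)] [∀ v, Module.Finite k (𝔇.Hv ρ' hρ' v 0)]
    [Module.Finite k (𝔇.H ρ' hρ' 1)]
    (e1 : finrank k (𝔇.Hc ρ' hρ' 1) = finrank k (𝔇.H ρ hρ 2))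
    (e3 : finrank k (𝔇.Hc ρ hρ 3) = finrank k (𝔇.H ρ' hρ' 0))
    (ev : ∀ v, finrank k (𝔇.Hv ρ hρ v 2) = finrank k (𝔇.Hv ρ' hρ' v 0)) :
    finrank k (𝔇.sha ρ hρ 2) = finrank k (𝔇.sha ρ' hρ' 1) := by
  have h1 : finrank k (𝔇.sha ρ hρ 2) + ∑ v, finrank k (𝔇.Hv ρ hρ v 2) =
      finrank k (𝔇.H ρ hρ 2) + finrank k (𝔇.Hc ρ hρ 3) := 𝔇.finrank_sha_add ρ hρ 2
  have h2 := 𝔇.finrank_sha_one_add ρ' hρ'
  have h3 : ∑ v, finrank k (𝔇.Hv ρ hρ v 2) = ∑ v, finrank k (𝔇.Hv ρ' hρ' v 0) :=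
    Finset.sum_congr rfl fun v _ => ev v
  omega

/-! ### The Euler characteristic of the cone -/

/-- **Euler characteristic of the compactly supported complex**:
`χ₃(C_c) = χ₂(C) − Σ_v χ₂(C_v)` when `H³ = 0` (all groups of degree `≤ 2` finite). -/
theorem chi_Cc (ρ : Representation k G M) (hρ : 𝔇.IsSmooth ρ)
    (hfin : ∀ n ≤ 2, Module.Finite k (𝔇.H ρ hρ n))
    (hfinv : ∀ v, ∀ n ≤ 2, Module.Finite k (𝔇.Hv ρ hρ v n))
    [Subsingleton (𝔇.H ρ hρ 3)] :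
    Cx.chi (𝔇.Cc ρ hρ) 3 = Cx.chi (𝔇.C ρ hρ) 2 - ∑ v, Cx.chi (𝔇.Cv ρ hρ v) 2 := by
  have f0 := hfin 0 (by omega)
  have f1 := hfin 1 (by omega)
  have f2 := hfin 2 le_rfl
  have g0 : ∀ v, Module.Finite k (𝔇.Hv ρ hρ v 0) := fun v => hfinv v 0 (by omega)
  have g1 : ∀ v, Module.Finite k (𝔇.Hv ρ hρ v 1) := fun v => hfinv v 1 (by omega)
  have g2 : ∀ v, Module.Finite k (𝔇.Hv ρ hρ v 2) := fun v => hfinv v 2 le_rfl
  have c0 : Module.Finite k (𝔇.Hc ρ hρ 0) :=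
    Module.Finite.of_injective (𝔇.πc ρ hρ 0) (𝔇.πc_zero_injective ρ hρ)
  have c1 : Module.Finite k (𝔇.Hc ρ hρ 1) := 𝔇.finite_Hc_succ ρ hρ 0
  have c2 : Module.Finite k (𝔇.Hc ρ hρ 2) := 𝔇.finite_Hc_succ ρ hρ 1
  have c3 : Module.Finite k (𝔇.Hc ρ hρ 3) := 𝔇.finite_Hc_succ ρ hρ 2
  -- ranks
  have a0 : finrank k (LinearMap.range (𝔇.πc ρ hρ 0)) = finrank k (𝔇.Hc ρ hρ 0) :=
    LinearMap.finrank_range_of_inj (𝔇.πc_zero_injective ρ hρ)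
  have hc : ∀ n, [Module.Finite k (𝔇.Hc ρ hρ (n + 1))] → finrank k (𝔇.Hc ρ hρ (n + 1)) =
      finrank k (LinearMap.range (𝔇.ιc ρ hρ n)) +
        finrank k (LinearMap.range (𝔇.πc ρ hρ (n + 1))) := fun n _ =>
    Cx.finrank_eq_of_exact (𝔇.ιc ρ hρ n) (𝔇.πc ρ hρ (n + 1)) (𝔇.exact_ιc_πc ρ hρ n)
  have hh : ∀ n, [Module.Finite k (𝔇.H ρ hρ n)] → finrank k (𝔇.H ρ hρ n) =
      finrank k (LinearMap.range (𝔇.πc ρ hρ n)) +
        finrank k (LinearMap.range (𝔇.locH ρ hρ n)) := fun n _ =>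
    Cx.finrank_eq_of_exact (𝔇.πc ρ hρ n) (𝔇.locH ρ hρ n) (𝔇.exact_πc_locH ρ hρ n)
  have hl : ∀ n, [∀ v, Module.Finite k (𝔇.Hv ρ hρ v n)] → ∑ v, finrank k (𝔇.Hv ρ hρ v n) =
      finrank k (LinearMap.range (𝔇.locH ρ hρ n)) +
        finrank k (LinearMap.range (𝔇.ιc ρ hρ n)) := fun n _ => by
    rw [← Module.finrank_pi_fintype]
    exact Cx.finrank_eq_of_exact (𝔇.locH ρ hρ n) (𝔇.ιc ρ hρ n) (𝔇.exact_locH_ιc ρ hρ n)
  have a3 : finrank k (LinearMap.range (𝔇.πc ρ hρ 3)) = 0 := by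
    have : Subsingleton (LinearMap.range (𝔇.πc ρ hρ 3)) :=
      ⟨fun x y => Subtype.ext (Subsingleton.elim _ _)⟩
    exact Module.finrank_zero_of_subsingleton
  have hc1 : finrank k (𝔇.Hc ρ hρ 1) = finrank k (LinearMap.range (𝔇.ιc ρ hρ 0)) +
      finrank k (LinearMap.range (𝔇.πc ρ hρ 1)) := hc 0
  have hc2 : finrank k (𝔇.Hc ρ hρ 2) = finrank k (LinearMap.range (𝔇.ιc ρ hρ 1)) +
      finrank k (LinearMap.range (𝔇.πc ρ hρ 2)) := hc 1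
  have hc3 : finrank k (𝔇.Hc ρ hρ 3) = finrank k (LinearMap.range (𝔇.ιc ρ hρ 2)) +
      finrank k (LinearMap.range (𝔇.πc ρ hρ 3)) := hc 2
  have hh0 := hh 0
  have hh1 := hh 1
  have hh2 := hh 2
  have hl0 := hl 0
  have hl1 := hl 1
  have hl2 := hl 2
  have e1 : Cx.chi (𝔇.Cc ρ hρ) 3 = (finrank k (𝔇.Hc ρ hρ 0) : ℤ) - finrank k (𝔇.Hc ρ hρ 1) +
      finrank k (𝔇.Hc ρ hρ 2) - finrank k (𝔇.Hc ρ hρ 3) := by
    rw [Cx.chi_succ, Cx.chi_two]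
    ring
  have e2 : Cx.chi (𝔇.C ρ hρ) 2 = (finrank k (𝔇.H ρ hρ 0) : ℤ) - finrank k (𝔇.H ρ hρ 1) +
      finrank k (𝔇.H ρ hρ 2) := Cx.chi_two _
  have e3 : ∑ v, Cx.chi (𝔇.Cv ρ hρ v) 2 = ((∑ v, finrank k (𝔇.Hv ρ hρ v 0) : ℕ) : ℤ) -
      ((∑ v, finrank k (𝔇.Hv ρ hρ v 1) : ℕ) : ℤ) + ((∑ v, finrank k (𝔇.Hv ρ hρ v 2) : ℕ) : ℤ) := by
    push_cast
    rw [← Finset.sum_sub_distrib, ← Finset.sum_add_distrib]
    exact Finset.sum_congr rfl fun v _ => Cx.chi_two _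
  rw [e1, e2, e3]
  omega

/-! ### The defect `Ẽ` (C4) -/

variable (χ : G →* kˣ)

/-- The defect `Ẽ(X) = [h²(X') − h¹_c(X)] + [h²_c(X) − h¹(X')]`. -/
noncomputable def Et (ρ : Representation k G M) (hρ : 𝔇.IsSmooth ρ)
    (hρ' : 𝔇.IsSmooth (dualTw χ ρ)) : ℤ :=
  ((finrank k (𝔇.H (dualTw χ ρ) hρ' 2) : ℤ) - finrank k (𝔇.Hc ρ hρ 1)) +
    ((finrank k (𝔇.Hc ρ hρ 2) : ℤ) - finrank k (𝔇.H (dualTw χ ρ) hρ' 1))

/-- `Ẽ` as a sum of two Euler characteristics, given `h³_c(X) = h⁰(X')` and `H⁰_c = 0` -/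
theorem Et_eq_chi [Nonempty 𝔇.ι] (ρ : Representation k G M) (hρ : 𝔇.IsSmooth ρ)
    (hρ' : 𝔇.IsSmooth (dualTw χ ρ))
    (e3 : finrank k (𝔇.Hc ρ hρ 3) = finrank k (𝔇.H (dualTw χ ρ) hρ' 0)) :
    𝔇.Et χ ρ hρ hρ' = Cx.chi (𝔇.Cc ρ hρ) 3 + Cx.chi (𝔇.C (dualTw χ ρ) hρ') 2 := by
  have h0 : finrank k ((𝔇.Cc ρ hρ).H 0) = 0 := Module.finrank_zero_of_subsingleton
  have e3' : finrank k ((𝔇.Cc ρ hρ).H 3) = finrank k ((𝔇.C (dualTw χ ρ) hρ').H 0) := e3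
  rw [Cx.chi_two, Cx.chi_succ, Cx.chi_two, h0, e3']
  unfold Et
  push_cast
  ring

/-- The hypotheses of the counting engine; every clause is quantified over all
finite-dimensional smooth representations `X = (M, ρ)`, with `X' = dualTw χ ρ`. -/
structure CountHyp (𝔇 : LocDatum G) (k : Type) [Field k] (χ : G →* kˣ) : Prop where
  /-- `χ` is trivial on a level -/
  hχ : ∃ N ∈ 𝔇.L.lev, ∀ s ∈ N, χ s = 1
  /-- finiteness of global cohomology in degrees `≤ 2` -/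
  fin : ∀ {M : Type} [AddCommGroup M] [Module k M] [Module.Finite k M]
    (ρ : Representation k G M) (hρ : 𝔇.IsSmooth ρ) (n : ℕ), n ≤ 2 → Module.Finite k (𝔇.H ρ hρ n)
  /-- finiteness of local cohomology in degrees `≤ 2` -/
  finv : ∀ {M : Type} [AddCommGroup M] [Module k M] [Module.Finite k M]
    (ρ : Representation k G M) (hρ : 𝔇.IsSmooth ρ) (v : 𝔇.ι) (n : ℕ), n ≤ 2 →
      Module.Finite k (𝔇.Hv ρ hρ v n)
  /-- `H³ = 0` globally -/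
  cd : ∀ {M : Type} [AddCommGroup M] [Module k M] [Module.Finite k M]
    (ρ : Representation k G M) (hρ : 𝔇.IsSmooth ρ), Subsingleton (𝔇.H ρ hρ 3)
  /-- `H³ = 0` locally -/
  cdv : ∀ {M : Type} [AddCommGroup M] [Module k M] [Module.Finite k M]
    (ρ : Representation k G M) (hρ : 𝔇.IsSmooth ρ) (v : 𝔇.ι), Subsingleton (𝔇.Hv ρ hρ v 3)
  /-- `h³_c(X) = h⁰(X')` -/
  e3 : ∀ {M : Type} [AddCommGroup M] [Module k M] [Module.Finite k M]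
    (ρ : Representation k G M) (hρ : 𝔇.IsSmooth ρ) (hρ' : 𝔇.IsSmooth (dualTw χ ρ)),
      finrank k (𝔇.Hc ρ hρ 3) = finrank k (𝔇.H (dualTw χ ρ) hρ' 0)
  /-- `h²_v(X) = h⁰_v(X')` -/
  ev : ∀ {M : Type} [AddCommGroup M] [Module k M] [Module.Finite k M]
    (ρ : Representation k G M) (hρ : 𝔇.IsSmooth ρ) (hρ' : 𝔇.IsSmooth (dualTw χ ρ)) (v : 𝔇.ι),
      finrank k (𝔇.Hv ρ hρ v 2) = finrank k (𝔇.Hv (dualTw χ ρ) hρ' v 0)
  /-- `h¹_c(X) ≤ h²(X')` -/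
  i1 : ∀ {M : Type} [AddCommGroup M] [Module k M] [Module.Finite k M]
    (ρ : Representation k G M) (hρ : 𝔇.IsSmooth ρ) (hρ' : 𝔇.IsSmooth (dualTw χ ρ)),
      finrank k (𝔇.Hc ρ hρ 1) ≤ finrank k (𝔇.H (dualTw χ ρ) hρ' 2)
  /-- `h¹(X') ≤ h²_c(X)` -/
  i2 : ∀ {M : Type} [AddCommGroup M] [Module k M] [Module.Finite k M]
    (ρ : Representation k G M) (hρ : 𝔇.IsSmooth ρ) (hρ' : 𝔇.IsSmooth (dualTw χ ρ)),
      finrank k (𝔇.H (dualTw χ ρ) hρ' 1) ≤ finrank k (𝔇.Hc ρ hρ 2)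

namespace CountHyp

variable {𝔇} {χ}
variable (h : CountHyp 𝔇 k χ)

include h in
/-- finiteness of `H^n_c` for `n ≤ 3` -/
theorem finc [Nonempty 𝔇.ι] [Module.Finite k M] (ρ : Representation k G M) (hρ : 𝔇.IsSmooth ρ)
    (n : ℕ) (hn : n ≤ 3) : Module.Finite k ((𝔇.Cc ρ hρ).H n) := by
  cases n with
  | zero =>
    have : Subsingleton ((𝔇.Cc ρ hρ).H 0) := 𝔇.Hc_zero_subsingleton ρ hρ
    infer_instance
  | succ n =>
    have h1 : ∀ v, Module.Finite k (𝔇.Hv ρ hρ v n) := fun v => h.finv ρ hρ v n (by omega)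
    have h2 : Module.Finite k (𝔇.H ρ hρ (n + 1)) := by
      rcases Nat.lt_or_ge n 2 with h' | h'
      · exact h.fin ρ hρ (n + 1) (by omega)
      · obtain rfl : n = 2 := by omega
        have := h.cd ρ hρ
        infer_instance
    exact 𝔇.finite_Hc_succ ρ hρ n

include h in
/-- `Ẽ ≥ 0` -/
theorem Et_nonneg [Module.Finite k M] (ρ : Representation k G M) (hρ : 𝔇.IsSmooth ρ)
    (hρ' : 𝔇.IsSmooth (dualTw χ ρ)) : 0 ≤ 𝔇.Et χ ρ hρ hρ' := by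
  have h1 := h.i1 ρ hρ hρ'
  have h2 := h.i2 ρ hρ hρ'
  unfold Et
  omega

include h in
/-- `Ẽ(X) = 0` gives `h¹_c(X) = h²(X')` -/
theorem finrank_Hc_one [Module.Finite k M] (ρ : Representation k G M) (hρ : 𝔇.IsSmooth ρ)
    (hρ' : 𝔇.IsSmooth (dualTw χ ρ)) (hE : 𝔇.Et χ ρ hρ hρ' = 0) :
    finrank k (𝔇.Hc ρ hρ 1) = finrank k (𝔇.H (dualTw χ ρ) hρ' 2) := by
  have h1 := h.i1 ρ hρ hρ'
  have h2 := h.i2 ρ hρ hρ'
  unfold Et at hE
  omega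

include h in
/-- `Ẽ(X) = 0` gives `h²_c(X) = h¹(X')` -/
theorem finrank_Hc_two [Module.Finite k M] (ρ : Representation k G M) (hρ : 𝔇.IsSmooth ρ)
    (hρ' : 𝔇.IsSmooth (dualTw χ ρ)) (hE : 𝔇.Et χ ρ hρ hρ' = 0) :
    finrank k (𝔇.Hc ρ hρ 2) = finrank k (𝔇.H (dualTw χ ρ) hρ' 1) := by
  have h1 := h.i1 ρ hρ hρ'
  have h2 := h.i2 ρ hρ hρ'
  unfold Et at hE
  omega

section Add

variable {A B C : Type} [AddCommGroup A] [Module k A] [AddCommGroup B] [Module k B]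
  [AddCommGroup C] [Module k C] [Module.Finite k A] [Module.Finite k B] [Module.Finite k C]
  {ρA : Representation k G A} {ρB : Representation k G B} {ρC : Representation k G C}
  (hA : 𝔇.IsSmooth ρA) (hB : 𝔇.IsSmooth ρB) (hC : 𝔇.IsSmooth ρC)
  (hA' : 𝔇.IsSmooth (dualTw χ ρA)) (hB' : 𝔇.IsSmooth (dualTw χ ρB))
  (hC' : 𝔇.IsSmooth (dualTw χ ρC))
  (i : A →ₗ[k] B) (π : B →ₗ[k] C)
  (hi : ∀ g m, i (ρA g m) = ρB g (i m)) (hπ : ∀ g m, π (ρB g m) = ρC g (π m))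

include h hi hπ in
/-- **Additivity of `Ẽ`** in short exact sequences of finite-dimensional smooth
representations. -/
theorem Et_add [Nonempty 𝔇.ι] (hinj : Function.Injective i) (hex : Function.Exact i π)
    (hsurj : Function.Surjective π) :
    𝔇.Et χ ρB hB hB' = 𝔇.Et χ ρA hA hA' + 𝔇.Et χ ρC hC hC' := by
  rw [𝔇.Et_eq_chi χ ρA hA hA' (h.e3 ρA hA hA'), 𝔇.Et_eq_chi χ ρB hB hB' (h.e3 ρB hB hB'),
    𝔇.Et_eq_chi χ ρC hC hC' (h.e3 ρC hC hC')]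
  -- the compactly supported side
  have c1 : Cx.chi (𝔇.Cc ρB hB) 3 = Cx.chi (𝔇.Cc ρA hA) 3 + Cx.chi (𝔇.Cc ρC hC) 3 := by
    have : Subsingleton (𝔇.H ρC hC (2 + 1)) := h.cd ρC hC
    have : ∀ v, Subsingleton (𝔇.Hv ρA hA v (2 + 1)) := fun v => h.cdv ρA hA v
    exact (𝔇.shortExact_mapCc hA hB hC i π hi hπ hinj hex hsurj).chi_add 3
      (fun n hn => h.finc ρA hA n hn) (fun n hn => h.finc ρB hB n hn)
      (fun n hn => h.finc ρC hC n hn)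
      (𝔇.δc_eq_zero hA hB hC i π hi hπ hinj hex hsurj 2)
  -- the dual side
  have c2 : Cx.chi (𝔇.C (dualTw χ ρB) hB') 2 =
      Cx.chi (𝔇.C (dualTw χ ρC) hC') 2 + Cx.chi (𝔇.C (dualTw χ ρA) hA') 2 := by
    have : Subsingleton ((𝔇.C (dualTw χ ρC) hC').H (2 + 1)) := h.cd (dualTw χ ρC) hC'
    have hinj' : Function.Injective π.dualMap := LinearMap.dualMap_injective_of_surjective hsurj
    have hsurj' : Function.Surjective i.dualMap := LinearMap.dualMap_surjective_of_injective hinj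
    have hex' : Function.Exact π.dualMap i.dualMap := by
      have h1 : LinearMap.ker π = LinearMap.range i := (LinearMap.exact_iff).mp hex
      refine (LinearMap.exact_iff (f := π.dualMap) (g := i.dualMap)).mpr ?_
      rw [LinearMap.ker_dualMap_eq_dualAnnihilator_range,
        LinearMap.range_dualMap_eq_dualAnnihilator_ker, h1]
    exact (𝔇.shortExact_mapC hC' hB' hA' π.dualMap i.dualMap
      (dualMap_equivariant χ π hπ) (dualMap_equivariant χ i hi) hinj' hex'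
      hsurj').chi_add_of_subsingleton 2
      (fun n hn => h.fin (dualTw χ ρC) hC' n hn) (fun n hn => h.fin (dualTw χ ρB) hB' n hn)
      (fun n hn => h.fin (dualTw χ ρA) hA' n hn)
  rw [c1, c2]
  ring

end Add

section Closure

variable [Nonempty 𝔇.ι]
variable {P : Type} [AddCommGroup P] [Module k P] [Module.Finite k M] [Module.Finite k P]
  {ρ : Representation k G M} {σ : Representation k G P}
  (hρ : 𝔇.IsSmooth ρ) (hσ : 𝔇.IsSmooth σ)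
  (hρ' : 𝔇.IsSmooth (dualTw χ ρ)) (hσ' : 𝔇.IsSmooth (dualTw χ σ))

include h in
/-- `{Ẽ = 0}` is closed under subrepresentations -/
theorem Et_eq_zero_of_injective (i : M →ₗ[k] P) (hi : ∀ g m, i (ρ g m) = σ g (i m))
    (hinj : Function.Injective i) (hP : 𝔇.Et χ σ hσ hσ' = 0) : 𝔇.Et χ ρ hρ hρ' = 0 := by
  have hQ : 𝔇.IsSmooth (cokerRep i hi) := 𝔇.isSmooth_cokerRep i hi hσ
  have hQ' : 𝔇.IsSmooth (dualTw χ (cokerRep i hi)) := 𝔇.isSmooth_dualTw χ hQ h.hχ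
  have h1 := h.Et_add hρ hσ hQ hρ' hσ' hQ' i (LinearMap.range i).mkQ hi
    (mkQ_equivariant i hi) hinj (exact_mkQ i) (LinearMap.range i).mkQ_surjective
  have h2 := h.Et_nonneg ρ hρ hρ'
  have h3 := h.Et_nonneg (cokerRep i hi) hQ hQ'
  omega

include h in
/-- `{Ẽ = 0}` is closed under quotients -/
theorem Et_eq_zero_of_surjective (π : M →ₗ[k] P) (hπ : ∀ g m, π (ρ g m) = σ g (π m))
    (hsurj : Function.Surjective π) (hM : 𝔇.Et χ ρ hρ hρ' = 0) : 𝔇.Et χ σ hσ hσ' = 0 := by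
  have hle : ∀ g, LinearMap.ker π ≤ (LinearMap.ker π).comap (ρ g) := by
    intro g m hm
    rw [Submodule.mem_comap, LinearMap.mem_ker, hπ, LinearMap.mem_ker.mp hm, map_zero]
  have hK : 𝔇.IsSmooth (ρ.subrepresentation (LinearMap.ker π) hle) := by
    intro m
    obtain ⟨N, hN, hN'⟩ := hρ m.1
    exact ⟨N, hN, fun s hs => Subtype.ext (hN' s hs)⟩
  have hK' : 𝔇.IsSmooth (dualTw χ (ρ.subrepresentation (LinearMap.ker π) hle)) :=
    𝔇.isSmooth_dualTw χ hK h.hχ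
  have hex : Function.Exact (LinearMap.ker π).subtype π := by
    intro m
    constructor
    · intro hm
      exact ⟨⟨m, hm⟩, rfl⟩
    · rintro ⟨m', rfl⟩
      exact m'.2
  have h1 := h.Et_add hK hρ hσ hK' hρ' hσ' (LinearMap.ker π).subtype π (fun _ _ => rfl) hπ
    (LinearMap.ker π).injective_subtype hex hsurj
  have h2 := h.Et_nonneg σ hσ hσ'
  have h3 := h.Et_nonneg (ρ.subrepresentation (LinearMap.ker π) hle) hK hK'
  omega

end Closure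

/-- **The abstract duality count (F8).**  Under `CountHyp`, if every finite-dimensional smooth
representation embeds into one with `Ẽ = 0`, then `dim Ш²(M) = dim Ш¹(M')` for every
finite-dimensional smooth `M`. -/
theorem finrank_sha_eq [Nonempty 𝔇.ι] (h : CountHyp 𝔇 k χ)
    (hemb : ∀ {X : Type} [AddCommGroup X] [Module k X] [Module.Finite k X]
      (ρ : Representation k G X) (_ : 𝔇.IsSmooth ρ),
      ∃ (P : Type) (_ : AddCommGroup P) (_ : Module k P) (_ : Module.Finite k P)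
        (σ : Representation k G P) (hσ : 𝔇.IsSmooth σ) (hσ' : 𝔇.IsSmooth (dualTw χ σ))
        (i : X →ₗ[k] P), Function.Injective i ∧ (∀ g m, i (ρ g m) = σ g (i m)) ∧
          𝔇.Et χ σ hσ hσ' = 0)
    [Module.Finite k M] (ρ : Representation k G M) (hρ : 𝔇.IsSmooth ρ)
    (hρ' : 𝔇.IsSmooth (dualTw χ ρ)) :
    finrank k (𝔇.sha ρ hρ 2) = finrank k (𝔇.sha (dualTw χ ρ) hρ' 1) := by
  have hρ'' : 𝔇.IsSmooth (dualTw χ (dualTw χ ρ)) := 𝔇.isSmooth_dualTw χ hρ' h.hχ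
  -- `Ẽ(M') = 0`
  obtain ⟨P, _, _, _, σ, hσ, hσ', i, hinj, hi, hP⟩ := hemb (dualTw χ ρ) hρ'
  have hE : 𝔇.Et χ (dualTw χ ρ) hρ' hρ'' = 0 :=
    h.Et_eq_zero_of_injective hρ' hσ hρ'' hσ' i hi hinj hP
  have e1 := h.finrank_Hc_one (dualTw χ ρ) hρ' hρ'' hE
  -- biduality
  have hbi : finrank k (𝔇.H ρ hρ 2) = finrank k (𝔇.H (dualTw χ (dualTw χ ρ)) hρ'' 2) :=
    LinearEquiv.finrank_eq (LinearEquiv.ofBijective _
      (𝔇.mapC_bijective hρ hρ'' (Module.evalEquiv k M)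
        (fun g m => eval_equivariant χ ρ g m) 2))
  have : Module.Finite k (𝔇.H ρ hρ 2) := h.fin ρ hρ 2 le_rfl
  have : ∀ v, Module.Finite k (𝔇.Hv ρ hρ v 2) := fun v => h.finv ρ hρ v 2 le_rfl
  have : Subsingleton (𝔇.H ρ hρ 3) := h.cd ρ hρ
  have : Module.Finite k (𝔇.H (dualTw χ ρ) hρ' 0) := h.fin _ hρ' 0 (by omega)
  have : ∀ v, Module.Finite k (𝔇.Hv (dualTw χ ρ) hρ' v 0) := fun v =>
    h.finv _ hρ' v 0 (by omega)
  have : Module.Finite k (𝔇.H (dualTw χ ρ) hρ' 1) := h.fin _ hρ' 1 (by omega)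
  exact 𝔇.finrank_sha_eq_of ρ hρ (dualTw χ ρ) hρ' (e1.trans hbi.symm) (h.e3 ρ hρ hρ')
    (h.ev ρ hρ hρ')

end CountHyp

end LocDatum

end Fermat.Agent.PT
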