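/-
PT layer F8, (S-E): `h¹_c(X) ≤ h²(X')` for every finite smooth `X`.

The pairing `H²(X') × H¹_c(X) → H³_c(T) → k` (cup product with the evaluation pairing, then a
functional `tr`) has trivial left kernel in `H¹_c(X)`:
* (W-perfectness) for any finite smooth `C`, the pairing
  `(∏_v H⁰_v(C)) × H²(C') → k`, `(φ, y) ↦ tr (y ∪ ιc φ)`, has left kernel exactly the image of
  `H⁰(C)` (`ker_W_eq`): its right kernel is `Ш²(C')` by the local twin of (C1) and the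
  injectivity of `tr ∘ ιc` on each `H²_v(T)`, and the dimensions match by (C1), its local twin
  and the cone sequence;
* a class `z ∈ H¹_c(X)` is pushed into an effacing `C ⊇ X`, where it becomes `ιc φ`.
-/
import Mathlib
import Fermat.Agent.PT.Coh.Engine
import Fermat.Agent.PT.Coh.CupSetup

set_option autoImplicit false

namespace Fermat.Agent.PT

namespace LevelSys

variable {Γ : Type} [Group Γ] (L : LevelSys Γ) {k : Type} [CommRing k]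
variable {M M' : Type} [AddCommGroup M] [Module k M] [AddCommGroup M'] [Module k M']
  {ρ : Representation k Γ M} {ρ' : Representation k Γ M'}

lemma mapCoeff_mapH_congr (hρ : L.IsSmooth ρ) (hρ' : L.IsSmooth ρ') {φ ψ : M →ₗ[k] M'}
    (e : φ = ψ) (hφ : ∀ g m, φ (ρ g m) = ρ' g (φ m)) (hψ : ∀ g m, ψ (ρ g m) = ρ' g (ψ m))
    (n : ℕ) (x : (L.cx ρ hρ).H n) :
    (L.mapCoeff hρ hρ' φ hφ).mapH n x = (L.mapCoeff hρ hρ' ψ hψ).mapH n x := by
  subst e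
  rfl

lemma mapCoeff_zero_mapH (hρ : L.IsSmooth ρ) (hρ' : L.IsSmooth ρ')
    (h : ∀ g m, (0 : M →ₗ[k] M') (ρ g m) = ρ' g ((0 : M →ₗ[k] M') m)) (n : ℕ)
    (x : (L.cx ρ hρ).H n) : (L.mapCoeff hρ hρ' 0 h).mapH n x = 0 := by
  have e : L.mapCoeff hρ hρ' 0 h = Cx.Hom.zero _ _ := Cx.Hom.ext fun _ _ => rfl
  rw [e, Cx.Hom.mapH_zero]

end LevelSys

namespace LocDatum

open Module

variable {G : Type} [Group G] (𝔇 : LocDatum G)
variable {k : Type} [Field k] (χ : G →* kˣ)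

/-- the evaluation pairing `X' × X → k` -/
def evB (M : Type) [AddCommGroup M] [Module k M] : Module.Dual k M →ₗ[k] M →ₗ[k] k :=
  LinearMap.id

lemma evB_apply {M : Type} [AddCommGroup M] [Module k M] (φ : Module.Dual k M) (m : M) :
    evB M φ m = φ m := rfl

/-- the evaluation pairing is equivariant into `k(χ)` -/
lemma evB_equivariant {M : Type} [AddCommGroup M] [Module k M] (ρ : Representation k G M)
    {τ : Representation k G k} (hτχ : ∀ g (x : k), τ g x = (χ g : k) * x) (g : G)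
    (φ : Module.Dual k M) (m : M) : evB M (dualTw χ ρ g φ) (ρ g m) = τ g (evB M φ m) := by
  rw [evB_apply, evB_apply, dualTw_apply, hτχ]
  congr 2
  rw [← Module.End.mul_apply, ← map_mul, inv_mul_cancel, map_one, Module.End.one_apply]

/-- The part of the engine hypotheses used by (S-E): finiteness, `cd ≤ 2`, (C1) and its local
twin in dimension form. -/
structure PreHyp (𝔇 : LocDatum G) (k : Type) [Field k] (χ : G →* kˣ) : Prop where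
  hχ : ∃ N ∈ 𝔇.L.lev, ∀ s ∈ N, χ s = 1
  fin : ∀ {M : Type} [AddCommGroup M] [Module k M] [Module.Finite k M]
    (ρ : Representation k G M) (hρ : 𝔇.IsSmooth ρ) (n : ℕ), n ≤ 2 → Module.Finite k (𝔇.H ρ hρ n)
  finv : ∀ {M : Type} [AddCommGroup M] [Module k M] [Module.Finite k M]
    (ρ : Representation k G M) (hρ : 𝔇.IsSmooth ρ) (v : 𝔇.ι) (n : ℕ), n ≤ 2 →
      Module.Finite k (𝔇.Hv ρ hρ v n)
  cd : ∀ {M : Type} [AddCommGroup M] [Module k M] [Module.Finite k M]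
    (ρ : Representation k G M) (hρ : 𝔇.IsSmooth ρ), Subsingleton (𝔇.H ρ hρ 3)
  cdv : ∀ {M : Type} [AddCommGroup M] [Module k M] [Module.Finite k M]
    (ρ : Representation k G M) (hρ : 𝔇.IsSmooth ρ) (v : 𝔇.ι), Subsingleton (𝔇.Hv ρ hρ v 3)
  e3 : ∀ {M : Type} [AddCommGroup M] [Module k M] [Module.Finite k M]
    (ρ : Representation k G M) (hρ : 𝔇.IsSmooth ρ) (hρ' : 𝔇.IsSmooth (dualTw χ ρ)),
      finrank k (𝔇.Hc ρ hρ 3) = finrank k (𝔇.H (dualTw χ ρ) hρ' 0)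
  ev : ∀ {M : Type} [AddCommGroup M] [Module k M] [Module.Finite k M]
    (ρ : Representation k G M) (hρ : 𝔇.IsSmooth ρ) (hρ' : 𝔇.IsSmooth (dualTw χ ρ)) (v : 𝔇.ι),
      finrank k (𝔇.Hv ρ hρ v 2) = finrank k (𝔇.Hv (dualTw χ ρ) hρ' v 0)

section W

variable {χ}
variable {τ : Representation k G k} (hτχ : ∀ g (x : k), τ g x = (χ g : k) * x)
  (hτ : 𝔇.IsSmooth τ) (tr : 𝔇.Hc τ hτ 3 →ₗ[k] k)
variable {C : Type} [AddCommGroup C] [Module k C]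
  (σ : Representation k G C) (hσ : 𝔇.IsSmooth σ) (hσ' : 𝔇.IsSmooth (dualTw χ σ))

/-- the cup product `H²(C') × H¹_c(C) → H³_c(T)` with the evaluation pairing -/
noncomputable abbrev cupE : 𝔇.H (dualTw χ σ) hσ' 2 →ₗ[k] 𝔇.Hc σ hσ 1 →ₗ[k] 𝔇.Hc τ hτ 3 :=
  𝔇.cup hσ' hσ hτ (evB C) (evB_equivariant χ σ hτχ) 2 1 3 rfl

/-- the pairing `(∏_v H⁰_v(C)) × H²(C') → k`, `(φ, y) ↦ tr (y ∪ ιc φ)` -/
noncomputable def Wmap : (∀ v, 𝔇.Hv σ hσ v 0) →ₗ[k] Module.Dual k (𝔇.H (dualTw χ σ) hσ' 2) :=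
  (LinearMap.llcomp k _ _ _ tr ∘ₗ (𝔇.cupE hτχ hτ σ hσ hσ').flip) ∘ₗ 𝔇.ιc σ hσ 0

lemma Wmap_apply (φ : ∀ v, 𝔇.Hv σ hσ v 0) (y : 𝔇.H (dualTw χ σ) hσ' 2) :
    𝔇.Wmap hτχ hτ tr σ hσ hσ' φ y = tr (𝔇.cupE hτχ hτ σ hσ hσ' y (𝔇.ιc σ hσ 0 φ)) := rfl

/-- the right kernel of `W` is contained in `Ш²(C')` -/
theorem locH_eq_zero_of_W [Module.Finite k C]
    (htau : ∀ (v : 𝔇.ι) (m : ∀ u, 𝔇.Hv τ hτ u 2), (∀ u, u ≠ v → m u = 0) →
      tr (𝔇.ιc τ hτ 2 m) = 0 → m v = 0)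
    (hLT : ∀ (v : 𝔇.ι) (y : 𝔇.Hv (dualTw χ σ) hσ' v 2),
      (∀ (ψ : Module.Dual k C →ₗ[k] k)
        (hψ : ∀ (g : 𝔇.D v) (f : Module.Dual k C),
          ψ (𝔇.resRep (dualTw χ σ) v g f) = 𝔇.resRep τ v g (ψ f)),
        ((𝔇.Lv v).mapCoeff (𝔇.isSmooth_resRep hσ' v) (𝔇.isSmooth_resRep hτ v) ψ hψ).mapH 2 y
          = 0) → y = 0)
    (y : 𝔇.H (dualTw χ σ) hσ' 2) (hy : ∀ φ, 𝔇.Wmap hτχ hτ tr σ hσ hσ' φ y = 0) :
    𝔇.locH (dualTw χ σ) hσ' 2 y = 0 := by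
  classical
  funext v
  show (𝔇.resv (dualTw χ σ) hσ' v).mapH 2 y = 0
  apply hLT v
  intro ψ hψ
  -- `ψ` is the evaluation at an invariant vector `c₀`
  set c₀ : C := (Module.evalEquiv k C).symm ψ with hc₀
  have hψc : ∀ f : Module.Dual k C, ψ f = f c₀ := fun f =>
    (Module.apply_evalEquiv_symm_apply k C f ψ).symm
  have hinv' : ∀ g : 𝔇.D v, σ (g : G)⁻¹ c₀ = c₀ := by
    intro g
    rw [← sub_eq_zero]
    refine (Module.forall_dual_apply_eq_zero_iff k _).mp fun f => ?_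
    have h1 := hψ g f
    rw [hψc, hψc] at h1
    have h2 : (χ (g : G) : k) * f (σ (g : G)⁻¹ c₀) = (χ (g : G) : k) * f c₀ :=
      (show (χ (g : G) : k) * f (σ (g : G)⁻¹ c₀) = τ (g : G) (f c₀) from h1).trans
        (hτχ _ _)
    have h3 := mul_left_cancel₀ (Units.ne_zero (χ (g : G))) h2
    rw [map_sub, h3, sub_self]
  have hinv : ∀ g : 𝔇.D v, σ (g : G) c₀ = c₀ := by
    intro g
    have := hinv' g⁻¹
    rwa [Subgroup.coe_inv, inv_inv] at this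
  -- the local 0-cocycles
  let c : 𝔇.ι → C := Pi.single v c₀
  let w : ∀ u, (𝔇.Cv σ hσ u).X 0 := fun u => (𝔇.Lv u).const0 (𝔇.isSmooth_resRep hσ u) (c u)
  have hw : ∀ u, (𝔇.Cv σ hσ u).d 0 (w u) = 0 := by
    intro u
    rw [LevelSys.d_zero_eq_zero_iff]
    intro g
    show σ (g : G) (c u) = c u
    rcases eq_or_ne u v with rfl | hu
    · show σ (g : G) ((Pi.single u c₀ : 𝔇.ι → C) u) = (Pi.single u c₀ : 𝔇.ι → C) u
      rw [Pi.single_eq_same]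
      exact hinv g
    · show σ (g : G) ((Pi.single v c₀ : 𝔇.ι → C) u) = (Pi.single v c₀ : 𝔇.ι → C) u
      rw [Pi.single_eq_of_ne hu, map_zero]
  have h1 := hy fun u => (𝔇.Cv σ hσ u).cls 0 (w u) (hw u)
  rw [Wmap_apply] at h1
  have h2 := 𝔇.cup_ιc_zero hσ' hσ hτ (evB C) (evB_equivariant χ σ hτχ) w hw 2 y
  have h3 : 𝔇.cupE hτχ hτ σ hσ hσ' y
      (𝔇.ιc σ hσ 0 fun u => (𝔇.Cv σ hσ u).cls 0 (w u) (hw u)) =
      𝔇.ιc τ hτ 2 (Pi.single v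
        (((𝔇.Lv v).mapCoeff (𝔇.isSmooth_resRep hσ' v) (𝔇.isSmooth_resRep hτ v) ψ hψ).mapH 2
          ((𝔇.resv (dualTw χ σ) hσ' v).mapH 2 y))) := by
    refine h2.trans ?_
    have e1 : ((-1 : k) ^ 2) = 1 := by norm_num
    rw [e1, one_smul]
    congr 1
    funext u
    rcases eq_or_ne u v with rfl | hu
    · rw [Pi.single_eq_same]
      refine LevelSys.mapCoeff_mapH_congr _ _ _ ?_ _ _ 2 _
      refine LinearMap.ext fun f => ?_
      show f ((Pi.single u c₀ : 𝔇.ι → C) u) = ψ f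
      rw [Pi.single_eq_same, hψc]
    · rw [Pi.single_eq_of_ne hu]
      have e2 : (evB C).flip ((𝔇.Lv u).ev0 (𝔇.isSmooth_resRep hσ u) (w u)) =
          (0 : Module.Dual k C →ₗ[k] k) := by
        refine LinearMap.ext fun f => ?_
        show f ((Pi.single v c₀ : 𝔇.ι → C) u) = 0
        rw [Pi.single_eq_of_ne hu, map_zero]
      rw [LevelSys.mapCoeff_mapH_congr _ _ _ e2 _ (fun g m => by simp) 2 _]
      exact LevelSys.mapCoeff_zero_mapH _ _ _ _ 2 _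
  rw [h3] at h1
  have h4 := htau v _ (fun u hu => Pi.single_eq_of_ne hu _) h1
  rwa [Pi.single_eq_same] at h4

/-- **W-perfectness**: the left kernel of `W` is the image of `H⁰(C)`; in particular a family
`φ` of local invariants which pairs to zero with all of `H²(C')` dies in `H¹_c(C)`. -/
theorem ιc_eq_zero_of_W [Nonempty 𝔇.ι] [Module.Finite k C] (h : PreHyp 𝔇 k χ)
    (htau : ∀ (v : 𝔇.ι) (m : ∀ u, 𝔇.Hv τ hτ u 2), (∀ u, u ≠ v → m u = 0) →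
      tr (𝔇.ιc τ hτ 2 m) = 0 → m v = 0)
    (hLT : ∀ (v : 𝔇.ι) (y : 𝔇.Hv (dualTw χ σ) hσ' v 2),
      (∀ (ψ : Module.Dual k C →ₗ[k] k)
        (hψ : ∀ (g : 𝔇.D v) (f : Module.Dual k C),
          ψ (𝔇.resRep (dualTw χ σ) v g f) = 𝔇.resRep τ v g (ψ f)),
        ((𝔇.Lv v).mapCoeff (𝔇.isSmooth_resRep hσ' v) (𝔇.isSmooth_resRep hτ v) ψ hψ).mapH 2 y
          = 0) → y = 0)
    (φ : ∀ v, 𝔇.Hv σ hσ v 0) (hφ : 𝔇.Wmap hτχ hτ tr σ hσ hσ' φ = 0) :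
    𝔇.ιc σ hσ 0 φ = 0 := by
  have hσ'' : 𝔇.IsSmooth (dualTw χ (dualTw χ σ)) := 𝔇.isSmooth_dualTw χ hσ' h.hχ
  have : Module.Finite k (𝔇.H σ hσ 0) := h.fin σ hσ 0 (by omega)
  have : ∀ v, Module.Finite k (𝔇.Hv σ hσ v 0) := fun v => h.finv σ hσ v 0 (by omega)
  have : Module.Finite k (𝔇.H (dualTw χ σ) hσ' 2) := h.fin _ hσ' 2 le_rfl
  have : ∀ v, Module.Finite k (𝔇.Hv (dualTw χ σ) hσ' v 2) := fun v => h.finv _ hσ' v 2 le_rfl
  have : Subsingleton (𝔇.H (dualTw χ σ) hσ' (2 + 1)) := h.cd _ hσ'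
  set Wm := 𝔇.Wmap hτχ hτ tr σ hσ hσ' with hWm
  -- the image of `H⁰(C)` is in the kernel
  have hle : LinearMap.range (𝔇.locH σ hσ 0) ≤ LinearMap.ker Wm := by
    rintro _ ⟨c, rfl⟩
    rw [LinearMap.mem_ker]
    refine LinearMap.ext fun y => ?_
    rw [hWm, Wmap_apply, (𝔇.exact_locH_ιc σ hσ 0 _).mpr ⟨c, rfl⟩, map_zero, map_zero]
    rfl
  -- dimension count
  have d1 : finrank k (LinearMap.range Wm) + finrank k (LinearMap.ker Wm) =
      ∑ v, finrank k (𝔇.Hv σ hσ v 0) := by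
    rw [LinearMap.finrank_range_add_finrank_ker, Module.finrank_pi_fintype]
  have d2 : finrank k (LinearMap.range Wm) +
      finrank k ((LinearMap.range Wm).dualCoannihilator) =
      finrank k (𝔇.H (dualTw χ σ) hσ' 2) :=
    Subspace.finrank_add_finrank_dualCoannihilator_eq _
  have d3 : finrank k ((LinearMap.range Wm).dualCoannihilator) ≤
      finrank k (𝔇.sha (dualTw χ σ) hσ' 2) := by
    refine Submodule.finrank_mono ?_
    intro y hy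
    rw [Submodule.mem_dualCoannihilator] at hy
    rw [LinearMap.mem_ker]
    exact 𝔇.locH_eq_zero_of_W hτχ hτ tr σ hσ hσ' htau hLT y
      (fun φ' => hy _ ⟨φ', rfl⟩)
  have d4 : finrank k (𝔇.sha (dualTw χ σ) hσ' 2) + ∑ v, finrank k (𝔇.Hv (dualTw χ σ) hσ' v 2) =
      finrank k (𝔇.H (dualTw χ σ) hσ' 2) + finrank k (𝔇.Hc (dualTw χ σ) hσ' 3) :=
    𝔇.finrank_sha_add (dualTw χ σ) hσ' 2
  have d5 : finrank k (𝔇.Hc (dualTw χ σ) hσ' 3) = finrank k (𝔇.H σ hσ 0) := by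
    rw [h.e3 (dualTw χ σ) hσ' hσ'']
    exact (LinearEquiv.finrank_eq (LinearEquiv.ofBijective _
      (𝔇.mapC_bijective hσ hσ'' (Module.evalEquiv k C)
        (fun g m => eval_equivariant χ σ g m) 0))).symm
  have d6 : ∑ v, finrank k (𝔇.Hv (dualTw χ σ) hσ' v 2) = ∑ v, finrank k (𝔇.Hv σ hσ v 0) := by
    refine Finset.sum_congr rfl fun v _ => ?_
    rw [h.ev (dualTw χ σ) hσ' hσ'' v]
    exact (LinearEquiv.finrank_eq (LinearEquiv.ofBijective _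
      (𝔇.mapCv_bijective hσ hσ'' (Module.evalEquiv k C)
        (fun g m => eval_equivariant χ σ g m) v 0))).symm
  have d7 : finrank k (LinearMap.range (𝔇.locH σ hσ 0)) = finrank k (𝔇.H σ hσ 0) :=
    LinearMap.finrank_range_of_inj (𝔇.locH_zero_injective σ hσ)
  have heq : LinearMap.range (𝔇.locH σ hσ 0) = LinearMap.ker Wm :=
    Submodule.eq_of_le_of_finrank_le hle (by omega)
  have hmem : φ ∈ LinearMap.range (𝔇.locH σ hσ 0) := by
    rw [heq, LinearMap.mem_ker]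
    exact hφ
  exact (𝔇.exact_locH_ιc σ hσ 0 φ).mpr hmem

end W

/-- **(S-E).**  `h¹_c(X) ≤ h²(X')` for every finite smooth `X`, given (C1) and its local twin
in dimension form (`PreHyp`), the injectivity of `tr ∘ ιc` on each `H²_v(T)` (`htau`), the
injectivity half of the local twin (`hLT`: a class of `H²_v(Y)` killed by all `D_v`-equivariant
functionals `Y → T` is zero) and effacement of `H¹` (`hEff`). -/
theorem finrank_Hc_one_le [Nonempty 𝔇.ι] {χ : G →* kˣ} (h : PreHyp 𝔇 k χ)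
    {τ : Representation k G k} (hτχ : ∀ g (x : k), τ g x = (χ g : k) * x)
    (hτ : 𝔇.IsSmooth τ) (tr : 𝔇.Hc τ hτ 3 →ₗ[k] k)
    (htau : ∀ (v : 𝔇.ι) (m : ∀ u, 𝔇.Hv τ hτ u 2), (∀ u, u ≠ v → m u = 0) →
      tr (𝔇.ιc τ hτ 2 m) = 0 → m v = 0)
    (hLT : ∀ {Y : Type} [AddCommGroup Y] [Module k Y] [Module.Finite k Y]
      (σ : Representation k G Y) (hσ : 𝔇.IsSmooth σ) (v : 𝔇.ι) (y : 𝔇.Hv σ hσ v 2),
      (∀ (ψ : Y →ₗ[k] k)
        (hψ : ∀ (g : 𝔇.D v) (f : Y), ψ (𝔇.resRep σ v g f) = 𝔇.resRep τ v g (ψ f)),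
        ((𝔇.Lv v).mapCoeff (𝔇.isSmooth_resRep hσ v) (𝔇.isSmooth_resRep hτ v) ψ hψ).mapH 2 y
          = 0) → y = 0)
    (hEff : ∀ {M : Type} [AddCommGroup M] [Module k M] [Module.Finite k M]
      (ρ : Representation k G M) (hρ : 𝔇.IsSmooth ρ) (y : 𝔇.H ρ hρ 1),
      ∃ (C : Type) (_ : AddCommGroup C) (_ : Module k C) (_ : Module.Finite k C)
        (σ : Representation k G C) (hσ : 𝔇.IsSmooth σ) (e : M →ₗ[k] C)
        (he : ∀ g m, e (ρ g m) = σ g (e m)),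
        Function.Injective e ∧ (𝔇.mapC hρ hσ e he).mapH 1 y = 0)
    {M : Type} [AddCommGroup M] [Module k M] [Module.Finite k M]
    (ρ : Representation k G M) (hρ : 𝔇.IsSmooth ρ) (hρ' : 𝔇.IsSmooth (dualTw χ ρ)) :
    finrank k (𝔇.Hc ρ hρ 1) ≤ finrank k (𝔇.H (dualTw χ ρ) hρ' 2) := by
  have : Module.Finite k (𝔇.H (dualTw χ ρ) hρ' 2) := h.fin _ hρ' 2 le_rfl
  let Amap : 𝔇.Hc ρ hρ 1 →ₗ[k] Module.Dual k (𝔇.H (dualTw χ ρ) hρ' 2) :=
    LinearMap.llcomp k _ _ _ tr ∘ₗ (𝔇.cupE hτχ hτ ρ hρ hρ').flip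
  have hAmap : ∀ z y, Amap z y = tr (𝔇.cupE hτχ hτ ρ hρ hρ' y z) := fun _ _ => rfl
  suffices hinj : Function.Injective Amap by
    have h1 := LinearMap.finrank_le_finrank_of_injective hinj
    rwa [Subspace.dual_finrank_eq] at h1
  rw [injective_iff_map_eq_zero]
  intro z hz
  by_contra hne
  obtain ⟨C, _, _, _, σ, hσ, e, he, hinj, heff⟩ := hEff ρ hρ (𝔇.πc ρ hρ 1 z)
  have hσ' : 𝔇.IsSmooth (dualTw χ σ) := 𝔇.isSmooth_dualTw χ hσ h.hχ
  -- `e_* z ≠ 0` since `H⁰_c` of the quotient vanishes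
  have hQ : 𝔇.IsSmooth (cokerRep e he) := 𝔇.isSmooth_cokerRep e he hσ
  have se := 𝔇.shortExact_mapCc hρ hσ hQ e (LinearMap.range e).mkQ he (mkQ_equivariant e he)
    hinj (exact_mkQ e) (LinearMap.range e).mkQ_surjective
  have hez : (𝔇.mapCc hρ hσ e he).mapH 1 z ≠ 0 := by
    intro h0
    obtain ⟨x, hx⟩ := (se.exact_δ_f 0 z).mp h0
    rw [𝔇.Hc_zero_eq_zero (cokerRep e he) hQ x, map_zero] at hx
    exact hne hx.symm
  -- `e_* z = ιc φ`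
  have hπ : 𝔇.πc σ hσ 1 ((𝔇.mapCc hρ hσ e he).mapH 1 z) = 0 := by
    rw [𝔇.πc_mapCc hρ hσ e he 1 z, heff]
  obtain ⟨φ, hφ⟩ := (𝔇.exact_ιc_πc σ hσ 0 _).mp hπ
  have hW : 𝔇.Wmap hτχ hτ tr σ hσ hσ' φ ≠ 0 := by
    intro h0
    apply hez
    rw [← hφ]
    exact 𝔇.ιc_eq_zero_of_W hτχ hτ tr σ hσ hσ' h htau (fun v y hy => hLT _ hσ' v y hy) φ h0
  obtain ⟨y, hy⟩ : ∃ y, 𝔇.Wmap hτχ hτ tr σ hσ hσ' φ y ≠ 0 := by
    by_contra hall
    exact hW (LinearMap.ext fun y => by_contra fun hy => hall ⟨y, hy⟩)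
  rw [Wmap_apply, hφ] at hy
  have hnat := 𝔇.cup_nat hσ' hρ' hσ hρ hτ (evB C) (evB_equivariant χ σ hτχ) (evB M)
    (evB_equivariant χ ρ hτχ) e.dualMap (dualMap_equivariant χ e he) e he (fun _ _ => rfl)
    2 1 3 rfl y z
  apply hy
  show tr (𝔇.cup hσ' hσ hτ (evB C) (evB_equivariant χ σ hτχ) 2 1 3 rfl y
    ((𝔇.mapCc hρ hσ e he).mapH 1 z)) = 0
  rw [hnat]
  have h2 := hAmap z ((𝔇.mapC hσ' hρ' e.dualMap (dualMap_equivariant χ e he)).mapH 2 y)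
  rw [hz] at h2
  exact h2.symm

end LocDatum

end Fermat.Agent.PT
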