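/-
PT layer F4 (extensions): the cup product with a class of degree one is a connecting
homomorphism.  For an equivariant bilinear map `β : A → B → T` and a 1-cocycle `y` with
values in `A`, the extension `E_y = T × B`, `g (t, b) = (g t + β (y g) (g b), g b)`, is a
smooth representation (`LevelSys.extRep`), and the connecting homomorphism of
`0 → T → E_y → B → 0` on compactly supported cohomology is `x ↦ [y] ∪ x`
(`LocDatum.δ_ext`).
-/
import Fermat.Agent.PT.Coh.CupSetup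

set_option autoImplicit false

namespace Fermat.Agent.PT

section deg1

variable {k : Type} [CommRing k] {Γ : Type} [Group Γ]
variable {A B T : Type} [AddCommGroup A] [Module k A] [AddCommGroup B] [Module k B]
  [AddCommGroup T] [Module k T]

lemma cupFun_one_left (β : A →ₗ[k] B →ₗ[k] T) (ρB : Representation k Γ B) (n N : ℕ)
    (h : 1 + n = N + 1) (x : (Fin 1 → Γ) → A) (y : (Fin n → Γ) → B) (g : Fin (N + 1) → Γ) :
    cupFun β ρB 1 n (N + 1) h x y g =
      β (x fun _ => g 0) (ρB (g 0) (y fun i : Fin n => g ⟨(i : ℕ) + 1, by omega⟩)) := by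
  have e1 : Cup.tk 1 (by omega) g = fun _ => g 0 := by
    funext i
    rw [Cup.tk_apply]
    congr 1
    ext
    simp
  have e2 : Cup.pp 1 (by omega) g = g 0 := by
    have := Cup.pp_succ 0 (by omega : 0 + 1 ≤ N + 1) g
    rw [Cup.pp_zero, one_mul] at this
    exact this
  have e3 : Cup.dp 1 n h g = fun i : Fin n => g ⟨(i : ℕ) + 1, by omega⟩ := by
    funext i
    rw [Cup.dp_apply]
    congr 1
    ext
    simp only
    omega
  rw [cupFun_apply, e1, e2, e3]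

end deg1

namespace LevelSys

variable {Γ : Type} [Group Γ] (L : LevelSys Γ) {k : Type} [CommRing k]
variable {A B T : Type} [AddCommGroup A] [Module k A] [AddCommGroup B] [Module k B]
  [AddCommGroup T] [Module k T]
variable {ρA : Representation k Γ A} {ρB : Representation k Γ B} {ρT : Representation k Γ T}

/-- the value of a 1-cochain -/
def ev1 {M : Type} [AddCommGroup M] [Module k M] {ρ : Representation k Γ M}
    (hρ : L.IsSmooth ρ) (y : (L.cx ρ hρ).X 1) (g : Γ) : M := y.1 fun _ => g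

/-- the cocycle identity for a 1-cocycle -/
lemma ev1_mul {M : Type} [AddCommGroup M] [Module k M] {ρ : Representation k Γ M}
    (hρ : L.IsSmooth ρ) (y : (L.cx ρ hρ).X 1) (hy : (L.cx ρ hρ).d 1 y = 0) (g h : Γ) :
    L.ev1 hρ y (g * h) = ρ g (L.ev1 hρ y h) + L.ev1 hρ y g := by
  have h0 := congrFun (congrArg Subtype.val hy) ![g, h]
  rw [cx_d_apply, Fin.sum_univ_succ, Fin.sum_univ_succ, Fin.sum_univ_zero] at h0
  have e1 : (fun i : Fin 1 => ![g, h] i.succ) = fun _ => h := by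
    funext i; fin_cases i; rfl
  have e2 : Fin.contractNth (0 : Fin 2) (· * ·) ![g, h] = fun _ => g * h := by
    funext i; fin_cases i; rfl
  have e3 : Fin.contractNth ((0 : Fin 1).succ : Fin 2) (· * ·) ![g, h] = fun _ => g := by
    funext i; fin_cases i; rfl
  rw [e1, e2, e3] at h0
  simp only [Matrix.cons_val_zero, Fin.val_zero, zero_add, pow_one, neg_smul, one_smul,
    Fin.val_succ, add_zero] at h0
  have h1 : ρ g (L.ev1 hρ y h) + (-L.ev1 hρ y (g * h) + (-1 : k) ^ 2 • L.ev1 hρ y g) = 0 := h0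
  have h2 : (-1 : k) ^ 2 = 1 := by norm_num
  rw [h2, one_smul] at h1
  calc L.ev1 hρ y (g * h)
      = L.ev1 hρ y (g * h) +
          (ρ g (L.ev1 hρ y h) + (-L.ev1 hρ y (g * h) + L.ev1 hρ y g)) := by
        rw [h1, add_zero]
    _ = ρ g (L.ev1 hρ y h) + L.ev1 hρ y g := by abel

lemma ev1_one {M : Type} [AddCommGroup M] [Module k M] {ρ : Representation k Γ M}
    (hρ : L.IsSmooth ρ) (y : (L.cx ρ hρ).X 1) (hy : (L.cx ρ hρ).d 1 y = 0) :
    L.ev1 hρ y 1 = 0 := by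
  have h := L.ev1_mul hρ y hy 1 1
  rw [mul_one, map_one, Module.End.one_apply] at h
  exact left_eq_add.1 h

/-- a 1-cochain vanishes on a small enough level -/
lemma exists_level_ev1 {M : Type} [AddCommGroup M] [Module k M] {ρ : Representation k Γ M}
    (hρ : L.IsSmooth ρ) (y : (L.cx ρ hρ).X 1) (hy : (L.cx ρ hρ).d 1 y = 0) :
    ∃ N ∈ L.lev, ∀ s ∈ N, L.ev1 hρ y s = 0 := by
  obtain ⟨N, hN, h⟩ := y.2
  refine ⟨N, hN, fun s hs => ?_⟩
  rw [← L.ev1_one hρ y hy]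
  refine (h (fun _ => 1) (fun _ => s) fun _ => ?_).symm
  rw [inv_one, one_mul]
  exact hs

/-- The extension `E_y = T × B` attached to a 1-cocycle `y` with values in `A` and an
equivariant pairing `β : A → B → T`: `g (t, b) = (g t + β (y g) (g b), g b)`. -/
def extRep (hA : L.IsSmooth ρA) (β : A →ₗ[k] B →ₗ[k] T)
    (hβ : ∀ g a b, β (ρA g a) (ρB g b) = ρT g (β a b)) (y : (L.cx ρA hA).X 1)
    (hy : (L.cx ρA hA).d 1 y = 0) : Representation k Γ (T × B) where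
  toFun g :=
    { toFun := fun p => (ρT g p.1 + β (L.ev1 hA y g) (ρB g p.2), ρB g p.2)
      map_add' := fun p q => by
        refine Prod.ext ?_ ?_
        · simp only [Prod.fst_add, Prod.snd_add, map_add]
          abel
        · simp only [Prod.snd_add, map_add]
      map_smul' := fun c p => by
        refine Prod.ext ?_ ?_
        · simp only [Prod.smul_fst, Prod.smul_snd, map_smul, RingHom.id_apply, smul_add]
        · simp only [Prod.smul_snd, map_smul, RingHom.id_apply] }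
  map_one' := by
    refine LinearMap.ext fun p => Prod.ext ?_ ?_
    · show ρT 1 p.1 + β (L.ev1 hA y 1) (ρB 1 p.2) = p.1
      rw [L.ev1_one hA y hy, map_zero, LinearMap.zero_apply, add_zero, map_one,
        Module.End.one_apply]
    · show ρB 1 p.2 = p.2
      rw [map_one, Module.End.one_apply]
  map_mul' g h := by
    refine LinearMap.ext fun p => Prod.ext ?_ ?_
    · show ρT (g * h) p.1 + β (L.ev1 hA y (g * h)) (ρB (g * h) p.2) =
        ρT g (ρT h p.1 + β (L.ev1 hA y h) (ρB h p.2)) + β (L.ev1 hA y g) (ρB g (ρB h p.2))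
      rw [L.ev1_mul hA y hy, map_mul, map_mul, Module.End.mul_apply, Module.End.mul_apply,
        map_add, map_add, LinearMap.add_apply, hβ]
      abel
    · show ρB (g * h) p.2 = ρB g (ρB h p.2)
      rw [map_mul, Module.End.mul_apply]

lemma extRep_apply (hA : L.IsSmooth ρA) (β : A →ₗ[k] B →ₗ[k] T)
    (hβ : ∀ g a b, β (ρA g a) (ρB g b) = ρT g (β a b)) (y : (L.cx ρA hA).X 1)
    (hy : (L.cx ρA hA).d 1 y = 0) (g : Γ) (t : T) (b : B) :
    L.extRep hA β hβ y hy g (t, b) = (ρT g t + β (L.ev1 hA y g) (ρB g b), ρB g b) := rfl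

/-- the extension is smooth -/
lemma isSmooth_extRep (hA : L.IsSmooth ρA) (hB : L.IsSmooth ρB) (hT : L.IsSmooth ρT)
    (β : A →ₗ[k] B →ₗ[k] T) (hβ : ∀ g a b, β (ρA g a) (ρB g b) = ρT g (β a b))
    (y : (L.cx ρA hA).X 1) (hy : (L.cx ρA hA).d 1 y = 0) :
    L.IsSmooth (L.extRep hA β hβ y hy) := by
  rintro ⟨t, b⟩
  obtain ⟨N₁, hN₁, h₁⟩ := hT t
  obtain ⟨N₂, hN₂, h₂⟩ := hB b
  obtain ⟨N₃, hN₃, h₃⟩ := L.exists_level_ev1 hA y hy
  obtain ⟨N₄, hN₄, hle₄⟩ := L.inter N₁ hN₁ N₂ hN₂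
  obtain ⟨N, hN, hle⟩ := L.inter N₄ hN₄ N₃ hN₃
  refine ⟨N, hN, fun s hs => ?_⟩
  rw [extRep_apply, h₁ s (hle₄ (hle hs).1).1, h₂ s (hle₄ (hle hs).1).2, h₃ s (hle hs).2,
    map_zero, LinearMap.zero_apply, add_zero]

/-- the (non-equivariant) linear section `b ↦ (0, b)` on level cochains -/
def secE {ρE : Representation k Γ (T × B)} (hB : L.IsSmooth ρB) (hE : L.IsSmooth ρE) (n : ℕ) :
    (L.cx ρB hB).X n →ₗ[k] (L.cx ρE hE).X n :=
  ((LinearMap.inr k T B).compLeft (Fin n → Γ)).restrict fun _ hf =>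
    IsLevelConst.comp hf (LinearMap.inr k T B)

lemma secE_apply {ρE : Representation k Γ (T × B)} (hB : L.IsSmooth ρB) (hE : L.IsSmooth ρE)
    (n : ℕ) (f : (L.cx ρB hB).X n) (g : Fin n → Γ) :
    (L.secE hB hE n f).1 g = (0, f.1 g) := rfl

/-- the section is a section of the projection -/
lemma snd_secE {ρE : Representation k Γ (T × B)} (hB : L.IsSmooth ρB) (hE : L.IsSmooth ρE)
    (hsnd : ∀ g p, LinearMap.snd k T B (ρE g p) = ρB g (LinearMap.snd k T B p))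
    (n : ℕ) (f : (L.cx ρB hB).X n) :
    (L.mapCoeff hE hB (LinearMap.snd k T B) hsnd).f n (L.secE hB hE n f) = f :=
  cx_ext _ _ _ fun _ => rfl

/-- **Key computation**: `d (s ∘ f) = s ∘ d f + ι (y ∪ f)` for the section `s : b ↦ (0, b)`
of the extension `E_y`. -/
lemma d_secE (hA : L.IsSmooth ρA) (hB : L.IsSmooth ρB) (hT : L.IsSmooth ρT)
    {ρE : Representation k Γ (T × B)} (hE : L.IsSmooth ρE)
    (β : A →ₗ[k] B →ₗ[k] T) (hβ : ∀ g a b, β (ρA g a) (ρB g b) = ρT g (β a b))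
    (y : (L.cx ρA hA).X 1)
    (hρE : ∀ g t b, ρE g (t, b) = (ρT g t + β (L.ev1 hA y g) (ρB g b), ρB g b))
    (hinl : ∀ g t, LinearMap.inl k T B (ρT g t) = ρE g (LinearMap.inl k T B t))
    (n : ℕ) (f : (L.cx ρB hB).X n) :
    (L.cx ρE hE).d n (L.secE hB hE n f) =
      L.secE hB hE (n + 1) ((L.cx ρB hB).d n f) +
        (L.mapCoeff hT hE (LinearMap.inl k T B) hinl).f (n + 1)
          ((L.cupPairing hA hB hT β hβ).cup 1 n (n + 1) (by omega) y f) := by
  apply cx_ext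
  intro g
  rw [cx_d_apply]
  show ρE (g 0) (0, f.1 fun i => g i.succ) +
      ∑ j : Fin (n + 1), (-1 : k) ^ ((j : ℕ) + 1) • ((0 : T), f.1 (Fin.contractNth j (· * ·) g)) =
    ((0 : T), dLin ρB n f.1 g) + (cupFun β ρB 1 n (n + 1) (by omega) y.1 f.1 g, (0 : B))
  rw [hρE, cupFun_one_left, dLin_apply]
  refine Prod.ext ?_ ?_
  · simp only [Prod.fst_add, Prod.fst_sum, Prod.smul_fst, smul_zero, Finset.sum_const_zero,
      map_zero, zero_add, add_zero]
    rfl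
  · simp only [Prod.snd_add, Prod.snd_sum, Prod.smul_snd, add_zero]

end LevelSys

lemma Cx.cls_eq_of_eq {k : Type} [CommRing k] (C : Cx k) {n : ℕ} {x x' : C.X n} (h : x = x')
    (hx : C.d n x = 0) (hx' : C.d n x' = 0) : C.cls n x hx = C.cls n x' hx' := by
  subst h
  rfl

namespace LocDatum

variable {G : Type} [Group G] (𝔇 : LocDatum G) {k : Type} [CommRing k]
variable {A B T : Type} [AddCommGroup A] [Module k A] [AddCommGroup B] [Module k B]
  [AddCommGroup T] [Module k T]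
variable {ρA : Representation k G A} {ρB : Representation k G B} {ρT : Representation k G T}

/-- **The cup product with a 1-cocycle is the connecting homomorphism of the extension
`0 → T → E_y → B → 0`** on compactly supported cohomology: `δ x = [y] ∪ x`. -/
theorem δ_ext (hA : 𝔇.IsSmooth ρA) (hB : 𝔇.IsSmooth ρB) (hT : 𝔇.IsSmooth ρT)
    {ρE : Representation k G (T × B)} (hE : 𝔇.IsSmooth ρE)
    (β : A →ₗ[k] B →ₗ[k] T) (hβ : ∀ g a b, β (ρA g a) (ρB g b) = ρT g (β a b))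
    (y : (𝔇.C ρA hA).X 1) (hy : (𝔇.C ρA hA).d 1 y = 0)
    (hρE : ∀ g t b, ρE g (t, b) = (ρT g t + β (𝔇.L.ev1 hA y g) (ρB g b), ρB g b))
    (hinl : ∀ g t, LinearMap.inl k T B (ρT g t) = ρE g (LinearMap.inl k T B t))
    (hsnd : ∀ g p, LinearMap.snd k T B (ρE g p) = ρB g (LinearMap.snd k T B p))
    (hse : Cx.ShortExact (𝔇.mapCc hT hE (LinearMap.inl k T B) hinl)
      (𝔇.mapCc hE hB (LinearMap.snd k T B) hsnd))
    (n : ℕ) (x : 𝔇.Hc ρB hB n) :
    hse.δ n x =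
      𝔇.cup hA hB hT β hβ 1 n (n + 1) (by omega) ((𝔇.C ρA hA).cls 1 y hy) x := by
  obtain ⟨z, hz, rfl⟩ := (𝔇.Cc ρB hB).exists_cls x
  -- the local key computation
  have hloc : ∀ (v : 𝔇.ι) (m : ℕ) (f : (𝔇.Cv ρB hB v).X m),
      (𝔇.Cv ρE hE v).d m ((𝔇.Lv v).secE (𝔇.isSmooth_resRep hB v) (𝔇.isSmooth_resRep hE v) m f) =
        (𝔇.Lv v).secE (𝔇.isSmooth_resRep hB v) (𝔇.isSmooth_resRep hE v) (m + 1)
            ((𝔇.Cv ρB hB v).d m f) +
          (𝔇.mapCv hT hE (LinearMap.inl k T B) hinl v).f (m + 1)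
            ((𝔇.cupCv hA hB hT β hβ v).cup 1 m (m + 1) (by omega)
              ((𝔇.resv ρA hA v).f 1 y) f) :=
    fun v m f => LevelSys.d_secE (𝔇.Lv v) (𝔇.isSmooth_resRep hA v) (𝔇.isSmooth_resRep hB v)
      (𝔇.isSmooth_resRep hT v) (𝔇.isSmooth_resRep hE v) β (fun g a b => hβ g a b)
      ((𝔇.resv ρA hA v).f 1 y) (fun g t b => hρE g t b) (fun g t => hinl g t) m f
  cases n with
  | zero =>
    obtain ⟨c, e⟩ := z
    have hz' := hz
    rw [Cx.cocone_d_zero] at hz'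
    have h0 : (0 : (𝔇.Cc ρB hB).X 1) = Cx.coconeMk (𝔇.loc ρB hB) 0 0 := rfl
    rw [h0, Cx.coconeMk_inj] at hz'
    obtain ⟨hdc, hlc⟩ := hz'
    have hdc' : (𝔇.C ρB hB).d 0 c = 0 := hdc
    have hlc' : (𝔇.loc ρB hB).f 0 c = 0 := hlc
    let b : (𝔇.Cc ρE hE).X 0 := (𝔇.L.secE hB hE 0 c, PUnit.unit)
    have hb : (𝔇.mapCc hE hB (LinearMap.snd k T B) hsnd).f 0 b =
        ((c, e) : (𝔇.Cc ρB hB).X 0) :=
      Prod.ext (LevelSys.snd_secE 𝔇.L hB hE hsnd 0 c) (Cx.shiftX_zero_eq _ _ _)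
    let a : (𝔇.Cc ρT hT).X 1 := (𝔇.cupCc hA hB hT β hβ).cup 1 0 1 rfl y ((c, e) : (𝔇.Cc ρB hB).X 0)
    have ha' : a = Cx.coconeMk (𝔇.loc ρT hT) ((𝔇.cupC hA hB hT β hβ).cup 1 0 1 rfl y c) 0 :=
      Prod.ext rfl rfl
    have ha : (𝔇.mapCc hT hE (LinearMap.inl k T B) hinl).f 1 a = (𝔇.Cc ρE hE).d 0 b := by
      rw [Cx.cocone_d_zero, ha', Cx.coconeMap_mk, Cx.coconeMk_inj]
      constructor
      · have h1 := LevelSys.d_secE 𝔇.L hA hB hT hE β hβ y hρE hinl 0 c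
        rw [hdc', map_zero] at h1
        exact (h1.trans (zero_add _)).symm
      · rw [map_zero]
        funext v
        show (0 : (𝔇.Cv ρE hE v).X 0) = (𝔇.Lv v).secE (𝔇.isSmooth_resRep hB v)
          (𝔇.isSmooth_resRep hE v) 0 ((𝔇.resv ρB hB v).f 0 c)
        have : (𝔇.resv ρB hB v).f 0 c = 0 := congrFun hlc' v
        rw [this, map_zero]
    have key := hse.δ_cls 0 b (by rw [hb]; exact hz) a ha
    rw [← (𝔇.Cc ρB hB).cls_eq_of_eq hb (by rw [hb]; exact hz) hz]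
    exact key
  | succ n =>
    obtain ⟨c, e, rfl⟩ := Cx.coconeMk_surjective (𝔇.loc ρB hB) z
    have hz' := hz
    rw [Cx.cocone_d_succ] at hz'
    have h0 : (0 : (𝔇.Cc ρB hB).X (n + 1 + 1)) = Cx.coconeMk (𝔇.loc ρB hB) 0 0 := rfl
    rw [h0, Cx.coconeMk_inj] at hz'
    obtain ⟨hdc, hde⟩ := hz'
    let b : (𝔇.Cc ρE hE).X (n + 1) := Cx.coconeMk (𝔇.loc ρE hE) (𝔇.L.secE hB hE (n + 1) c)
      (fun v => (𝔇.Lv v).secE (𝔇.isSmooth_resRep hB v) (𝔇.isSmooth_resRep hE v) n (e v))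
    have hb : (𝔇.mapCc hE hB (LinearMap.snd k T B) hsnd).f (n + 1) b =
        Cx.coconeMk (𝔇.loc ρB hB) c e := by
      rw [Cx.coconeMap_mk, Cx.coconeMk_inj]
      exact ⟨LevelSys.snd_secE 𝔇.L hB hE hsnd (n + 1) c, funext fun v =>
        LevelSys.snd_secE (𝔇.Lv v) (𝔇.isSmooth_resRep hB v) (𝔇.isSmooth_resRep hE v)
          (fun g p => hsnd g p) n (e v)⟩
    let a : (𝔇.Cc ρT hT).X (n + 1 + 1) :=
      (𝔇.cupCc hA hB hT β hβ).cup 1 (n + 1) (n + 1 + 1) (by omega) y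
        (Cx.coconeMk (𝔇.loc ρB hB) c e)
    have ha' : a = Cx.coconeMk (𝔇.loc ρT hT)
        ((𝔇.cupC hA hB hT β hβ).cup 1 (n + 1) (n + 1 + 1) (by omega) y c)
        ((-1 : k) ^ 1 • (𝔇.cupCloc hA hB hT β hβ).cup 1 n (n + 1) (by omega) y e) :=
      Cx.Pairing.cocone_cup_mk (𝔇.cupC hA hB hT β hβ) (𝔇.cupCloc hA hB hT β hβ)
        (𝔇.loc ρB hB) (𝔇.loc ρT hT) (𝔇.loc_cupC hA hB hT β hβ) 1 n (n + 1) (by omega) y c e
    have ha : (𝔇.mapCc hT hE (LinearMap.inl k T B) hinl).f (n + 1 + 1) a =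
        (𝔇.Cc ρE hE).d (n + 1) b := by
      rw [Cx.cocone_d_succ, ha', Cx.coconeMap_mk, Cx.coconeMk_inj]
      constructor
      · rw [LevelSys.d_secE 𝔇.L hA hB hT hE β hβ y hρE hinl (n + 1) c, hdc, map_zero, zero_add]
        rfl
      · funext v
        have h1 := hloc v n (e v)
        have h3 : (𝔇.resv ρB hB v).f (n + 1) c = (𝔇.Cv ρB hB v).d n (e v) :=
          sub_eq_zero.1 (congrFun hde v)
        show (𝔇.mapCv hT hE (LinearMap.inl k T B) hinl v).f (n + 1)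
            ((-1 : k) ^ 1 • (𝔇.cupCv hA hB hT β hβ v).cup 1 n (n + 1) (by omega)
              ((𝔇.resv ρA hA v).f 1 y) (e v)) =
          (𝔇.Lv v).secE (𝔇.isSmooth_resRep hB v) (𝔇.isSmooth_resRep hE v) (n + 1)
              ((𝔇.resv ρB hB v).f (n + 1) c) -
            (𝔇.Cv ρE hE v).d n ((𝔇.Lv v).secE (𝔇.isSmooth_resRep hB v)
              (𝔇.isSmooth_resRep hE v) n (e v))
        rw [h1, h3, map_smul]
        module
    have key := hse.δ_cls (n + 1) b (by rw [hb]; exact hz) a ha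
    rw [← (𝔇.Cc ρB hB).cls_eq_of_eq hb (by rw [hb]; exact hz) hz]
    exact key

section extRep

variable (hA : 𝔇.IsSmooth ρA) (hB : 𝔇.IsSmooth ρB) (hT : 𝔇.IsSmooth ρT)
  (β : A →ₗ[k] B →ₗ[k] T) (hβ : ∀ g a b, β (ρA g a) (ρB g b) = ρT g (β a b))
  (y : (𝔇.C ρA hA).X 1) (hy : (𝔇.C ρA hA).d 1 y = 0)

/-- the extension `E_y` of the datum -/
abbrev extRep : Representation k G (T × B) := 𝔇.L.extRep hA β hβ y hy

include hB hT in
lemma isSmooth_extRep : 𝔇.IsSmooth (𝔇.extRep hA β hβ y hy) :=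
  𝔇.L.isSmooth_extRep hA hB hT β hβ y hy

lemma extRep_inl (g : G) (t : T) :
    LinearMap.inl k T B (ρT g t) = 𝔇.extRep hA β hβ y hy g (LinearMap.inl k T B t) := by
  show (ρT g t, (0 : B)) = (ρT g t + β (𝔇.L.ev1 hA y g) (ρB g 0), ρB g 0)
  rw [map_zero, map_zero, add_zero]

lemma extRep_snd (g : G) (p : T × B) :
    LinearMap.snd k T B (𝔇.extRep hA β hβ y hy g p) = ρB g (LinearMap.snd k T B p) := rfl

/-- the short exact sequence `0 → C_c(T) → C_c(E_y) → C_c(B) → 0` -/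
lemma shortExact_extRep :
    Cx.ShortExact
      (𝔇.mapCc hT (𝔇.isSmooth_extRep hA hB hT β hβ y hy) (LinearMap.inl k T B)
        (𝔇.extRep_inl hA β hβ y hy))
      (𝔇.mapCc (𝔇.isSmooth_extRep hA hB hT β hβ y hy) hB (LinearMap.snd k T B)
        (𝔇.extRep_snd hA β hβ y hy)) :=
  𝔇.shortExact_mapCc hT (𝔇.isSmooth_extRep hA hB hT β hβ y hy) hB (LinearMap.inl k T B)
    (LinearMap.snd k T B) (𝔇.extRep_inl hA β hβ y hy) (𝔇.extRep_snd hA β hβ y hy)
    LinearMap.inl_injective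
    (fun p => ⟨fun h => ⟨p.1, Prod.ext rfl (Eq.symm h)⟩, by rintro ⟨t, rfl⟩; rfl⟩)
    LinearMap.snd_surjective

/-- the connecting homomorphism of `0 → T → E_y → B → 0` is the cup product with `[y]` -/
theorem δ_extRep (n : ℕ) (x : 𝔇.Hc ρB hB n) :
    (𝔇.shortExact_extRep hA hB hT β hβ y hy).δ n x =
      𝔇.cup hA hB hT β hβ 1 n (n + 1) (by omega) ((𝔇.C ρA hA).cls 1 y hy) x :=
  𝔇.δ_ext hA hB hT (𝔇.isSmooth_extRep hA hB hT β hβ y hy) β hβ y hy (fun _ _ _ => rfl)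
    (𝔇.extRep_inl hA β hβ y hy) (𝔇.extRep_snd hA β hβ y hy)
    (𝔇.shortExact_extRep hA hB hT β hβ y hy) n x

end extRep

end LocDatum

end Fermat.Agent.PT
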