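/-
PT layer F4 ((S-D) ⇒ (i2)): the pairing `H¹(X') × H²_c(X) → H³_c(T) → k` has trivial left
kernel as soon as `alpha³ : H³_c(E) → Hom_G(E, T)^*` is bijective on finite smooth
representations.  Consequently `dim H¹(X') ≤ dim H²_c(X)`.

* `LocDatum.exists_cup12_ne_zero` : general form — if every equivariant map `E_y → T` kills
  `T` and `alpha³(E_y)` is injective, then `tr ([y] ∪ x) ≠ 0` for some `x ∈ H²_c(B)`;
* `LocDatum.cls_eq_zero_of_retraction` : for `A = B^*` twisted by `χ`, `T = k(χ)`, `β` the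
  evaluation: an equivariant map `E_y → T` which is nonzero on `T` makes `y` a coboundary;
* `LocDatum.cup12_tr_injective`, `LocDatum.finrank_H1_dual_le_finrank_Hc2` : (i2).
-/
import Fermat.Agent.PT.Coh.CupExt
import Fermat.Agent.PT.Coh.Rex

set_option autoImplicit false

namespace Fermat.Agent.PT

namespace LocDatum

variable {G : Type} [Group G] (𝔇 : LocDatum G) {k : Type} [Field k]

section general

variable {A B T : Type} [AddCommGroup A] [Module k A] [AddCommGroup B] [Module k B]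
  [AddCommGroup T] [Module k T]
variable {ρA : Representation k G A} {ρB : Representation k G B} {ρT : Representation k G T}

/-- **(S-D), general form.**  Let `y` be a 1-cocycle with values in `A`, `E_y` its extension.
If every equivariant map `E_y → T` kills `T`, `alpha³(E_y)` is injective and `tr ≠ 0`, then
`tr ([y] ∪ x) ≠ 0` for some `x ∈ H²_c(B)`. -/
theorem exists_cup12_ne_zero (hA : 𝔇.IsSmooth ρA) (hB : 𝔇.IsSmooth ρB) (hT : 𝔇.IsSmooth ρT)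
    (β : A →ₗ[k] B →ₗ[k] T) (hβ : ∀ g a b, β (ρA g a) (ρB g b) = ρT g (β a b))
    (y : (𝔇.C ρA hA).X 1) (hy : (𝔇.C ρA hA).d 1 y = 0)
    (tr : 𝔇.Hc ρT hT 3 →ₗ[k] k) (htr : tr ≠ 0)
    (hinj : Function.Injective
      ((Rex.ccFun k 𝔇).alpha 3 (𝔇.isSmooth_extRep hA hB hT β hβ y hy) hT tr))
    (hkill : ∀ ψ : Rex.eqHom (𝔇.extRep hA β hβ y hy) ρT,
      (ψ : T × B →ₗ[k] T) ∘ₗ LinearMap.inl k T B = 0) :
    ∃ x : 𝔇.Hc ρB hB 2,
      tr (𝔇.cup12 hA hB hT β hβ ((𝔇.C ρA hA).cls 1 y hy) x) ≠ 0 := by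
  have hE := 𝔇.isSmooth_extRep hA hB hT β hβ y hy
  have hse := 𝔇.shortExact_extRep hA hB hT β hβ y hy
  -- `H³_c(T) → H³_c(E_y)` is zero
  have hzero : ∀ t : 𝔇.Hc ρT hT 3,
      (𝔇.mapCc hT hE (LinearMap.inl k T B) (𝔇.extRep_inl hA β hβ y hy)).mapH 3 t = 0 := by
    intro t
    apply hinj
    refine Eq.trans ?_ (LinearMap.map_zero _).symm
    refine LinearMap.ext fun ψ => ?_
    rw [Rex.cc_alpha_apply, LinearMap.zero_apply, ← Cx.Hom.mapH_comp]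
    have hc : ∀ g m, ((ψ : T × B →ₗ[k] T) ∘ₗ LinearMap.inl k T B) (ρT g m) =
        ρT g (((ψ : T × B →ₗ[k] T) ∘ₗ LinearMap.inl k T B) m) := by
      intro g m
      rw [LinearMap.comp_apply, LinearMap.comp_apply, 𝔇.extRep_inl hA β hβ y hy g m,
        Rex.eqHom_comm ψ]
    have hcomp := (Rex.ccFun k 𝔇).map_comp hT hE hT (LinearMap.inl k T B)
      (𝔇.extRep_inl hA β hβ y hy) ψ.1 (Rex.eqHom_comm ψ) hc
    have h0 : ∀ g m, (0 : T →ₗ[k] T) (ρT g m) = ρT g ((0 : T →ₗ[k] T) m) := by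
      intro g m
      rw [LinearMap.zero_apply, LinearMap.zero_apply, map_zero]
    have hcongr := (Rex.ccFun k 𝔇).map_congr hT hT (hkill ψ) hc h0
    have hz := (Rex.ccFun k 𝔇).mapH_zero 3 hT hT h0 t
    have key : ((𝔇.mapCc hE hT ψ.1 (Rex.eqHom_comm ψ)).comp
        (𝔇.mapCc hT hE (LinearMap.inl k T B) (𝔇.extRep_inl hA β hβ y hy))).mapH 3 t = 0 := by
      have e1 : (𝔇.mapCc hE hT ψ.1 (Rex.eqHom_comm ψ)).comp
          (𝔇.mapCc hT hE (LinearMap.inl k T B) (𝔇.extRep_inl hA β hβ y hy)) =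
          (Rex.ccFun k 𝔇).map hT hT (0 : T →ₗ[k] T) h0 := by
        rw [← hcongr]
        exact hcomp.symm
      rw [e1]
      exact hz
    rw [key, map_zero]
  -- hence the connecting homomorphism is onto
  obtain ⟨t₀, ht₀⟩ : ∃ t₀, tr t₀ ≠ 0 := by
    by_contra hcon
    exact htr (LinearMap.ext fun t => by_contra fun h => hcon ⟨t, h⟩)
  obtain ⟨x, hx⟩ := (hse.exact_δ_f 2 t₀).1 (hzero t₀)
  refine ⟨x, ?_⟩
  have hδ := 𝔇.δ_extRep hA hB hT β hβ y hy 2 x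
  have : 𝔇.cup12 hA hB hT β hβ ((𝔇.C ρA hA).cls 1 y hy) x = t₀ := by
    rw [← hx]
    exact hδ.symm
  rw [this]
  exact ht₀

end general

section dual

variable {M : Type} [AddCommGroup M] [Module k M]
variable {ρ : Representation k G M} {ρ' : Representation k G (Module.Dual k M)}
  {τ : Representation k G k}

/-- the evaluation pairing `M^* × M → k` -/
def dualPair (k M : Type) [Field k] [AddCommGroup M] [Module k M] :
    Module.Dual k M →ₗ[k] M →ₗ[k] k := LinearMap.id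

@[simp] lemma dualPair_apply (f : Module.Dual k M) (m : M) : dualPair k M f m = f m := rfl

/-- the evaluation pairing is equivariant for the `χ`-twisted dual and `k(χ)` -/
lemma dualPair_equivariant (χ : G →* kˣ)
    (hρ' : ∀ g f, ρ' g f = (χ g : k) • (f ∘ₗ ρ g⁻¹)) (hτ : ∀ g x, τ g x = (χ g : k) * x)
    (g : G) (f : Module.Dual k M) (m : M) :
    dualPair k M (ρ' g f) (ρ g m) = τ g (dualPair k M f m) := by
  rw [dualPair_apply, dualPair_apply, hρ', hτ, LinearMap.smul_apply, LinearMap.comp_apply,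
    ← Module.End.mul_apply, ← map_mul, inv_mul_cancel, map_one, Module.End.one_apply,
    smul_eq_mul]

/-- **Splitting half of (S-D).**  For the twisted dual: an equivariant map `E_y → k(χ)` which
is nonzero on `k(χ)` makes the 1-cocycle `y` a coboundary. -/
theorem cls_eq_zero_of_retraction (χ : G →* kˣ) (hρ' : 𝔇.IsSmooth ρ')
    (hρ'a : ∀ g f, ρ' g f = (χ g : k) • (f ∘ₗ ρ g⁻¹)) (hτa : ∀ g x, τ g x = (χ g : k) * x)
    (y : (𝔇.C ρ' hρ').X 1) (hy : (𝔇.C ρ' hρ').d 1 y = 0)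
    (ψ : Rex.eqHom (𝔇.extRep hρ' (dualPair k M) (dualPair_equivariant (ρ := ρ) χ hρ'a hτa)
      y hy) τ)
    (hψ : (ψ : k × M →ₗ[k] k) ∘ₗ LinearMap.inl k k M ≠ 0) :
    (𝔇.C ρ' hρ').cls 1 y hy = 0 := by
  set c : k := ψ.1 (1, 0) with hcdef
  have hc : c ≠ 0 := by
    intro h0
    apply hψ
    apply LinearMap.ext_ring
    rw [LinearMap.comp_apply, LinearMap.zero_apply]
    exact h0
  -- `ψ (s, m) = s * c + ψ (0, m)`
  have hsplit : ∀ (s : k) (m : M), ψ.1 (s, m) = s * c + ψ.1 (0, m) := by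
    intro s m
    have : ((s, m) : k × M) = s • ((1 : k), (0 : M)) + ((0 : k), m) := by
      refine Prod.ext ?_ ?_
      · simp
      · simp
    rw [this, map_add, map_smul, smul_eq_mul]
  obtain ⟨lam, hlam_apply⟩ : ∃ lam : Module.Dual k M, ∀ m, lam m = c⁻¹ * ψ.1 (0, m) :=
    ⟨c⁻¹ • (ψ.1 ∘ₗ LinearMap.inr k k M), fun m => rfl⟩
  -- the key identity
  have hkey : ∀ (g : G) (m : M), 𝔇.L.ev1 hρ' y g (ρ g m) = (χ g : k) * lam m - lam (ρ g m) := by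
    intro g m
    have h1 := Rex.eqHom_comm ψ g ((0 : k), m)
    rw [LevelSys.extRep_apply, hsplit] at h1
    simp only [hτa, mul_zero, zero_add, dualPair_apply] at h1
    rw [hlam_apply, hlam_apply]
    field_simp
    linear_combination h1
  have hy1 : ∀ g : G, 𝔇.L.ev1 hρ' y g = ρ' g lam - lam := by
    intro g
    apply LinearMap.ext
    intro m
    have h2 := hkey g (ρ g⁻¹ m)
    rw [← Module.End.mul_apply, ← map_mul, mul_inv_cancel, map_one, Module.End.one_apply] at h2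
    rw [h2, LinearMap.sub_apply, hρ'a]
    rfl
  -- hence `y = d λ`
  rw [Cx.cls_eq_zero_iff, Cx.mem_B_succ]
  refine ⟨𝔇.L.const0 hρ' lam, ?_⟩
  apply LevelSys.cx_ext
  intro g
  rw [LevelSys.cx_d_apply, Fin.sum_univ_succ, Fin.sum_univ_zero]
  have e1 : g = fun _ => g 0 := by
    funext i
    fin_cases i
    rfl
  have e2 : y.1 g = 𝔇.L.ev1 hρ' y (g 0) := by
    conv_lhs => rw [e1]
    rfl
  rw [e2, hy1]
  show ρ' (g 0) lam + ((-1 : k) ^ (0 + 1) • lam + 0) = ρ' (g 0) lam - lam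
  have e : (-1 : k) ^ (0 + 1) = -1 := by norm_num
  rw [e]
  module

/-- the map `H¹(X') → H²_c(X)^*`, `Y ↦ tr (Y ∪ ·)` -/
def cup12tr (χ : G →* kˣ) (hρ : 𝔇.IsSmooth ρ) (hρ' : 𝔇.IsSmooth ρ') (hτ : 𝔇.IsSmooth τ)
    (hρ'a : ∀ g f, ρ' g f = (χ g : k) • (f ∘ₗ ρ g⁻¹)) (hτa : ∀ g x, τ g x = (χ g : k) * x)
    (tr : 𝔇.Hc τ hτ 3 →ₗ[k] k) : 𝔇.H ρ' hρ' 1 →ₗ[k] Module.Dual k (𝔇.Hc ρ hρ 2) :=
  (𝔇.cup12 hρ' hρ hτ (dualPair k M) (dualPair_equivariant χ hρ'a hτa)).compr₂ tr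

lemma cup12tr_apply (χ : G →* kˣ) (hρ : 𝔇.IsSmooth ρ) (hρ' : 𝔇.IsSmooth ρ')
    (hτ : 𝔇.IsSmooth τ) (hρ'a : ∀ g f, ρ' g f = (χ g : k) • (f ∘ₗ ρ g⁻¹))
    (hτa : ∀ g x, τ g x = (χ g : k) * x) (tr : 𝔇.Hc τ hτ 3 →ₗ[k] k) (Y : 𝔇.H ρ' hρ' 1)
    (x : 𝔇.Hc ρ hρ 2) :
    𝔇.cup12tr χ hρ hρ' hτ hρ'a hτa tr Y x =
      tr (𝔇.cup12 hρ' hρ hτ (dualPair k M) (dualPair_equivariant χ hρ'a hτa) Y x) := rfl

/-- a trace for which `alpha³(k(χ))` is surjective is nonzero -/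
lemma tr_ne_zero_of_alpha_surjective (hτ : 𝔇.IsSmooth τ)
    (tr : 𝔇.Hc τ hτ 3 →ₗ[k] k)
    (hsurj : Function.Surjective ((Rex.ccFun k 𝔇).alpha 3 hτ hτ tr)) : tr ≠ 0 := by
  intro h0
  let idτ : Rex.eqHom τ τ := ⟨LinearMap.id, fun _ _ => rfl⟩
  let η : Module.Dual k (Rex.eqHom τ τ) :=
    (LinearMap.applyₗ (1 : k) : (k →ₗ[k] k) →ₗ[k] k) ∘ₗ (Rex.eqHom τ τ).subtype
  have hη : η idτ = 1 := rfl
  obtain ⟨x₀, hx₀⟩ := hsurj η
  have h1 : (Rex.ccFun k 𝔇).alpha 3 hτ hτ tr x₀ idτ = 0 :=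
    (Rex.cc_alpha_apply 𝔇 3 hτ hτ tr x₀ idτ).trans (by rw [h0]; rfl)
  rw [hx₀, hη] at h1
  exact one_ne_zero h1

/-- **(S-D).**  If `alpha³` is bijective on finite smooth representations, then the pairing
`H¹(X') × H²_c(X) → k`, `(Y, x) ↦ tr (Y ∪ x)`, has trivial left kernel. -/
theorem cup12tr_injective [Module.Finite k M] (χ : G →* kˣ) (hρ : 𝔇.IsSmooth ρ)
    (hρ' : 𝔇.IsSmooth ρ') (hτ : 𝔇.IsSmooth τ)
    (hρ'a : ∀ g f, ρ' g f = (χ g : k) • (f ∘ₗ ρ g⁻¹)) (hτa : ∀ g x, τ g x = (χ g : k) * x)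
    (tr : 𝔇.Hc τ hτ 3 →ₗ[k] k)
    (halpha : ∀ (E : Type) [AddCommGroup E] [Module k E] [Module.Finite k E]
      (σ : Representation k G E) (hσ : 𝔇.IsSmooth σ),
      Function.Bijective ((Rex.ccFun k 𝔇).alpha 3 hσ hτ tr)) :
    Function.Injective (𝔇.cup12tr χ hρ hρ' hτ hρ'a hτa tr) := by
  have htr : tr ≠ 0 := 𝔇.tr_ne_zero_of_alpha_surjective hτ tr (halpha k τ hτ).2
  rw [injective_iff_map_eq_zero]
  intro Y hY
  obtain ⟨y, hy, rfl⟩ := (𝔇.C ρ' hρ').exists_cls Y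
  by_contra hne
  have hkill : ∀ ψ : Rex.eqHom (𝔇.extRep hρ' (dualPair k M)
      (dualPair_equivariant (ρ := ρ) χ hρ'a hτa) y hy) τ,
      (ψ : k × M →ₗ[k] k) ∘ₗ LinearMap.inl k k M = 0 := fun ψ =>
    by_contra fun hψ => hne (𝔇.cls_eq_zero_of_retraction χ hρ' hρ'a hτa y hy ψ hψ)
  obtain ⟨x, hx⟩ := 𝔇.exists_cup12_ne_zero hρ' hρ hτ (dualPair k M)
    (dualPair_equivariant χ hρ'a hτa) y hy tr htr
    (halpha (k × M) _ (𝔇.isSmooth_extRep hρ' hρ hτ (dualPair k M)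
      (dualPair_equivariant χ hρ'a hτa) y hy)).1 hkill
  apply hx
  have := congrArg (fun f : Module.Dual k (𝔇.Hc ρ hρ 2) => f x) hY
  exact this

/-- **(i2)**: `dim H¹(X') ≤ dim H²_c(X)`. -/
theorem finrank_H1_dual_le_finrank_Hc2 [Module.Finite k M] (χ : G →* kˣ) (hρ : 𝔇.IsSmooth ρ)
    (hρ' : 𝔇.IsSmooth ρ') (hτ : 𝔇.IsSmooth τ)
    (hρ'a : ∀ g f, ρ' g f = (χ g : k) • (f ∘ₗ ρ g⁻¹)) (hτa : ∀ g x, τ g x = (χ g : k) * x)
    (tr : 𝔇.Hc τ hτ 3 →ₗ[k] k)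
    (halpha : ∀ (E : Type) [AddCommGroup E] [Module k E] [Module.Finite k E]
      (σ : Representation k G E) (hσ : 𝔇.IsSmooth σ),
      Function.Bijective ((Rex.ccFun k 𝔇).alpha 3 hσ hτ tr))
    [Module.Finite k (𝔇.Hc ρ hρ 2)] :
    Module.finrank k (𝔇.H ρ' hρ' 1) ≤ Module.finrank k (𝔇.Hc ρ hρ 2) := by
  have h := LinearMap.finrank_le_finrank_of_injective
    (𝔇.cup12tr_injective χ hρ hρ' hτ hρ'a hτa tr halpha)
  rwa [Subspace.dual_finrank_eq] at h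

/-- finiteness of `H¹(X')` from that of `H²_c(X)` -/
theorem finite_H1_dual [Module.Finite k M] (χ : G →* kˣ) (hρ : 𝔇.IsSmooth ρ)
    (hρ' : 𝔇.IsSmooth ρ') (hτ : 𝔇.IsSmooth τ)
    (hρ'a : ∀ g f, ρ' g f = (χ g : k) • (f ∘ₗ ρ g⁻¹)) (hτa : ∀ g x, τ g x = (χ g : k) * x)
    (tr : 𝔇.Hc τ hτ 3 →ₗ[k] k)
    (halpha : ∀ (E : Type) [AddCommGroup E] [Module k E] [Module.Finite k E]
      (σ : Representation k G E) (hσ : 𝔇.IsSmooth σ),
      Function.Bijective ((Rex.ccFun k 𝔇).alpha 3 hσ hτ tr))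
    [Module.Finite k (𝔇.Hc ρ hρ 2)] : Module.Finite k (𝔇.H ρ' hρ' 1) :=
  Module.Finite.of_injective _ (𝔇.cup12tr_injective χ hρ hρ' hτ hρ'a hτa tr halpha)

end dual

end LocDatum

end Fermat.Agent.PT
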