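/-
PT layer F8, clause `(i2)` of the counting engine: `h¹(X') ≤ h²_c(X)` for every finite smooth
`X`, with `X' = dualTw χ X`, from the bijectivity of `alpha³` (`CupDual.lean`), in the literal
shape of `CountHyp.i2`; together with the variant consuming the base-case hypotheses of
`Rex.e3_of_base` on the permutation modules.
-/
import Mathlib
import Fermat.Agent.PT.Coh.CupDual
import Fermat.Agent.PT.Coh.RexDual
import Fermat.Agent.PT.Coh.EngineE3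
import Fermat.Agent.PT.Coh.Engine

set_option autoImplicit false

namespace Fermat.Agent.PT

namespace LocDatum

open Module

variable {G : Type} [Group G] (𝔇 : LocDatum G)
variable {k : Type} [Field k]

/-- the shape of the twisted dual action used by `CupDual` -/
lemma dualTw_eq_smul_comp (χ : G →* kˣ) {M : Type} [AddCommGroup M] [Module k M]
    (ρ : Representation k G M) (g : G) (f : Module.Dual k M) :
    dualTw χ ρ g f = (χ g : k) • (f ∘ₗ ρ g⁻¹) := by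
  ext m
  rfl

/-- **(i2)** in the shape of `CountHyp.i2`, from the bijectivity of `alpha³` on finite smooth
representations: `h¹(X') ≤ h²_c(X)`. -/
theorem i2_of_alpha (χ : G →* kˣ) {τ : Representation k G k} (hτ : 𝔇.IsSmooth τ)
    (hτχ : ∀ g t, τ g t = (χ g : k) • t) (tr : 𝔇.Hc τ hτ 3 →ₗ[k] k)
    (halpha : ∀ (E : Type) [AddCommGroup E] [Module k E] [Module.Finite k E]
      (σ : Representation k G E) (hσ : 𝔇.IsSmooth σ),
      Function.Bijective ((Rex.ccFun k 𝔇).alpha 3 hσ hτ tr))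
    {M : Type} [AddCommGroup M] [Module k M] [Module.Finite k M]
    (ρ : Representation k G M) (hρ : 𝔇.IsSmooth ρ) (hρ' : 𝔇.IsSmooth (dualTw χ ρ))
    [Module.Finite k (𝔇.Hc ρ hρ 2)] :
    finrank k (𝔇.H (dualTw χ ρ) hρ' 1) ≤ finrank k (𝔇.Hc ρ hρ 2) :=
  𝔇.finrank_H1_dual_le_finrank_Hc2 χ hρ hρ' hτ (dualTw_eq_smul_comp χ ρ)
    (fun g x => hτχ g x) tr halpha

/-- finiteness of `H¹(X')` from that of `H²_c(X)` (same hypotheses) -/
theorem finite_H1_dualTw (χ : G →* kˣ) {τ : Representation k G k} (hτ : 𝔇.IsSmooth τ)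
    (hτχ : ∀ g t, τ g t = (χ g : k) • t) (tr : 𝔇.Hc τ hτ 3 →ₗ[k] k)
    (halpha : ∀ (E : Type) [AddCommGroup E] [Module k E] [Module.Finite k E]
      (σ : Representation k G E) (hσ : 𝔇.IsSmooth σ),
      Function.Bijective ((Rex.ccFun k 𝔇).alpha 3 hσ hτ tr))
    {M : Type} [AddCommGroup M] [Module k M] [Module.Finite k M]
    (ρ : Representation k G M) (hρ : 𝔇.IsSmooth ρ) (hρ' : 𝔇.IsSmooth (dualTw χ ρ))
    [Module.Finite k (𝔇.Hc ρ hρ 2)] : Module.Finite k (𝔇.H (dualTw χ ρ) hρ' 1) :=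
  𝔇.finite_H1_dual χ hρ hρ' hτ (dualTw_eq_smul_comp χ ρ) (fun g x => hτχ g x) tr halpha

/-- bijectivity of `alpha³` on all finite smooth representations from the base case on the
permutation modules (the hypotheses of `Rex.e3_of_base`, `T = k`) -/
theorem alpha3_bijective_of_base {τ : Representation k G k} (hτ : 𝔇.IsSmooth τ)
    (tr : 𝔇.Hc τ hτ 3 →ₗ[k] k)
    (hG : ∀ (M : Type) [AddCommGroup M] [Module k M] [Module.Finite k M]
      (ρ : Representation k G M) (hρ : 𝔇.IsSmooth ρ), Subsingleton (𝔇.H ρ hρ 3))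
    (hv : ∀ (M : Type) [AddCommGroup M] [Module k M] [Module.Finite k M]
      (ρ : Representation k G M) (hρ : 𝔇.IsSmooth ρ) (v : 𝔇.ι), Subsingleton (𝔇.Hv ρ hρ v 3))
    (hbase : ∀ N₀ ∈ 𝔇.L.lev, ∃ N, ∃ hN : N ∈ 𝔇.L.lev, N ≤ N₀ ∧
      finrank k (𝔇.Hc (Shapiro.permRep N k) (Shapiro.permRep_smooth 𝔇.L N k ⟨N, hN, le_rfl⟩) 3) = 1 ∧
      ∃ (x : 𝔇.Hc (Shapiro.permRep N k) (Shapiro.permRep_smooth 𝔇.L N k ⟨N, hN, le_rfl⟩) 3)
        (y : Rex.eqHom (Shapiro.permRep N k) τ),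
        tr ((𝔇.mapCc (Shapiro.permRep_smooth 𝔇.L N k ⟨N, hN, le_rfl⟩) hτ y.1
          (Rex.eqHom_comm y)).mapH 3 x) ≠ 0)
    (E : Type) [AddCommGroup E] [Module k E] [Module.Finite k E]
    (σ : Representation k G E) (hσ : 𝔇.IsSmooth σ) :
    Function.Bijective ((Rex.ccFun k 𝔇).alpha 3 hσ hτ tr) := by
  refine Rex.cc_alpha_bijective_of_perm 𝔇 2 hτ tr hG hv (fun N₀ hN₀ => ?_) hσ
  obtain ⟨N, hN, hle, h1, x, y, hxy⟩ := hbase N₀ hN₀
  have := 𝔇.L.finiteIndex N hN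
  exact ⟨N, hN, hle, (Rex.ccFun k 𝔇).alpha_perm_bijective 3 N ⟨N, hN, le_rfl⟩ hτ tr
    (Module.finrank_self k) h1 x y hxy⟩

/-- **(i2)** in the shape of `CountHyp.i2`, from the base-case hypotheses of `Rex.e3_of_base`
(with `T = k`): `h¹(X') ≤ h²_c(X)` for every finite smooth `X` with `H²_c(X)` finite. -/
theorem i2_of_base (χ : G →* kˣ) {τ : Representation k G k} (hτ : 𝔇.IsSmooth τ)
    (hτχ : ∀ g t, τ g t = (χ g : k) • t) (tr : 𝔇.Hc τ hτ 3 →ₗ[k] k)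
    (hG : ∀ (M : Type) [AddCommGroup M] [Module k M] [Module.Finite k M]
      (ρ : Representation k G M) (hρ : 𝔇.IsSmooth ρ), Subsingleton (𝔇.H ρ hρ 3))
    (hv : ∀ (M : Type) [AddCommGroup M] [Module k M] [Module.Finite k M]
      (ρ : Representation k G M) (hρ : 𝔇.IsSmooth ρ) (v : 𝔇.ι), Subsingleton (𝔇.Hv ρ hρ v 3))
    (hbase : ∀ N₀ ∈ 𝔇.L.lev, ∃ N, ∃ hN : N ∈ 𝔇.L.lev, N ≤ N₀ ∧
      finrank k (𝔇.Hc (Shapiro.permRep N k) (Shapiro.permRep_smooth 𝔇.L N k ⟨N, hN, le_rfl⟩) 3) = 1 ∧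
      ∃ (x : 𝔇.Hc (Shapiro.permRep N k) (Shapiro.permRep_smooth 𝔇.L N k ⟨N, hN, le_rfl⟩) 3)
        (y : Rex.eqHom (Shapiro.permRep N k) τ),
        tr ((𝔇.mapCc (Shapiro.permRep_smooth 𝔇.L N k ⟨N, hN, le_rfl⟩) hτ y.1
          (Rex.eqHom_comm y)).mapH 3 x) ≠ 0)
    {M : Type} [AddCommGroup M] [Module k M] [Module.Finite k M]
    (ρ : Representation k G M) (hρ : 𝔇.IsSmooth ρ) (hρ' : 𝔇.IsSmooth (dualTw χ ρ))
    [Module.Finite k (𝔇.Hc ρ hρ 2)] :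
    finrank k (𝔇.H (dualTw χ ρ) hρ' 1) ≤ finrank k (𝔇.Hc ρ hρ 2) :=
  𝔇.i2_of_alpha χ hτ hτχ tr (𝔇.alpha3_bijective_of_base hτ tr hG hv hbase) ρ hρ hρ'

/-- `H²_c(X)` is finite-dimensional as soon as `H¹_v(X)` (all `v`) and `H²(X)` are -/
theorem finite_Hc_two {M : Type} [AddCommGroup M] [Module k M] (ρ : Representation k G M)
    (hρ : 𝔇.IsSmooth ρ) [∀ v, Module.Finite k (𝔇.Hv ρ hρ v 1)]
    [Module.Finite k (𝔇.H ρ hρ 2)] : Module.Finite k (𝔇.Hc ρ hρ 2) :=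
  𝔇.finite_Hc_succ ρ hρ 1

/-- **(i2)**, packaged for `countHyp_of_base`: the clause `i2` of `CountHyp` from the clauses
`fin`, `finv` and the base-case hypotheses of `Rex.e3_of_base` (with `T = k`). -/
theorem i2_of_base_fin (χ : G →* kˣ) {τ : Representation k G k} (hτ : 𝔇.IsSmooth τ)
    (hτχ : ∀ g t, τ g t = (χ g : k) • t) (tr : 𝔇.Hc τ hτ 3 →ₗ[k] k)
    (hG : ∀ (M : Type) [AddCommGroup M] [Module k M] [Module.Finite k M]
      (ρ : Representation k G M) (hρ : 𝔇.IsSmooth ρ), Subsingleton (𝔇.H ρ hρ 3))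
    (hv : ∀ (M : Type) [AddCommGroup M] [Module k M] [Module.Finite k M]
      (ρ : Representation k G M) (hρ : 𝔇.IsSmooth ρ) (v : 𝔇.ι), Subsingleton (𝔇.Hv ρ hρ v 3))
    (hbase : ∀ N₀ ∈ 𝔇.L.lev, ∃ N, ∃ hN : N ∈ 𝔇.L.lev, N ≤ N₀ ∧
      finrank k (𝔇.Hc (Shapiro.permRep N k) (Shapiro.permRep_smooth 𝔇.L N k ⟨N, hN, le_rfl⟩) 3) = 1 ∧
      ∃ (x : 𝔇.Hc (Shapiro.permRep N k) (Shapiro.permRep_smooth 𝔇.L N k ⟨N, hN, le_rfl⟩) 3)
        (y : Rex.eqHom (Shapiro.permRep N k) τ),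
        tr ((𝔇.mapCc (Shapiro.permRep_smooth 𝔇.L N k ⟨N, hN, le_rfl⟩) hτ y.1
          (Rex.eqHom_comm y)).mapH 3 x) ≠ 0)
    (hfin : ∀ {M : Type} [AddCommGroup M] [Module k M] [Module.Finite k M]
      (ρ : Representation k G M) (hρ : 𝔇.IsSmooth ρ), Module.Finite k (𝔇.H ρ hρ 2))
    (hfinv : ∀ {M : Type} [AddCommGroup M] [Module k M] [Module.Finite k M]
      (ρ : Representation k G M) (hρ : 𝔇.IsSmooth ρ) (v : 𝔇.ι),
      Module.Finite k (𝔇.Hv ρ hρ v 1))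
    {M : Type} [AddCommGroup M] [Module k M] [Module.Finite k M]
    (ρ : Representation k G M) (hρ : 𝔇.IsSmooth ρ) (hρ' : 𝔇.IsSmooth (dualTw χ ρ)) :
    finrank k (𝔇.H (dualTw χ ρ) hρ' 1) ≤ finrank k (𝔇.Hc ρ hρ 2) := by
  have h1 : ∀ v, Module.Finite k (𝔇.Hv ρ hρ v 1) := fun v => hfinv ρ hρ v
  have h2 : Module.Finite k (𝔇.H ρ hρ 2) := hfin ρ hρ
  have h3 : Module.Finite k (𝔇.Hc ρ hρ 2) := 𝔇.finite_Hc_two ρ hρ
  exact 𝔇.i2_of_base χ hτ hτχ tr hG hv hbase ρ hρ hρ'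

/-- **(i2)** in the shape of `CountHyp.i2`, from the pure dimension hypotheses of
`Rex.e3_of_dim`: `H³_c(k(χ)) ≠ 0`, `(cd)`, `(cdv)` and `h³_c(coind_N^G k) = 1` for a cofinal
family of levels `N`. -/
theorem i2_of_dim (χ : G →* kˣ) {τ : Representation k G k} (hτ : 𝔇.IsSmooth τ)
    (hτχ : ∀ g x, τ g x = (χ g : k) * x) [Nontrivial (𝔇.Hc τ hτ 3)]
    (hG : ∀ (M : Type) [AddCommGroup M] [Module k M] [Module.Finite k M]
      (ρ : Representation k G M) (hρ : 𝔇.IsSmooth ρ), Subsingleton (𝔇.H ρ hρ 3))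
    (hv : ∀ (M : Type) [AddCommGroup M] [Module k M] [Module.Finite k M]
      (ρ : Representation k G M) (hρ : 𝔇.IsSmooth ρ) (v : 𝔇.ι), Subsingleton (𝔇.Hv ρ hρ v 3))
    (hbase : ∀ N₀ ∈ 𝔇.L.lev, ∃ N, ∃ hN : N ∈ 𝔇.L.lev, N ≤ N₀ ∧
      finrank k (𝔇.Hc (Shapiro.permRep N k)
        (Shapiro.permRep_smooth 𝔇.L N k ⟨N, hN, le_rfl⟩) 3) = 1)
    {M : Type} [AddCommGroup M] [Module k M] [Module.Finite k M]
    (ρ : Representation k G M) (hρ : 𝔇.IsSmooth ρ) (hρ' : 𝔇.IsSmooth (dualTw χ ρ))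
    [Module.Finite k (𝔇.Hc ρ hρ 2)] :
    finrank k (𝔇.H (dualTw χ ρ) hρ' 1) ≤ finrank k (𝔇.Hc ρ hρ 2) := by
  obtain ⟨tr, -, halpha⟩ := Rex.exists_tr_alpha3_bijective 𝔇 hτ hG hv hbase
  exact 𝔇.i2_of_alpha χ hτ (fun g t => hτχ g t) tr halpha ρ hρ hρ'

/-- **(i2)**, packaged: the clause `i2` of `CountHyp` from the clauses `fin`, `finv` and the
dimension hypotheses of `Rex.e3_of_dim`. -/
theorem i2_of_dim_fin (χ : G →* kˣ) {τ : Representation k G k} (hτ : 𝔇.IsSmooth τ)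
    (hτχ : ∀ g x, τ g x = (χ g : k) * x) [Nontrivial (𝔇.Hc τ hτ 3)]
    (hG : ∀ (M : Type) [AddCommGroup M] [Module k M] [Module.Finite k M]
      (ρ : Representation k G M) (hρ : 𝔇.IsSmooth ρ), Subsingleton (𝔇.H ρ hρ 3))
    (hv : ∀ (M : Type) [AddCommGroup M] [Module k M] [Module.Finite k M]
      (ρ : Representation k G M) (hρ : 𝔇.IsSmooth ρ) (v : 𝔇.ι), Subsingleton (𝔇.Hv ρ hρ v 3))
    (hbase : ∀ N₀ ∈ 𝔇.L.lev, ∃ N, ∃ hN : N ∈ 𝔇.L.lev, N ≤ N₀ ∧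
      finrank k (𝔇.Hc (Shapiro.permRep N k)
        (Shapiro.permRep_smooth 𝔇.L N k ⟨N, hN, le_rfl⟩) 3) = 1)
    (hfin : ∀ {M : Type} [AddCommGroup M] [Module k M] [Module.Finite k M]
      (ρ : Representation k G M) (hρ : 𝔇.IsSmooth ρ), Module.Finite k (𝔇.H ρ hρ 2))
    (hfinv : ∀ {M : Type} [AddCommGroup M] [Module k M] [Module.Finite k M]
      (ρ : Representation k G M) (hρ : 𝔇.IsSmooth ρ) (v : 𝔇.ι),
      Module.Finite k (𝔇.Hv ρ hρ v 1))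
    {M : Type} [AddCommGroup M] [Module k M] [Module.Finite k M]
    (ρ : Representation k G M) (hρ : 𝔇.IsSmooth ρ) (hρ' : 𝔇.IsSmooth (dualTw χ ρ)) :
    finrank k (𝔇.H (dualTw χ ρ) hρ' 1) ≤ finrank k (𝔇.Hc ρ hρ 2) := by
  have h1 : ∀ v, Module.Finite k (𝔇.Hv ρ hρ v 1) := fun v => hfinv ρ hρ v
  have h2 : Module.Finite k (𝔇.H ρ hρ 2) := hfin ρ hρ
  have h3 : Module.Finite k (𝔇.Hc ρ hρ 2) := 𝔇.finite_Hc_two ρ hρ
  exact 𝔇.i2_of_dim χ hτ hτχ hG hv hbase ρ hρ hρ'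

end LocDatum

end Fermat.Agent.PT
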