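/-
PT layer F8: assembly of the counting hypotheses from base dimension statements.

For an abstract Poitou–Tate datum `𝔇` over a field `k`, a character `χ` and `T = k(χ)`
(a representation `τ` on `k` with `τ g x = χ g * x`):

* `hEff_of_efface` : effacement of `H¹` in the shape consumed by (S-E);
* `htau_of_noLine`, `nontrivial_Hc_three` : consequences of "no coordinate line" for `T`;
* `hLT_of_base` : the injectivity half of the local twin of (C1);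
* `countHyp_of_dims` : **`CountHyp 𝔇 k χ`** from finiteness, `cd ≤ 2` (global, local, and on the
  local groups), `H²_v(T) ≠ 0`, "no coordinate line" for `T`, `h³_c(coind_N k) = 1` for a
  cofinal family of levels and `h²(coind_N k) = 1` for cofinal families of local levels.
-/
import Mathlib
import Fermat.Agent.PT.Coh.EngineI1
import Fermat.Agent.PT.Coh.EngineI2
import Fermat.Agent.PT.Coh.EngineE3
import Fermat.Agent.PT.Coh.Efface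

set_option autoImplicit false

namespace Fermat.Agent.PT

namespace LocDatum

open Module

variable {G : Type} [Group G] (𝔇 : LocDatum G)
variable {k : Type} [Field k]

/-- (EFF): every class of `H¹(X)` dies in a finite smooth `C ⊇ X`. -/
theorem hEff_of_efface {M : Type} [AddCommGroup M] [Module k M] [Module.Finite k M]
    (ρ : Representation k G M) (hρ : 𝔇.IsSmooth ρ) (y : 𝔇.H ρ hρ 1) :
    ∃ (C : Type) (_ : AddCommGroup C) (_ : Module k C) (_ : Module.Finite k C)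
      (σ : Representation k G C) (hσ : 𝔇.IsSmooth σ) (e : M →ₗ[k] C)
      (he : ∀ g m, e (ρ g m) = σ g (e m)),
      Function.Injective e ∧ (𝔇.mapC hρ hσ e he).mapH 1 y = 0 := by
  obtain ⟨N₀, hN₀⟩ := 𝔇.L.nonempty
  obtain ⟨N, hN, -, h⟩ := Shapiro.exists_level_effMap_mapH_eq_zero 𝔇.L ρ hρ 0 y hN₀
  exact ⟨Representation.coindV N.subtype (ρ.comp N.subtype), inferInstance, inferInstance,
    Shapiro.finite_effRep 𝔇.L N ⟨N, hN, le_rfl⟩ ρ,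
    Representation.coind N.subtype (ρ.comp N.subtype),
    Shapiro.effRep_smooth 𝔇.L N ⟨N, hN, le_rfl⟩ ρ hρ, Shapiro.effMap ρ N,
    Shapiro.effMap_equivariant ρ N, Shapiro.effMap_injective ρ N, h⟩

section T

variable {τ : Representation k G k} (hτ : 𝔇.IsSmooth τ)

include 𝔇 in
/-- (b-τ) from an injective trace and "no coordinate line" -/
theorem htau_of_noLine (tr : 𝔇.Hc τ hτ 3 →ₗ[k] k) (htr : ∀ z : 𝔇.Hc τ hτ 3, z ≠ 0 → tr z ≠ 0)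
    (noLine : ∀ (v₀ : 𝔇.ι) (x : 𝔇.H τ hτ 2),
      (∀ v, v ≠ v₀ → 𝔇.locH τ hτ 2 x v = 0) → 𝔇.locH τ hτ 2 x v₀ = 0)
    (v : 𝔇.ι) (m : ∀ u, 𝔇.Hv τ hτ u 2) (hm : ∀ u, u ≠ v → m u = 0)
    (h0 : tr (𝔇.ιc τ hτ 2 m) = 0) : m v = 0 := by
  have h1 : 𝔇.ιc τ hτ 2 m = 0 := by
    by_contra h
    exact htr _ h h0
  obtain ⟨x, rfl⟩ := (𝔇.exact_locH_ιc τ hτ 2 m).mp h1
  exact noLine v x hm

/-- `H³_c(T) ≠ 0` from `H²_v(T) ≠ 0` and "no coordinate line" -/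
theorem nontrivial_Hc_three [Nonempty 𝔇.ι] (hT2 : ∀ v, Nontrivial (𝔇.Hv τ hτ v 2))
    (noLine : ∀ (v₀ : 𝔇.ι) (x : 𝔇.H τ hτ 2),
      (∀ v, v ≠ v₀ → 𝔇.locH τ hτ 2 x v = 0) → 𝔇.locH τ hτ 2 x v₀ = 0) :
    Nontrivial (𝔇.Hc τ hτ 3) := by
  classical
  obtain ⟨v⟩ := ‹Nonempty 𝔇.ι›
  obtain ⟨t, ht⟩ := exists_ne (0 : 𝔇.Hv τ hτ v 2)
  refine ⟨⟨𝔇.ιc τ hτ 2 (Pi.single v t), 0, fun h => ht ?_⟩⟩
  obtain ⟨x, hx⟩ := (𝔇.exact_locH_ιc τ hτ 2 _).mp h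
  have h1 := noLine v x (fun u hu => by rw [hx, Pi.single_eq_of_ne hu])
  rw [hx, Pi.single_eq_same] at h1
  exact h1

/-- the injectivity half of the local twin of (C1), in the shape consumed by (S-E) -/
theorem hLT_of_base (v : 𝔇.ι) [Nontrivial (𝔇.Hv τ hτ v 2)]
    (hvan : ∀ (M : Type) [AddCommGroup M] [Module k M] [Module.Finite k M]
      (ρ : Representation k (𝔇.D v) M) (hρ : (𝔇.Lv v).IsSmooth ρ),
      Subsingleton (((𝔇.Lv v).cx ρ hρ).H 3))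
    (hbase : ∀ N₀ ∈ (𝔇.Lv v).lev, ∃ N, ∃ hN : N ∈ (𝔇.Lv v).lev, N ≤ N₀ ∧
      finrank k (((𝔇.Lv v).cx (Shapiro.permRep N k)
        (Shapiro.permRep_smooth (𝔇.Lv v) N k ⟨N, hN, le_rfl⟩)).H 2) = 1)
    {Y : Type} [AddCommGroup Y] [Module k Y] [Module.Finite k Y]
    (σ : Representation k G Y) (hσ : 𝔇.IsSmooth σ) (y : 𝔇.Hv σ hσ v 2)
    (hy : ∀ (ψ : Y →ₗ[k] k)
      (hψ : ∀ (g : 𝔇.D v) (f : Y), ψ (𝔇.resRep σ v g f) = 𝔇.resRep τ v g (ψ f)),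
      ((𝔇.Lv v).mapCoeff (𝔇.isSmooth_resRep hσ v) (𝔇.isSmooth_resRep hτ v) ψ hψ).mapH 2 y
        = 0) : y = 0 := by
  obtain ⟨trv, -, hbij⟩ := Rex.exists_tr_alpha2_bijective (𝔇.Lv v) (𝔇.isSmooth_resRep hτ v)
    hvan hbase
  have hinj := (hbij Y (𝔇.resRep σ v) (𝔇.isSmooth_resRep hσ v)).1
  refine (injective_iff_map_eq_zero _).mp hinj y ?_
  refine LinearMap.ext fun ψ => ?_
  have h1 := hy ψ.1 (Rex.eqHom_comm ψ)
  show trv (((𝔇.Lv v).mapCoeff (𝔇.isSmooth_resRep hσ v) (𝔇.isSmooth_resRep hτ v) ψ.1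
    (Rex.eqHom_comm ψ)).mapH 2 y) = 0
  rw [h1, map_zero]

end T

/-- **The counting hypotheses from base dimension statements.** -/
theorem countHyp_of_dims [Nonempty 𝔇.ι] (χ : G →* kˣ) {τ : Representation k G k}
    (hτχ : ∀ g (x : k), τ g x = (χ g : k) * x) (hτ : 𝔇.IsSmooth τ)
    (hχ : ∃ N ∈ 𝔇.L.lev, ∀ s ∈ N, χ s = 1)
    (fin : ∀ {M : Type} [AddCommGroup M] [Module k M] [Module.Finite k M]
      (ρ : Representation k G M) (hρ : 𝔇.IsSmooth ρ) (n : ℕ), n ≤ 2 →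
        Module.Finite k (𝔇.H ρ hρ n))
    (finv : ∀ {M : Type} [AddCommGroup M] [Module k M] [Module.Finite k M]
      (ρ : Representation k G M) (hρ : 𝔇.IsSmooth ρ) (v : 𝔇.ι) (n : ℕ), n ≤ 2 →
        Module.Finite k (𝔇.Hv ρ hρ v n))
    (cd : ∀ {M : Type} [AddCommGroup M] [Module k M] [Module.Finite k M]
      (ρ : Representation k G M) (hρ : 𝔇.IsSmooth ρ), Subsingleton (𝔇.H ρ hρ 3))
    (cdv : ∀ {M : Type} [AddCommGroup M] [Module k M] [Module.Finite k M]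
      (ρ : Representation k G M) (hρ : 𝔇.IsSmooth ρ) (v : 𝔇.ι), Subsingleton (𝔇.Hv ρ hρ v 3))
    (cdL : ∀ (v : 𝔇.ι) (M : Type) [AddCommGroup M] [Module k M] [Module.Finite k M]
      (ρ : Representation k (𝔇.D v) M) (hρ : (𝔇.Lv v).IsSmooth ρ),
      Subsingleton (((𝔇.Lv v).cx ρ hρ).H 3))
    (hT2 : ∀ v, Nontrivial (𝔇.Hv τ hτ v 2))
    (noLine : ∀ (v₀ : 𝔇.ι) (x : 𝔇.H τ hτ 2),
      (∀ v, v ≠ v₀ → 𝔇.locH τ hτ 2 x v = 0) → 𝔇.locH τ hτ 2 x v₀ = 0)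
    (base3 : ∀ N₀ ∈ 𝔇.L.lev, ∃ N, ∃ hN : N ∈ 𝔇.L.lev, N ≤ N₀ ∧
      finrank k (𝔇.Hc (Shapiro.permRep N k)
        (Shapiro.permRep_smooth 𝔇.L N k ⟨N, hN, le_rfl⟩) 3) = 1)
    (basev : ∀ v, ∀ N₀ ∈ (𝔇.Lv v).lev, ∃ N, ∃ hN : N ∈ (𝔇.Lv v).lev, N ≤ N₀ ∧
      finrank k (((𝔇.Lv v).cx (Shapiro.permRep N k)
        (Shapiro.permRep_smooth (𝔇.Lv v) N k ⟨N, hN, le_rfl⟩)).H 2) = 1) :
    CountHyp 𝔇 k χ := by
  have hG : ∀ (M : Type) [AddCommGroup M] [Module k M] [Module.Finite k M]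
      (ρ : Representation k G M) (hρ : 𝔇.IsSmooth ρ), Subsingleton (𝔇.H ρ hρ 3) :=
    fun M _ _ _ ρ hρ => cd ρ hρ
  have hv : ∀ (M : Type) [AddCommGroup M] [Module k M] [Module.Finite k M]
      (ρ : Representation k G M) (hρ : 𝔇.IsSmooth ρ) (v : 𝔇.ι),
      Subsingleton (𝔇.Hv ρ hρ v 3) := fun M _ _ _ ρ hρ v => cdv ρ hρ v
  have hnt : Nontrivial (𝔇.Hc τ hτ 3) := 𝔇.nontrivial_Hc_three hτ hT2 noLine
  obtain ⟨tr, htr, hbij⟩ := Rex.exists_tr_alpha3_bijective 𝔇 hτ hG hv base3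
  have he3 : ∀ {M : Type} [AddCommGroup M] [Module k M] [Module.Finite k M]
      (ρ : Representation k G M) (hρ : 𝔇.IsSmooth ρ) (hρ' : 𝔇.IsSmooth (dualTw χ ρ)),
      finrank k (𝔇.Hc ρ hρ 3) = finrank k (𝔇.H (dualTw χ ρ) hρ' 0) :=
    fun ρ hρ hρ' => Rex.e3_of_dim 𝔇 χ hτ hτχ hG hv base3 ρ hρ hρ'
  have hev : ∀ {M : Type} [AddCommGroup M] [Module k M] [Module.Finite k M]
      (ρ : Representation k G M) (hρ : 𝔇.IsSmooth ρ) (hρ' : 𝔇.IsSmooth (dualTw χ ρ))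
      (v : 𝔇.ι), finrank k (𝔇.Hv ρ hρ v 2) = finrank k (𝔇.Hv (dualTw χ ρ) hρ' v 0) :=
    fun ρ hρ hρ' v =>
      haveI := hT2 v
      Rex.ev_of_dim 𝔇 v χ hτ hτχ (cdL v) (basev v) ρ hρ hρ'
  have hpre : PreHyp 𝔇 k χ :=
    { hχ := hχ, fin := fin, finv := finv, cd := cd, cdv := cdv, e3 := he3, ev := hev }
  refine { hχ := hχ, fin := fin, finv := finv, cd := cd, cdv := cdv, e3 := he3, ev := hev,
           i1 := ?_, i2 := ?_ }
  · intro M _ _ _ ρ hρ hρ'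
    exact 𝔇.finrank_Hc_one_le hpre hτχ hτ tr (𝔇.htau_of_noLine hτ tr htr noLine)
      (fun σ hσ v y hy =>
        haveI := hT2 v
        𝔇.hLT_of_base hτ v (cdL v) (basev v) σ hσ y hy)
      (fun ρ hρ y => 𝔇.hEff_of_efface ρ hρ y) ρ hρ hρ'
  · intro M _ _ _ ρ hρ hρ'
    have : ∀ v, Module.Finite k (𝔇.Hv ρ hρ v 1) := fun v => finv ρ hρ v 1 (by omega)
    have : Module.Finite k (𝔇.H ρ hρ (1 + 1)) := fin ρ hρ 2 le_rfl
    have : Module.Finite k (𝔇.Hc ρ hρ 2) := 𝔇.finite_Hc_succ ρ hρ 1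
    exact 𝔇.i2_of_alpha χ hτ (fun g t => by rw [hτχ, smul_eq_mul]) tr hbij ρ hρ hρ'

end LocDatum

end Fermat.Agent.PT
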