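/-
PT layer F8: the final abstract statement of the formal engine.

`LocDatum.finrank_sha_eq_of_base` : for an abstract Poitou–Tate datum `𝔇` over a field `k`, a
character `χ` and `T = k(χ)`, the nine base statements

  (hχ), (fin), (finv), (cd), (cdv), (cdL), (hT2), (noLine), (base), (basev)

imply `dim Ш²(M) = dim Ш¹(M^∨(χ))` for every finite smooth `M`.
-/
import Mathlib
import Fermat.Agent.PT.Coh.EngineMain
import Fermat.Agent.PT.Coh.EngineEmb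

set_option autoImplicit false

namespace Fermat.Agent.PT

namespace LocDatum

open Module

variable {G : Type} [Group G] (𝔇 : LocDatum G)
variable {k : Type} [Field k]

/-- **The formal engine, final form.** -/
theorem finrank_sha_eq_of_base [Nonempty 𝔇.ι] (χ : G →* kˣ) {τ : Representation k G k}
    (hτχ : ∀ g (x : k), τ g x = (χ g : k) * x) (hτ : 𝔇.IsSmooth τ)
    (hχ : ∃ N ∈ 𝔇.L.lev, ∀ s ∈ N, χ s = 1)
    (fin : ∀ {M : Type} [AddCommGroup M] [Module k M] [Module.Finite k M]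
      (ρ : Representation k G M) (hρ : 𝔇.IsSmooth ρ) (n : ℕ), n ≤ 2 →
        Module.Finite k (𝔇.H ρ hρ n))
    (finv : ∀ {M : Type} [AddCommGroup M] [Module k M] [Module.Finite k M]
      (ρ : Representation k G M) (hρ : 𝔇.IsSmooth ρ) (v : 𝔇.ι) (n : ℕ), n ≤ 2 →
        Module.Finite k (𝔇.Hv ρ hρ v n))
    (cd : ∀ {M : Type} [AddCommGroup M] [Module k M] [Module.Finite k M]
      (ρ : Representation k G M) (hρ : 𝔇.IsSmooth ρ), Subsingleton (𝔇.H ρ hρ 3))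
    (cdv : ∀ {M : Type} [AddCommGroup M] [Module k M] [Module.Finite k M]
      (ρ : Representation k G M) (hρ : 𝔇.IsSmooth ρ) (v : 𝔇.ι), Subsingleton (𝔇.Hv ρ hρ v 3))
    (cdL : ∀ (v : 𝔇.ι) (M : Type) [AddCommGroup M] [Module k M] [Module.Finite k M]
      (ρ : Representation k (𝔇.D v) M) (hρ : (𝔇.Lv v).IsSmooth ρ),
      Subsingleton (((𝔇.Lv v).cx ρ hρ).H 3))
    (hT2 : ∀ v, Nontrivial (𝔇.Hv τ hτ v 2))
    (noLine : ∀ (v₀ : 𝔇.ι) (x : 𝔇.H τ hτ 2),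
      (∀ v, v ≠ v₀ → 𝔇.locH τ hτ 2 x v = 0) → 𝔇.locH τ hτ 2 x v₀ = 0)
    (base : ∀ N₀ ∈ 𝔇.L.lev, ∃ N, ∃ hN : N ∈ 𝔇.L.lev, N ≤ N₀ ∧
      finrank k (𝔇.Hc (Shapiro.permRep N k)
        (Shapiro.permRep_smooth 𝔇.L N k ⟨N, hN, le_rfl⟩) 3) = 1 ∧
      2 * Cx.chi (𝔇.C (Shapiro.permRep N k)
        (Shapiro.permRep_smooth 𝔇.L N k ⟨N, hN, le_rfl⟩)) 2 =
        ∑ v, Cx.chi (𝔇.Cv (Shapiro.permRep N k)
          (Shapiro.permRep_smooth 𝔇.L N k ⟨N, hN, le_rfl⟩) v) 2)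
    (basev : ∀ v, ∀ N₀ ∈ (𝔇.Lv v).lev, ∃ N, ∃ hN : N ∈ (𝔇.Lv v).lev, N ≤ N₀ ∧
      finrank k (((𝔇.Lv v).cx (Shapiro.permRep N k)
        (Shapiro.permRep_smooth (𝔇.Lv v) N k ⟨N, hN, le_rfl⟩)).H 2) = 1)
    {M : Type} [AddCommGroup M] [Module k M] [Module.Finite k M]
    (ρ : Representation k G M) (hρ : 𝔇.IsSmooth ρ) (hρ' : 𝔇.IsSmooth (dualTw χ ρ)) :
    finrank k (𝔇.sha ρ hρ 2) = finrank k (𝔇.sha (dualTw χ ρ) hρ' 1) := by
  have hCount : CountHyp 𝔇 k χ :=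
    𝔇.countHyp_of_dims χ hτχ hτ hχ fin finv cd cdv cdL hT2 noLine
      (fun N₀ hN₀ => by
        obtain ⟨N, hN, hle, h3, -⟩ := base N₀ hN₀
        exact ⟨N, hN, hle, h3⟩) basev
  obtain ⟨Nχ, hNχ, hNχ1⟩ := hχ
  refine EngineEmb.finrank_sha_eq_of_chi χ hCount (fun N₀ hN₀ => ?_) ρ hρ hρ'
  obtain ⟨N₁, hN₁, hN₁le⟩ := 𝔇.L.inter N₀ hN₀ Nχ hNχ
  obtain ⟨N, hN, hle, -, h2⟩ := base N₁ hN₁
  exact ⟨N, hN, hle.trans (hN₁le.trans inf_le_left),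
    fun s hs => hNχ1 s ((hle.trans (hN₁le.trans inf_le_right)) hs), fun hX => h2⟩

end LocDatum

end Fermat.Agent.PT
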