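import Fermat.Agent.PT.Coh.Inner
import Fermat.Agent.PT.Coh.Setup

/-!
# PT layer F5b: Mackey decomposition for level cohomology

`(Γ, L)` a leveled group, `U ≤ Γ` open, `σ` a smooth representation of `U` on `A`,
`X := coind_U^Γ A`.  `D ≤ Γ` any subgroup with a level system `Lv` for which the inclusion is
continuous (a "decomposition group").  For `g : Γ` put

* `conjSub U D g : Subgroup D` — the subgroup `D ∩ g⁻¹ U g` of `D`,
* `conjHom U D g : conjSub U D g →* U`, `d ↦ g d g⁻¹`,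
* `mack … g : C^•(D; X) ⟶ C^•(D ∩ g⁻¹Ug; A ∘ conjHom g)`, `(mack f)(d₁..dₙ) = f(d₁..dₙ)(g)`.

Main results:

* `mackey_bijective` : for a system `r : ι → Γ` of representatives of `U \ Γ / D` (`ι` finite),
  `x ↦ (mack (r i) x)_i : Hⁿ(D; X) → ∏_i Hⁿ(D ∩ r_i⁻¹ U r_i; A ∘ conjHom (r i))` is bijective;
* `mack_mapH_res` : `mack g ∘ res^Γ_D = res_{conjHom g} ∘ sh` on cohomology (uses that inner
  automorphisms act trivially);
* `res_mapH_eq_zero_iff` / `res_mapH_eq_zero_iff_forall` : a class `x ∈ Hⁿ(Γ; X)` dies in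
  `Hⁿ(D; X)` iff its Shapiro image in `Hⁿ(U; A)` dies under restriction along every
  `conjHom g : D ∩ g⁻¹Ug → U`.

Generic tools: `mapCoeff_mapH_bijective` (isomorphic coefficients),
`res_mapH_bijective_of_mulEquiv` (bicontinuous group isomorphisms),
`res_mapH_eq_zero_iff_of_mulEquiv`, finite products of coefficient representations
(`piRep`, `toPi`, `ofPi`, `toPi_mapH_bijective`).
-/

set_option autoImplicit false

namespace Fermat.Agent.PT.Shapiro

open Fermat.Agent.PT Fermat.Agent.PT.Induced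

/-! ### Generic: isomorphisms of coefficients and of groups -/

section Generic

variable {Γ : Type} [Group Γ] (L : LevelSys Γ) {k : Type} [CommRing k]
variable {M M' : Type} [AddCommGroup M] [Module k M] [AddCommGroup M'] [Module k M']

/-- A bijective equivariant map induces bijections on level cohomology. -/
theorem mapCoeff_mapH_bijective {ρ : Representation k Γ M} {ρ' : Representation k Γ M'}
    (hρ : L.IsSmooth ρ) (hρ' : L.IsSmooth ρ') (φ : M →ₗ[k] M')
    (hφ : ∀ g m, φ (ρ g m) = ρ' g (φ m)) (hbij : Function.Bijective φ) (n : ℕ) :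
    Function.Bijective ((L.mapCoeff hρ hρ' φ hφ).mapH n) := by
  let e := LinearEquiv.ofBijective φ hbij
  have he1 : ∀ m, φ (e.symm m) = m := fun m => e.apply_symm_apply m
  have he2 : ∀ m, e.symm (φ m) = m := fun m => e.symm_apply_apply m
  have he : ∀ g m, e.symm.toLinearMap (ρ' g m) = ρ g (e.symm.toLinearMap m) := by
    intro g m
    apply hbij.1
    show φ (e.symm (ρ' g m)) = φ (ρ g (e.symm m))
    rw [hφ, he1, he1]
  refine Cx.Hom.mapH_bijective_of_inverse _ (L.mapCoeff hρ' hρ e.symm.toLinearMap he) ?_ ?_ n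
  · intro n x
    apply Subtype.ext
    funext g
    exact he2 _
  · intro n y
    apply Subtype.ext
    funext g
    exact he1 _

variable {Γ' : Type} [Group Γ'] (L' : LevelSys Γ')

/-- The inverse of restriction along a bicontinuous isomorphism. -/
def resSymm (e : Γ' ≃* Γ) (h₂ : L'.IsCts L e.symm.toMonoidHom) (ρ : Representation k Γ M)
    (hρ : L.IsSmooth ρ) (hρ' : L'.IsSmooth (ρ.comp e.toMonoidHom)) :
    Cx.Hom (L'.cx (ρ.comp e.toMonoidHom) hρ') (L.cx ρ hρ) where
  f n :=
    { toFun := fun f => ⟨fun g => f.1 (e.symm.toMonoidHom ∘ g), h₂.isLevelConst f.2⟩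
      map_add' := fun _ _ => rfl
      map_smul' := fun _ _ => rfl }
  comm n f := by
    apply Subtype.ext
    have h := LevelSys.dLin_comp_hom e.symm.toMonoidHom (ρ.comp e.toMonoidHom) n f.1
    have hρe : (ρ.comp e.toMonoidHom).comp e.symm.toMonoidHom = ρ := by
      apply MonoidHom.ext
      intro g
      simp
    rw [hρe] at h
    exact h.symm

/-- Restriction along a bicontinuous group isomorphism is bijective on level cohomology. -/
theorem res_mapH_bijective_of_mulEquiv (e : Γ' ≃* Γ) (h₁ : L.IsCts L' e.toMonoidHom)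
    (h₂ : L'.IsCts L e.symm.toMonoidHom) (ρ : Representation k Γ M) (hρ : L.IsSmooth ρ)
    (hρ' : L'.IsSmooth (ρ.comp e.toMonoidHom)) (n : ℕ) :
    Function.Bijective ((L.res L' h₁ ρ hρ hρ').mapH n) := by
  refine Cx.Hom.mapH_bijective_of_inverse _ (resSymm L L' e h₂ ρ hρ hρ') ?_ ?_ n
  · intro n x
    apply Subtype.ext
    funext g
    show x.1 (e.toMonoidHom ∘ (e.symm.toMonoidHom ∘ g)) = x.1 g
    exact congrArg x.1 (funext fun i => e.apply_symm_apply _)
  · intro n y
    apply Subtype.ext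
    funext g
    show y.1 (e.symm.toMonoidHom ∘ (e.toMonoidHom ∘ g)) = y.1 g
    exact congrArg y.1 (funext fun i => e.symm_apply_apply _)

/-- If `r = r₂ ∘ e` with `e` a bicontinuous isomorphism, then restriction along `r` kills a
class iff restriction along `r₂` does. -/
theorem res_mapH_eq_zero_iff_of_mulEquiv {Γ₁ Γ₂ : Type} [Group Γ₁] [Group Γ₂]
    (L₁ : LevelSys Γ₁) (L₂ : LevelSys Γ₂) (r : Γ₁ →* Γ) (r₂ : Γ₂ →* Γ) (e : Γ₁ ≃* Γ₂)
    (hr : L.IsCts L₁ r) (hr₂ : L.IsCts L₂ r₂) (he : L₂.IsCts L₁ e.toMonoidHom)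
    (he' : L₁.IsCts L₂ e.symm.toMonoidHom) (hre : ∀ x, r₂ (e x) = r x)
    (ρ : Representation k Γ M) (hρ : L.IsSmooth ρ) (hρ₁ : L₁.IsSmooth (ρ.comp r))
    (hρ₂ : L₂.IsSmooth (ρ.comp r₂)) (n : ℕ) (x : (L.cx ρ hρ).H n) :
    (L.res L₁ hr ρ hρ hρ₁).mapH n x = 0 ↔ (L.res L₂ hr₂ ρ hρ hρ₂).mapH n x = 0 := by
  obtain rfl : r = r₂.comp e.toMonoidHom := MonoidHom.ext fun x => (hre x).symm
  have hb := res_mapH_bijective_of_mulEquiv L₂ L₁ e he he' (ρ.comp r₂) hρ₂ hρ₁ n
  have hc : (L.res L₁ hr ρ hρ hρ₁) =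
      (L₂.res L₁ he (ρ.comp r₂) hρ₂ hρ₁).comp (L.res L₂ hr₂ ρ hρ hρ₂) :=
    Cx.Hom.ext fun n x => rfl
  rw [hc, Cx.Hom.mapH_comp]
  constructor
  · intro h
    apply hb.1
    rw [h, map_zero]
  · intro h
    rw [h, map_zero]

end Generic

/-! ### Finite products of coefficient representations -/

section Prod

variable {Γ : Type} [Group Γ] (L : LevelSys Γ) {k : Type} [CommRing k]
variable {ι : Type} {M : ι → Type} [∀ i, AddCommGroup (M i)] [∀ i, Module k (M i)]

/-- Finitely many levels contain a common level. -/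
lemma exists_level_le_of_finite {s : Set (Subgroup Γ)} (hs : s.Finite) (h : s ⊆ L.lev) :
    ∃ N₀ ∈ L.lev, ∀ N ∈ s, N₀ ≤ N := by
  induction s, hs using Set.Finite.induction_on with
  | empty =>
    obtain ⟨N, hN⟩ := L.nonempty
    exact ⟨N, hN, fun _ h => (Set.notMem_empty _ h).elim⟩
  | @insert a s _ _ ih =>
    obtain ⟨N₁, hN₁, h₁⟩ := ih ((Set.subset_insert a s).trans h)
    obtain ⟨N, hN, hle⟩ := L.inter N₁ hN₁ a (h (Set.mem_insert a s))
    refine ⟨N, hN, fun m hm => ?_⟩
    rcases Set.mem_insert_iff.1 hm with rfl | hm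
    · exact hle.trans inf_le_right
    · exact (hle.trans inf_le_left).trans (h₁ m hm)

/-- The product of a family of representations. -/
def piRep (ρ : ∀ i, Representation k Γ (M i)) : Representation k Γ (∀ i, M i) where
  toFun g := LinearMap.pi fun i => ρ i g ∘ₗ LinearMap.proj i
  map_one' := LinearMap.ext fun m => funext fun i => by simp
  map_mul' g h := LinearMap.ext fun m => funext fun i => by simp

lemma piRep_apply (ρ : ∀ i, Representation k Γ (M i)) (g : Γ) (m : ∀ i, M i) (i : ι) :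
    piRep ρ g m i = ρ i g (m i) := rfl

variable [Finite ι]

lemma piRep_smooth (ρ : ∀ i, Representation k Γ (M i)) (hρ : ∀ i, L.IsSmooth (ρ i)) :
    L.IsSmooth (piRep ρ) := by
  intro m
  choose N hN hfix using fun i => hρ i (m i)
  obtain ⟨N₀, hN₀, hle⟩ := exists_level_le_of_finite L (Set.finite_range N)
    (by rintro _ ⟨i, rfl⟩; exact hN i)
  exact ⟨N₀, hN₀, fun s hs => funext fun i => hfix i s (hle _ ⟨i, rfl⟩ hs)⟩

omit [∀ i, AddCommGroup (M i)] [∀ i, Module k (M i)] in
lemma isLevelConst_pi {n : ℕ} (f : ∀ i, (Fin n → Γ) → M i) (hf : ∀ i, L.IsLevelConst (f i)) :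
    L.IsLevelConst (fun g i => f i g) := by
  choose N hN h using hf
  obtain ⟨N₀, hN₀, hle⟩ := exists_level_le_of_finite L (Set.finite_range N)
    (by rintro _ ⟨i, rfl⟩; exact hN i)
  exact ⟨N₀, hN₀, fun g g' hgg' => funext fun i => h i g g' fun j => hle _ ⟨i, rfl⟩ (hgg' j)⟩

/-- `C^•(Γ; ∏ M_i) ⟶ ∏ C^•(Γ; M_i)`. -/
def toPi (ρ : ∀ i, Representation k Γ (M i)) (hρ : ∀ i, L.IsSmooth (ρ i)) :
    Cx.Hom (L.cx (piRep ρ) (piRep_smooth L ρ hρ)) (Cx.pi fun i => L.cx (ρ i) (hρ i)) :=
  Cx.piLift _ fun i => L.mapCoeff (piRep_smooth L ρ hρ) (hρ i) (LinearMap.proj i)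
    (fun _ _ => rfl)

/-- `∏ C^•(Γ; M_i) ⟶ C^•(Γ; ∏ M_i)` (finite products). -/
def ofPi (ρ : ∀ i, Representation k Γ (M i)) (hρ : ∀ i, L.IsSmooth (ρ i)) :
    Cx.Hom (Cx.pi fun i => L.cx (ρ i) (hρ i)) (L.cx (piRep ρ) (piRep_smooth L ρ hρ)) where
  f n :=
    { toFun := fun x => ⟨fun g i => (x i).1 g, isLevelConst_pi L _ fun i => (x i).2⟩
      map_add' := fun _ _ => rfl
      map_smul' := fun _ _ => rfl }
  comm n x := by
    apply Subtype.ext
    funext g
    funext i
    show dLin (ρ i) n (x i).1 g = dLin (piRep ρ) n (fun g i => (x i).1 g) g i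
    simp [dLin_apply, piRep_apply, Finset.sum_apply]

/-- Level cohomology commutes with finite products of coefficients (complex level). -/
theorem toPi_mapH_bijective (ρ : ∀ i, Representation k Γ (M i)) (hρ : ∀ i, L.IsSmooth (ρ i))
    (n : ℕ) : Function.Bijective ((toPi L ρ hρ).mapH n) :=
  Cx.Hom.mapH_bijective_of_inverse (toPi L ρ hρ) (ofPi L ρ hρ) (fun _ _ => rfl)
    (fun _ _ => rfl) n

end Prod

/-! ### An abstract composition lemma -/

section AbstractPi

variable {k : Type} [CommRing k] {ι : Type}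

/-- If `m i = c i ∘ pr_i ∘ b ∘ a` with `a`, `b`, all `c i` bijective on `Hⁿ`, then
`x ↦ (m i x)_i` is bijective on `Hⁿ`. -/
theorem pi_mapH_bijective_of_comp {C E : Cx k} {D' D'' : ι → Cx k} (a : Cx.Hom C E)
    (b : Cx.Hom E (Cx.pi D')) (c : ∀ i, Cx.Hom (D' i) (D'' i)) (m : ∀ i, Cx.Hom C (D'' i))
    (hm : ∀ i n x, (m i).f n x = (c i).f n ((b.f n (a.f n x)) i)) (n : ℕ)
    (ha : Function.Bijective (a.mapH n)) (hb : Function.Bijective (b.mapH n))
    (hc : ∀ i, Function.Bijective ((c i).mapH n)) :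
    Function.Bijective (LinearMap.pi fun i => (m i).mapH n) := by
  have hm' : ∀ i, m i = (c i).comp ((Cx.piProj D' i).comp (b.comp a)) := fun i =>
    Cx.Hom.ext fun n x => hm i n x
  have h3 := Cx.piH_bijective D' n
  have h4 : Function.Bijective (Pi.map fun i => ((c i).mapH n : (D' i).H n → (D'' i).H n)) :=
    Function.Bijective.piMap hc
  have h := h4.comp (h3.comp (hb.comp ha))
  have he : ⇑(LinearMap.pi fun i => (m i).mapH n) =
      (Pi.map fun i => ((c i).mapH n : (D' i).H n → (D'' i).H n)) ∘ (Cx.piH D' n) ∘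
        (b.mapH n) ∘ (a.mapH n) := by
    funext x i
    show (m i).mapH n x = (c i).mapH n ((Cx.piProj D' i).mapH n (b.mapH n (a.mapH n x)))
    rw [hm' i, Cx.Hom.mapH_comp, Cx.Hom.mapH_comp, Cx.Hom.mapH_comp]
  rw [he]
  exact h

/-- A square commuting up to an endomorphism acting trivially on cohomology. -/
theorem mapH_comm_of_comm_twist {P Q R T : Cx k} (a : Cx.Hom P Q) (b : Cx.Hom Q T)
    (θ : Cx.Hom P P) (c : Cx.Hom P R) (d : Cx.Hom R T)
    (h : ∀ n x, b.f n (a.f n x) = d.f n (c.f n (θ.f n x))) (n : ℕ)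
    (hθ : ∀ x : P.H n, θ.mapH n x = x) (x : P.H n) :
    b.mapH n (a.mapH n x) = d.mapH n (c.mapH n x) := by
  have e := mapH_comm_of_comm a b (c.comp θ) d (fun n x => h n x) n x
  rw [e, Cx.Hom.mapH_comp, hθ]

end AbstractPi

/-! ### The Mackey maps -/

section Mackey

variable {Γ : Type} [Group Γ] (L : LevelSys Γ) (U : Subgroup Γ) (D : Subgroup Γ)
  (Lv : LevelSys D)
variable {k : Type} [CommRing k] {A : Type} [AddCommGroup A] [Module k A]

/-- `D ∩ g⁻¹ U g`, as a subgroup of `D`. -/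
def conjSub (g : Γ) : Subgroup D := U.comap ((MulAut.conj g).toMonoidHom.comp D.subtype)

lemma mem_conjSub (g : Γ) (d : D) : d ∈ conjSub U D g ↔ g * (d : Γ) * g⁻¹ ∈ U := Iff.rfl

/-- Conjugation `d ↦ g d g⁻¹ : D ∩ g⁻¹Ug → U`. -/
def conjHom (g : Γ) : conjSub U D g →* U :=
  ((MulAut.conj g).toMonoidHom.comp (D.subtype.comp (conjSub U D g).subtype)).codRestrict U
    (fun d => d.2)

lemma conjHom_coe (g : Γ) (d : conjSub U D g) :
    ((conjHom U D g d : U) : Γ) = g * ((d : D) : Γ) * g⁻¹ := rfl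

include L Lv in
/-- `D ∩ g⁻¹Ug` is open in `D`. -/
lemma conjSub_open (hU : ∃ N ∈ L.lev, N ≤ U) (hcts : L.IsCts Lv D.subtype) (g : Γ) :
    ∃ N' ∈ Lv.lev, N' ≤ conjSub U D g := by
  obtain ⟨N, hN, hNU⟩ := hU
  obtain ⟨N', hN', hle⟩ := hcts N hN
  have hn := L.normal N hN
  exact ⟨N', hN', fun d hd => hNU (hn.conj_mem _ (hle hd) g)⟩

/-- Conjugation `D ∩ g⁻¹Ug → U` is continuous. -/
lemma isCts_conjHom (hcts : L.IsCts Lv D.subtype) (g : Γ) :
    (subLev L U).IsCts (subLev Lv (conjSub U D g)) (conjHom U D g) := by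
  rintro _ ⟨N, hN, rfl⟩
  obtain ⟨N', hN', hle⟩ := hcts N hN
  have hn := L.normal N hN
  refine ⟨N'.subgroupOf (conjSub U D g), ⟨N', hN', rfl⟩, fun d hd => ?_⟩
  show g * ((d : D) : Γ) * g⁻¹ ∈ N
  exact hn.conj_mem _ (hle (Subgroup.mem_subgroupOf.mp hd)) g

variable {U D}

/-- The Mackey coefficient map `coind_U^Γ A → coind_{D ∩ g⁻¹Ug}^D A^g`, `φ ↦ (d ↦ φ (g d))`. -/
def mackLin (σ : Representation k U A) (g : Γ) :
    Representation.coindV U.subtype σ →ₗ[k]
      Representation.coindV (conjSub U D g).subtype (σ.comp (conjHom U D g)) where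
  toFun φ := ⟨fun d => φ.1 (g * (d : Γ)), fun e d => by
    have h := φ.2 (conjHom U D g e) (g * (d : Γ))
    show φ.1 (g * (((e : D) * d : D) : Γ)) = σ (conjHom U D g e) (φ.1 (g * (d : Γ)))
    rw [← h]
    refine congrArg φ.1 ?_
    show g * (((e : D) : Γ) * (d : Γ)) = g * ((e : D) : Γ) * g⁻¹ * (g * (d : Γ))
    group⟩
  map_add' _ _ := rfl
  map_smul' _ _ := rfl

lemma mackLin_apply (σ : Representation k U A) (g : Γ)
    (φ : Representation.coindV U.subtype σ) (d : D) :
    (mackLin (D := D) σ g φ).1 d = φ.1 (g * (d : Γ)) := rfl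

lemma mackLin_equivariant (σ : Representation k U A) (g : Γ) (d : D)
    (φ : Representation.coindV U.subtype σ) :
    mackLin σ g (((Representation.coind U.subtype σ).comp D.subtype) d φ) =
      Representation.coind (conjSub U D g).subtype (σ.comp (conjHom U D g)) d
        (mackLin σ g φ) := by
  apply Subtype.ext
  funext d'
  show φ.1 (g * (d' : Γ) * (d : Γ)) = φ.1 (g * ((d' * d : D) : Γ))
  rw [Subgroup.coe_mul, mul_assoc]

variable (U D)

/-- **The Mackey map** `C^•(D; coind_U^Γ A) ⟶ C^•(D ∩ g⁻¹Ug; A^g)`,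
`(mack f)(d₁..dₙ) = f(d₁..dₙ)(g)`. -/
def mack (hU : ∃ N ∈ L.lev, N ≤ U) (hcts : L.IsCts Lv D.subtype) (σ : Representation k U A)
    (hσ : (subLev L U).IsSmooth σ) (g : Γ) :
    Cx.Hom (Lv.cx (M := Representation.coindV U.subtype σ)
        ((Representation.coind U.subtype σ).comp D.subtype)
        (hcts.isSmooth (coind_smooth L U hU σ hσ)))
      ((subLev Lv (conjSub U D g)).cx (σ.comp (conjHom U D g))
        ((isCts_conjHom L U D Lv hcts g).isSmooth hσ)) :=
  (sh Lv (conjSub U D g) (conjSub_open L U D Lv hU hcts g) (σ.comp (conjHom U D g))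
      ((isCts_conjHom L U D Lv hcts g).isSmooth hσ)).comp
    (Lv.mapCoeff (hcts.isSmooth (coind_smooth L U hU σ hσ))
      (coind_smooth Lv (conjSub U D g) (conjSub_open L U D Lv hU hcts g)
        (σ.comp (conjHom U D g)) ((isCts_conjHom L U D Lv hcts g).isSmooth hσ))
      (mackLin σ g) (mackLin_equivariant σ g))

lemma mack_apply (hU : ∃ N ∈ L.lev, N ≤ U) (hcts : L.IsCts Lv D.subtype)
    (σ : Representation k U A) (hσ : (subLev L U).IsSmooth σ) (g : Γ) (n : ℕ)
    (f : (Lv.cx (M := Representation.coindV U.subtype σ)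
        ((Representation.coind U.subtype σ).comp D.subtype)
        (hcts.isSmooth (coind_smooth L U hU σ hσ))).X n)
    (d : Fin n → conjSub U D g) :
    ((mack L U D Lv hU hcts σ hσ g).f n f).1 d =
      (f.1 ((conjSub U D g).subtype ∘ d)).1 g := by
  show (f.1 ((conjSub U D g).subtype ∘ d)).1 (g * (((1 : conjSub U D g) : D) : Γ)) = _
  refine congrArg (f.1 ((conjSub U D g).subtype ∘ d)).1 ?_
  simp

/-! ### Double coset representatives and the decomposition of `coind_U^Γ A` over `D` -/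

/-- `r : ι → Γ` is a system of representatives of the double cosets `U \ Γ / D`. -/
structure IsDoubleCosetReps {ι : Type} (r : ι → Γ) : Prop where
  exists_rep : ∀ x : Γ, ∃ i, ∃ u : U, ∃ d : D, x = (u : Γ) * r i * (d : Γ)
  unique : ∀ (i j : ι) (u u' : U) (d d' : D),
    (u : Γ) * r i * (d : Γ) = (u' : Γ) * r j * (d' : Γ) → i = j

/-- The canonical system of representatives, indexed by the double coset space. -/
theorem isDoubleCosetReps_out :
    IsDoubleCosetReps U D (fun q : DoubleCoset.Quotient (U : Set Γ) D => q.out) where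
  exists_rep x := by
    obtain ⟨u, d, hu, hd, h⟩ := DoubleCoset.mk_out_eq_mul U D x
    refine ⟨DoubleCoset.mk U D x, ⟨u⁻¹, U.inv_mem hu⟩, ⟨d⁻¹, D.inv_mem hd⟩, ?_⟩
    show x = u⁻¹ * (DoubleCoset.mk U D x).out * d⁻¹
    rw [h]
    group
  unique i j u u' d d' h := by
    rw [← DoubleCoset.out_eq' U D i, ← DoubleCoset.out_eq' U D j, DoubleCoset.eq]
    refine ⟨(u' : Γ)⁻¹ * (u : Γ), U.mul_mem (U.inv_mem u'.2) u.2, (d : Γ) * (d' : Γ)⁻¹,
      D.mul_mem d.2 (D.inv_mem d'.2), ?_⟩
    have h' : j.out = (u' : Γ)⁻¹ * ((u' : Γ) * j.out * (d' : Γ)) * (d' : Γ)⁻¹ := by group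
    rw [h', ← h]
    group

/-- `U \ Γ / D` is finite if `U` has finite index. -/
theorem finite_doubleCosetQuotient [U.FiniteIndex] :
    Finite (DoubleCoset.Quotient (U : Set Γ) D) := by
  have : Finite (Quotient (QuotientGroup.rightRel U)) :=
    Finite.of_equiv _ (QuotientGroup.quotientRightRelEquivQuotientLeftRel U).symm
  refine Finite.of_surjective
    (Quotient.map' (s₁ := QuotientGroup.rightRel U) (s₂ := DoubleCoset.setoid (U : Set Γ) D)
      id ?_) ?_
  · intro a b hab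
    rw [QuotientGroup.rightRel_apply] at hab
    show (DoubleCoset.setoid (U : Set Γ) D) a b
    rw [DoubleCoset.rel_iff]
    exact ⟨b * a⁻¹, hab, 1, D.one_mem, by group⟩
  · intro q
    obtain ⟨x, rfl⟩ := Quotient.mk_surjective q
    exact ⟨Quotient.mk _ x, rfl⟩

variable {U D} {ι : Type} (r : ι → Γ)

/-- The product of the Mackey coefficient maps over a family `r : ι → Γ`. -/
def mackPi (σ : Representation k U A) :
    Representation.coindV U.subtype σ →ₗ[k]
      (∀ i, Representation.coindV (conjSub U D (r i)).subtype (σ.comp (conjHom U D (r i)))) :=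
  LinearMap.pi fun i => mackLin σ (r i)

lemma mackPi_apply (σ : Representation k U A) (φ : Representation.coindV U.subtype σ) (i : ι) :
    mackPi (D := D) r σ φ i = mackLin σ (r i) φ := rfl

lemma mackPi_equivariant (σ : Representation k U A) (d : D)
    (φ : Representation.coindV U.subtype σ) :
    mackPi r σ (((Representation.coind U.subtype σ).comp D.subtype) d φ) =
      piRep (fun i => Representation.coind (conjSub U D (r i)).subtype
        (σ.comp (conjHom U D (r i)))) d (mackPi r σ φ) :=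
  funext fun i => mackLin_equivariant σ (r i) d φ

variable {r}

lemma mackPi_injective (hr : IsDoubleCosetReps U D r) (σ : Representation k U A) :
    Function.Injective (mackPi (D := D) r σ) := by
  rw [injective_iff_map_eq_zero]
  intro φ hφ
  apply Subtype.ext
  funext x
  obtain ⟨i, u, d, rfl⟩ := hr.exists_rep x
  have h1 : φ.1 ((u : Γ) * (r i * (d : Γ))) = σ u (φ.1 (r i * (d : Γ))) := φ.2 u _
  have h2 : φ.1 (r i * (d : Γ)) = 0 := congrFun (congrArg Subtype.val (congrFun hφ i)) d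
  rw [mul_assoc, h1, h2, map_zero]
  rfl

/-- key well-definedness: a family `ψ` of coinduced functions gives the same value at
`u r_i d = u' r_i d'`. -/
lemma mack_key (σ : Representation k U A) (i : ι)
    (ψ : Representation.coindV (conjSub U D (r i)).subtype (σ.comp (conjHom U D (r i))))
    (u u' : U) (d d' : D) (h : (u : Γ) * r i * (d : Γ) = (u' : Γ) * r i * (d' : Γ)) :
    σ u (ψ.1 d) = σ u' (ψ.1 d') := by
  have he : r i * ((d' * d⁻¹ : D) : Γ) * (r i)⁻¹ = ((u'⁻¹ * u : U) : Γ) := by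
    have h1 : r i * (d' : Γ) = (u' : Γ)⁻¹ * ((u' : Γ) * r i * (d' : Γ)) := by group
    have h2 : r i * ((d' * d⁻¹ : D) : Γ) * (r i)⁻¹ =
        r i * (d' : Γ) * (d : Γ)⁻¹ * (r i)⁻¹ := by
      rw [Subgroup.coe_mul, Subgroup.coe_inv]
      group
    rw [h2, h1, ← h, Subgroup.coe_mul, Subgroup.coe_inv]
    group
  let e : conjSub U D (r i) := ⟨d' * d⁻¹, by
    show r i * ((d' * d⁻¹ : D) : Γ) * (r i)⁻¹ ∈ U
    rw [he]
    exact (u'⁻¹ * u).2⟩
  have hce : conjHom U D (r i) e = u'⁻¹ * u := Subtype.ext he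
  have h3 : ψ.1 ((e : D) * d) = σ (conjHom U D (r i) e) (ψ.1 d) := ψ.2 e d
  have h4 : (e : D) * d = d' := by
    show d' * d⁻¹ * d = d'
    group
  rw [h4, hce] at h3
  rw [h3, ← Module.End.mul_apply, ← map_mul, mul_inv_cancel_left]

lemma mackPi_surjective (hr : IsDoubleCosetReps U D r) (σ : Representation k U A) :
    Function.Surjective (mackPi (D := D) r σ) := by
  classical
  intro ψ
  choose ix ux dx hx using hr.exists_rep
  have huniq : ∀ (x : Γ) (i : ι) (u : U) (d : D), x = (u : Γ) * r i * (d : Γ) →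
      σ (ux x) ((ψ (ix x)).1 (dx x)) = σ u ((ψ i).1 d) := by
    intro x i u d h
    have hi : ix x = i := hr.unique _ _ _ _ _ _ ((hx x).symm.trans h)
    have key : ∀ j, j = i → ∀ (u' : U) (d' : D), x = (u' : Γ) * r j * (d' : Γ) →
        σ u' ((ψ j).1 d') = σ u ((ψ i).1 d) := by
      rintro j rfl u' d' h'
      exact mack_key σ j (ψ j) u' u d' d (h'.symm.trans h)
    exact key _ hi _ _ (hx x)
  refine ⟨⟨fun x => σ (ux x) ((ψ (ix x)).1 (dx x)), fun v x => ?_⟩, ?_⟩
  · show σ (ux ((v : Γ) * x)) ((ψ (ix ((v : Γ) * x))).1 (dx ((v : Γ) * x))) =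
      σ v (σ (ux x) ((ψ (ix x)).1 (dx x)))
    have hvx : (v : Γ) * x = ((v * ux x : U) : Γ) * r (ix x) * (dx x : Γ) := by
      rw [Subgroup.coe_mul, mul_assoc, mul_assoc, ← mul_assoc _ (r (ix x)), ← hx x]
    rw [huniq _ (ix x) (v * ux x) (dx x) hvx, map_mul, Module.End.mul_apply]
  · funext i
    apply Subtype.ext
    funext d
    show σ (ux (r i * (d : Γ))) ((ψ (ix (r i * (d : Γ)))).1 (dx (r i * (d : Γ)))) = (ψ i).1 d
    have h1 : r i * (d : Γ) = ((1 : U) : Γ) * r i * (d : Γ) := by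
      rw [Subgroup.coe_one, one_mul]
    rw [huniq _ i 1 d h1, map_one, Module.End.one_apply]

lemma mackPi_bijective (hr : IsDoubleCosetReps U D r) (σ : Representation k U A) :
    Function.Bijective (mackPi (D := D) r σ) :=
  ⟨mackPi_injective hr σ, mackPi_surjective hr σ⟩

/-! ### The Mackey decomposition on cohomology -/

variable (U D) (r)

/-- **Mackey decomposition**: for a finite system `r` of representatives of `U \ Γ / D`,
`Hⁿ(D; coind_U^Γ A) → ∏_i Hⁿ(D ∩ r_i⁻¹ U r_i; A^{r_i})`, `x ↦ (mack (r i) x)_i`, is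
bijective. -/
theorem mackey_bijective [Finite ι] (hU : ∃ N ∈ L.lev, N ≤ U) (hcts : L.IsCts Lv D.subtype)
    (σ : Representation k U A) (hσ : (subLev L U).IsSmooth σ)
    (hr : IsDoubleCosetReps U D r) (n : ℕ) :
    Function.Bijective
      (LinearMap.pi fun i => (mack L U D Lv hU hcts σ hσ (r i)).mapH n) := by
  have hX := hcts.isSmooth (coind_smooth L U hU σ hσ)
  have hσi : ∀ i, (subLev Lv (conjSub U D (r i))).IsSmooth (σ.comp (conjHom U D (r i))) :=
    fun i => (isCts_conjHom L U D Lv hcts (r i)).isSmooth hσ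
  have hρi : ∀ i, Lv.IsSmooth (Representation.coind (conjSub U D (r i)).subtype
      (σ.comp (conjHom U D (r i)))) := fun i =>
    coind_smooth Lv (conjSub U D (r i)) (conjSub_open L U D Lv hU hcts (r i)) _ (hσi i)
  exact pi_mapH_bijective_of_comp
    (Lv.mapCoeff hX (piRep_smooth Lv _ hρi) (mackPi r σ) (mackPi_equivariant r σ))
    (toPi Lv _ hρi)
    (fun i => sh Lv (conjSub U D (r i)) (conjSub_open L U D Lv hU hcts (r i))
      (σ.comp (conjHom U D (r i))) (hσi i))
    (fun i => mack L U D Lv hU hcts σ hσ (r i))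
    (fun i n x => rfl) n
    (mapCoeff_mapH_bijective Lv hX (piRep_smooth Lv _ hρi) (mackPi r σ)
      (mackPi_equivariant r σ) (mackPi_bijective hr σ) n)
    (toPi_mapH_bijective Lv _ hρi n)
    (fun i => shapiro_bijective Lv (conjSub U D (r i))
      (conjSub_open L U D Lv hU hcts (r i)) n A (σ.comp (conjHom U D (r i))) (hσi i))

/-- The Mackey decomposition as a linear equivalence. -/
noncomputable def mackeyEquiv [Finite ι] (hU : ∃ N ∈ L.lev, N ≤ U)
    (hcts : L.IsCts Lv D.subtype) (σ : Representation k U A) (hσ : (subLev L U).IsSmooth σ)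
    (hr : IsDoubleCosetReps U D r) (n : ℕ) :
    (Lv.cx (M := Representation.coindV U.subtype σ)
        ((Representation.coind U.subtype σ).comp D.subtype)
        (hcts.isSmooth (coind_smooth L U hU σ hσ))).H n ≃ₗ[k]
      ∀ i, ((subLev Lv (conjSub U D (r i))).cx (σ.comp (conjHom U D (r i)))
        ((isCts_conjHom L U D Lv hcts (r i)).isSmooth hσ)).H n :=
  LinearEquiv.ofBijective _ (mackey_bijective L U D Lv r hU hcts σ hσ hr n)

lemma mackeyEquiv_apply [Finite ι] (hU : ∃ N ∈ L.lev, N ≤ U) (hcts : L.IsCts Lv D.subtype)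
    (σ : Representation k U A) (hσ : (subLev L U).IsSmooth σ)
    (hr : IsDoubleCosetReps U D r) (n : ℕ)
    (x : (Lv.cx (M := Representation.coindV U.subtype σ)
        ((Representation.coind U.subtype σ).comp D.subtype)
        (hcts.isSmooth (coind_smooth L U hU σ hσ))).H n) (i : ι) :
    mackeyEquiv L U D Lv r hU hcts σ hσ hr n x i =
      (mack L U D Lv hU hcts σ hσ (r i)).mapH n x := rfl

/-! ### Compatibility with restriction from `Γ` and the Shapiro map -/

/-- On cochains: `mack g ∘ res^Γ_D = res_{conjHom g} ∘ sh ∘ (conjugation by g)`. -/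
theorem mack_res (hU : ∃ N ∈ L.lev, N ≤ U) (hcts : L.IsCts Lv D.subtype)
    (σ : Representation k U A) (hσ : (subLev L U).IsSmooth σ) (g : Γ) (n : ℕ)
    (f : (L.cx (Representation.coind U.subtype σ) (coind_smooth L U hU σ hσ)).X n) :
    (mack L U D Lv hU hcts σ hσ g).f n
        ((L.res Lv hcts (Representation.coind U.subtype σ) (coind_smooth L U hU σ hσ)
          (hcts.isSmooth (coind_smooth L U hU σ hσ))).f n f) =
      ((subLev L U).res (subLev Lv (conjSub U D g)) (isCts_conjHom L U D Lv hcts g) σ hσ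
          ((isCts_conjHom L U D Lv hcts g).isSmooth hσ)).f n
        ((sh L U hU σ hσ).f n
          ((innerHom L g (Representation.coind U.subtype σ)
            (coind_smooth L U hU σ hσ)).f n f)) := by
  apply Subtype.ext
  funext d
  show (f.1 (D.subtype ∘ ((conjSub U D g).subtype ∘ d))).1 (g * (((1 : conjSub U D g) : D) : Γ))
    = (f.1 (conjInv g ∘ (U.subtype ∘ (conjHom U D g ∘ d)))).1 (1 * g)
  have h1 : conjInv g ∘ (U.subtype ∘ (conjHom U D g ∘ d)) =
      D.subtype ∘ ((conjSub U D g).subtype ∘ d) := by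
    funext i
    show conjInv g (g * ((d i : D) : Γ) * g⁻¹) = ((d i : D) : Γ)
    rw [conjInv_apply]
    group
  have h2 : g * (((1 : conjSub U D g) : D) : Γ) = 1 * g := by
    simp
  rw [h1, h2]

/-- On cohomology: `mack g ∘ res^Γ_D = res_{conjHom g} ∘ sh`. -/
theorem mack_mapH_res (hU : ∃ N ∈ L.lev, N ≤ U) (hcts : L.IsCts Lv D.subtype)
    (σ : Representation k U A) (hσ : (subLev L U).IsSmooth σ) (g : Γ) (n : ℕ)
    (x : (L.cx (Representation.coind U.subtype σ) (coind_smooth L U hU σ hσ)).H n) :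
    (mack L U D Lv hU hcts σ hσ g).mapH n
        ((L.res Lv hcts (Representation.coind U.subtype σ) (coind_smooth L U hU σ hσ)
          (hcts.isSmooth (coind_smooth L U hU σ hσ))).mapH n x) =
      ((subLev L U).res (subLev Lv (conjSub U D g)) (isCts_conjHom L U D Lv hcts g) σ hσ
          ((isCts_conjHom L U D Lv hcts g).isSmooth hσ)).mapH n
        ((sh L U hU σ hσ).mapH n x) :=
  mapH_comm_of_comm_twist _ _ (innerHom L g (Representation.coind U.subtype σ)
      (coind_smooth L U hU σ hσ)) _ _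
    (fun n f => mack_res L U D Lv hU hcts σ hσ g n f) n
    (fun x => innerHom_mapH L g n _ _ _ x) x

/-- **Mackey, kernel form.** A class of `Hⁿ(Γ; coind_U^Γ A)` dies in `Hⁿ(D; coind_U^Γ A)` iff
its Shapiro image in `Hⁿ(U; A)` dies under restriction along `conjHom (r i)` for every double
coset representative `r i`. -/
theorem res_mapH_eq_zero_iff [Finite ι] (hU : ∃ N ∈ L.lev, N ≤ U)
    (hcts : L.IsCts Lv D.subtype) (σ : Representation k U A) (hσ : (subLev L U).IsSmooth σ)
    (hr : IsDoubleCosetReps U D r) (n : ℕ)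
    (x : (L.cx (Representation.coind U.subtype σ) (coind_smooth L U hU σ hσ)).H n) :
    (L.res Lv hcts (Representation.coind U.subtype σ) (coind_smooth L U hU σ hσ)
        (hcts.isSmooth (coind_smooth L U hU σ hσ))).mapH n x = 0 ↔
      ∀ i, ((subLev L U).res (subLev Lv (conjSub U D (r i)))
          (isCts_conjHom L U D Lv hcts (r i)) σ hσ
          ((isCts_conjHom L U D Lv hcts (r i)).isSmooth hσ)).mapH n
        ((sh L U hU σ hσ).mapH n x) = 0 := by
  constructor
  · intro h i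
    rw [← mack_mapH_res L U D Lv hU hcts σ hσ (r i) n x, h, map_zero]
  · intro h
    apply (mackey_bijective L U D Lv r hU hcts σ hσ hr n).1
    rw [map_zero]
    funext i
    show (mack L U D Lv hU hcts σ hσ (r i)).mapH n _ = 0
    rw [mack_mapH_res, h i]

/-- **Mackey, kernel form, all conjugates.** -/
theorem res_mapH_eq_zero_iff_forall (hU : ∃ N ∈ L.lev, N ≤ U)
    (hcts : L.IsCts Lv D.subtype) (σ : Representation k U A) (hσ : (subLev L U).IsSmooth σ)
    (n : ℕ) (x : (L.cx (Representation.coind U.subtype σ) (coind_smooth L U hU σ hσ)).H n) :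
    (L.res Lv hcts (Representation.coind U.subtype σ) (coind_smooth L U hU σ hσ)
        (hcts.isSmooth (coind_smooth L U hU σ hσ))).mapH n x = 0 ↔
      ∀ g : Γ, ((subLev L U).res (subLev Lv (conjSub U D g))
          (isCts_conjHom L U D Lv hcts g) σ hσ
          ((isCts_conjHom L U D Lv hcts g).isSmooth hσ)).mapH n
        ((sh L U hU σ hσ).mapH n x) = 0 := by
  constructor
  · intro h g
    rw [← mack_mapH_res L U D Lv hU hcts σ hσ g n x, h, map_zero]
  · intro h
    obtain ⟨N₀, hN₀, hN₀U⟩ := hU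
    have := L.finiteIndex N₀ hN₀
    have hUfin : U.FiniteIndex := Subgroup.finiteIndex_of_le hN₀U
    have := finite_doubleCosetQuotient U D
    exact (res_mapH_eq_zero_iff L U D Lv _ ⟨N₀, hN₀, hN₀U⟩ hcts σ hσ
      (isDoubleCosetReps_out U D) n x).2 fun i => h _

end Mackey

/-! ### The `U`-side: the local groups `U ∩ g D g⁻¹` -/

section ConjLocal

variable {Γ : Type} [Group Γ] (L : LevelSys Γ) (U : Subgroup Γ) (D : Subgroup Γ)
  (Lv : LevelSys D)
variable {k : Type} [CommRing k] {A : Type} [AddCommGroup A] [Module k A]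

/-- `(W, LW)` is the leveled group `U ∩ g D g⁻¹`, its levels being those of `D` transported by
conjugation with `g` (up to cofinality). -/
structure IsConjLocal (g : Γ) (W : Subgroup Γ) (LW : LevelSys W) : Prop where
  mem_iff : ∀ x : Γ, x ∈ W ↔ x ∈ U ∧ g⁻¹ * x * g ∈ D
  lev_le : ∀ N ∈ Lv.lev, ∃ N' ∈ LW.lev, ∀ w ∈ N', ∀ d : D, (d : Γ) = g⁻¹ * (w : Γ) * g → d ∈ N
  le_lev : ∀ N' ∈ LW.lev, ∃ N ∈ Lv.lev, ∀ d ∈ N, ∀ w : W, (w : Γ) = g * (d : Γ) * g⁻¹ → w ∈ N'

variable {U D Lv} {g : Γ} {W : Subgroup Γ} {LW : LevelSys W}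

namespace IsConjLocal

lemma le (h : IsConjLocal U D Lv g W LW) : W ≤ U := fun x hx => ((h.mem_iff x).1 hx).1

/-- Conjugation by `g` as an isomorphism `D ∩ g⁻¹Ug ≃ U ∩ gDg⁻¹ = W`. -/
def equiv (h : IsConjLocal U D Lv g W LW) : conjSub U D g ≃* W where
  toFun d := ⟨g * ((d : D) : Γ) * g⁻¹, (h.mem_iff _).2 ⟨d.2, by
    have e : g⁻¹ * (g * ((d : D) : Γ) * g⁻¹) * g = ((d : D) : Γ) := by group
    rw [e]
    exact (d : D).2⟩⟩
  invFun w := ⟨⟨g⁻¹ * (w : Γ) * g, ((h.mem_iff w).1 w.2).2⟩, by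
    show g * (g⁻¹ * (w : Γ) * g) * g⁻¹ ∈ U
    have e : g * (g⁻¹ * (w : Γ) * g) * g⁻¹ = (w : Γ) := by group
    rw [e]
    exact h.le w.2⟩
  left_inv d := by
    apply Subtype.ext
    apply Subtype.ext
    show g⁻¹ * (g * ((d : D) : Γ) * g⁻¹) * g = ((d : D) : Γ)
    group
  right_inv w := by
    apply Subtype.ext
    show g * (g⁻¹ * (w : Γ) * g) * g⁻¹ = (w : Γ)
    group
  map_mul' d d' := by
    apply Subtype.ext
    show g * (((d * d' : conjSub U D g) : D) : Γ) * g⁻¹ =
      (g * ((d : D) : Γ) * g⁻¹) * (g * ((d' : D) : Γ) * g⁻¹)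
    rw [Subgroup.coe_mul, Subgroup.coe_mul]
    group

lemma equiv_coe (h : IsConjLocal U D Lv g W LW) (d : conjSub U D g) :
    ((h.equiv d : W) : Γ) = g * ((d : D) : Γ) * g⁻¹ := rfl

lemma equiv_symm_coe (h : IsConjLocal U D Lv g W LW) (w : W) :
    (((h.equiv.symm w : conjSub U D g) : D) : Γ) = g⁻¹ * (w : Γ) * g := rfl

lemma isCts_equiv (h : IsConjLocal U D Lv g W LW) :
    LW.IsCts (subLev Lv (conjSub U D g)) h.equiv.toMonoidHom := by
  intro N' hN'
  obtain ⟨N, hN, hle⟩ := h.le_lev N' hN'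
  refine ⟨N.subgroupOf (conjSub U D g), ⟨N, hN, rfl⟩, fun d hd => ?_⟩
  exact hle (d : D) (Subgroup.mem_subgroupOf.mp hd) (h.equiv d) rfl

lemma isCts_equiv_symm (h : IsConjLocal U D Lv g W LW) :
    (subLev Lv (conjSub U D g)).IsCts LW h.equiv.symm.toMonoidHom := by
  rintro _ ⟨N, hN, rfl⟩
  obtain ⟨N', hN', hle⟩ := h.lev_le N hN
  refine ⟨N', hN', fun w hw => ?_⟩
  show ((h.equiv.symm w : conjSub U D g) : D) ∈ N
  exact hle w hw _ rfl

/-- The inclusion `W → U`. -/
def incl (h : IsConjLocal U D Lv g W LW) : W →* U := Subgroup.inclusion h.le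

lemma incl_coe (h : IsConjLocal U D Lv g W LW) (w : W) : ((h.incl w : U) : Γ) = (w : Γ) := rfl

lemma incl_equiv (h : IsConjLocal U D Lv g W LW) (d : conjSub U D g) :
    h.incl (h.equiv d) = conjHom U D g d := rfl

include L in
lemma isCts_incl (h : IsConjLocal U D Lv g W LW) (hcts : L.IsCts Lv D.subtype) :
    (subLev L U).IsCts LW h.incl := by
  rintro _ ⟨N, hN, rfl⟩
  obtain ⟨N₁, hN₁, hle₁⟩ := hcts N hN
  obtain ⟨N', hN', hle⟩ := h.lev_le N₁ hN₁
  have hn := L.normal N hN
  refine ⟨N', hN', fun w hw => ?_⟩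
  show (w : Γ) ∈ N
  have h1 : ((h.equiv.symm w : conjSub U D g) : D) ∈ N₁ := hle w hw _ rfl
  have h2 : g⁻¹ * (w : Γ) * g ∈ N := hle₁ h1
  have h3 := hn.conj_mem _ h2 g
  have e : g * (g⁻¹ * (w : Γ) * g) * g⁻¹ = (w : Γ) := by group
  rwa [e] at h3

end IsConjLocal

/-- Restriction along `conjHom g : D ∩ g⁻¹Ug → U` kills a class iff restriction to
`W = U ∩ gDg⁻¹` does. -/
theorem res_conjHom_mapH_eq_zero_iff (h : IsConjLocal U D Lv g W LW)
    (hcts : L.IsCts Lv D.subtype) (σ : Representation k U A) (hσ : (subLev L U).IsSmooth σ)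
    (n : ℕ) (y : ((subLev L U).cx σ hσ).H n) :
    ((subLev L U).res (subLev Lv (conjSub U D g)) (isCts_conjHom L U D Lv hcts g) σ hσ
        ((isCts_conjHom L U D Lv hcts g).isSmooth hσ)).mapH n y = 0 ↔
      ((subLev L U).res LW (h.isCts_incl L hcts) σ hσ
        ((h.isCts_incl L hcts).isSmooth hσ)).mapH n y = 0 :=
  res_mapH_eq_zero_iff_of_mulEquiv (subLev L U) (subLev Lv (conjSub U D g)) LW
    (conjHom U D g) h.incl h.equiv (isCts_conjHom L U D Lv hcts g) (h.isCts_incl L hcts)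
    h.isCts_equiv h.isCts_equiv_symm (fun _ => rfl) σ hσ _ _ n y

/-- Transport by conjugation: `Hⁿ(W; A) → Hⁿ(D ∩ g⁻¹Ug; A^g)` is bijective. -/
theorem conjLocal_res_bijective (h : IsConjLocal U D Lv g W LW)
    (hcts : L.IsCts Lv D.subtype) (σ : Representation k U A) (hσ : (subLev L U).IsSmooth σ)
    (n : ℕ) :
    Function.Bijective ((LW.res (subLev Lv (conjSub U D g)) h.isCts_equiv (σ.comp h.incl)
      ((h.isCts_incl L hcts).isSmooth hσ)
      ((isCts_conjHom L U D Lv hcts g).isSmooth hσ)).mapH n) :=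
  res_mapH_bijective_of_mulEquiv LW (subLev Lv (conjSub U D g)) h.equiv h.isCts_equiv
    h.isCts_equiv_symm (σ.comp h.incl) _ _ n

/-- Transport by conjugation as a linear equivalence `Hⁿ(D ∩ g⁻¹Ug; A^g) ≃ Hⁿ(W; A)`. -/
noncomputable def conjLocalEquiv (h : IsConjLocal U D Lv g W LW)
    (hcts : L.IsCts Lv D.subtype) (σ : Representation k U A) (hσ : (subLev L U).IsSmooth σ)
    (n : ℕ) :
    ((subLev Lv (conjSub U D g)).cx (σ.comp (conjHom U D g))
        ((isCts_conjHom L U D Lv hcts g).isSmooth hσ)).H n ≃ₗ[k]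
      (LW.cx (σ.comp h.incl) ((h.isCts_incl L hcts).isSmooth hσ)).H n :=
  (LinearEquiv.ofBijective _ (conjLocal_res_bijective L h hcts σ hσ n)).symm

end ConjLocal

/-! ### Mackey on the `U`-side: the localisation square -/

section Final

variable {Γ : Type} [Group Γ] (L : LevelSys Γ) (U : Subgroup Γ) (D : Subgroup Γ)
  (Lv : LevelSys D)
variable {k : Type} [CommRing k] {A : Type} [AddCommGroup A] [Module k A]

/-- **Mackey, kernel form, `U`-side.** A class `x ∈ Hⁿ(Γ; coind_U^Γ A)` dies in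
`Hⁿ(D; coind_U^Γ A)` iff its Shapiro image in `Hⁿ(U; A)` dies on all local groups
`W g = U ∩ g D g⁻¹`. -/
theorem res_mapH_eq_zero_iff_conjLocal (hU : ∃ N ∈ L.lev, N ≤ U)
    (hcts : L.IsCts Lv D.subtype) (σ : Representation k U A) (hσ : (subLev L U).IsSmooth σ)
    (W : Γ → Subgroup Γ) (LW : ∀ g, LevelSys (W g))
    (hW : ∀ g, IsConjLocal U D Lv g (W g) (LW g)) (n : ℕ)
    (x : (L.cx (Representation.coind U.subtype σ) (coind_smooth L U hU σ hσ)).H n) :
    (L.res Lv hcts (Representation.coind U.subtype σ) (coind_smooth L U hU σ hσ)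
        (hcts.isSmooth (coind_smooth L U hU σ hσ))).mapH n x = 0 ↔
      ∀ g : Γ, ((subLev L U).res (LW g) ((hW g).isCts_incl L hcts) σ hσ
          (((hW g).isCts_incl L hcts).isSmooth hσ)).mapH n
        ((sh L U hU σ hσ).mapH n x) = 0 := by
  rw [res_mapH_eq_zero_iff_forall L U D Lv hU hcts σ hσ n x]
  exact forall_congr' fun g => res_conjHom_mapH_eq_zero_iff L (hW g) hcts σ hσ n _

variable {ι : Type} (r : ι → Γ)

/-- **Mackey, kernel form, `U`-side, over double coset representatives.** -/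
theorem res_mapH_eq_zero_iff_conjLocal_reps [Finite ι] (hU : ∃ N ∈ L.lev, N ≤ U)
    (hcts : L.IsCts Lv D.subtype) (σ : Representation k U A) (hσ : (subLev L U).IsSmooth σ)
    (hr : IsDoubleCosetReps U D r)
    (W : ι → Subgroup Γ) (LW : ∀ i, LevelSys (W i))
    (hW : ∀ i, IsConjLocal U D Lv (r i) (W i) (LW i)) (n : ℕ)
    (x : (L.cx (Representation.coind U.subtype σ) (coind_smooth L U hU σ hσ)).H n) :
    (L.res Lv hcts (Representation.coind U.subtype σ) (coind_smooth L U hU σ hσ)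
        (hcts.isSmooth (coind_smooth L U hU σ hσ))).mapH n x = 0 ↔
      ∀ i, ((subLev L U).res (LW i) ((hW i).isCts_incl L hcts) σ hσ
          (((hW i).isCts_incl L hcts).isSmooth hσ)).mapH n
        ((sh L U hU σ hσ).mapH n x) = 0 := by
  rw [res_mapH_eq_zero_iff L U D Lv r hU hcts σ hσ hr n x]
  exact forall_congr' fun i => res_conjHom_mapH_eq_zero_iff L (hW i) hcts σ hσ n _

/-- **Mackey decomposition, `U`-side**: `Hⁿ(D; coind_U^Γ A) ≃ ∏_i Hⁿ(U ∩ r_i D r_i⁻¹; A)`. -/
noncomputable def mackeyEquivConj [Finite ι] (hU : ∃ N ∈ L.lev, N ≤ U)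
    (hcts : L.IsCts Lv D.subtype) (σ : Representation k U A) (hσ : (subLev L U).IsSmooth σ)
    (hr : IsDoubleCosetReps U D r)
    (W : ι → Subgroup Γ) (LW : ∀ i, LevelSys (W i))
    (hW : ∀ i, IsConjLocal U D Lv (r i) (W i) (LW i)) (n : ℕ) :
    (Lv.cx (M := Representation.coindV U.subtype σ)
        ((Representation.coind U.subtype σ).comp D.subtype)
        (hcts.isSmooth (coind_smooth L U hU σ hσ))).H n ≃ₗ[k]
      ∀ i, ((LW i).cx (σ.comp (hW i).incl) (((hW i).isCts_incl L hcts).isSmooth hσ)).H n :=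
  (mackeyEquiv L U D Lv r hU hcts σ hσ hr n).trans
    (LinearEquiv.piCongrRight fun i => conjLocalEquiv L (hW i) hcts σ hσ n)

/-- The defining property of `mackeyEquivConj`: transported back by conjugation, its `i`-th
component is the Mackey map `mack (r i)`. -/
theorem mackeyEquivConj_spec [Finite ι] (hU : ∃ N ∈ L.lev, N ≤ U)
    (hcts : L.IsCts Lv D.subtype) (σ : Representation k U A) (hσ : (subLev L U).IsSmooth σ)
    (hr : IsDoubleCosetReps U D r)
    (W : ι → Subgroup Γ) (LW : ∀ i, LevelSys (W i))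
    (hW : ∀ i, IsConjLocal U D Lv (r i) (W i) (LW i)) (n : ℕ)
    (x : (Lv.cx (M := Representation.coindV U.subtype σ)
        ((Representation.coind U.subtype σ).comp D.subtype)
        (hcts.isSmooth (coind_smooth L U hU σ hσ))).H n) (i : ι) :
    ((LW i).res (subLev Lv (conjSub U D (r i))) (hW i).isCts_equiv (σ.comp (hW i).incl)
        (((hW i).isCts_incl L hcts).isSmooth hσ)
        ((isCts_conjHom L U D Lv hcts (r i)).isSmooth hσ)).mapH n
      (mackeyEquivConj L U D Lv r hU hcts σ hσ hr W LW hW n x i) =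
    (mack L U D Lv hU hcts σ hσ (r i)).mapH n x :=
  (LinearEquiv.ofBijective _ (conjLocal_res_bijective L (hW i) hcts σ hσ n)).apply_symm_apply _

/-- **The localisation square.** Under Shapiro `Hⁿ(Γ; coind_U^Γ A) ≃ Hⁿ(U; A)` and the Mackey
decomposition `Hⁿ(D; coind_U^Γ A) ≃ ∏_i Hⁿ(U ∩ r_i D r_i⁻¹; A)`, restriction from `Γ` to `D`
becomes the family of restrictions from `U` to the local groups `U ∩ r_i D r_i⁻¹`. -/
theorem mackeyEquivConj_res [Finite ι] (hU : ∃ N ∈ L.lev, N ≤ U)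
    (hcts : L.IsCts Lv D.subtype) (σ : Representation k U A) (hσ : (subLev L U).IsSmooth σ)
    (hr : IsDoubleCosetReps U D r)
    (W : ι → Subgroup Γ) (LW : ∀ i, LevelSys (W i))
    (hW : ∀ i, IsConjLocal U D Lv (r i) (W i) (LW i)) (n : ℕ)
    (x : (L.cx (Representation.coind U.subtype σ) (coind_smooth L U hU σ hσ)).H n) (i : ι) :
    mackeyEquivConj L U D Lv r hU hcts σ hσ hr W LW hW n
        ((L.res Lv hcts (Representation.coind U.subtype σ) (coind_smooth L U hU σ hσ)
          (hcts.isSmooth (coind_smooth L U hU σ hσ))).mapH n x) i =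
      ((subLev L U).res (LW i) ((hW i).isCts_incl L hcts) σ hσ
          (((hW i).isCts_incl L hcts).isSmooth hσ)).mapH n
        ((sh L U hU σ hσ).mapH n x) := by
  apply (conjLocal_res_bijective L (hW i) hcts σ hσ n).1
  rw [mackeyEquivConj_spec, mack_mapH_res]
  have hc : ((subLev L U).res (subLev Lv (conjSub U D (r i)))
      (isCts_conjHom L U D Lv hcts (r i)) σ hσ
      ((isCts_conjHom L U D Lv hcts (r i)).isSmooth hσ)) =
      ((LW i).res (subLev Lv (conjSub U D (r i))) (hW i).isCts_equiv (σ.comp (hW i).incl)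
        (((hW i).isCts_incl L hcts).isSmooth hσ)
        ((isCts_conjHom L U D Lv hcts (r i)).isSmooth hσ)).comp
      ((subLev L U).res (LW i) ((hW i).isCts_incl L hcts) σ hσ
        (((hW i).isCts_incl L hcts).isSmooth hσ)) :=
    Cx.Hom.ext fun n x => rfl
  rw [hc]
  exact Cx.Hom.mapH_comp _ _ n _

end Final

section Finrank

variable {Γ : Type} [Group Γ] (L : LevelSys Γ) (U : Subgroup Γ) (D : Subgroup Γ)
  (Lv : LevelSys D)
variable {k : Type} [Field k] {A : Type} [AddCommGroup A] [Module k A]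
variable {ι : Type} [Fintype ι] (r : ι → Γ)

/-- **Mackey, dimension form** (`D`-side). -/
theorem finrank_mackey (hU : ∃ N ∈ L.lev, N ≤ U) (hcts : L.IsCts Lv D.subtype)
    (σ : Representation k U A) (hσ : (subLev L U).IsSmooth σ)
    (hr : IsDoubleCosetReps U D r) (n : ℕ)
    (hfin : ∀ i, Module.Finite k (((subLev Lv (conjSub U D (r i))).cx
      (σ.comp (conjHom U D (r i))) ((isCts_conjHom L U D Lv hcts (r i)).isSmooth hσ)).H n)) :
    Module.finrank k ((Lv.cx (M := Representation.coindV U.subtype σ)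
        ((Representation.coind U.subtype σ).comp D.subtype)
        (hcts.isSmooth (coind_smooth L U hU σ hσ))).H n) =
      ∑ i, Module.finrank k (((subLev Lv (conjSub U D (r i))).cx
        (σ.comp (conjHom U D (r i))) ((isCts_conjHom L U D Lv hcts (r i)).isSmooth hσ)).H n) := by
  rw [(mackeyEquiv L U D Lv r hU hcts σ hσ hr n).finrank_eq, Module.finrank_pi_fintype]

/-- **Mackey, dimension form** (`U`-side):
`dim Hⁿ(D; coind_U^Γ A) = ∑_i dim Hⁿ(U ∩ r_i D r_i⁻¹; A)`. -/
theorem finrank_mackeyConj (hU : ∃ N ∈ L.lev, N ≤ U) (hcts : L.IsCts Lv D.subtype)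
    (σ : Representation k U A) (hσ : (subLev L U).IsSmooth σ)
    (hr : IsDoubleCosetReps U D r)
    (W : ι → Subgroup Γ) (LW : ∀ i, LevelSys (W i))
    (hW : ∀ i, IsConjLocal U D Lv (r i) (W i) (LW i)) (n : ℕ)
    (hfin : ∀ i, Module.Finite k (((LW i).cx (σ.comp (hW i).incl)
      (((hW i).isCts_incl L hcts).isSmooth hσ)).H n)) :
    Module.finrank k ((Lv.cx (M := Representation.coindV U.subtype σ)
        ((Representation.coind U.subtype σ).comp D.subtype)
        (hcts.isSmooth (coind_smooth L U hU σ hσ))).H n) =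
      ∑ i, Module.finrank k (((LW i).cx (σ.comp (hW i).incl)
        (((hW i).isCts_incl L hcts).isSmooth hσ)).H n) := by
  rw [(mackeyEquivConj L U D Lv r hU hcts σ hσ hr W LW hW n).finrank_eq,
    Module.finrank_pi_fintype]

/-- Finiteness transfers along the Mackey decomposition (`U`-side). -/
theorem finite_mackeyConj (hU : ∃ N ∈ L.lev, N ≤ U) (hcts : L.IsCts Lv D.subtype)
    (σ : Representation k U A) (hσ : (subLev L U).IsSmooth σ)
    (hr : IsDoubleCosetReps U D r)
    (W : ι → Subgroup Γ) (LW : ∀ i, LevelSys (W i))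
    (hW : ∀ i, IsConjLocal U D Lv (r i) (W i) (LW i)) (n : ℕ)
    (hfin : ∀ i, Module.Finite k (((LW i).cx (σ.comp (hW i).incl)
      (((hW i).isCts_incl L hcts).isSmooth hσ)).H n)) :
    Module.Finite k ((Lv.cx (M := Representation.coindV U.subtype σ)
        ((Representation.coind U.subtype σ).comp D.subtype)
        (hcts.isSmooth (coind_smooth L U hU σ hσ))).H n) :=
  Module.Finite.equiv (mackeyEquivConj L U D Lv r hU hcts σ hσ hr W LW hW n).symm

end Finrank

end Fermat.Agent.PT.Shapiro
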