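/-
PT layer F/BASE joint: "no coordinate line" for the permutation modules.

For a Poitou–Tate datum `𝔇`, a representation `τ` on `k` and an open subgroup `U` of finite
index on which `τ` is trivial:

* `NoLine.permAugU` : the twisted augmentation `k[U\G] → k(τ)`, `x ↦ Σ_{gU} τ(g) x(g⁻¹)`,
  equivariant and surjective;
* `LocDatum.locH_not_surjective_of_noLine` : if the localisation map of `τ` in degree 2 has no
  coordinate line in its image (`noLine`) and some `H²_v(τ)` is non-zero, then it is not onto;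
* `LocDatum.locH_perm_not_surjective` : then the localisation map
  `H²(G; k[U\G]) → ∏_v H²_v(k[U\G])` is not onto either, provided `H³_v = 0` on finite smooth
  representations;
* the dimension forms `finrank_range_locH_perm_lt`, `nontrivial_Hc_three_perm`,
  `one_le_finrank_Hc_three_perm`, `finrank_Hc_three_perm_add`.
-/
import Mathlib
import Fermat.Agent.PT.Coh.EngineNat
import Fermat.Agent.PT.Coh.Engine
import Fermat.Agent.PT.Coh.Rex
import Fermat.Agent.PT.Coh.ShapiroTriv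

set_option autoImplicit false

namespace Fermat.Agent.PT

namespace NoLine

open Fermat.Agent.PT.Shapiro

section Aug

variable {k : Type} [CommRing k] {Γ : Type} [Group Γ] (τ : Representation k Γ k)
  (U : Subgroup Γ)

/-- The function `g U ↦ τ(g) (x(g⁻¹))` on `Γ ⧸ U` attached to `x ∈ k[U\Γ]`. -/
noncomputable def augFun (hτ : ∀ u ∈ U, τ u = 1)
    (x : Representation.coindV U.subtype (Representation.trivial k U k)) : Γ ⧸ U → k :=
  fun q => Quotient.liftOn' q (fun g => τ g (x.1 g⁻¹)) (by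
    intro a b hab
    rw [QuotientGroup.leftRel_apply] at hab
    have h1 := x.2 ⟨a⁻¹ * b, hab⟩ b⁻¹
    have h2 : U.subtype ⟨a⁻¹ * b, hab⟩ * b⁻¹ = a⁻¹ := by simp
    rw [h2] at h1
    have h3 : τ b = τ a := by
      calc τ b = τ (a * (a⁻¹ * b)) := by rw [mul_inv_cancel_left]
        _ = τ a := by rw [map_mul, hτ _ hab, mul_one]
    show τ a (x.1 a⁻¹) = τ b (x.1 b⁻¹)
    rw [h3]
    exact congrArg (τ a) h1)

lemma augFun_mk (hτ : ∀ u ∈ U, τ u = 1)
    (x : Representation.coindV U.subtype (Representation.trivial k U k)) (g : Γ) :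
    augFun τ U hτ x (g : Γ ⧸ U) = τ g (x.1 g⁻¹) := rfl

variable [U.FiniteIndex]

noncomputable local instance : Fintype (Γ ⧸ U) := Fintype.ofFinite _

/-- The twisted augmentation `k[U\Γ] → k(τ)`, `x ↦ Σ_{gU} τ(g) x(g⁻¹)`, for any subgroup `U` of
finite index on which `τ` is trivial. -/
noncomputable def permAugU (hτ : ∀ u ∈ U, τ u = 1) :
    Representation.coindV U.subtype (Representation.trivial k U k) →ₗ[k] k where
  toFun x := ∑ q : Γ ⧸ U, augFun τ U hτ x q
  map_add' x y := by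
    rw [← Finset.sum_add_distrib]
    refine Finset.sum_congr rfl fun q _ => ?_
    induction q using QuotientGroup.induction_on with
    | _ g => exact map_add (τ g) _ _
  map_smul' c x := by
    rw [RingHom.id_apply, Finset.smul_sum]
    refine Finset.sum_congr rfl fun q _ => ?_
    induction q using QuotientGroup.induction_on with
    | _ g => exact map_smul (τ g) c _

lemma permAugU_apply (hτ : ∀ u ∈ U, τ u = 1)
    (x : Representation.coindV U.subtype (Representation.trivial k U k)) :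
    permAugU τ U hτ x = ∑ q : Γ ⧸ U, augFun τ U hτ x q := rfl

/-- the augmentation is equivariant -/
lemma permAugU_equivariant (hτ : ∀ u ∈ U, τ u = 1) (g₀ : Γ)
    (x : Representation.coindV U.subtype (Representation.trivial k U k)) :
    permAugU τ U hτ (permRep U k g₀ x) = τ g₀ (permAugU τ U hτ x) := by
  rw [permAugU_apply, permAugU_apply, map_sum,
    ← Equiv.sum_comp (MulAction.toPerm g₀⁻¹ : Γ ⧸ U ≃ Γ ⧸ U)
      (fun q => τ g₀ (augFun τ U hτ x q))]
  refine Finset.sum_congr rfl fun q _ => ?_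
  induction q using QuotientGroup.induction_on with
  | _ g =>
    show augFun τ U hτ _ (g : Γ ⧸ U) = τ g₀ (augFun τ U hτ x (((g₀⁻¹ * g : Γ) : Γ ⧸ U)))
    rw [augFun_mk, augFun_mk, mul_inv_rev, inv_inv, ← Module.End.mul_apply, ← map_mul,
      mul_inv_cancel_left]
    rfl

open Classical in
/-- the indicator function of `U` in `k[U\Γ]` -/
noncomputable def permInd : Representation.coindV U.subtype (Representation.trivial k U k) :=
  ⟨fun g => if g ∈ U then 1 else 0, fun u g => by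
    show (if U.subtype u * g ∈ U then (1 : k) else 0) = if g ∈ U then 1 else 0
    rw [show U.subtype u * g ∈ U ↔ g ∈ U from Subgroup.mul_mem_cancel_left U u.2]⟩

omit [U.FiniteIndex] in
open Classical in
lemma permInd_apply (g : Γ) : (permInd (k := k) U).1 g = if g ∈ U then 1 else 0 := rfl

lemma permAugU_permInd (hτ : ∀ u ∈ U, τ u = 1) : permAugU τ U hτ (permInd U) = 1 := by
  classical
  rw [permAugU_apply, Finset.sum_eq_single ((1 : Γ) : Γ ⧸ U)]
  · rw [augFun_mk, inv_one, permInd_apply, if_pos U.one_mem,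
      show τ (1 : Γ) = 1 from map_one τ]
    rfl
  · intro q _ hq
    induction q using QuotientGroup.induction_on with
    | _ g =>
      have hg : g⁻¹ ∉ U := by
        intro h
        apply hq
        rw [QuotientGroup.eq]
        simpa using h
      rw [augFun_mk, permInd_apply, if_neg hg, map_zero]
  · intro h
    exact absurd (Finset.mem_univ _) h

/-- the augmentation is onto -/
lemma permAugU_surjective (hτ : ∀ u ∈ U, τ u = 1) :
    Function.Surjective (permAugU τ U hτ) := fun t =>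
  ⟨t • permInd U, by rw [map_smul, permAugU_permInd, smul_eq_mul, mul_one]⟩

end Aug

end NoLine

namespace LocDatum

open Module Fermat.Agent.PT.Shapiro

variable {G : Type} [Group G] (𝔇 : LocDatum G) {k : Type} [Field k]

/-- If the image of `H²(G; T) → ∏_v H²_v(T)` contains no coordinate line (`noLine`) and some
`H²_v(T)` is non-zero, then this localisation map is not onto. -/
theorem locH_not_surjective_of_noLine {T : Type} [AddCommGroup T] [Module k T]
    {τ : Representation k G T} (hτ : 𝔇.IsSmooth τ)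
    (hT2 : ∃ v, Nontrivial (𝔇.Hv τ hτ v 2))
    (noLine : ∀ (q₀ : 𝔇.ι) (x : 𝔇.H τ hτ 2),
      (∀ q : 𝔇.ι, q ≠ q₀ → 𝔇.locH τ hτ 2 x q = 0) → 𝔇.locH τ hτ 2 x q₀ = 0) :
    ¬ Function.Surjective (𝔇.locH τ hτ 2) := by
  classical
  obtain ⟨v, hv⟩ := hT2
  obtain ⟨t, ht⟩ := exists_ne (0 : 𝔇.Hv τ hτ v 2)
  intro hsurj
  obtain ⟨x, hx⟩ := hsurj (Pi.single v t)
  apply ht
  have h1 := noLine v x (fun q hq => by rw [hx, Pi.single_eq_of_ne hq])
  rw [hx, Pi.single_eq_same] at h1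
  exact h1

/-- `H³_c(T) ≠ 0` under the hypotheses of `locH_not_surjective_of_noLine`. -/
theorem nontrivial_Hc_three_of_noLine {T : Type} [AddCommGroup T] [Module k T]
    {τ : Representation k G T} (hτ : 𝔇.IsSmooth τ)
    (hT2 : ∃ v, Nontrivial (𝔇.Hv τ hτ v 2))
    (noLine : ∀ (q₀ : 𝔇.ι) (x : 𝔇.H τ hτ 2),
      (∀ q : 𝔇.ι, q ≠ q₀ → 𝔇.locH τ hτ 2 x q = 0) → 𝔇.locH τ hτ 2 x q₀ = 0) :
    Nontrivial (𝔇.Hc τ hτ 3) := by
  by_contra hcon
  rw [not_nontrivial_iff_subsingleton] at hcon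
  apply 𝔇.locH_not_surjective_of_noLine hτ hT2 noLine
  intro y
  exact (𝔇.exact_locH_ιc τ hτ 2 y).mp (Subsingleton.elim _ _)

section Perm

variable {τ : Representation k G k} (hτ : 𝔇.IsSmooth τ) (U : Subgroup G) [U.FiniteIndex]
  (hU : ∃ N ∈ 𝔇.L.lev, N ≤ U)

include hτ in
/-- **No coordinate line for the permutation modules.**  Let `τ` be trivial on the open subgroup
`U`.  If the localisation map of `τ` in degree 2 is not onto for the reason `noLine`, and
`H³_v` vanishes on finite smooth representations, then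
`H²(G; k[U\G]) → ∏_v H²_v(k[U\G])` is not onto. -/
theorem locH_perm_not_surjective (hτU : ∀ u ∈ U, τ u = 1)
    (hcdv : ∀ (M : Type) [AddCommGroup M] [Module k M] [Module.Finite k M]
      (ρ : Representation k G M) (hρ : 𝔇.IsSmooth ρ) (v : 𝔇.ι), Subsingleton (𝔇.Hv ρ hρ v 3))
    (hT2 : ∃ v, Nontrivial (𝔇.Hv τ hτ v 2))
    (noLine : ∀ (q₀ : 𝔇.ι) (x : 𝔇.H τ hτ 2),
      (∀ q : 𝔇.ι, q ≠ q₀ → 𝔇.locH τ hτ 2 x q = 0) → 𝔇.locH τ hτ 2 x q₀ = 0) :
    ¬ Function.Surjective (𝔇.locH (permRep U k) (permRep_smooth 𝔇.L U k hU) 2) := by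
  intro hsurj
  apply 𝔇.locH_not_surjective_of_noLine hτ hT2 noLine
  set π := NoLine.permAugU τ U hτU with hπdef
  have hπ : ∀ g m, π (permRep U k g m) = τ g (π m) := NoLine.permAugU_equivariant τ U hτU
  have hπs : Function.Surjective π := NoLine.permAugU_surjective τ U hτU
  have hX := permRep_smooth 𝔇.L U k hU
  have hfin : Module.Finite k
      (Representation.coindV U.subtype (Representation.trivial k U k)) := finite_perm U k
  have hloc : ∀ v, Function.Surjective ((𝔇.mapCv hX hτ π hπ v).mapH 2) := by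
    intro v
    have := hcdv (LinearMap.ker π)
      (Rex.subRep (permRep U k) (LinearMap.ker π) (Rex.ker_invariant π hπ))
      (Rex.subRep_smooth hX (LinearMap.ker π) (Rex.ker_invariant π hπ)) v
    exact 𝔇.mapCv_mapH_surjective
      (Rex.subRep_smooth hX (LinearMap.ker π) (Rex.ker_invariant π hπ)) hX hτ
      (LinearMap.ker π).subtype π (fun _ _ => rfl) hπ (Submodule.injective_subtype _)
      (LinearMap.exact_subtype_ker_map π) hπs v 2
  intro y
  choose z hz using fun v => hloc v (y v)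
  obtain ⟨x, hx⟩ := hsurj z
  refine ⟨(𝔇.mapC hX hτ π hπ).mapH 2 x, ?_⟩
  funext v
  rw [𝔇.locH_mapC hX hτ π hπ 2 x v, hx, hz]

include hτ in
/-- dimension form: the rank of `H²(G; k[U\G]) → ∏_v H²_v(k[U\G])` is at most
`Σ_v h²_v(k[U\G]) − 1`. -/
theorem finrank_range_locH_perm_lt (hτU : ∀ u ∈ U, τ u = 1)
    (hcdv : ∀ (M : Type) [AddCommGroup M] [Module k M] [Module.Finite k M]
      (ρ : Representation k G M) (hρ : 𝔇.IsSmooth ρ) (v : 𝔇.ι), Subsingleton (𝔇.Hv ρ hρ v 3))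
    (hT2 : ∃ v, Nontrivial (𝔇.Hv τ hτ v 2))
    (noLine : ∀ (q₀ : 𝔇.ι) (x : 𝔇.H τ hτ 2),
      (∀ q : 𝔇.ι, q ≠ q₀ → 𝔇.locH τ hτ 2 x q = 0) → 𝔇.locH τ hτ 2 x q₀ = 0)
    [∀ v, Module.Finite k (𝔇.Hv (permRep U k) (permRep_smooth 𝔇.L U k hU) v 2)] :
    finrank k (LinearMap.range (𝔇.locH (permRep U k) (permRep_smooth 𝔇.L U k hU) 2)) + 1 ≤
      ∑ v, finrank k (𝔇.Hv (permRep U k) (permRep_smooth 𝔇.L U k hU) v 2) := by
  have hns := 𝔇.locH_perm_not_surjective hτ U hU hτU hcdv hT2 noLine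
  rw [← Module.finrank_pi_fintype]
  have hlt : LinearMap.range (𝔇.locH (permRep U k) (permRep_smooth 𝔇.L U k hU) 2) < ⊤ := by
    rw [lt_top_iff_ne_top]
    intro h
    exact hns (LinearMap.range_eq_top.mp h)
  have := Submodule.finrank_lt_finrank_of_lt hlt
  rw [finrank_top] at this
  omega

include hτ in
/-- `H³_c(k[U\G]) ≠ 0` -/
theorem nontrivial_Hc_three_perm (hτU : ∀ u ∈ U, τ u = 1)
    (hcdv : ∀ (M : Type) [AddCommGroup M] [Module k M] [Module.Finite k M]
      (ρ : Representation k G M) (hρ : 𝔇.IsSmooth ρ) (v : 𝔇.ι), Subsingleton (𝔇.Hv ρ hρ v 3))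
    (hT2 : ∃ v, Nontrivial (𝔇.Hv τ hτ v 2))
    (noLine : ∀ (q₀ : 𝔇.ι) (x : 𝔇.H τ hτ 2),
      (∀ q : 𝔇.ι, q ≠ q₀ → 𝔇.locH τ hτ 2 x q = 0) → 𝔇.locH τ hτ 2 x q₀ = 0) :
    Nontrivial (𝔇.Hc (permRep U k) (permRep_smooth 𝔇.L U k hU) 3) := by
  by_contra hcon
  rw [not_nontrivial_iff_subsingleton] at hcon
  apply 𝔇.locH_perm_not_surjective hτ U hU hτU hcdv hT2 noLine
  intro y
  exact (𝔇.exact_locH_ιc (permRep U k) (permRep_smooth 𝔇.L U k hU) 2 y).mp
    (Subsingleton.elim _ _)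

include hτ in
/-- `1 ≤ h³_c(k[U\G])` -/
theorem one_le_finrank_Hc_three_perm (hτU : ∀ u ∈ U, τ u = 1)
    (hcdv : ∀ (M : Type) [AddCommGroup M] [Module k M] [Module.Finite k M]
      (ρ : Representation k G M) (hρ : 𝔇.IsSmooth ρ) (v : 𝔇.ι), Subsingleton (𝔇.Hv ρ hρ v 3))
    (hT2 : ∃ v, Nontrivial (𝔇.Hv τ hτ v 2))
    (noLine : ∀ (q₀ : 𝔇.ι) (x : 𝔇.H τ hτ 2),
      (∀ q : 𝔇.ι, q ≠ q₀ → 𝔇.locH τ hτ 2 x q = 0) → 𝔇.locH τ hτ 2 x q₀ = 0)
    [Module.Finite k (𝔇.Hc (permRep U k) (permRep_smooth 𝔇.L U k hU) 3)] :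
    1 ≤ finrank k (𝔇.Hc (permRep U k) (permRep_smooth 𝔇.L U k hU) 3) := by
  have := 𝔇.nontrivial_Hc_three_perm hτ U hU hτU hcdv hT2 noLine
  exact Module.finrank_pos

end Perm

/-- the cone sequence in degrees 2, 3 in dimension form: if `H³(G; X) = 0` then
`h³_c(X) + rank (loc²) = Σ_v h²_v(X)`. -/
theorem finrank_Hc_three_add {M : Type} [AddCommGroup M] [Module k M]
    (ρ : Representation k G M) (hρ : 𝔇.IsSmooth ρ)
    [∀ v, Module.Finite k (𝔇.Hv ρ hρ v 2)] [Subsingleton (𝔇.H ρ hρ 3)] :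
    finrank k (𝔇.Hc ρ hρ 3) + finrank k (LinearMap.range (𝔇.locH ρ hρ 2)) =
      ∑ v, finrank k (𝔇.Hv ρ hρ v 2) := by
  have h2 := Cx.finrank_eq_of_exact (𝔇.locH ρ hρ 2) (𝔇.ιc ρ hρ 2) (𝔇.exact_locH_ιc ρ hρ 2)
  have h3 : LinearMap.range (𝔇.ιc ρ hρ 2) = ⊤ := by
    rw [eq_top_iff]
    intro x _
    exact (𝔇.exact_ιc_πc ρ hρ 2 x).mp (Subsingleton.elim _ _)
  rw [h3, finrank_top, Module.finrank_pi_fintype] at h2
  have h4 : finrank k (𝔇.Hc ρ hρ (2 + 1)) = finrank k (𝔇.Hc ρ hρ 3) := rfl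
  omega

end LocDatum

end Fermat.Agent.PT
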