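/-
PT layer F, for TW: the Greenberg–Wiles dimension formula for an abstract Poitou–Tate datum.

* `GWLin.finrank_comap_add` : the linear algebra core.  For `R : V → W`, a pairing
  `P : Y × W → k` whose right kernel is the image of `R`, and `S ≤ W`:
  `dim R⁻¹(S) + dim Y = dim ker R + dim S + dim S^⊥`   (`S^⊥ ≤ Y`).
* `LocDatum.lpair` : the local pairing `H¹_v(A) × H¹_v(B) → H²_v(T) → H³_c(T) → k`;
  `LocDatum.Sel`, `LocDatum.SelDual` : the Selmer group of a family of local conditions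
  `L_v ≤ H¹_v(B)` and the dual Selmer group (`L_v^⊥` for `lpair`) in `H¹(A)`.
* `LocDatum.gw_formula` : if the pairing `H¹(A) × H²_c(B) → k` has trivial right kernel, then
  `dim Sel_L(B) + h¹(A) + Σ_v h⁰_v(B) = dim Sel_{L^⊥}(A) + Σ_v dim L_v + h⁰(B) + h¹_c(B)`.
* `LocDatum.gw_formula_dual` : the same for `A = B' = dualTw χ B`, with the hypotheses of the
  counting engine (`alpha³` bijective, `h¹(B') = h²_c(B)`, `h¹_c(B) = h²(B')`):
  `dim Sel_L(B) + h¹(B') + Σ_v h⁰_v(B) = dim Sel_{L^⊥}(B') + Σ_v dim L_v + h⁰(B) + h²(B')`.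
-/
import Mathlib
import Fermat.Agent.PT.Coh.CupSetup
import Fermat.Agent.PT.Coh.CupDual
import Fermat.Agent.PT.Coh.Engine
import Fermat.Agent.PT.Coh.EngineI2

set_option autoImplicit false

namespace Fermat.Agent.PT

namespace GWLin

open Module

variable {k : Type} [Field k] {V W Y : Type} [AddCommGroup V] [Module k V]
  [AddCommGroup W] [Module k W] [AddCommGroup Y] [Module k Y]

/-- `dim f⁻¹(S) = dim ker f + dim (im f ∩ S)` -/
lemma finrank_comap_eq [Module.Finite k V] (f : V →ₗ[k] W) (S : Submodule k W) :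
    finrank k (S.comap f) =
      finrank k (LinearMap.ker f) + finrank k ↥(LinearMap.range f ⊓ S) := by
  set g : S.comap f →ₗ[k] W := f ∘ₗ (S.comap f).subtype with hg
  have h1 := LinearMap.finrank_range_add_finrank_ker g
  have h2 : LinearMap.range g = LinearMap.range f ⊓ S := by
    ext w
    constructor
    · rintro ⟨⟨x, hx⟩, rfl⟩
      exact ⟨⟨x, rfl⟩, hx⟩
    · rintro ⟨⟨x, rfl⟩, hx⟩
      exact ⟨⟨x, hx⟩, rfl⟩
  have h3 : LinearMap.ker g = (LinearMap.ker f).comap (S.comap f).subtype := by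
    ext x
    rfl
  have hle : LinearMap.ker f ≤ S.comap f := fun x hx => by
    rw [Submodule.mem_comap, LinearMap.mem_ker.mp hx]
    exact S.zero_mem
  have h4 : finrank k (LinearMap.ker g) = finrank k (LinearMap.ker f) := by
    rw [h3]
    exact LinearEquiv.finrank_eq (Submodule.comapSubtypeEquivOfLe hle)
  rw [h2, h4] at h1
  omega

/-- the left annihilator of `S ≤ W` for a pairing `P : Y × W → k` -/
def annLeft (P : Y →ₗ[k] W →ₗ[k] k) (S : Submodule k W) : Submodule k Y :=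
  LinearMap.ker ((LinearMap.lcomp k k S.subtype) ∘ₗ P)

lemma mem_annLeft (P : Y →ₗ[k] W →ₗ[k] k) (S : Submodule k W) (y : Y) :
    y ∈ annLeft P S ↔ ∀ w ∈ S, P y w = 0 := by
  rw [annLeft, LinearMap.mem_ker]
  constructor
  · intro h w hw
    exact LinearMap.congr_fun h ⟨w, hw⟩
  · intro h
    ext ⟨w, hw⟩
    exact h w hw

/-- **The linear algebra of the Greenberg–Wiles formula.**  If the right kernel of the pairing
`P : Y × W → k` is the image of `R : V → W`, then for every `S ≤ W`: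
`dim R⁻¹(S) + dim Y = dim ker R + dim S + dim S^⊥`. -/
theorem finrank_comap_add [Module.Finite k V] [Module.Finite k Y] (R : V →ₗ[k] W)
    (P : Y →ₗ[k] W →ₗ[k] k) (hrange : ∀ w, w ∈ LinearMap.range R ↔ ∀ y, P y w = 0)
    (S : Submodule k W) [Module.Finite k S] :
    finrank k (S.comap R) + finrank k Y =
      finrank k (LinearMap.ker R) + finrank k S + finrank k (annLeft P S) := by
  set Ψ : Y →ₗ[k] Module.Dual k S := (LinearMap.lcomp k k S.subtype) ∘ₗ P with hΨ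
  have h1 := finrank_comap_eq R S
  have h2 := LinearMap.finrank_range_add_finrank_ker Ψ
  have h3 := Subspace.finrank_add_finrank_dualCoannihilator_eq (LinearMap.range Ψ)
  have h4 : finrank k ↥(LinearMap.range R ⊓ S) =
      finrank k (LinearMap.range Ψ).dualCoannihilator := by
    have e1 : (LinearMap.range Ψ).dualCoannihilator =
        (LinearMap.range R ⊓ S).comap S.subtype := by
      ext s
      rw [Submodule.mem_dualCoannihilator, Submodule.mem_comap]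
      constructor
      · intro h
        exact ⟨(hrange _).mpr fun y => h (Ψ y) ⟨y, rfl⟩, s.2⟩
      · rintro ⟨h, -⟩ φ ⟨y, rfl⟩
        exact (hrange _).mp h y
    rw [e1]
    exact (LinearEquiv.finrank_eq (Submodule.comapSubtypeEquivOfLe inf_le_right)).symm
  have h5 : finrank k (LinearMap.ker Ψ) = finrank k (annLeft P S) := rfl
  omega

/-- the product of a family of submodules, as a product type -/
def piEquiv {ι : Type} {W : ι → Type} [∀ i, AddCommGroup (W i)] [∀ i, Module k (W i)]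
    (L : ∀ i, Submodule k (W i)) : Submodule.pi Set.univ L ≃ₗ[k] ∀ i, L i where
  toFun w i := ⟨w.1 i, w.2 i (Set.mem_univ i)⟩
  map_add' _ _ := rfl
  map_smul' _ _ := rfl
  invFun m := ⟨fun i => m i, fun i _ => (m i).2⟩
  left_inv _ := rfl
  right_inv _ := rfl

lemma finrank_pi_univ {ι : Type} [Fintype ι] {W : ι → Type} [∀ i, AddCommGroup (W i)]
    [∀ i, Module k (W i)] (L : ∀ i, Submodule k (W i)) [∀ i, Module.Finite k (L i)] :
    finrank k (Submodule.pi Set.univ L) = ∑ i, finrank k (L i) := by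
  rw [LinearEquiv.finrank_eq (piEquiv L), Module.finrank_pi_fintype]

end GWLin

namespace LocDatum

open Module

variable {G : Type} [Group G] (𝔇 : LocDatum G) {k : Type} [Field k]
variable {A B T : Type} [AddCommGroup A] [Module k A] [AddCommGroup B] [Module k B]
  [AddCommGroup T] [Module k T]
variable {ρA : Representation k G A} {ρB : Representation k G B} {ρT : Representation k G T}

section Pairing

variable (hA : 𝔇.IsSmooth ρA) (hB : 𝔇.IsSmooth ρB) (hT : 𝔇.IsSmooth ρT)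
  (β : A →ₗ[k] B →ₗ[k] T) (hβ : ∀ g a b, β (ρA g a) (ρB g b) = ρT g (β a b))
  (tr : 𝔇.Hc ρT hT 3 →ₗ[k] k)

open Classical in
/-- the local invariant map `H²_v(T) → H³_c(T) → k` -/
noncomputable def trV (v : 𝔇.ι) : 𝔇.Hv ρT hT v 2 →ₗ[k] k :=
  tr ∘ₗ 𝔇.ιc ρT hT 2 ∘ₗ LinearMap.single k (fun u => 𝔇.Hv ρT hT u 2) v

open Classical in
lemma trV_apply (v : 𝔇.ι) (t : 𝔇.Hv ρT hT v 2) :
    𝔇.trV hT tr v t = tr (𝔇.ιc ρT hT 2 (Pi.single v t)) := rfl

/-- `tr (ιc m) = Σ_v trV v (m v)` -/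
lemma tr_ιc_eq_sum (m : ∀ v, 𝔇.Hv ρT hT v 2) :
    tr (𝔇.ιc ρT hT 2 m) = ∑ v, 𝔇.trV hT tr v (m v) := by
  classical
  have hm : m = ∑ v, Pi.single v (m v) := (Finset.univ_sum_single m).symm
  conv_lhs => rw [hm]
  rw [map_sum, map_sum]
  rfl

/-- the local pairing `H¹_v(A) × H¹_v(B) → k`, `(y, b) ↦ inv_v (y ∪ b)` -/
noncomputable def lpair (v : 𝔇.ι) : 𝔇.Hv ρA hA v 1 →ₗ[k] 𝔇.Hv ρB hB v 1 →ₗ[k] k :=
  (𝔇.cupV hA hB hT β hβ v 1 1 2 rfl).compr₂ (𝔇.trV hT tr v)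

lemma lpair_apply (v : 𝔇.ι) (y : 𝔇.Hv ρA hA v 1) (b : 𝔇.Hv ρB hB v 1) :
    𝔇.lpair hA hB hT β hβ tr v y b =
      𝔇.trV hT tr v (𝔇.cupV hA hB hT β hβ v 1 1 2 rfl y b) := rfl

/-- the pairing `H¹(A) × ∏_v H¹_v(B) → k`, `(y, (b_v)) ↦ Σ_v inv_v (y|_v ∪ b_v)` -/
noncomputable def gpair : 𝔇.H ρA hA 1 →ₗ[k] (∀ v, 𝔇.Hv ρB hB v 1) →ₗ[k] k :=
  ∑ v, (𝔇.lpair hA hB hT β hβ tr v).compl₁₂ ((𝔇.resv ρA hA v).mapH 1) (LinearMap.proj v)

lemma gpair_apply (y : 𝔇.H ρA hA 1) (w : ∀ v, 𝔇.Hv ρB hB v 1) :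
    𝔇.gpair hA hB hT β hβ tr y w =
      ∑ v, 𝔇.lpair hA hB hT β hβ tr v ((𝔇.resv ρA hA v).mapH 1 y) (w v) := by
  rw [gpair, LinearMap.sum_apply, LinearMap.sum_apply]
  rfl

/-- `tr (y ∪ ιc w) = − Σ_v inv_v (y|_v ∪ w_v)` -/
lemma tr_cup12_ιc (y : 𝔇.H ρA hA 1) (w : ∀ v, 𝔇.Hv ρB hB v 1) :
    tr (𝔇.cup12 hA hB hT β hβ y (𝔇.ιc ρB hB 1 w)) = - 𝔇.gpair hA hB hT β hβ tr y w := by
  have h1 := 𝔇.cup_ιc hA hB hT β hβ 1 1 2 rfl y w
  have h2 : 𝔇.cup12 hA hB hT β hβ y (𝔇.ιc ρB hB 1 w) =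
      (-1 : k) ^ 1 • 𝔇.ιc ρT hT 2 (fun v =>
        𝔇.cupV hA hB hT β hβ v 1 1 2 rfl ((𝔇.resv ρA hA v).mapH 1 y) (w v)) := h1
  rw [h2, pow_one, map_smul, tr_ιc_eq_sum, gpair_apply, smul_eq_mul, neg_one_mul]
  rfl

/-- The Selmer group of a family of local conditions `L_v ≤ H¹_v(B)`. -/
def Sel (L : ∀ v, Submodule k (𝔇.Hv ρB hB v 1)) : Submodule k (𝔇.H ρB hB 1) :=
  (Submodule.pi Set.univ L).comap (𝔇.locH ρB hB 1)

lemma mem_Sel (L : ∀ v, Submodule k (𝔇.Hv ρB hB v 1)) (x : 𝔇.H ρB hB 1) :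
    x ∈ 𝔇.Sel hB L ↔ ∀ v, (𝔇.resv ρB hB v).mapH 1 x ∈ L v := by
  rw [Sel, Submodule.mem_comap, Submodule.mem_pi]
  constructor
  · intro h v
    exact h v (Set.mem_univ v)
  · intro h v _
    exact h v

/-- The dual Selmer group in `H¹(A)`: classes whose restriction to each `v` is orthogonal to
`L_v` for the local pairing. -/
noncomputable def SelDual (L : ∀ v, Submodule k (𝔇.Hv ρB hB v 1)) :
    Submodule k (𝔇.H ρA hA 1) :=
  GWLin.annLeft (𝔇.gpair hA hB hT β hβ tr) (Submodule.pi Set.univ L)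

lemma mem_SelDual (L : ∀ v, Submodule k (𝔇.Hv ρB hB v 1)) (y : 𝔇.H ρA hA 1) :
    y ∈ 𝔇.SelDual hA hB hT β hβ tr L ↔
      ∀ v, ∀ b ∈ L v, 𝔇.lpair hA hB hT β hβ tr v ((𝔇.resv ρA hA v).mapH 1 y) b = 0 := by
  classical
  rw [SelDual, GWLin.mem_annLeft]
  constructor
  · intro h v b hb
    have hmem : (Pi.single v b : ∀ u, 𝔇.Hv ρB hB u 1) ∈ Submodule.pi Set.univ L := by
      rw [Submodule.mem_pi]
      intro u _
      rcases eq_or_ne u v with rfl | hu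
      · rw [Pi.single_eq_same]
        exact hb
      · rw [Pi.single_eq_of_ne hu]
        exact (L u).zero_mem
    have h1 := h _ hmem
    rw [gpair_apply, Finset.sum_eq_single v] at h1
    · rwa [Pi.single_eq_same] at h1
    · intro u _ hu
      rw [Pi.single_eq_of_ne hu, map_zero]
    · intro hv
      exact absurd (Finset.mem_univ v) hv
  · intro h w hw
    rw [gpair_apply]
    refine Finset.sum_eq_zero fun v _ => h v (w v) ?_
    exact (Submodule.mem_pi.mp hw) v (Set.mem_univ v)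

/-- **The Greenberg–Wiles formula** for an abstract Poitou–Tate datum.  If the pairing
`H¹(A) × H²_c(B) → H³_c(T) → k` has trivial right kernel, then for every family of local
conditions `L_v ≤ H¹_v(B)`:
`dim Sel_L(B) + h¹(A) + Σ_v h⁰_v(B) = dim Sel_{L^⊥}(A) + Σ_v dim L_v + h⁰(B) + h¹_c(B)`. -/
theorem gw_formula [Nonempty 𝔇.ι]
    [Module.Finite k (𝔇.H ρB hB 0)] [∀ v, Module.Finite k (𝔇.Hv ρB hB v 0)]
    [Module.Finite k (𝔇.H ρB hB 1)] [∀ v, Module.Finite k (𝔇.Hv ρB hB v 1)]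
    [Module.Finite k (𝔇.H ρA hA 1)]
    (hperf : ∀ x : 𝔇.Hc ρB hB 2,
      (∀ y : 𝔇.H ρA hA 1, tr (𝔇.cup12 hA hB hT β hβ y x) = 0) → x = 0)
    (L : ∀ v, Submodule k (𝔇.Hv ρB hB v 1)) :
    finrank k (𝔇.Sel hB L) + finrank k (𝔇.H ρA hA 1) + ∑ v, finrank k (𝔇.Hv ρB hB v 0) =
      finrank k (𝔇.SelDual hA hB hT β hβ tr L) + ∑ v, finrank k (L v) +
        finrank k (𝔇.H ρB hB 0) + finrank k (𝔇.Hc ρB hB 1) := by
  have hrange : ∀ w, w ∈ LinearMap.range (𝔇.locH ρB hB 1) ↔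
      ∀ y, 𝔇.gpair hA hB hT β hβ tr y w = 0 := by
    intro w
    have hex := 𝔇.exact_locH_ιc ρB hB 1 w
    constructor
    · intro hw y
      have h0 : 𝔇.ιc ρB hB 1 w = 0 := hex.mpr hw
      have h1 := 𝔇.tr_cup12_ιc hA hB hT β hβ tr y w
      rw [h0, map_zero, map_zero] at h1
      exact neg_eq_zero.mp h1.symm
    · intro hw
      refine hex.mp (hperf _ fun y => ?_)
      rw [𝔇.tr_cup12_ιc hA hB hT β hβ tr y w, hw y, neg_zero]
  have h1 := GWLin.finrank_comap_add (𝔇.locH ρB hB 1) (𝔇.gpair hA hB hT β hβ tr) hrange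
    (Submodule.pi Set.univ L)
  have h2 := 𝔇.finrank_sha_one_add ρB hB
  have h3 : finrank k (Submodule.pi Set.univ L) = ∑ v, finrank k (L v) :=
    GWLin.finrank_pi_univ L
  have h4 : finrank k ((Submodule.pi Set.univ L).comap (𝔇.locH ρB hB 1)) =
      finrank k (𝔇.Sel hB L) := rfl
  have h5 : finrank k (GWLin.annLeft (𝔇.gpair hA hB hT β hβ tr) (Submodule.pi Set.univ L)) =
      finrank k (𝔇.SelDual hA hB hT β hβ tr L) := rfl
  have h6 : finrank k (LinearMap.ker (𝔇.locH ρB hB 1)) = finrank k (𝔇.sha ρB hB 1) := rfl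
  omega

end Pairing

/-! ### The dual-twist case -/

section Dual

variable {M : Type} [AddCommGroup M] [Module k M] {ρ : Representation k G M}
  {ρ' : Representation k G (Module.Dual k M)} {τ : Representation k G k}

/-- **Perfectness on the right.**  If `alpha³` is bijective on finite smooth representations and
`h¹(X') = h²_c(X)`, then the pairing `H¹(X') × H²_c(X) → k` has trivial right kernel. -/
theorem cup12tr_right_injective [Module.Finite k M] (χ : G →* kˣ) (hρ : 𝔇.IsSmooth ρ)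
    (hρ' : 𝔇.IsSmooth ρ') (hτ : 𝔇.IsSmooth τ)
    (hρ'a : ∀ g f, ρ' g f = (χ g : k) • (f ∘ₗ ρ g⁻¹)) (hτa : ∀ g x, τ g x = (χ g : k) * x)
    (tr : 𝔇.Hc τ hτ 3 →ₗ[k] k)
    (halpha : ∀ (E : Type) [AddCommGroup E] [Module k E] [Module.Finite k E]
      (σ : Representation k G E) (hσ : 𝔇.IsSmooth σ),
      Function.Bijective ((Rex.ccFun k 𝔇).alpha 3 hσ hτ tr))
    [Module.Finite k (𝔇.Hc ρ hρ 2)]
    (hdim : finrank k (𝔇.H ρ' hρ' 1) = finrank k (𝔇.Hc ρ hρ 2)) (x : 𝔇.Hc ρ hρ 2)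
    (hx : ∀ Y : 𝔇.H ρ' hρ' 1,
      tr (𝔇.cup12 hρ' hρ hτ (dualPair k M) (dualPair_equivariant χ hρ'a hτa) Y x) = 0) :
    x = 0 := by
  have hinj := 𝔇.cup12tr_injective χ hρ hρ' hτ hρ'a hτa tr halpha
  have hfin : Module.Finite k (𝔇.H ρ' hρ' 1) :=
    𝔇.finite_H1_dual χ hρ hρ' hτ hρ'a hτa tr halpha
  have hsurj : Function.Surjective (𝔇.cup12tr χ hρ hρ' hτ hρ'a hτa tr) :=
    (LinearMap.injective_iff_surjective_of_finrank_eq_finrank
      (hdim.trans (Subspace.dual_finrank_eq).symm)).mp hinj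
  refine (Module.forall_dual_apply_eq_zero_iff k x).mp fun φ => ?_
  obtain ⟨Y, rfl⟩ := hsurj φ
  exact hx Y

/-- **The Greenberg–Wiles formula for `X` and `X' = X^*(χ)`**: if `alpha³` is bijective on
finite smooth representations, `h¹(X') = h²_c(X)` and `h¹_c(X) = h²(X')`, then for every family
of local conditions `L_v ≤ H¹_v(X)`:
`dim Sel_L(X) + h¹(X') + Σ_v h⁰_v(X) = dim Sel_{L^⊥}(X') + Σ_v dim L_v + h⁰(X) + h²(X')`. -/
theorem gw_formula_dual [Nonempty 𝔇.ι] [Module.Finite k M] (χ : G →* kˣ)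
    (hρ : 𝔇.IsSmooth ρ) (hρ' : 𝔇.IsSmooth ρ') (hτ : 𝔇.IsSmooth τ)
    (hρ'a : ∀ g f, ρ' g f = (χ g : k) • (f ∘ₗ ρ g⁻¹)) (hτa : ∀ g x, τ g x = (χ g : k) * x)
    (tr : 𝔇.Hc τ hτ 3 →ₗ[k] k)
    (halpha : ∀ (E : Type) [AddCommGroup E] [Module k E] [Module.Finite k E]
      (σ : Representation k G E) (hσ : 𝔇.IsSmooth σ),
      Function.Bijective ((Rex.ccFun k 𝔇).alpha 3 hσ hτ tr))
    [Module.Finite k (𝔇.H ρ hρ 0)] [∀ v, Module.Finite k (𝔇.Hv ρ hρ v 0)]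
    [Module.Finite k (𝔇.H ρ hρ 1)] [∀ v, Module.Finite k (𝔇.Hv ρ hρ v 1)]
    [Module.Finite k (𝔇.Hc ρ hρ 2)]
    (e1 : finrank k (𝔇.Hc ρ hρ 1) = finrank k (𝔇.H ρ' hρ' 2))
    (e2 : finrank k (𝔇.H ρ' hρ' 1) = finrank k (𝔇.Hc ρ hρ 2))
    (L : ∀ v, Submodule k (𝔇.Hv ρ hρ v 1)) :
    finrank k (𝔇.Sel hρ L) + finrank k (𝔇.H ρ' hρ' 1) + ∑ v, finrank k (𝔇.Hv ρ hρ v 0) =
      finrank k (𝔇.SelDual hρ' hρ hτ (dualPair k M) (dualPair_equivariant χ hρ'a hτa) tr L) +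
        ∑ v, finrank k (L v) + finrank k (𝔇.H ρ hρ 0) + finrank k (𝔇.H ρ' hρ' 2) := by
  have hfin : Module.Finite k (𝔇.H ρ' hρ' 1) :=
    𝔇.finite_H1_dual χ hρ hρ' hτ hρ'a hτa tr halpha
  have h := 𝔇.gw_formula hρ' hρ hτ (dualPair k M) (dualPair_equivariant χ hρ'a hτa) tr
    (fun x hx => 𝔇.cup12tr_right_injective χ hρ hρ' hτ hρ'a hτa tr halpha e2 x hx) L
  rw [e1] at h
  exact h

end Dual

/-- **Greenberg–Wiles under the hypotheses of the counting engine**: for a finite smooth `X`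
with `Ẽ(X) = 0` and `X' = dualTw χ X`:
`dim Sel_L(X) + h¹(X') + Σ_v h⁰_v(X) = dim Sel_{L^⊥}(X') + Σ_v dim L_v + h⁰(X) + h²(X')`. -/
theorem CountHyp.gw_formula [Nonempty 𝔇.ι] {χ : G →* kˣ} (h : CountHyp 𝔇 k χ)
    {τ : Representation k G k} (hτ : 𝔇.IsSmooth τ) (hτχ : ∀ g x, τ g x = (χ g : k) * x)
    (tr : 𝔇.Hc τ hτ 3 →ₗ[k] k)
    (halpha : ∀ (E : Type) [AddCommGroup E] [Module k E] [Module.Finite k E]
      (σ : Representation k G E) (hσ : 𝔇.IsSmooth σ),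
      Function.Bijective ((Rex.ccFun k 𝔇).alpha 3 hσ hτ tr))
    {M : Type} [AddCommGroup M] [Module k M] [Module.Finite k M]
    (ρ : Representation k G M) (hρ : 𝔇.IsSmooth ρ) (hρ' : 𝔇.IsSmooth (dualTw χ ρ))
    (hE : 𝔇.Et χ ρ hρ hρ' = 0) (L : ∀ v, Submodule k (𝔇.Hv ρ hρ v 1)) :
    finrank k (𝔇.Sel hρ L) + finrank k (𝔇.H (dualTw χ ρ) hρ' 1) +
        ∑ v, finrank k (𝔇.Hv ρ hρ v 0) =
      finrank k (𝔇.SelDual hρ' hρ hτ (dualPair k M)
          (dualPair_equivariant χ (dualTw_eq_smul_comp χ ρ) hτχ) tr L) +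
        ∑ v, finrank k (L v) + finrank k (𝔇.H ρ hρ 0) +
        finrank k (𝔇.H (dualTw χ ρ) hρ' 2) := by
  have : Module.Finite k (𝔇.H ρ hρ 0) := h.fin ρ hρ 0 (by omega)
  have : ∀ v, Module.Finite k (𝔇.Hv ρ hρ v 0) := fun v => h.finv ρ hρ v 0 (by omega)
  have : Module.Finite k (𝔇.H ρ hρ 1) := h.fin ρ hρ 1 (by omega)
  have : ∀ v, Module.Finite k (𝔇.Hv ρ hρ v 1) := fun v => h.finv ρ hρ v 1 (by omega)
  have : Module.Finite k (𝔇.Hc ρ hρ 2) := h.finc ρ hρ 2 (by omega)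
  exact 𝔇.gw_formula_dual χ hρ hρ' hτ (dualTw_eq_smul_comp χ ρ) hτχ tr halpha
    (h.finrank_Hc_one ρ hρ hρ' hE) (h.finrank_Hc_two ρ hρ hρ' hE).symm L

end LocDatum

end Fermat.Agent.PT
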