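/-
PT layer F, local twin of (S-D): for a leveled group `(Γ, L)` (e.g. a decomposition group
`D_v` with all its levels), the cup product pairing `H¹(X') × H¹(X) → H²(T)` has trivial left
kernel as soon as `alpha² : H²(E) → Hom_Γ(E, T)^*` is bijective on finite smooth
representations.

* `LevelSys.δ_ext` : the cup product with a 1-cocycle `y` is the connecting homomorphism of
  `0 → T → E_y → B → 0` on the cohomology of the level complex;
* `LevelSys.exists_cupL_ne_zero` : general form of the local (S-D);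
* `LevelSys.cupL11_left_injective` : for `A = B^*` twisted by `χ`, `T = k(χ)`:
  a class `Y ∈ H¹(B^*(χ))` with `Y ∪ x = 0` for all `x ∈ H¹(B)` is zero;
* `LocDatum.cupV11_left_injective` : the same at a place `v` of a Poitou–Tate datum;
* `LocDatum.resv_eq_zero_of_mem_SelDual` : in the Greenberg–Wiles set-up, a dual Selmer class
  is locally trivial at every place `v` where the local condition is everything.
-/
import Mathlib
import Fermat.Agent.PT.Coh.CupExt
import Fermat.Agent.PT.Coh.CupDual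
import Fermat.Agent.PT.Coh.GW

set_option autoImplicit false

namespace Fermat.Agent.PT

namespace LevelSys

variable {Γ : Type} [Group Γ] (L : LevelSys Γ)

section general

variable {k : Type} [CommRing k]
variable {A B T : Type} [AddCommGroup A] [Module k A] [AddCommGroup B] [Module k B]
  [AddCommGroup T] [Module k T]
variable {ρA : Representation k Γ A} {ρB : Representation k Γ B} {ρT : Representation k Γ T}

/-- the cup product `H^i(A) × H^j(B) → H^N(T)` on the cohomology of the level complexes -/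
def cupL (hA : L.IsSmooth ρA) (hB : L.IsSmooth ρB) (hT : L.IsSmooth ρT)
    (β : A →ₗ[k] B →ₗ[k] T) (hβ : ∀ g a b, β (ρA g a) (ρB g b) = ρT g (β a b))
    (i j N : ℕ) (h : i + j = N) :
    (L.cx ρA hA).H i →ₗ[k] (L.cx ρB hB).H j →ₗ[k] (L.cx ρT hT).H N :=
  (L.cupPairing hA hB hT β hβ).cupH i j N h

/-- **The cup product with a 1-cocycle is the connecting homomorphism of the extension
`0 → T → E_y → B → 0`** on the cohomology of the level complex: `δ x = [y] ∪ x`. -/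
theorem δ_ext (hA : L.IsSmooth ρA) (hB : L.IsSmooth ρB) (hT : L.IsSmooth ρT)
    {ρE : Representation k Γ (T × B)} (hE : L.IsSmooth ρE)
    (β : A →ₗ[k] B →ₗ[k] T) (hβ : ∀ g a b, β (ρA g a) (ρB g b) = ρT g (β a b))
    (y : (L.cx ρA hA).X 1) (hy : (L.cx ρA hA).d 1 y = 0)
    (hρE : ∀ g t b, ρE g (t, b) = (ρT g t + β (L.ev1 hA y g) (ρB g b), ρB g b))
    (hinl : ∀ g t, LinearMap.inl k T B (ρT g t) = ρE g (LinearMap.inl k T B t))
    (hsnd : ∀ g p, LinearMap.snd k T B (ρE g p) = ρB g (LinearMap.snd k T B p))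
    (hse : Cx.ShortExact (L.mapCoeff hT hE (LinearMap.inl k T B) hinl)
      (L.mapCoeff hE hB (LinearMap.snd k T B) hsnd))
    (n : ℕ) (x : (L.cx ρB hB).H n) :
    hse.δ n x =
      L.cupL hA hB hT β hβ 1 n (n + 1) (by omega) ((L.cx ρA hA).cls 1 y hy) x := by
  obtain ⟨c, hc, rfl⟩ := (L.cx ρB hB).exists_cls x
  let b : (L.cx ρE hE).X n := L.secE hB hE n c
  have hb : (L.mapCoeff hE hB (LinearMap.snd k T B) hsnd).f n b = c :=
    L.snd_secE hB hE hsnd n c
  let a : (L.cx ρT hT).X (n + 1) :=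
    (L.cupPairing hA hB hT β hβ).cup 1 n (n + 1) (by omega) y c
  have ha : (L.mapCoeff hT hE (LinearMap.inl k T B) hinl).f (n + 1) a =
      (L.cx ρE hE).d n b := by
    have h1 := L.d_secE hA hB hT hE β hβ y hρE hinl n c
    rw [hc, map_zero, zero_add] at h1
    exact h1.symm
  have key := hse.δ_cls n b (by rw [hb]; exact hc) a ha
  rw [← (L.cx ρB hB).cls_eq_of_eq hb (by rw [hb]; exact hc) hc]
  exact key

section extRep

variable (hA : L.IsSmooth ρA) (hB : L.IsSmooth ρB) (hT : L.IsSmooth ρT)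
  (β : A →ₗ[k] B →ₗ[k] T) (hβ : ∀ g a b, β (ρA g a) (ρB g b) = ρT g (β a b))
  (y : (L.cx ρA hA).X 1) (hy : (L.cx ρA hA).d 1 y = 0)

lemma extRep_inl' (g : Γ) (t : T) :
    LinearMap.inl k T B (ρT g t) = L.extRep hA β hβ y hy g (LinearMap.inl k T B t) := by
  show (ρT g t, (0 : B)) = (ρT g t + β (L.ev1 hA y g) (ρB g 0), ρB g 0)
  rw [map_zero, map_zero, add_zero]

lemma extRep_snd' (g : Γ) (p : T × B) :
    LinearMap.snd k T B (L.extRep hA β hβ y hy g p) = ρB g (LinearMap.snd k T B p) := rfl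

/-- the short exact sequence `0 → C(T) → C(E_y) → C(B) → 0` of level complexes -/
lemma shortExact_extRep' :
    Cx.ShortExact
      (L.mapCoeff hT (L.isSmooth_extRep hA hB hT β hβ y hy) (LinearMap.inl k T B)
        (L.extRep_inl' hA β hβ y hy))
      (L.mapCoeff (L.isSmooth_extRep hA hB hT β hβ y hy) hB (LinearMap.snd k T B)
        (L.extRep_snd' hA β hβ y hy)) :=
  L.shortExact_mapCoeff hT (L.isSmooth_extRep hA hB hT β hβ y hy) hB (LinearMap.inl k T B)
    (LinearMap.snd k T B) (L.extRep_inl' hA β hβ y hy) (L.extRep_snd' hA β hβ y hy)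
    LinearMap.inl_injective
    (fun p => ⟨fun h => ⟨p.1, Prod.ext rfl (Eq.symm h)⟩, by rintro ⟨t, rfl⟩; rfl⟩)
    LinearMap.snd_surjective

/-- the connecting homomorphism of `0 → T → E_y → B → 0` is the cup product with `[y]` -/
theorem δ_extRep' (n : ℕ) (x : (L.cx ρB hB).H n) :
    (L.shortExact_extRep' hA hB hT β hβ y hy).δ n x =
      L.cupL hA hB hT β hβ 1 n (n + 1) (by omega) ((L.cx ρA hA).cls 1 y hy) x :=
  L.δ_ext hA hB hT (L.isSmooth_extRep hA hB hT β hβ y hy) β hβ y hy (fun _ _ _ => rfl)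
    (L.extRep_inl' hA β hβ y hy) (L.extRep_snd' hA β hβ y hy)
    (L.shortExact_extRep' hA hB hT β hβ y hy) n x

end extRep

end general

section field

variable {k : Type} [Field k]
variable {A B T : Type} [AddCommGroup A] [Module k A] [AddCommGroup B] [Module k B]
  [AddCommGroup T] [Module k T]
variable {ρA : Representation k Γ A} {ρB : Representation k Γ B} {ρT : Representation k Γ T}

/-- **Local (S-D), general form.**  Let `y` be a 1-cocycle with values in `A`, `E_y` its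
extension.  If every equivariant map `E_y → T` kills `T`, `alpha²(E_y)` is injective and
`tr ≠ 0`, then `tr ([y] ∪ x) ≠ 0` for some `x ∈ H¹(B)`. -/
theorem exists_cupL_ne_zero (hA : L.IsSmooth ρA) (hB : L.IsSmooth ρB) (hT : L.IsSmooth ρT)
    (β : A →ₗ[k] B →ₗ[k] T) (hβ : ∀ g a b, β (ρA g a) (ρB g b) = ρT g (β a b))
    (y : (L.cx ρA hA).X 1) (hy : (L.cx ρA hA).d 1 y = 0)
    (tr : (L.cx ρT hT).H 2 →ₗ[k] k) (htr : tr ≠ 0)
    (hinj : Function.Injective
      ((Rex.levelFun k L).alpha 2 (L.isSmooth_extRep hA hB hT β hβ y hy) hT tr))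
    (hkill : ∀ ψ : Rex.eqHom (L.extRep hA β hβ y hy) ρT,
      (ψ : T × B →ₗ[k] T) ∘ₗ LinearMap.inl k T B = 0) :
    ∃ x : (L.cx ρB hB).H 1,
      tr (L.cupL hA hB hT β hβ 1 1 2 rfl ((L.cx ρA hA).cls 1 y hy) x) ≠ 0 := by
  have hE := L.isSmooth_extRep hA hB hT β hβ y hy
  have hse := L.shortExact_extRep' hA hB hT β hβ y hy
  -- `H²(T) → H²(E_y)` is zero
  have hzero : ∀ t : (L.cx ρT hT).H 2,
      (L.mapCoeff hT hE (LinearMap.inl k T B) (L.extRep_inl' hA β hβ y hy)).mapH 2 t = 0 := by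
    intro t
    apply hinj
    refine Eq.trans ?_ (LinearMap.map_zero _).symm
    refine LinearMap.ext fun ψ => ?_
    rw [Rex.level_alpha_apply, LinearMap.zero_apply, ← Cx.Hom.mapH_comp]
    have hc : ∀ g m, ((ψ : T × B →ₗ[k] T) ∘ₗ LinearMap.inl k T B) (ρT g m) =
        ρT g (((ψ : T × B →ₗ[k] T) ∘ₗ LinearMap.inl k T B) m) := by
      intro g m
      rw [LinearMap.comp_apply, LinearMap.comp_apply, L.extRep_inl' hA β hβ y hy g m,
        Rex.eqHom_comm ψ]
    have h0 : ∀ g m, (0 : T →ₗ[k] T) (ρT g m) = ρT g ((0 : T →ₗ[k] T) m) := by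
      intro g m
      rw [LinearMap.zero_apply, LinearMap.zero_apply, map_zero]
    have e1 : (L.mapCoeff hE hT ψ.1 (Rex.eqHom_comm ψ)).comp
        (L.mapCoeff hT hE (LinearMap.inl k T B) (L.extRep_inl' hA β hβ y hy)) =
        L.mapCoeff hT hT (0 : T →ₗ[k] T) h0 := by
      have hcomp := (Rex.levelFun k L).map_comp hT hE hT (LinearMap.inl k T B)
        (L.extRep_inl' hA β hβ y hy) ψ.1 (Rex.eqHom_comm ψ) hc
      have hcongr := (Rex.levelFun k L).map_congr hT hT (hkill ψ) hc h0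
      exact hcomp.symm.trans hcongr
    rw [e1]
    have hz := (Rex.levelFun k L).mapH_zero 2 hT hT h0 t
    have hz' : (L.mapCoeff hT hT (0 : T →ₗ[k] T) h0).mapH 2 t = 0 := hz
    rw [hz', map_zero]
  -- hence the connecting homomorphism is onto
  obtain ⟨t₀, ht₀⟩ : ∃ t₀, tr t₀ ≠ 0 := by
    by_contra hcon
    exact htr (LinearMap.ext fun t => by_contra fun h => hcon ⟨t, h⟩)
  obtain ⟨x, hx⟩ := (hse.exact_δ_f 1 t₀).1 (hzero t₀)
  refine ⟨x, ?_⟩
  have hδ := L.δ_extRep' hA hB hT β hβ y hy 1 x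
  have : L.cupL hA hB hT β hβ 1 1 2 rfl ((L.cx ρA hA).cls 1 y hy) x = t₀ := by
    rw [← hx]
    exact hδ.symm
  rw [this]
  exact ht₀

end field

/-- a leveled group as a Poitou–Tate datum without places -/
def toDatum (L : LevelSys Γ) : LocDatum Γ where
  L := L
  ι := Empty
  D := fun v => v.elim
  Lv := fun v => v.elim
  cts := fun v => v.elim

section dual

variable {k : Type} [Field k] {M : Type} [AddCommGroup M] [Module k M]
variable {ρ : Representation k Γ M} {ρ' : Representation k Γ (Module.Dual k M)}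
  {τ : Representation k Γ k}

/-- **Local (S-D).**  If `alpha²` is bijective on finite smooth representations of `(Γ, L)`,
then the cup product pairing `H¹(X') × H¹(X) → H²(k(χ))`, `X' = X^*(χ)`, has trivial left
kernel. -/
theorem cupL11_left_injective [Module.Finite k M] (χ : Γ →* kˣ) (hρ : L.IsSmooth ρ)
    (hρ' : L.IsSmooth ρ') (hτ : L.IsSmooth τ)
    (hρ'a : ∀ g f, ρ' g f = (χ g : k) • (f ∘ₗ ρ g⁻¹)) (hτa : ∀ g x, τ g x = (χ g : k) * x)
    (tr : (L.cx τ hτ).H 2 →ₗ[k] k)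
    (halpha : ∀ (E : Type) [AddCommGroup E] [Module k E] [Module.Finite k E]
      (σ : Representation k Γ E) (hσ : L.IsSmooth σ),
      Function.Bijective ((Rex.levelFun k L).alpha 2 hσ hτ tr))
    (Y : (L.cx ρ' hρ').H 1)
    (hY : ∀ x : (L.cx ρ hρ).H 1,
      L.cupL hρ' hρ hτ (LocDatum.dualPair k M) (LocDatum.dualPair_equivariant χ hρ'a hτa)
        1 1 2 rfl Y x = 0) : Y = 0 := by
  -- `tr ≠ 0`
  have htr : tr ≠ 0 := by
    intro h0
    let idτ : Rex.eqHom τ τ := ⟨LinearMap.id, fun _ _ => rfl⟩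
    let η : Module.Dual k (Rex.eqHom τ τ) :=
      (LinearMap.applyₗ (1 : k) : (k →ₗ[k] k) →ₗ[k] k) ∘ₗ (Rex.eqHom τ τ).subtype
    have hη : η idτ = 1 := rfl
    obtain ⟨x₀, hx₀⟩ := (halpha k τ hτ).2 η
    have h1 : (Rex.levelFun k L).alpha 2 hτ hτ tr x₀ idτ = 0 :=
      (Rex.level_alpha_apply L 2 hτ hτ tr x₀ idτ).trans (by rw [h0]; rfl)
    rw [hx₀, hη] at h1
    exact one_ne_zero h1
  obtain ⟨y, hy, rfl⟩ := (L.cx ρ' hρ').exists_cls Y
  by_contra hne
  have hkill : ∀ ψ : Rex.eqHom (L.extRep hρ' (LocDatum.dualPair k M)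
      (LocDatum.dualPair_equivariant (ρ := ρ) χ hρ'a hτa) y hy) τ,
      (ψ : k × M →ₗ[k] k) ∘ₗ LinearMap.inl k k M = 0 := fun ψ =>
    by_contra fun hψ =>
      hne (L.toDatum.cls_eq_zero_of_retraction (ρ := ρ) χ hρ' hρ'a hτa y hy ψ hψ)
  obtain ⟨x, hx⟩ := L.exists_cupL_ne_zero hρ' hρ hτ (LocDatum.dualPair k M)
    (LocDatum.dualPair_equivariant χ hρ'a hτa) y hy tr htr
    (halpha (k × M) _ (L.isSmooth_extRep hρ' hρ hτ (LocDatum.dualPair k M)
      (LocDatum.dualPair_equivariant χ hρ'a hτa) y hy)).1 hkill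
  apply hx
  rw [hY x, map_zero]

end dual

end LevelSys

namespace LocDatum

variable {G : Type} [Group G] (𝔇 : LocDatum G) {k : Type} [Field k]
variable {M : Type} [AddCommGroup M] [Module k M]
variable {ρ : Representation k G M} {ρ' : Representation k G (Module.Dual k M)}
  {τ : Representation k G k}

/-- **Local (S-D) at a place `v`**: if the local `alpha²` at `v` is bijective on finite smooth
representations of `D_v`, then a class `Y ∈ H¹_v(X')` with `Y ∪ b = 0 ∈ H²_v(k(χ))` for all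
`b ∈ H¹_v(X)` is zero. -/
theorem cupV11_left_injective [Module.Finite k M] (χ : G →* kˣ) (hρ : 𝔇.IsSmooth ρ)
    (hρ' : 𝔇.IsSmooth ρ') (hτ : 𝔇.IsSmooth τ)
    (hρ'a : ∀ g f, ρ' g f = (χ g : k) • (f ∘ₗ ρ g⁻¹)) (hτa : ∀ g x, τ g x = (χ g : k) * x)
    (v : 𝔇.ι) (trv : 𝔇.Hv τ hτ v 2 →ₗ[k] k)
    (halpha : ∀ (E : Type) [AddCommGroup E] [Module k E] [Module.Finite k E]
      (σ : Representation k (𝔇.D v) E) (hσ : (𝔇.Lv v).IsSmooth σ),
      Function.Bijective
        ((Rex.levelFun k (𝔇.Lv v)).alpha 2 hσ (𝔇.isSmooth_resRep hτ v) trv))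
    (Y : 𝔇.Hv ρ' hρ' v 1)
    (hY : ∀ b : 𝔇.Hv ρ hρ v 1,
      𝔇.cupV hρ' hρ hτ (dualPair k M) (dualPair_equivariant χ hρ'a hτa) v 1 1 2 rfl Y b = 0) :
    Y = 0 :=
  (𝔇.Lv v).cupL11_left_injective (χ.comp (𝔇.D v).subtype) (𝔇.isSmooth_resRep hρ v)
    (𝔇.isSmooth_resRep hρ' v) (𝔇.isSmooth_resRep hτ v) (fun g f => hρ'a g f)
    (fun g x => hτa g x) trv halpha Y hY

section GW

variable (hρ : 𝔇.IsSmooth ρ) (hρ' : 𝔇.IsSmooth ρ') (hτ : 𝔇.IsSmooth τ)
  (tr : 𝔇.Hc τ hτ 3 →ₗ[k] k)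

/-- **Dual Selmer classes are locally trivial where the local condition is everything.**  In
the Greenberg–Wiles set-up for `X` and `X' = X^*(χ)`: if `L_v = ⊤`, the local invariant
`trV v` is injective and the local cup product at `v` has trivial left kernel, then every
`y ∈ Sel_{L^⊥}(X')` restricts to `0` in `H¹_v(X')`. -/
theorem resv_eq_zero_of_mem_SelDual (χ : G →* kˣ)
    (hρ'a : ∀ g f, ρ' g f = (χ g : k) • (f ∘ₗ ρ g⁻¹)) (hτa : ∀ g x, τ g x = (χ g : k) * x)
    (L : ∀ v, Submodule k (𝔇.Hv ρ hρ v 1)) (v : 𝔇.ι) (hL : L v = ⊤)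
    (htau : ∀ t : 𝔇.Hv τ hτ v 2, 𝔇.trV hτ tr v t = 0 → t = 0)
    (hN : ∀ Y : 𝔇.Hv ρ' hρ' v 1, (∀ b : 𝔇.Hv ρ hρ v 1,
      𝔇.cupV hρ' hρ hτ (dualPair k M) (dualPair_equivariant χ hρ'a hτa) v 1 1 2 rfl Y b = 0) →
      Y = 0)
    (y : 𝔇.H ρ' hρ' 1)
    (hy : y ∈ 𝔇.SelDual hρ' hρ hτ (dualPair k M) (dualPair_equivariant χ hρ'a hτa) tr L) :
    (𝔇.resv ρ' hρ' v).mapH 1 y = 0 := by
  refine hN _ fun b => htau _ ?_
  have h1 := (𝔇.mem_SelDual hρ' hρ hτ (dualPair k M) (dualPair_equivariant χ hρ'a hτa) tr L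
    y).mp hy v b (by rw [hL]; exact Submodule.mem_top)
  exact h1

/-- Conversely, the condition of `SelDual` at `v` is satisfied by classes which are locally
trivial at `v`. -/
theorem lpair_eq_zero_of_resv_eq_zero {A B T : Type} [AddCommGroup A] [Module k A]
    [AddCommGroup B] [Module k B] [AddCommGroup T] [Module k T] {ρA : Representation k G A}
    {ρB : Representation k G B} {ρT : Representation k G T} (hA : 𝔇.IsSmooth ρA)
    (hB : 𝔇.IsSmooth ρB) (hT : 𝔇.IsSmooth ρT) (β : A →ₗ[k] B →ₗ[k] T)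
    (hβ : ∀ g a b, β (ρA g a) (ρB g b) = ρT g (β a b)) (tr : 𝔇.Hc ρT hT 3 →ₗ[k] k)
    (v : 𝔇.ι) (y : 𝔇.H ρA hA 1) (hy : (𝔇.resv ρA hA v).mapH 1 y = 0) (b : 𝔇.Hv ρB hB v 1) :
    𝔇.lpair hA hB hT β hβ tr v ((𝔇.resv ρA hA v).mapH 1 y) b = 0 := by
  rw [hy, map_zero, LinearMap.zero_apply]

end GW

end LocDatum

end Fermat.Agent.PT
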