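/-
PT layer F, for TW: Greenberg–Wiles for an arbitrary perfect pairing.

For a perfect equivariant pairing `β : A × B → k(χ)` (so `A ≅ B^*(χ)`):

* `LocDatum.cupV11_left_injective_of_perfect` : the local cup product
  `H¹_v(A) × H¹_v(B) → H²_v(k(χ))` has trivial left kernel (from the local `alpha²`);
* `LocDatum.CountHyp.gw_formula_perfect` : the Greenberg–Wiles formula with the dual Selmer
  group inside `H¹(A)`;
* `LocDatum.resv_eq_zero_of_mem_SelDual_of_top` : dual Selmer classes are locally trivial at the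
  places where the local condition is everything;
* `LocDatum.exists_gw_of_base` : all of this from the nine base items of the formal engine;
* `LocDatum.gw_ineq` : the resulting inequality
  `dim Sel_L(B) + d ≤ dim Sel_{L^⊥}(A) + Σ_v δ_v`.
-/
import Mathlib
import Fermat.Agent.PT.Coh.GW
import Fermat.Agent.PT.Coh.CupLocal
import Fermat.Agent.PT.Coh.EngineTop

set_option autoImplicit false

namespace Fermat.Agent.PT

namespace LocDatum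

open Module

variable {G : Type} [Group G] (𝔇 : LocDatum G) {k : Type} [Field k]
variable {A B : Type} [AddCommGroup A] [Module k A] [AddCommGroup B] [Module k B]
variable {ρA : Representation k G A} {ρB : Representation k G B} {τ : Representation k G k}

section Perfect

variable (χ : G →* kˣ) (hτa : ∀ g x, τ g x = (χ g : k) * x)
  (β : A →ₗ[k] B →ₗ[k] k) (hβ : ∀ g a b, β (ρA g a) (ρB g b) = τ g (β a b))

include hτa hβ in
/-- an equivariant pairing into `k(χ)` is an equivariant map `A → B^*(χ)` -/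
lemma pairing_equivariant_dualTw (g : G) (a : A) : β (ρA g a) = dualTw χ ρB g (β a) := by
  refine LinearMap.ext fun b => ?_
  rw [dualTw_apply]
  have h := hβ g a (ρB g⁻¹ b)
  rw [← Module.End.mul_apply, ← map_mul, mul_inv_cancel, map_one, Module.End.one_apply,
    hτa] at h
  exact h

include hτa hβ in
/-- the twisted dual of `B` is smooth if `A` is and the pairing is surjective onto the dual -/
lemma isSmooth_dualTw_of_pairing (hA : 𝔇.IsSmooth ρA) (hsurj : Function.Surjective β) :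
    𝔇.IsSmooth (dualTw χ ρB) := by
  intro φ
  obtain ⟨a, rfl⟩ := hsurj φ
  obtain ⟨N, hN, h⟩ := hA a
  refine ⟨N, hN, fun s hs => ?_⟩
  rw [← pairing_equivariant_dualTw χ hτa β hβ, h s hs]

variable (hA : 𝔇.IsSmooth ρA) (hB : 𝔇.IsSmooth ρB) (hτ : 𝔇.IsSmooth τ)

/-- local cup products for `β` and for the evaluation pairing -/
lemma cupV_eq_cupV_dualPair (hρ' : 𝔇.IsSmooth (dualTw χ ρB)) (v : 𝔇.ι) (i j N : ℕ)
    (h : i + j = N) (Y : 𝔇.Hv ρA hA v i) (b : 𝔇.Hv ρB hB v j) :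
    𝔇.cupV hρ' hB hτ (dualPair k B)
        (dualPair_equivariant χ (dualTw_eq_smul_comp χ ρB) hτa) v i j N h
        ((𝔇.mapCv hA hρ' β (pairing_equivariant_dualTw χ hτa β hβ) v).mapH i Y) b =
      𝔇.cupV hA hB hτ β hβ v i j N h Y b := by
  have key := Cx.Pairing.cupH_congr
    (𝔇.cupCv hρ' hB hτ (dualPair k B)
      (dualPair_equivariant χ (dualTw_eq_smul_comp χ ρB) hτa) v)
    (𝔇.cupCv hA hB hτ β hβ v)
    (𝔇.mapCv hA hρ' β (pairing_equivariant_dualTw χ hτa β hβ) v)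
    (Cx.Hom.id (𝔇.Cv ρB hB v))
    (fun i j N h a b => Subtype.ext rfl) i j N h Y b
  rw [Cx.Hom.mapH_id] at key
  exact key

include hτa in
/-- **Local (S-D) for a perfect pairing.**  If `β : A × B → k(χ)` is a perfect equivariant
pairing and the local `alpha²` at `v` is bijective on finite smooth representations of `D_v`,
then a class `Y ∈ H¹_v(A)` with `Y ∪ b = 0 ∈ H²_v(k(χ))` for all `b ∈ H¹_v(B)` is zero. -/
theorem cupV11_left_injective_of_perfect [Module.Finite k B] (hperf : Function.Bijective β)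
    (v : 𝔇.ι) (trv : 𝔇.Hv τ hτ v 2 →ₗ[k] k)
    (halpha : ∀ (E : Type) [AddCommGroup E] [Module k E] [Module.Finite k E]
      (σ : Representation k (𝔇.D v) E) (hσ : (𝔇.Lv v).IsSmooth σ),
      Function.Bijective
        ((Rex.levelFun k (𝔇.Lv v)).alpha 2 hσ (𝔇.isSmooth_resRep hτ v) trv))
    (Y : 𝔇.Hv ρA hA v 1)
    (hY : ∀ b : 𝔇.Hv ρB hB v 1, 𝔇.cupV hA hB hτ β hβ v 1 1 2 rfl Y b = 0) : Y = 0 := by
  have hρ' : 𝔇.IsSmooth (dualTw χ ρB) := 𝔇.isSmooth_dualTw_of_pairing χ hτa β hβ hA hperf.2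
  have hbij : Function.Bijective
      ((𝔇.mapCv hA hρ' β (pairing_equivariant_dualTw χ hτa β hβ) v).mapH 1) :=
    𝔇.mapCv_bijective hA hρ' (LinearEquiv.ofBijective β hperf)
      (pairing_equivariant_dualTw χ hτa β hβ) v 1
  apply hbij.1
  rw [map_zero]
  refine 𝔇.cupV11_left_injective χ hB hρ' hτ (dualTw_eq_smul_comp χ ρB) hτa v trv halpha _
    fun b => ?_
  rw [𝔇.cupV_eq_cupV_dualPair χ hτa β hβ hA hB hτ hρ' v 1 1 2 rfl Y b]
  exact hY b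

/-- global cup products for `β` and for the evaluation pairing -/
lemma cup_eq_cup_dualPair (hρ' : 𝔇.IsSmooth (dualTw χ ρB)) (i j N : ℕ)
    (h : i + j = N) (y : 𝔇.H ρA hA i) (x : 𝔇.Hc ρB hB j) :
    𝔇.cup hρ' hB hτ (dualPair k B)
        (dualPair_equivariant χ (dualTw_eq_smul_comp χ ρB) hτa) i j N h
        ((𝔇.mapC hA hρ' β (pairing_equivariant_dualTw χ hτa β hβ)).mapH i y) x =
      𝔇.cup hA hB hτ β hβ i j N h y x := by
  have key := 𝔇.cup_nat hA hρ' hB hB hτ β hβ (dualPair k B)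
    (dualPair_equivariant χ (dualTw_eq_smul_comp χ ρB) hτa) β
    (pairing_equivariant_dualTw χ hτa β hβ) LinearMap.id (fun _ _ => rfl) (fun _ _ => rfl)
    i j N h y x
  have hid : (𝔇.mapCc hB hB LinearMap.id (fun _ _ => rfl)).mapH j x = x := by
    have h1 : 𝔇.mapCc hB hB (LinearMap.id : B →ₗ[k] B) (fun _ _ => rfl) =
        Cx.Hom.id (𝔇.Cc ρB hB) := by
      refine Cx.Hom.ext fun n z => ?_
      cases n with
      | zero => rfl
      | succ n =>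
        obtain ⟨c, e, rfl⟩ := Cx.coconeMk_surjective (𝔇.loc ρB hB) z
        rfl
    rw [h1, Cx.Hom.mapH_id]
  rw [hid] at key
  exact key.symm

end Perfect

/-! ### Greenberg–Wiles for a perfect pairing -/

/-- **The Greenberg–Wiles formula for a perfect pairing** `β : A × B → k(χ)`, under the
hypotheses of the counting engine, for `B` with `Ẽ(B) = 0`:
`dim Sel_L(B) + h¹(A) + Σ_v h⁰_v(B) = dim Sel_{L^⊥}(A) + Σ_v dim L_v + h⁰(B) + h²(A)`. -/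
theorem CountHyp.gw_formula_perfect [Nonempty 𝔇.ι] {χ : G →* kˣ} (h : CountHyp 𝔇 k χ)
    (hτ : 𝔇.IsSmooth τ) (hτχ : ∀ g x, τ g x = (χ g : k) * x)
    (tr : 𝔇.Hc τ hτ 3 →ₗ[k] k)
    (halpha : ∀ (E : Type) [AddCommGroup E] [Module k E] [Module.Finite k E]
      (σ : Representation k G E) (hσ : 𝔇.IsSmooth σ),
      Function.Bijective ((Rex.ccFun k 𝔇).alpha 3 hσ hτ tr))
    [Module.Finite k B] (hA : 𝔇.IsSmooth ρA) (hB : 𝔇.IsSmooth ρB)
    (β : A →ₗ[k] B →ₗ[k] k) (hβ : ∀ g a b, β (ρA g a) (ρB g b) = τ g (β a b))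
    (hperf : Function.Bijective β)
    (hE : ∀ hρ' : 𝔇.IsSmooth (dualTw χ ρB), 𝔇.Et χ ρB hB hρ' = 0)
    (L : ∀ v, Submodule k (𝔇.Hv ρB hB v 1)) :
    finrank k (𝔇.Sel hB L) + finrank k (𝔇.H ρA hA 1) + ∑ v, finrank k (𝔇.Hv ρB hB v 0) =
      finrank k (𝔇.SelDual hA hB hτ β hβ tr L) + ∑ v, finrank k (L v) +
        finrank k (𝔇.H ρB hB 0) + finrank k (𝔇.H ρA hA 2) := by
  have hρ' : 𝔇.IsSmooth (dualTw χ ρB) := 𝔇.isSmooth_dualTw χ hB h.hχ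
  have hEq := pairing_equivariant_dualTw χ hτχ β hβ
  have hfinA : Module.Finite k A := Module.Finite.equiv (LinearEquiv.ofBijective β hperf).symm
  have hbij : ∀ n, Function.Bijective ((𝔇.mapC hA hρ' β hEq).mapH n) := fun n =>
    𝔇.mapC_bijective hA hρ' (LinearEquiv.ofBijective β hperf) hEq n
  have : Module.Finite k (𝔇.H ρB hB 0) := h.fin ρB hB 0 (by omega)
  have : ∀ v, Module.Finite k (𝔇.Hv ρB hB v 0) := fun v => h.finv ρB hB v 0 (by omega)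
  have : Module.Finite k (𝔇.H ρB hB 1) := h.fin ρB hB 1 (by omega)
  have : ∀ v, Module.Finite k (𝔇.Hv ρB hB v 1) := fun v => h.finv ρB hB v 1 (by omega)
  have : Module.Finite k (𝔇.Hc ρB hB 2) := h.finc ρB hB 2 (by omega)
  have : Module.Finite k (𝔇.H ρA hA 1) := h.fin ρA hA 1 (by omega)
  have e1 : finrank k (𝔇.Hc ρB hB 1) = finrank k (𝔇.H (dualTw χ ρB) hρ' 2) :=
    h.finrank_Hc_one ρB hB hρ' (hE hρ')
  have e2 : finrank k (𝔇.H (dualTw χ ρB) hρ' 1) = finrank k (𝔇.Hc ρB hB 2) :=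
    (h.finrank_Hc_two ρB hB hρ' (hE hρ')).symm
  have e3 : finrank k (𝔇.H ρA hA 2) = finrank k (𝔇.H (dualTw χ ρB) hρ' 2) :=
    LinearEquiv.finrank_eq (LinearEquiv.ofBijective _ (hbij 2))
  have hperf' : ∀ x : 𝔇.Hc ρB hB 2,
      (∀ y : 𝔇.H ρA hA 1, tr (𝔇.cup12 hA hB hτ β hβ y x) = 0) → x = 0 := by
    intro x hx
    refine 𝔇.cup12tr_right_injective χ hB hρ' hτ (dualTw_eq_smul_comp χ ρB) hτχ tr halpha
      e2 x fun Y => ?_
    obtain ⟨y, rfl⟩ := (hbij 1).2 Y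
    have h1 := 𝔇.cup_eq_cup_dualPair χ hτχ β hβ hA hB hτ hρ' 1 2 3 rfl y x
    exact (congrArg tr h1).trans (hx y)
  have key := 𝔇.gw_formula hA hB hτ β hβ tr hperf' L
  rw [e1, ← e3] at key
  exact key

/-- **Dual Selmer classes are locally trivial where the local condition is everything**
(general pairing): if `L_v = ⊤`, the local invariant `trV v` is injective and the local cup
product at `v` has trivial left kernel, then every `y ∈ Sel_{L^⊥}(A)` restricts to `0` in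
`H¹_v(A)`. -/
theorem resv_eq_zero_of_mem_SelDual_of_top {T : Type} [AddCommGroup T] [Module k T]
    {ρT : Representation k G T} (hA : 𝔇.IsSmooth ρA) (hB : 𝔇.IsSmooth ρB) (hT : 𝔇.IsSmooth ρT)
    (β : A →ₗ[k] B →ₗ[k] T) (hβ : ∀ g a b, β (ρA g a) (ρB g b) = ρT g (β a b))
    (tr : 𝔇.Hc ρT hT 3 →ₗ[k] k) (L : ∀ v, Submodule k (𝔇.Hv ρB hB v 1)) (v : 𝔇.ι)
    (hL : L v = ⊤) (htau : ∀ t : 𝔇.Hv ρT hT v 2, 𝔇.trV hT tr v t = 0 → t = 0)
    (hN : ∀ Y : 𝔇.Hv ρA hA v 1,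
      (∀ b : 𝔇.Hv ρB hB v 1, 𝔇.cupV hA hB hT β hβ v 1 1 2 rfl Y b = 0) → Y = 0)
    (y : 𝔇.H ρA hA 1) (hy : y ∈ 𝔇.SelDual hA hB hT β hβ tr L) :
    (𝔇.resv ρA hA v).mapH 1 y = 0 := by
  refine hN _ fun b => htau _ ?_
  have h1 := (𝔇.mem_SelDual hA hB hT β hβ tr L y).mp hy v b
    (by rw [hL]; exact Submodule.mem_top)
  exact h1

/-- **The Greenberg–Wiles inequality.**  From the formula, `h⁰(B) = 0`, the global Euler
characteristic bound `h²(A) + d ≤ h¹(A)` and the local bounds `dim L_v ≤ h⁰_v(B) + δ_v`: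
`dim Sel_L(B) + d ≤ dim Sel_{L^⊥}(A) + Σ_v δ_v`. -/
theorem gw_ineq {T : Type} [AddCommGroup T] [Module k T]
    {ρT : Representation k G T} (hA : 𝔇.IsSmooth ρA) (hB : 𝔇.IsSmooth ρB) (hT : 𝔇.IsSmooth ρT)
    (β : A →ₗ[k] B →ₗ[k] T) (hβ : ∀ g a b, β (ρA g a) (ρB g b) = ρT g (β a b))
    (tr : 𝔇.Hc ρT hT 3 →ₗ[k] k) (L : ∀ v, Submodule k (𝔇.Hv ρB hB v 1))
    (hgw : finrank k (𝔇.Sel hB L) + finrank k (𝔇.H ρA hA 1) +
        ∑ v, finrank k (𝔇.Hv ρB hB v 0) =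
      finrank k (𝔇.SelDual hA hB hT β hβ tr L) + ∑ v, finrank k (L v) +
        finrank k (𝔇.H ρB hB 0) + finrank k (𝔇.H ρA hA 2))
    (h0 : finrank k (𝔇.H ρB hB 0) = 0) (d : ℕ)
    (hEC : finrank k (𝔇.H ρA hA 2) + d ≤ finrank k (𝔇.H ρA hA 1))
    (δ : 𝔇.ι → ℕ) (hloc : ∀ v, finrank k (L v) ≤ finrank k (𝔇.Hv ρB hB v 0) + δ v) :
    finrank k (𝔇.Sel hB L) + d ≤
      finrank k (𝔇.SelDual hA hB hT β hβ tr L) + ∑ v, δ v := by
  have h1 : ∑ v, finrank k (L v) ≤ ∑ v, finrank k (𝔇.Hv ρB hB v 0) + ∑ v, δ v := by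
    rw [← Finset.sum_add_distrib]
    exact Finset.sum_le_sum fun v _ => hloc v
  omega

/-! ### The package -/

/-- The outputs of the formal engine which are consumed by the Greenberg–Wiles formula:
the counting hypotheses, the trace `tr : H³_c(k(χ)) → k` with `alpha³` bijective, the
injectivity of the local invariants `trV v`, `Ẽ = 0`, and the local `alpha²`. -/
structure GWHyp (𝔇 : LocDatum G) {k : Type} [Field k] (χ : G →* kˣ) {τ : Representation k G k}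
    (hτ : 𝔇.IsSmooth τ) (tr : 𝔇.Hc τ hτ 3 →ₗ[k] k) : Prop where
  /-- `τ = k(χ)` -/
  hτχ : ∀ g (x : k), τ g x = (χ g : k) * x
  /-- the counting hypotheses -/
  count : CountHyp 𝔇 k χ
  /-- `alpha³` is bijective -/
  halpha : ∀ (E : Type) [AddCommGroup E] [Module k E] [Module.Finite k E]
    (σ : Representation k G E) (hσ : 𝔇.IsSmooth σ),
    Function.Bijective ((Rex.ccFun k 𝔇).alpha 3 hσ hτ tr)
  /-- the local invariants are injective -/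
  htrV : ∀ (v : 𝔇.ι) (t : 𝔇.Hv τ hτ v 2), 𝔇.trV hτ tr v t = 0 → t = 0
  /-- `Ẽ = 0` -/
  hEt : ∀ (M : Type) [AddCommGroup M] [Module k M] [Module.Finite k M]
    (ρ : Representation k G M) (hρ : 𝔇.IsSmooth ρ) (hρ' : 𝔇.IsSmooth (dualTw χ ρ)),
    𝔇.Et χ ρ hρ hρ' = 0
  /-- the local `alpha²` is bijective -/
  halphaV : ∀ v : 𝔇.ι, ∃ trv : 𝔇.Hv τ hτ v 2 →ₗ[k] k,
    ∀ (E : Type) [AddCommGroup E] [Module k E] [Module.Finite k E]
      (σ : Representation k (𝔇.D v) E) (hσ : (𝔇.Lv v).IsSmooth σ),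
      Function.Bijective ((Rex.levelFun k (𝔇.Lv v)).alpha 2 hσ (𝔇.isSmooth_resRep hτ v) trv)

/-- **The Greenberg–Wiles package from the nine base items of the formal engine**
(the hypotheses of `finrank_sha_eq_of_base`). -/
theorem exists_gwHyp_of_base [Nonempty 𝔇.ι] (χ : G →* kˣ) {τ : Representation k G k}
    (hτχ : ∀ g (x : k), τ g x = (χ g : k) * x) (hτ : 𝔇.IsSmooth τ)
    (hχ : ∃ N ∈ 𝔇.L.lev, ∀ s ∈ N, χ s = 1)
    (fin : ∀ {M : Type} [AddCommGroup M] [Module k M] [Module.Finite k M]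
      (ρ : Representation k G M) (hρ : 𝔇.IsSmooth ρ) (n : ℕ), n ≤ 2 →
        Module.Finite k (𝔇.H ρ hρ n))
    (finv : ∀ {M : Type} [AddCommGroup M] [Module k M] [Module.Finite k M]
      (ρ : Representation k G M) (hρ : 𝔇.IsSmooth ρ) (v : 𝔇.ι) (n : ℕ), n ≤ 2 →
        Module.Finite k (𝔇.Hv ρ hρ v n))
    (cd : ∀ {M : Type} [AddCommGroup M] [Module k M] [Module.Finite k M]
      (ρ : Representation k G M) (hρ : 𝔇.IsSmooth ρ), Subsingleton (𝔇.H ρ hρ 3))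
    (cdv : ∀ {M : Type} [AddCommGroup M] [Module k M] [Module.Finite k M]
      (ρ : Representation k G M) (hρ : 𝔇.IsSmooth ρ) (v : 𝔇.ι), Subsingleton (𝔇.Hv ρ hρ v 3))
    (cdL : ∀ (v : 𝔇.ι) (M : Type) [AddCommGroup M] [Module k M] [Module.Finite k M]
      (ρ : Representation k (𝔇.D v) M) (hρ : (𝔇.Lv v).IsSmooth ρ),
      Subsingleton (((𝔇.Lv v).cx ρ hρ).H 3))
    (hT2 : ∀ v, Nontrivial (𝔇.Hv τ hτ v 2))
    (noLine : ∀ (v₀ : 𝔇.ι) (x : 𝔇.H τ hτ 2),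
      (∀ v, v ≠ v₀ → 𝔇.locH τ hτ 2 x v = 0) → 𝔇.locH τ hτ 2 x v₀ = 0)
    (base : ∀ N₀ ∈ 𝔇.L.lev, ∃ N, ∃ hN : N ∈ 𝔇.L.lev, N ≤ N₀ ∧
      finrank k (𝔇.Hc (Shapiro.permRep N k)
        (Shapiro.permRep_smooth 𝔇.L N k ⟨N, hN, le_rfl⟩) 3) = 1 ∧
      2 * Cx.chi (𝔇.C (Shapiro.permRep N k)
        (Shapiro.permRep_smooth 𝔇.L N k ⟨N, hN, le_rfl⟩)) 2 =
        ∑ v, Cx.chi (𝔇.Cv (Shapiro.permRep N k)
          (Shapiro.permRep_smooth 𝔇.L N k ⟨N, hN, le_rfl⟩) v) 2)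
    (basev : ∀ v, ∀ N₀ ∈ (𝔇.Lv v).lev, ∃ N, ∃ hN : N ∈ (𝔇.Lv v).lev, N ≤ N₀ ∧
      finrank k (((𝔇.Lv v).cx (Shapiro.permRep N k)
        (Shapiro.permRep_smooth (𝔇.Lv v) N k ⟨N, hN, le_rfl⟩)).H 2) = 1) :
    ∃ tr : 𝔇.Hc τ hτ 3 →ₗ[k] k, GWHyp 𝔇 χ hτ tr := by
  have base3 : ∀ N₀ ∈ 𝔇.L.lev, ∃ N, ∃ hN : N ∈ 𝔇.L.lev, N ≤ N₀ ∧
      finrank k (𝔇.Hc (Shapiro.permRep N k)
        (Shapiro.permRep_smooth 𝔇.L N k ⟨N, hN, le_rfl⟩) 3) = 1 := fun N₀ hN₀ => by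
    obtain ⟨N, hN, hle, h3, -⟩ := base N₀ hN₀
    exact ⟨N, hN, hle, h3⟩
  have hCount : CountHyp 𝔇 k χ :=
    𝔇.countHyp_of_dims χ hτχ hτ hχ fin finv cd cdv cdL hT2 noLine base3 basev
  have hG : ∀ (M : Type) [AddCommGroup M] [Module k M] [Module.Finite k M]
      (ρ : Representation k G M) (hρ : 𝔇.IsSmooth ρ), Subsingleton (𝔇.H ρ hρ 3) :=
    fun M _ _ _ ρ hρ => cd ρ hρ
  have hv : ∀ (M : Type) [AddCommGroup M] [Module k M] [Module.Finite k M]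
      (ρ : Representation k G M) (hρ : 𝔇.IsSmooth ρ) (v : 𝔇.ι),
      Subsingleton (𝔇.Hv ρ hρ v 3) := fun M _ _ _ ρ hρ v => cdv ρ hρ v
  have hnt : Nontrivial (𝔇.Hc τ hτ 3) := 𝔇.nontrivial_Hc_three hτ hT2 noLine
  obtain ⟨tr, htr, hbij⟩ := Rex.exists_tr_alpha3_bijective 𝔇 hτ hG hv base3
  obtain ⟨Nχ, hNχ, hNχ1⟩ := hχ
  have hχ₂ : ∀ N₀ ∈ 𝔇.L.lev, ∃ N ∈ 𝔇.L.lev, N ≤ N₀ ∧ (∀ s ∈ N, χ s = 1) ∧
      ∀ hX : 𝔇.IsSmooth (Shapiro.permRep N k),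
        2 * Cx.chi (𝔇.C (Shapiro.permRep N k) hX) 2 =
          ∑ v, Cx.chi (𝔇.Cv (Shapiro.permRep N k) hX v) 2 := fun N₀ hN₀ => by
    obtain ⟨N₁, hN₁, hN₁le⟩ := 𝔇.L.inter N₀ hN₀ Nχ hNχ
    obtain ⟨N, hN, hle, -, h2⟩ := base N₁ hN₁
    exact ⟨N, hN, hle.trans (hN₁le.trans inf_le_left),
      fun s hs => hNχ1 s ((hle.trans (hN₁le.trans inf_le_right)) hs), fun hX => h2⟩
  refine ⟨tr, { hτχ := hτχ, count := hCount, halpha := hbij, htrV := ?_, hEt := ?_,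
                halphaV := ?_ }⟩
  · intro v t ht
    classical
    have h0 := (𝔇.trV_apply hτ tr v t).symm.trans ht
    have h1 := 𝔇.htau_of_noLine hτ tr htr noLine v _
      (fun u hu => Pi.single_eq_of_ne hu _) h0
    rwa [Pi.single_eq_same] at h1
  · intro M _ _ _ ρ hρ hρ'
    obtain ⟨P, _, _, _, σ, hσ, hσ', i, hinj, hi, hP⟩ :=
      EngineEmb.hemb_of_perm χ hCount (EngineEmb.hbase_of_chi χ hCount hχ₂) ρ hρ
    exact hCount.Et_eq_zero_of_injective hρ hσ hρ' hσ' i hi hinj hP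
  · intro v
    have := hT2 v
    obtain ⟨trv, -, hb⟩ := Rex.exists_tr_alpha2_bijective (𝔇.Lv v) (𝔇.isSmooth_resRep hτ v)
      (cdL v) (basev v)
    exact ⟨trv, hb⟩

namespace GWHyp

variable {𝔇} {χ : G →* kˣ} {hτ : 𝔇.IsSmooth τ} {tr : 𝔇.Hc τ hτ 3 →ₗ[k] k}

/-- **Greenberg–Wiles** for a perfect pairing `β : A × B → k(χ)`:
`dim Sel_L(B) + h¹(A) + Σ_v h⁰_v(B) = dim Sel_{L^⊥}(A) + Σ_v dim L_v + h⁰(B) + h²(A)`. -/
theorem gw_formula [Nonempty 𝔇.ι] (H : GWHyp 𝔇 χ hτ tr) [Module.Finite k B]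
    (hA : 𝔇.IsSmooth ρA) (hB : 𝔇.IsSmooth ρB)
    (β : A →ₗ[k] B →ₗ[k] k) (hβ : ∀ g a b, β (ρA g a) (ρB g b) = τ g (β a b))
    (hperf : Function.Bijective β) (L : ∀ v, Submodule k (𝔇.Hv ρB hB v 1)) :
    finrank k (𝔇.Sel hB L) + finrank k (𝔇.H ρA hA 1) + ∑ v, finrank k (𝔇.Hv ρB hB v 0) =
      finrank k (𝔇.SelDual hA hB hτ β hβ tr L) + ∑ v, finrank k (L v) +
        finrank k (𝔇.H ρB hB 0) + finrank k (𝔇.H ρA hA 2) :=
  H.count.gw_formula_perfect 𝔇 hτ H.hτχ tr H.halpha hA hB β hβ hperf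
    (fun hρ' => H.hEt B ρB hB hρ') L

/-- **(N)**: the local cup product `H¹_v(A) × H¹_v(B) → H²_v(k(χ))` of a perfect pairing has
trivial left kernel, at every place. -/
theorem cupV11_left_injective (H : GWHyp 𝔇 χ hτ tr) [Module.Finite k B]
    (hA : 𝔇.IsSmooth ρA) (hB : 𝔇.IsSmooth ρB)
    (β : A →ₗ[k] B →ₗ[k] k) (hβ : ∀ g a b, β (ρA g a) (ρB g b) = τ g (β a b))
    (hperf : Function.Bijective β) (v : 𝔇.ι) (Y : 𝔇.Hv ρA hA v 1)
    (hY : ∀ b : 𝔇.Hv ρB hB v 1, 𝔇.cupV hA hB hτ β hβ v 1 1 2 rfl Y b = 0) : Y = 0 := by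
  obtain ⟨trv, hb⟩ := H.halphaV v
  exact 𝔇.cupV11_left_injective_of_perfect χ H.hτχ β hβ hA hB hτ hperf v trv hb Y hY

/-- dual Selmer classes are locally trivial at the places where `L_v = ⊤` -/
theorem resv_eq_zero_of_mem_SelDual (H : GWHyp 𝔇 χ hτ tr) [Module.Finite k B]
    (hA : 𝔇.IsSmooth ρA) (hB : 𝔇.IsSmooth ρB)
    (β : A →ₗ[k] B →ₗ[k] k) (hβ : ∀ g a b, β (ρA g a) (ρB g b) = τ g (β a b))
    (hperf : Function.Bijective β) (L : ∀ v, Submodule k (𝔇.Hv ρB hB v 1)) (v : 𝔇.ι)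
    (hL : L v = ⊤) (y : 𝔇.H ρA hA 1) (hy : y ∈ 𝔇.SelDual hA hB hτ β hβ tr L) :
    (𝔇.resv ρA hA v).mapH 1 y = 0 :=
  𝔇.resv_eq_zero_of_mem_SelDual_of_top hA hB hτ β hβ tr L v hL (H.htrV v)
    (fun Y hY => H.cupV11_left_injective hA hB β hβ hperf v Y hY) y hy

/-- **The Greenberg–Wiles inequality** for a perfect pairing: if `h⁰(B) = 0`,
`h²(A) + d ≤ h¹(A)` and `dim L_v ≤ h⁰_v(B) + δ_v` for all `v`, then
`dim Sel_L(B) + d ≤ dim Sel_{L^⊥}(A) + Σ_v δ_v`. -/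
theorem gw_ineq [Nonempty 𝔇.ι] (H : GWHyp 𝔇 χ hτ tr) [Module.Finite k B]
    (hA : 𝔇.IsSmooth ρA) (hB : 𝔇.IsSmooth ρB)
    (β : A →ₗ[k] B →ₗ[k] k) (hβ : ∀ g a b, β (ρA g a) (ρB g b) = τ g (β a b))
    (hperf : Function.Bijective β) (L : ∀ v, Submodule k (𝔇.Hv ρB hB v 1))
    (h0 : finrank k (𝔇.H ρB hB 0) = 0) (d : ℕ)
    (hEC : finrank k (𝔇.H ρA hA 2) + d ≤ finrank k (𝔇.H ρA hA 1))
    (δ : 𝔇.ι → ℕ) (hloc : ∀ v, finrank k (L v) ≤ finrank k (𝔇.Hv ρB hB v 0) + δ v) :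
    finrank k (𝔇.Sel hB L) + d ≤
      finrank k (𝔇.SelDual hA hB hτ β hβ tr L) + ∑ v, δ v :=
  𝔇.gw_ineq hA hB hτ β hβ tr L (H.gw_formula hA hB β hβ hperf L) h0 d hEC δ hloc

end GWHyp

end LocDatum

end Fermat.Agent.PT
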