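import Fermat.Agent.PT.Coh.Shapiro
import Fermat.Agent.PT.Coh.ResLevel

/-!
# PT layer F5: effacement by coinduced modules

`(Γ, L)` a leveled group, `(M, ρ)` a smooth representation, `U ≤ Γ` open.

* `effMap ρ U : M →ₗ coind_U^Γ (res_U M)`, `m ↦ (g ↦ ρ g m)` — injective and equivariant;
* `sh_effMap` : Shapiro ∘ `(effMap)_*` is the restriction `C^•(Γ; M) ⟶ C^•(U; M)`;
* `effMap_mapH_eq_zero_iff` : `(effMap)_* y = 0 ↔ res_U y = 0` on every `Hⁿ`;
* `exists_level_effMap_mapH_eq_zero` : **every class `y ∈ Hⁿ⁺¹(Γ; M)` dies in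
  `Hⁿ⁺¹(Γ; coind_N^Γ res_N M)` for a small enough level `N`** (below any given level);
* `finite_coindV` : coinduction from a finite index subgroup preserves finiteness.
-/

set_option autoImplicit false

namespace Fermat.Agent.PT.Shapiro

open Fermat.Agent.PT Fermat.Agent.PT.Induced

section Efface

variable {Γ : Type} [Group Γ] (L : LevelSys Γ) {k : Type} [CommRing k]
variable {M : Type} [AddCommGroup M] [Module k M]

/-- The canonical embedding `M → coind_U^Γ (res_U M)`, `m ↦ (g ↦ ρ g m)`. -/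
def effMap (ρ : Representation k Γ M) (U : Subgroup Γ) :
    M →ₗ[k] Representation.coindV U.subtype (ρ.comp U.subtype) where
  toFun m := ⟨fun g => ρ g m, fun u g => by
    show ρ (U.subtype u * g) m = ρ (U.subtype u) (ρ g m)
    rw [map_mul, Module.End.mul_apply]⟩
  map_add' m m' := Subtype.ext (funext fun g => map_add (ρ g) m m')
  map_smul' c m := Subtype.ext (funext fun g => map_smul (ρ g) c m)

lemma effMap_apply (ρ : Representation k Γ M) (U : Subgroup Γ) (m : M) (g : Γ) :
    (effMap ρ U m).1 g = ρ g m := rfl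

lemma effMap_equivariant (ρ : Representation k Γ M) (U : Subgroup Γ) (g : Γ) (m : M) :
    effMap ρ U (ρ g m) =
      Representation.coind U.subtype (ρ.comp U.subtype) g (effMap ρ U m) := by
  apply Subtype.ext
  funext x
  show ρ x (ρ g m) = ρ (x * g) m
  rw [map_mul, Module.End.mul_apply]

lemma effMap_injective (ρ : Representation k Γ M) (U : Subgroup Γ) :
    Function.Injective (effMap ρ U) := by
  intro m m' h
  have h1 : ρ 1 m = ρ 1 m' := congrFun (congrArg Subtype.val h) 1
  rwa [map_one, Module.End.one_apply, Module.End.one_apply] at h1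

variable (U : Subgroup Γ)

/-- `coind_U^Γ (res_U M)` is smooth. -/
lemma effRep_smooth (hU : ∃ N ∈ L.lev, N ≤ U) (ρ : Representation k Γ M) (hρ : L.IsSmooth ρ) :
    L.IsSmooth (M := Representation.coindV U.subtype (ρ.comp U.subtype))
      (Representation.coind U.subtype (ρ.comp U.subtype)) :=
  coind_smooth L U hU _ ((isCts_subtype L U).isSmooth hρ)

/-- Shapiro after `(effMap)_*` is restriction to `U`. -/
lemma sh_effMap (hU : ∃ N ∈ L.lev, N ≤ U) (ρ : Representation k Γ M) (hρ : L.IsSmooth ρ)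
    (n : ℕ) (f : (L.cx ρ hρ).X n) :
    (sh L U hU (ρ.comp U.subtype) ((isCts_subtype L U).isSmooth hρ)).f n
        ((L.mapCoeff hρ (effRep_smooth L U hU ρ hρ) (effMap ρ U)
          (effMap_equivariant ρ U)).f n f) =
      (L.res (subLev L U) (isCts_subtype L U) ρ hρ
        ((isCts_subtype L U).isSmooth hρ)).f n f := by
  apply Subtype.ext
  funext u
  show ρ 1 (f.1 (U.subtype ∘ u)) = f.1 (U.subtype ∘ u)
  rw [map_one, Module.End.one_apply]

/-- On cohomology: Shapiro after `(effMap)_*` is restriction to `U`. -/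
theorem sh_effMap_mapH (hU : ∃ N ∈ L.lev, N ≤ U) (ρ : Representation k Γ M)
    (hρ : L.IsSmooth ρ) (n : ℕ) (y : (L.cx ρ hρ).H n) :
    (sh L U hU (ρ.comp U.subtype) ((isCts_subtype L U).isSmooth hρ)).mapH n
        ((L.mapCoeff hρ (effRep_smooth L U hU ρ hρ) (effMap ρ U)
          (effMap_equivariant ρ U)).mapH n y) =
      (L.res (subLev L U) (isCts_subtype L U) ρ hρ
        ((isCts_subtype L U).isSmooth hρ)).mapH n y := by
  have e : (sh L U hU (ρ.comp U.subtype) ((isCts_subtype L U).isSmooth hρ)).comp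
      (L.mapCoeff hρ (effRep_smooth L U hU ρ hρ) (effMap ρ U) (effMap_equivariant ρ U)) =
      L.res (subLev L U) (isCts_subtype L U) ρ hρ ((isCts_subtype L U).isSmooth hρ) :=
    Cx.Hom.ext fun n f => sh_effMap L U hU ρ hρ n f
  rw [← e]
  exact (Cx.Hom.mapH_comp _ _ n y).symm

/-- A class dies in `Hⁿ(Γ; coind_U^Γ res_U M)` iff it dies on `U`. -/
theorem effMap_mapH_eq_zero_iff (hU : ∃ N ∈ L.lev, N ≤ U) (ρ : Representation k Γ M)
    (hρ : L.IsSmooth ρ) (n : ℕ) (y : (L.cx ρ hρ).H n) :
    (L.mapCoeff hρ (effRep_smooth L U hU ρ hρ) (effMap ρ U)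
        (effMap_equivariant ρ U)).mapH n y = 0 ↔
      (L.res (subLev L U) (isCts_subtype L U) ρ hρ
        ((isCts_subtype L U).isSmooth hρ)).mapH n y = 0 := by
  rw [← sh_effMap_mapH L U hU ρ hρ n y]
  constructor
  · intro h
    rw [h, map_zero]
  · intro h
    apply (shapiro_bijective L U hU n M (ρ.comp U.subtype)
      ((isCts_subtype L U).isSmooth hρ)).1
    rw [h, map_zero]

/-- **Effacement**: every class of positive degree dies in the coinduced module
`coind_N^Γ (res_N M)` for a small enough level `N`. -/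
theorem exists_level_effMap_mapH_eq_zero (ρ : Representation k Γ M) (hρ : L.IsSmooth ρ)
    (n : ℕ) (y : (L.cx ρ hρ).H (n + 1)) {N₀ : Subgroup Γ} (hN₀ : N₀ ∈ L.lev) :
    ∃ N, ∃ hN : N ∈ L.lev, N ≤ N₀ ∧
      (L.mapCoeff hρ (effRep_smooth L N ⟨N, hN, le_rfl⟩ ρ hρ) (effMap ρ N)
        (effMap_equivariant ρ N)).mapH (n + 1) y = 0 := by
  obtain ⟨N, hN, hle, h⟩ := L.exists_level_res_eq_zero ρ hρ n y hN₀
  exact ⟨N, hN, hle, (effMap_mapH_eq_zero_iff L N ⟨N, hN, le_rfl⟩ ρ hρ (n + 1) y).2 h⟩

end Efface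

section Finite

variable {Γ : Type} [Group Γ] {k : Type} [CommRing k] {A : Type} [AddCommGroup A] [Module k A]

/-- Coinduction from a finite index subgroup preserves finiteness. -/
theorem finite_coindV [IsNoetherianRing k] (U : Subgroup Γ) [U.FiniteIndex]
    [Module.Finite k A] (σ : Representation k U A) :
    Module.Finite k (Representation.coindV U.subtype σ) := by
  classical
  obtain ⟨T, hT, -⟩ := Subgroup.exists_isComplement_right U (1 : Γ)
  have hTfin : Finite T := hT.finite_right_iff.mpr inferInstance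
  let r : Representation.coindV U.subtype σ →ₗ[k] (T → A) :=
    { toFun := fun x t => x.1 t
      map_add' := fun x y => rfl
      map_smul' := fun c x => rfl }
  have hr : Function.Injective r := by
    intro x y hxy
    apply Subtype.ext
    funext g
    obtain ⟨⟨u, t⟩, rfl⟩ := hT.2 g
    have h1 := x.2 ⟨u.1, u.2⟩ (t : Γ)
    have h2 := y.2 ⟨u.1, u.2⟩ (t : Γ)
    have h3 : x.1 t = y.1 t := congrFun hxy t
    show x.1 ((u : Γ) * (t : Γ)) = y.1 ((u : Γ) * (t : Γ))
    exact h1.trans ((congrArg _ h3).trans h2.symm)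
  exact Module.Finite.of_injective r hr

/-- `coind_U^Γ (res_U M)` is finite if `M` is and `U` contains a level. -/
theorem finite_effRep [IsNoetherianRing k] (L : LevelSys Γ) (U : Subgroup Γ)
    (hU : ∃ N ∈ L.lev, N ≤ U) {M : Type} [AddCommGroup M] [Module k M] [Module.Finite k M]
    (ρ : Representation k Γ M) :
    Module.Finite k (Representation.coindV U.subtype (ρ.comp U.subtype)) := by
  obtain ⟨N, hN, hNU⟩ := hU
  have := L.finiteIndex N hN
  have : U.FiniteIndex := Subgroup.finiteIndex_of_le hNU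
  exact finite_coindV U _

end Finite

end Fermat.Agent.PT.Shapiro
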