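/-
PT layer F: the degree-one dictionary between level cochain complexes and elementary cocycles.

For a leveled group `(Γ, L)` and a smooth representation `(M, ρ)` over a commutative ring `k`:

* `Elem1.Z1 L ρ : Submodule k (Γ → M)` : level-constant crossed homomorphisms
  `y (g * h) = y g + ρ g (y h)`;
* `Elem1.B1 ρ : Submodule k (Γ → M)` : principal crossed homomorphisms `g ↦ ρ g m - m`;
* `Elem1.cls L hρ : Z1 L ρ →ₗ[k] H¹(L.cx ρ hρ)` : the class map, surjective
  (`cls_surjective`), with kernel the coboundaries (`cls_eq_zero_iff`);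
* `Elem1.res_cls` : compatibility with restriction along a continuous homomorphism;
* `Elem1.mapCoeff_cls` : compatibility with maps of coefficients.
-/
import Mathlib
import Fermat.Agent.PT.Bridge

set_option autoImplicit false

namespace Fermat.Agent.PT.Elem1

open Fermat.Agent.PT Fermat.Agent.PT.Bridge

variable {Γ : Type} [Group Γ] (L : LevelSys Γ) {k : Type} [CommRing k]
  {M : Type} [AddCommGroup M] [Module k M] (ρ : Representation k Γ M)

/-- Level-constant crossed homomorphisms `Γ → M`. -/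
def Z1 : Submodule k (Γ → M) where
  carrier := {y | L.IsLevelConst (to₁ y) ∧ ∀ g h, y (g * h) = y g + ρ g (y h)}
  add_mem' := by
    rintro y y' ⟨h1, h2⟩ ⟨h1', h2'⟩
    refine ⟨LevelSys.IsLevelConst.map₂ h1 h1' (· + ·), fun g h => ?_⟩
    simp only [Pi.add_apply, h2, h2', map_add]
    abel
  zero_mem' := ⟨LevelSys.isLevelConst_const (0 : M), fun g h => by simp⟩
  smul_mem' := by
    rintro c y ⟨h1, h2⟩
    refine ⟨LevelSys.IsLevelConst.comp h1 (c • ·), fun g h => ?_⟩
    simp only [Pi.smul_apply, h2, map_smul, smul_add]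

theorem mem_Z1 (y : Γ → M) :
    y ∈ Z1 L ρ ↔ L.IsLevelConst (to₁ y) ∧ ∀ g h, y (g * h) = y g + ρ g (y h) := Iff.rfl

/-- The principal crossed homomorphism of `m`. -/
def cob : M →ₗ[k] (Γ → M) where
  toFun m g := ρ g m - m
  map_add' m m' := by funext g; simp only [map_add, Pi.add_apply]; abel
  map_smul' c m := by funext g; simp only [map_smul, Pi.smul_apply, RingHom.id_apply, smul_sub]

theorem cob_apply (m : M) (g : Γ) : cob ρ m g = ρ g m - m := rfl

/-- Principal crossed homomorphisms. -/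
def B1 : Submodule k (Γ → M) := LinearMap.range (cob ρ)

theorem mem_B1 (y : Γ → M) : y ∈ B1 ρ ↔ ∃ m : M, ∀ g, y g = ρ g m - m := by
  constructor
  · rintro ⟨m, rfl⟩
    exact ⟨m, fun g => rfl⟩
  · rintro ⟨m, h⟩
    exact ⟨m, funext fun g => (h g).symm⟩

variable {L ρ}

/-- a level-constant function of one variable is right-invariant under a level -/
theorem isLevelConst_to₁_iff' {X : Type} (y : Γ → X) :
    L.IsLevelConst (to₁ y) ↔ ∃ N ∈ L.lev, ∀ g : Γ, ∀ s ∈ N, y (g * s) = y g := by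
  constructor
  · rintro ⟨N, hN, h⟩
    refine ⟨N, hN, fun g s hs => ?_⟩
    have := h (fun _ => g * s) (fun _ => g) fun _ => by
      have e : (g * s)⁻¹ * g = s⁻¹ := by group
      rw [e]
      exact N.inv_mem hs
    exact this
  · rintro ⟨N, hN, h⟩
    refine ⟨N, hN, fun g g' hgg' => ?_⟩
    show y (g 0) = y (g' 0)
    have := h (g 0) _ (hgg' 0)
    rw [mul_inv_cancel_left] at this
    exact this.symm

/-- Coboundaries of a smooth representation are level-constant crossed homomorphisms. -/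
theorem B1_le_Z1 (hρ : L.IsSmooth ρ) : B1 ρ ≤ Z1 L ρ := by
  rintro _ ⟨m, rfl⟩
  refine ⟨?_, fun g h => ?_⟩
  · obtain ⟨N, hN, hm⟩ := hρ m
    refine (isLevelConst_to₁_iff' _).mpr ⟨N, hN, fun g s hs => ?_⟩
    rw [cob_apply, cob_apply, map_mul, Module.End.mul_apply, hm s hs]
  · simp only [cob_apply, map_mul, Module.End.mul_apply, map_sub]
    abel

variable (L)

/-- The `1`-cochain of a crossed homomorphism. -/
def cochain (hρ : L.IsSmooth ρ) : Z1 L ρ →ₗ[k] (L.cx ρ hρ).Z 1 where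
  toFun y := ⟨⟨to₁ y.1, y.2.1⟩, by
    rw [Cx.mem_Z]
    apply Subtype.ext
    show dLin ρ 1 (to₁ y.1) = 0
    rw [dLin_to₁]
    funext g
    show ρ (g 0) (y.1 (g 1)) - y.1 (g 0 * g 1) + y.1 (g 0) = 0
    rw [y.2.2]
    abel⟩
  map_add' _ _ := rfl
  map_smul' _ _ := rfl

theorem cochain_coe (hρ : L.IsSmooth ρ) (y : Z1 L ρ) :
    ((cochain L hρ y : (L.cx ρ hρ).Z 1) : (L.cx ρ hρ).X 1).1 = to₁ y.1 := rfl

/-- **The class of a crossed homomorphism** in `H¹` of the level complex. -/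
def cls (hρ : L.IsSmooth ρ) : Z1 L ρ →ₗ[k] (L.cx ρ hρ).H 1 :=
  (L.cx ρ hρ).Hπ 1 ∘ₗ cochain L hρ

theorem cls_apply (hρ : L.IsSmooth ρ) (y : Z1 L ρ) :
    cls L hρ y = (L.cx ρ hρ).Hπ 1 (cochain L hρ y) := rfl

/-- Every class of `H¹` is the class of a crossed homomorphism. -/
theorem cls_surjective (hρ : L.IsSmooth ρ) : Function.Surjective (cls L hρ) := by
  intro x
  obtain ⟨z, rfl⟩ := (L.cx ρ hρ).Hπ_surjective 1 x
  have hz : dLin ρ 1 (z.1.1) = 0 := congrArg Subtype.val ((L.cx ρ hρ).mem_Z.mp z.2)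
  have hlev : L.IsLevelConst (to₁ (from₁ z.1.1)) := by
    rw [to₁_from₁]
    exact z.1.2
  have hcoc : ∀ g h, from₁ z.1.1 (g * h) = from₁ z.1.1 g + ρ g (from₁ z.1.1 h) := by
    intro g h
    have h1 : dLin ρ 1 (to₁ (from₁ z.1.1)) = 0 := by rw [to₁_from₁]; exact hz
    rw [dLin_to₁] at h1
    have h2 := congrFun h1 ![g, h]
    have h3 : ρ g (from₁ z.1.1 h) - from₁ z.1.1 (g * h) + from₁ z.1.1 g = 0 := h2
    have h4 : from₁ z.1.1 (g * h) = ρ g (from₁ z.1.1 h) + from₁ z.1.1 g := by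
      rw [sub_add_eq_add_sub, sub_eq_zero] at h3
      exact h3.symm
    rw [h4, add_comm]
  refine ⟨⟨from₁ z.1.1, hlev, hcoc⟩, ?_⟩
  rw [cls_apply]
  congr 1
  apply Subtype.ext
  apply Subtype.ext
  exact to₁_from₁ z.1.1

/-- The class of a crossed homomorphism vanishes iff it is principal. -/
theorem cls_eq_zero_iff (hρ : L.IsSmooth ρ) (y : Z1 L ρ) :
    cls L hρ y = 0 ↔ (y : Γ → M) ∈ B1 ρ := by
  rw [cls_apply, Cx.Hπ_eq_zero_iff, Cx.mem_B_succ, mem_B1]
  constructor
  · rintro ⟨x, hx⟩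
    refine ⟨x.1 default, fun g => ?_⟩
    have h1 : dLin ρ 0 x.1 = to₁ y.1 := congrArg Subtype.val hx
    rw [dLin_zero ρ x.1 default] at h1
    have h2 := congrFun h1 (fun _ => g)
    exact h2.symm
  · rintro ⟨m, hm⟩
    refine ⟨⟨fun _ => m, LevelSys.isLevelConst_const m⟩, ?_⟩
    apply Subtype.ext
    show dLin ρ 0 (fun _ => m) = to₁ y.1
    rw [dLin_zero ρ (fun _ => m) default]
    funext g
    exact (hm (g 0)).symm

/-- the kernel of the class map -/
theorem ker_cls (hρ : L.IsSmooth ρ) :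
    LinearMap.ker (cls L hρ) = (B1 ρ).comap (Z1 L ρ).subtype := by
  ext y
  rw [LinearMap.mem_ker, cls_eq_zero_iff]
  rfl

/-- two crossed homomorphisms have the same class iff they differ by a principal one -/
theorem cls_eq_cls_iff (hρ : L.IsSmooth ρ) (y y' : Z1 L ρ) :
    cls L hρ y = cls L hρ y' ↔ (y : Γ → M) - y' ∈ B1 ρ := by
  rw [← sub_eq_zero, ← map_sub, cls_eq_zero_iff]
  rfl

/-! ### Restriction and coefficient maps -/

section Res

variable {Γ' : Type} [Group Γ'] (L' : LevelSys Γ') {r : Γ' →* Γ}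

/-- the pull-back of a crossed homomorphism along a continuous homomorphism -/
def pull (hr : L.IsCts L' r) (y : Z1 L ρ) : Z1 L' (ρ.comp r) :=
  ⟨fun g => y.1 (r g), hr.isLevelConst (f := to₁ y.1) y.2.1, fun g h => by
    show y.1 (r (g * h)) = y.1 (r g) + ρ (r g) (y.1 (r h))
    rw [map_mul, y.2.2]⟩

theorem pull_apply (hr : L.IsCts L' r) (y : Z1 L ρ) (g : Γ') :
    (pull L L' hr y : Γ' → M) g = y.1 (r g) := rfl

/-- the class map commutes with restriction -/
theorem res_cls (hr : L.IsCts L' r) (hρ : L.IsSmooth ρ) (hρ' : L'.IsSmooth (ρ.comp r))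
    (y : Z1 L ρ) :
    (L.res L' hr ρ hρ hρ').mapH 1 (cls L hρ y) = cls L' hρ' (pull L L' hr y) := rfl

end Res

section Coeff

variable {M' : Type} [AddCommGroup M'] [Module k M'] {ρ' : Representation k Γ M'}

/-- push-forward of a crossed homomorphism along an equivariant map -/
def push (φ : M →ₗ[k] M') (hφ : ∀ g m, φ (ρ g m) = ρ' g (φ m)) (y : Z1 L ρ) : Z1 L ρ' :=
  ⟨fun g => φ (y.1 g), LevelSys.IsLevelConst.comp (f := to₁ y.1) y.2.1 φ, fun g h => by
    show φ (y.1 (g * h)) = φ (y.1 g) + ρ' g (φ (y.1 h))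
    rw [y.2.2, map_add, hφ]⟩

theorem push_apply (φ : M →ₗ[k] M') (hφ : ∀ g m, φ (ρ g m) = ρ' g (φ m)) (y : Z1 L ρ)
    (g : Γ) : (push L φ hφ y : Γ → M') g = φ (y.1 g) := rfl

/-- the class map commutes with coefficient maps -/
theorem mapCoeff_cls (hρ : L.IsSmooth ρ) (hρ' : L.IsSmooth ρ') (φ : M →ₗ[k] M')
    (hφ : ∀ g m, φ (ρ g m) = ρ' g (φ m)) (y : Z1 L ρ) :
    (L.mapCoeff hρ hρ' φ hφ).mapH 1 (cls L hρ y) = cls L hρ' (push L φ hφ y) := rfl

end Coeff

end Fermat.Agent.PT.Elem1
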