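/-
PT layer F/BASE glue: the abstract halves of the base computation `h³_c(coind_U^G k) = 1`.

* `permAugU τ U` : the augmentation `coind_U^Γ k → k(χ)`, `f ↦ ∑_{q ∈ Γ/U} τ(q) f(q⁻¹)`, for an
  ARBITRARY subgroup `U` of finite index on which `τ` is trivial (no normality); equivariant and
  surjective;
* `locH_surjective_of_surjective` : a surjection of coefficients with `H^{n+1}_v(kernel) = 0`
  carries "`loc^n` is onto" from the source to the target;
* `not_surjective_locH_perm` : if `loc²(T)` is not onto and the local groups have `H³ = 0`, then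
  `loc²(coind_U^G k)` is not onto (`U` open, `τ` trivial on `U`);
* `not_surjective_locH_of_noLine` : "no coordinate line" + one nonzero local group ⇒ `loc` is
  not onto;  `nontrivial_Hc_succ` : then `H^{n+1}_c ≠ 0`;
* `finrank_Hc_succ_add` : `h^{n+1}_c + rank loc^n = ∑_v h^n_v` when `H^{n+1}(G; ·) = 0`;
  `finrank_range_locH_lt` : `rank loc^n + 1 ≤ ∑_v h^n_v` when `loc^n` is not onto;
  `finrank_Hc_succ_eq_one` : `h^{n+1}_c = 1` when `rank loc^n + 1 = ∑_v h^n_v`.
-/
import Fermat.Agent.PT.Coh.EngineE3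
import Fermat.Agent.PT.Coh.EngineNat

set_option autoImplicit false

namespace Fermat.Agent.PT.Rex

open Fermat.Agent.PT Fermat.Agent.PT.Shapiro

/-! ### The augmentation for an arbitrary subgroup of finite index -/

section AugU

variable {k : Type} [CommRing k] {Γ : Type} [Group Γ] (τ : Representation k Γ k)

/-- The augmentation `coind_U^Γ k → k(χ)`, `f ↦ ∑_{q ∈ Γ/U} τ(q) f(q⁻¹)`. -/
noncomputable def permAugU (U : Subgroup Γ) [U.FiniteIndex] :
    Representation.coindV U.subtype (Representation.trivial k U k) →ₗ[k] k :=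
  letI : Fintype (Γ ⧸ U) := Fintype.ofFinite _
  { toFun := fun f => ∑ q : Γ ⧸ U, τ q.out (f.1 (q.out)⁻¹)
    map_add' := fun f g => by
      rw [← Finset.sum_add_distrib]
      refine Finset.sum_congr rfl fun q _ => ?_
      show τ q.out (f.1 _ + g.1 _) = _
      rw [map_add]
    map_smul' := fun c f => by
      rw [Finset.smul_sum]
      refine Finset.sum_congr rfl fun q _ => ?_
      show τ q.out (c • f.1 _) = _
      rw [map_smul]
      rfl }

lemma permAugU_apply (U : Subgroup Γ) [U.FiniteIndex]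
    (f : Representation.coindV U.subtype (Representation.trivial k U k)) :
    letI : Fintype (Γ ⧸ U) := Fintype.ofFinite _
    permAugU τ U f = ∑ q : Γ ⧸ U, τ q.out (f.1 (q.out)⁻¹) := rfl

/-- the summand only depends on the coset -/
lemma permAugU_aux (U : Subgroup Γ) (hτ : ∀ u ∈ U, τ u = 1)
    (f : Representation.coindV U.subtype (Representation.trivial k U k)) (x : Γ) :
    τ ((x : Γ ⧸ U).out) (f.1 ((x : Γ ⧸ U).out)⁻¹) = τ x (f.1 x⁻¹) := by
  obtain ⟨u, hu⟩ := QuotientGroup.mk_out_eq_mul U x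
  rw [hu, map_mul, mul_inv_rev]
  have h1 : f.1 ((u : Γ)⁻¹ * x⁻¹) = f.1 x⁻¹ := f.2 u⁻¹ x⁻¹
  rw [h1]
  show τ x (τ u (f.1 x⁻¹)) = _
  rw [hτ u u.2]
  rfl

lemma permAugU_equivariant (U : Subgroup Γ) [U.FiniteIndex] (hτ : ∀ u ∈ U, τ u = 1) (g : Γ)
    (f : Representation.coindV U.subtype (Representation.trivial k U k)) :
    permAugU τ U (permRep U k g f) = τ g (permAugU τ U f) := by
  classical
  let _ : Fintype (Γ ⧸ U) := Fintype.ofFinite _
  rw [permAugU_apply, permAugU_apply, map_sum]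
  rw [← Equiv.sum_comp (MulAction.toPerm g : Γ ⧸ U ≃ Γ ⧸ U)]
  refine Finset.sum_congr rfl fun q _ => ?_
  have hq : (MulAction.toPerm g : Γ ⧸ U ≃ Γ ⧸ U) q = ((g * q.out : Γ) : Γ ⧸ U) := by
    conv_lhs => rw [← QuotientGroup.out_eq' q]
    rfl
  rw [hq, permAugU_aux τ U hτ (permRep U k g f) (g * q.out)]
  show τ (g * q.out) (f.1 ((g * q.out)⁻¹ * g)) = _
  rw [mul_inv_rev, inv_mul_cancel_right, map_mul]
  rfl

lemma permAugU_delta (U : Subgroup Γ) [U.FiniteIndex] (hτ : ∀ u ∈ U, τ u = 1) (t : k) :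
    permAugU τ U (t • permDelta k U) = t := by
  classical
  let _ : Fintype (Γ ⧸ U) := Fintype.ofFinite _
  rw [permAugU_apply, Finset.sum_eq_single ((1 : Γ) : Γ ⧸ U)]
  · rw [permAugU_aux τ U hτ _ 1, map_one, inv_one]
    show t • (permDelta k U).1 1 = t
    rw [permDelta_apply, if_pos U.one_mem, smul_eq_mul, mul_one]
  · intro q _ hq
    have hnot : (q.out)⁻¹ ∉ U := by
      intro h
      apply hq
      rw [← QuotientGroup.out_eq' q]
      exact QuotientGroup.eq.2 (by simpa using h)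
    show τ q.out (t • (permDelta k U).1 (q.out)⁻¹) = 0
    rw [permDelta_apply, if_neg hnot, smul_zero, map_zero]
  · intro h
    exact absurd (Finset.mem_univ _) h

lemma permAugU_surjective (U : Subgroup Γ) [U.FiniteIndex] (hτ : ∀ u ∈ U, τ u = 1) :
    Function.Surjective (permAugU τ U) := fun t =>
  ⟨t • permDelta k U, permAugU_delta τ U hτ t⟩

end AugU

/-! ### `loc` is not onto -/

section Base

variable {k : Type} [Field k] {G : Type} [Group G] (𝔇 : LocDatum G)

/-- A surjection of coefficients with `H^{n+1}_v(kernel) = 0` at all `v` carries "`loc^n` is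
onto" from the source to the target. -/
theorem locH_surjective_of_surjective {P M : Type} [AddCommGroup P] [Module k P]
    [AddCommGroup M] [Module k M] {σ : Representation k G P} {ρ : Representation k G M}
    (hσ : 𝔇.IsSmooth σ) (hρ : 𝔇.IsSmooth ρ) (π : P →ₗ[k] M)
    (hπ : ∀ g m, π (σ g m) = ρ g (π m)) (hsurj : Function.Surjective π) (n : ℕ)
    (hv : ∀ v, Subsingleton (𝔇.Hv (subRep σ (LinearMap.ker π) (ker_invariant π hπ))
      (subRep_smooth hσ (LinearMap.ker π) (ker_invariant π hπ)) v (n + 1)))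
    (h : Function.Surjective (𝔇.locH σ hσ n)) : Function.Surjective (𝔇.locH ρ hρ n) := by
  intro y
  have hloc : ∀ v, ∃ z, (𝔇.mapCv hσ hρ π hπ v).mapH n z = y v := by
    intro v
    have hse := 𝔇.shortExact_mapCv
      (subRep_smooth hσ (LinearMap.ker π) (ker_invariant π hπ)) hσ hρ
      (LinearMap.ker π).subtype π (fun _ _ => rfl) hπ (Submodule.injective_subtype _)
      (LinearMap.exact_subtype_ker_map π) hsurj v
    have := hv v
    exact (hse.exact_g_δ n (y v)).1 (Subsingleton.elim _ _)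
  choose z hz using hloc
  obtain ⟨x, hx⟩ := h z
  refine ⟨(𝔇.mapC hσ hρ π hπ).mapH n x, ?_⟩
  funext v
  rw [𝔇.locH_mapC hσ hρ π hπ n x v, hx, hz]

/-- **(ii) of BASE-FORMAL, abstract form.**  If `loc²(T)` is not onto and the local groups have
`H³ = 0` on the finite smooth `G`-modules, then `loc²(coind_U^G k)` is not onto, for every open
subgroup `U` of finite index on which `τ` is trivial. -/
theorem not_surjective_locH_perm {τ : Representation k G k} (hτ : 𝔇.IsSmooth τ)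
    (hv : ∀ (M : Type) [AddCommGroup M] [Module k M] [Module.Finite k M]
      (ρ : Representation k G M) (hρ : 𝔇.IsSmooth ρ) (v : 𝔇.ι), Subsingleton (𝔇.Hv ρ hρ v 3))
    (U : Subgroup G) [U.FiniteIndex] (hU : ∃ N ∈ 𝔇.L.lev, N ≤ U) (hτU : ∀ u ∈ U, τ u = 1)
    (hT : ¬ Function.Surjective (𝔇.locH τ hτ 2)) :
    ¬ Function.Surjective (𝔇.locH (permRep U k) (permRep_smooth 𝔇.L U k hU) 2) := by
  intro h
  have hPfin : Module.Finite k
      (Representation.coindV U.subtype (Representation.trivial k U k)) := finite_perm U k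
  exact hT (locH_surjective_of_surjective 𝔇 (permRep_smooth 𝔇.L U k hU) hτ (permAugU τ U)
    (fun g f => permAugU_equivariant τ U hτU g f) (permAugU_surjective τ U hτU) 2
    (fun v => hv _ _ _ v) h)

variable {M : Type} [AddCommGroup M] [Module k M]

/-- "No coordinate line" and one nonzero local group: `loc^n` is not onto. -/
theorem not_surjective_locH_of_noLine (ρ : Representation k G M) (hρ : 𝔇.IsSmooth ρ) (n : ℕ)
    (noLine : ∀ (v₀ : 𝔇.ι) (x : 𝔇.H ρ hρ n),
      (∀ v, v ≠ v₀ → 𝔇.locH ρ hρ n x v = 0) → 𝔇.locH ρ hρ n x v₀ = 0)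
    (v₀ : 𝔇.ι) [Nontrivial (𝔇.Hv ρ hρ v₀ n)] : ¬ Function.Surjective (𝔇.locH ρ hρ n) := by
  classical
  intro h
  obtain ⟨y, hy⟩ := exists_ne (0 : 𝔇.Hv ρ hρ v₀ n)
  obtain ⟨x, hx⟩ := h (Pi.single v₀ y)
  have h0 := noLine v₀ x (fun v hv => by rw [hx, Pi.single_eq_of_ne hv])
  rw [hx, Pi.single_eq_same] at h0
  exact hy h0

/-- If `loc^n` is not onto, then `H^{n+1}_c ≠ 0`. -/
theorem nontrivial_Hc_succ (ρ : Representation k G M) (hρ : 𝔇.IsSmooth ρ) (n : ℕ)
    (h : ¬ Function.Surjective (𝔇.locH ρ hρ n)) : Nontrivial (𝔇.Hc ρ hρ (n + 1)) := by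
  by_contra hnt
  rw [not_nontrivial_iff_subsingleton] at hnt
  exact h fun y => (𝔇.exact_locH_ιc ρ hρ n y).1 (Subsingleton.elim _ _)

/-- `ι_c` is onto `H^{n+1}_c` when `H^{n+1}(G; ·) = 0`. -/
theorem ιc_surjective (ρ : Representation k G M) (hρ : 𝔇.IsSmooth ρ) (n : ℕ)
    [Subsingleton (𝔇.H ρ hρ (n + 1))] : Function.Surjective (𝔇.ιc ρ hρ n) := fun x =>
  (𝔇.exact_ιc_πc ρ hρ n x).1 (Subsingleton.elim _ _)

/-- `h^{n+1}_c + rank loc^n = ∑_v h^n_v` when `H^{n+1}(G; ·) = 0`. -/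
theorem finrank_Hc_succ_add (ρ : Representation k G M) (hρ : 𝔇.IsSmooth ρ) (n : ℕ)
    [Subsingleton (𝔇.H ρ hρ (n + 1))] [∀ v, Module.Finite k (𝔇.Hv ρ hρ v n)] :
    Module.finrank k (𝔇.Hc ρ hρ (n + 1)) +
      Module.finrank k (LinearMap.range (𝔇.locH ρ hρ n)) =
      ∑ v, Module.finrank k (𝔇.Hv ρ hρ v n) := by
  have h1 := LinearMap.finrank_range_add_finrank_ker (𝔇.ιc ρ hρ n)
  rw [LinearMap.range_eq_top.2 (ιc_surjective 𝔇 ρ hρ n), finrank_top,
    Module.finrank_pi_fintype] at h1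
  have h2 : LinearMap.ker (𝔇.ιc ρ hρ n) = LinearMap.range (𝔇.locH ρ hρ n) :=
    (LinearMap.exact_iff.1 (𝔇.exact_locH_ιc ρ hρ n))
  rw [h2] at h1
  exact h1

/-- `rank loc^n + 1 ≤ ∑_v h^n_v` when `loc^n` is not onto. -/
theorem finrank_range_locH_lt (ρ : Representation k G M) (hρ : 𝔇.IsSmooth ρ) (n : ℕ)
    [∀ v, Module.Finite k (𝔇.Hv ρ hρ v n)] (h : ¬ Function.Surjective (𝔇.locH ρ hρ n)) :
    Module.finrank k (LinearMap.range (𝔇.locH ρ hρ n)) + 1 ≤
      ∑ v, Module.finrank k (𝔇.Hv ρ hρ v n) := by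
  have h1 : LinearMap.range (𝔇.locH ρ hρ n) < ⊤ :=
    lt_of_le_of_ne le_top fun h' => h (LinearMap.range_eq_top.1 h')
  have h2 := Submodule.finrank_lt_finrank_of_lt h1
  rw [finrank_top, Module.finrank_pi_fintype] at h2
  exact h2

/-- `h^{n+1}_c = 1` when `H^{n+1}(G; ·) = 0` and the image of `loc^n` is a hyperplane. -/
theorem finrank_Hc_succ_eq_one (ρ : Representation k G M) (hρ : 𝔇.IsSmooth ρ) (n : ℕ)
    [Subsingleton (𝔇.H ρ hρ (n + 1))] [∀ v, Module.Finite k (𝔇.Hv ρ hρ v n)]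
    (h : Module.finrank k (LinearMap.range (𝔇.locH ρ hρ n)) + 1 =
      ∑ v, Module.finrank k (𝔇.Hv ρ hρ v n)) :
    Module.finrank k (𝔇.Hc ρ hρ (n + 1)) = 1 := by
  have := finrank_Hc_succ_add 𝔇 ρ hρ n
  omega

end Base

end Fermat.Agent.PT.Rex
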