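import Fermat.Agent.PT.Coh.Engine
import Fermat.Agent.PT.Coh.ShapiroTriv
import Fermat.Agent.PT.DualTwistFunctor

/-!
# PT layer F8: the embedding hypothesis `hemb` of the counting engine

For an abstract Poitou–Tate datum `𝔇` over a field `k` and a character `χ`:

* `chi_Cc_three` : the Euler characteristic of the cone sequence,
  `χ₃(C_c) = χ₂(C) − Σ_v χ₂(C_v)` when `H³ = 0`;
* `Et_perm_eq_zero` : `Ẽ(X_N) = 0` for the permutation module `X_N = coind_N^G k` of a level
  `N ≤ ker χ`, from `2·χ₂(G; X_N) = Σ_v χ₂(D_v; X_N)` (self-duality of `X_N` up to the twist);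
* `Et_coind_eq_zero` : `Ẽ = 0` on `coind_N^G V` for every finite-dimensional `V` with trivial
  action (filtration by copies of `X_N`);
* `hemb_of_perm` : the hypothesis `hemb` of `CountHyp.finrank_sha_eq`;
* `finrank_sha_eq_of_chi` : the duality count from `CountHyp` and the Euler characteristic
  identity on the `X_N`.
-/

set_option autoImplicit false

open Module

namespace Fermat.Agent.PT.EngineEmb

open Fermat.Agent.PT.LocDatum

variable {G : Type} [Group G] (𝔇 : LocDatum G)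
variable {k : Type} [Field k]
variable {M : Type} [AddCommGroup M] [Module k M]

/-! ### The Euler characteristic of the cone sequence -/

/-- `χ₃(C_c) = χ₂(C) − Σ_v χ₂(C_v)` when `H³ = 0` (and `H⁰_c = 0`). -/
theorem chi_Cc_three [Nonempty 𝔇.ι] (ρ : Representation k G M) (hρ : 𝔇.IsSmooth ρ)
    (hfin : ∀ n ≤ 2, Module.Finite k (𝔇.H ρ hρ n))
    (hfinv : ∀ v, ∀ n ≤ 2, Module.Finite k (𝔇.Hv ρ hρ v n))
    (hcd : Subsingleton (𝔇.H ρ hρ 3)) :
    Cx.chi (𝔇.Cc ρ hρ) 3 = Cx.chi (𝔇.C ρ hρ) 2 - ∑ v, Cx.chi (𝔇.Cv ρ hρ v) 2 := by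
  have f0 := hfin 0 (by omega)
  have f1 := hfin 1 (by omega)
  have f2 := hfin 2 le_rfl
  have g0 : ∀ v, Module.Finite k (𝔇.Hv ρ hρ v 0) := fun v => hfinv v 0 (by omega)
  have g1 : ∀ v, Module.Finite k (𝔇.Hv ρ hρ v 1) := fun v => hfinv v 1 (by omega)
  have g2 : ∀ v, Module.Finite k (𝔇.Hv ρ hρ v 2) := fun v => hfinv v 2 le_rfl
  have c1 : Module.Finite k (𝔇.Hc ρ hρ 1) := 𝔇.finite_Hc_succ ρ hρ 0
  have c2 : Module.Finite k (𝔇.Hc ρ hρ 2) := 𝔇.finite_Hc_succ ρ hρ 1
  have c3 : Module.Finite k (𝔇.Hc ρ hρ 3) := 𝔇.finite_Hc_succ ρ hρ 2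
  -- the exact pairs
  have a0 : finrank k (LinearMap.range (𝔇.πc ρ hρ 0)) = 0 := by
    have : Subsingleton (LinearMap.range (𝔇.πc ρ hρ 0)) :=
      ⟨fun x y => by
        obtain ⟨x, ⟨x', rfl⟩⟩ := x
        obtain ⟨y, ⟨y', rfl⟩⟩ := y
        rw [Subsingleton.elim x' y']⟩
    exact Module.finrank_zero_of_subsingleton
  have a3 : finrank k (LinearMap.range (𝔇.πc ρ hρ 3)) = 0 :=
    Module.finrank_zero_of_subsingleton
  have hc0 : finrank k (𝔇.Hc ρ hρ 0) = 0 := Module.finrank_zero_of_subsingleton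
  have h0 := Cx.finrank_eq_of_exact (𝔇.πc ρ hρ 0) (𝔇.locH ρ hρ 0) (𝔇.exact_πc_locH ρ hρ 0)
  have h1 := Cx.finrank_eq_of_exact (𝔇.πc ρ hρ 1) (𝔇.locH ρ hρ 1) (𝔇.exact_πc_locH ρ hρ 1)
  have h2 := Cx.finrank_eq_of_exact (𝔇.πc ρ hρ 2) (𝔇.locH ρ hρ 2) (𝔇.exact_πc_locH ρ hρ 2)
  have l0 := Cx.finrank_eq_of_exact (𝔇.locH ρ hρ 0) (𝔇.ιc ρ hρ 0) (𝔇.exact_locH_ιc ρ hρ 0)
  have l1 := Cx.finrank_eq_of_exact (𝔇.locH ρ hρ 1) (𝔇.ιc ρ hρ 1) (𝔇.exact_locH_ιc ρ hρ 1)
  have l2 := Cx.finrank_eq_of_exact (𝔇.locH ρ hρ 2) (𝔇.ιc ρ hρ 2) (𝔇.exact_locH_ιc ρ hρ 2)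
  have k1 : finrank k (𝔇.Hc ρ hρ 1) = finrank k (LinearMap.range (𝔇.ιc ρ hρ 0)) +
      finrank k (LinearMap.range (𝔇.πc ρ hρ 1)) :=
    Cx.finrank_eq_of_exact (𝔇.ιc ρ hρ 0) (𝔇.πc ρ hρ 1) (𝔇.exact_ιc_πc ρ hρ 0)
  have k2 : finrank k (𝔇.Hc ρ hρ 2) = finrank k (LinearMap.range (𝔇.ιc ρ hρ 1)) +
      finrank k (LinearMap.range (𝔇.πc ρ hρ 2)) :=
    Cx.finrank_eq_of_exact (𝔇.ιc ρ hρ 1) (𝔇.πc ρ hρ 2) (𝔇.exact_ιc_πc ρ hρ 1)
  have k3 : finrank k (𝔇.Hc ρ hρ 3) = finrank k (LinearMap.range (𝔇.ιc ρ hρ 2)) +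
      finrank k (LinearMap.range (𝔇.πc ρ hρ 3)) :=
    Cx.finrank_eq_of_exact (𝔇.ιc ρ hρ 2) (𝔇.πc ρ hρ 3) (𝔇.exact_ιc_πc ρ hρ 2)
  rw [Module.finrank_pi_fintype] at l0 l1 l2
  have hsum : ∑ v, Cx.chi (𝔇.Cv ρ hρ v) 2 =
      ((∑ v, finrank k (𝔇.Hv ρ hρ v 0) : ℕ) : ℤ) - ((∑ v, finrank k (𝔇.Hv ρ hρ v 1) : ℕ) : ℤ)
        + ((∑ v, finrank k (𝔇.Hv ρ hρ v 2) : ℕ) : ℤ) := by
    push_cast
    rw [← Finset.sum_sub_distrib, ← Finset.sum_add_distrib]
    exact Finset.sum_congr rfl fun v _ => Cx.chi_two _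
  rw [hsum, Cx.chi_succ, Cx.chi_two, Cx.chi_two]
  have e3 : ((-1 : ℤ)) ^ (2 + 1) = -1 := by norm_num
  rw [e3]
  show (finrank k (𝔇.Hc ρ hρ 0) : ℤ) - finrank k (𝔇.Hc ρ hρ 1) + finrank k (𝔇.Hc ρ hρ 2)
      + -1 * (finrank k (𝔇.Hc ρ hρ 3) : ℤ) =
    (finrank k (𝔇.H ρ hρ 0) : ℤ) - finrank k (𝔇.H ρ hρ 1) + finrank k (𝔇.H ρ hρ 2) - _
  omega

/-- A morphism of complexes which is bijective on cohomology in degrees `≤ N` preserves the
truncated Euler characteristic. -/
theorem chi_eq_of_bijective {C D : Cx k} (φ : Cx.Hom C D) (N : ℕ)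
    (hφ : ∀ n ≤ N, Function.Bijective (φ.mapH n)) : Cx.chi C N = Cx.chi D N := by
  unfold Cx.chi
  refine Finset.sum_congr rfl fun n hn => ?_
  have hn' : n ≤ N := Nat.lt_succ_iff.mp (Finset.mem_range.mp hn)
  rw [LinearEquiv.finrank_eq (LinearEquiv.ofBijective (φ.mapH n) (hφ n hn'))]

/-! ### `Ẽ = 0` on the permutation modules -/

section Perm

variable {𝔇} (χ : G →* kˣ)

/-- Self-duality of the permutation module `X_N = coind_N^G k` up to the twist by a character
trivial on `N` (unbundled form of `DualTwistFunctor.pairIso`). -/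
noncomputable def permDualEquiv (N : Subgroup G) [N.FiniteIndex] (hχN : ∀ s ∈ N, χ s = 1) :
    Representation.coindV N.subtype (Representation.trivial k N k) ≃ₗ[k]
      Module.Dual k (Representation.coindV N.subtype (Representation.trivial k N k)) :=
  LinearEquiv.ofBijective (DualTwistFunctor.pairHom χ N hχN).hom.toLinearMap
    (DualTwistFunctor.pairHom_bijective χ N hχN)

theorem permDualEquiv_equivariant (N : Subgroup G) [N.FiniteIndex] (hχN : ∀ s ∈ N, χ s = 1)
    (g : G) (x : Representation.coindV N.subtype (Representation.trivial k N k)) :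
    permDualEquiv χ N hχN (Shapiro.permRep N k g x) =
      dualTw χ (Shapiro.permRep N k) g (permDualEquiv χ N hχN x) :=
  Rep.hom_comm_apply (DualTwistFunctor.pairHom χ N hχN) g x

/-- **`Ẽ(X_N) = 0`** for a level `N ≤ ker χ`, given the Euler characteristic identity
`2·χ₂(G; X_N) = Σ_v χ₂(D_v; X_N)`. -/
theorem Et_perm_eq_zero [Nonempty 𝔇.ι] (h : CountHyp 𝔇 k χ) (N : Subgroup G)
    (hN : N ∈ 𝔇.L.lev) (hχN : ∀ s ∈ N, χ s = 1)
    (hX : 𝔇.IsSmooth (Shapiro.permRep N k))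
    (hX' : 𝔇.IsSmooth (dualTw χ (Shapiro.permRep N k)))
    (hχ₂ : 2 * Cx.chi (𝔇.C (Shapiro.permRep N k) hX) 2 =
      ∑ v, Cx.chi (𝔇.Cv (Shapiro.permRep N k) hX v) 2) :
    𝔇.Et χ (Shapiro.permRep N k) hX hX' = 0 := by
  have hfi : N.FiniteIndex := 𝔇.L.finiteIndex N hN
  have hfinM : Module.Finite k
      (Representation.coindV N.subtype (Representation.trivial k N k)) :=
    Shapiro.finite_perm N k
  rw [𝔇.Et_eq_chi χ _ hX hX' (h.e3 _ hX hX'),
    chi_Cc_three 𝔇 _ hX (fun n hn => h.fin _ hX n hn) (fun v n hn => h.finv _ hX v n hn)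
      (h.cd _ hX)]
  have hiso : Cx.chi (𝔇.C (Shapiro.permRep N k) hX) 2 =
      Cx.chi (𝔇.C (dualTw χ (Shapiro.permRep N k)) hX') 2 :=
    chi_eq_of_bijective (𝔇.mapC hX hX' (permDualEquiv χ N hχN).toLinearMap
      (permDualEquiv_equivariant χ N hχN)) 2
      (fun n _ => 𝔇.mapC_bijective hX hX' (permDualEquiv χ N hχN)
        (permDualEquiv_equivariant χ N hχN) n)
  linarith

end Perm

/-! ### The filtration of `coind_N^G V` by copies of `X_N` -/

section Filtration

variable {𝔇} (χ : G →* kˣ)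

/-- `coind_N^G V` is smooth for every `N`-module `V` with trivial action, `N` a level. -/
theorem isSmooth_coind_of_trivial {N : Subgroup G} (hN : N ∈ 𝔇.L.lev) {V : Type}
    [AddCommGroup V] [Module k V] (σ : Representation k N V) (hσ : ∀ n, σ n = 1) :
    𝔇.IsSmooth (Representation.coind N.subtype σ) := by
  refine Shapiro.coind_smooth 𝔇.L N ⟨N, hN, le_rfl⟩ σ fun m => ?_
  obtain ⟨N', hN'⟩ := (Shapiro.subLev 𝔇.L N).nonempty
  exact ⟨N', hN', fun s _ => by rw [hσ s]; rfl⟩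

/-- `coind_N^G V` is finite-dimensional for finite-dimensional `V`, `N` of finite index. -/
theorem finite_coindV (N : Subgroup G) [N.FiniteIndex] {V : Type} [AddCommGroup V]
    [Module k V] [Module.Finite k V] (σ : Representation k N V) :
    Module.Finite k (Representation.coindV N.subtype σ) :=
  Devissage.finite_coind N (Rep.of σ)

/-- **`Ẽ = 0` on `coind_N^G V`**, `V` a finite-dimensional space with trivial action of the
level `N`, as soon as `Ẽ(X_N) = 0` (induction on `dim V` with the additivity of `Ẽ`). -/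
theorem Et_coind_trivial_eq_zero [Nonempty 𝔇.ι] (h : CountHyp 𝔇 k χ) (N : Subgroup G)
    (hN : N ∈ 𝔇.L.lev)
    (hperm : ∀ hX hX', 𝔇.Et χ (Shapiro.permRep N k) hX hX' = 0) :
    ∀ (d : ℕ) (V : Type) [AddCommGroup V] [Module k V] [Module.Finite k V],
      finrank k V = d →
      ∀ (hP : 𝔇.IsSmooth (Representation.coind N.subtype (Representation.trivial k N V)))
        (hP' : 𝔇.IsSmooth
          (dualTw χ (Representation.coind N.subtype (Representation.trivial k N V)))),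
        𝔇.Et χ (Representation.coind N.subtype (Representation.trivial k N V)) hP hP' = 0 := by
  have hfi : N.FiniteIndex := 𝔇.L.finiteIndex N hN
  intro d
  induction d with
  | zero =>
    intro V _ _ _ hV hP hP'
    have hsub : Subsingleton V := Module.finrank_zero_iff.mp hV
    have hfin := finite_coindV N (Representation.trivial k N V)
    have hsubP : Subsingleton
        (Representation.coindV N.subtype (Representation.trivial k N V)) :=
      ⟨fun x y => Subtype.ext (funext fun g => Subsingleton.elim _ _)⟩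
    have key := h.Et_add hP hP hP hP' hP' hP' LinearMap.id 0 (fun _ _ => rfl)
      (fun _ _ => by simp) Function.injective_id
      (fun y => ⟨fun _ => ⟨y, rfl⟩, fun _ => rfl⟩) (fun y => ⟨0, Subsingleton.elim _ _⟩)
    omega
  | succ d ih =>
    intro V _ _ _ hV hP hP'
    -- a surjective linear functional
    let b := Module.finBasis k V
    let i₀ : Fin (finrank k V) := ⟨0, by omega⟩
    let lam : V →ₗ[k] k := b.coord i₀
    have hlam : Function.Surjective lam := by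
      intro c
      refine ⟨c • b i₀, ?_⟩
      rw [map_smul, Module.Basis.coord_apply, Module.Basis.repr_self, Finsupp.single_eq_same,
        smul_eq_mul, mul_one]
    have hV' : finrank k (LinearMap.ker lam) = d := by
      have h1 := LinearMap.finrank_range_add_finrank_ker lam
      rw [LinearMap.range_eq_top.mpr hlam, finrank_top, Module.finrank_self] at h1
      omega
    -- the short exact sequence `0 → coind V' → coind V → X_N → 0`
    have hι : ∀ (u : N) (a : LinearMap.ker lam), (LinearMap.ker lam).subtype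
        (Representation.trivial k N (LinearMap.ker lam) u a) =
          Representation.trivial k N V u ((LinearMap.ker lam).subtype a) := fun _ _ => rfl
    have hπ : ∀ (u : N) (a : V), lam (Representation.trivial k N V u a) =
        Representation.trivial k N k u (lam a) := fun _ _ => rfl
    have hex : Function.Exact (LinearMap.ker lam).subtype lam := by
      intro v
      constructor
      · intro hv
        exact ⟨⟨v, hv⟩, rfl⟩
      · rintro ⟨v', rfl⟩
        exact v'.2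
    have hA : 𝔇.IsSmooth (Representation.coind N.subtype
        (Representation.trivial k N (LinearMap.ker lam))) :=
      isSmooth_coind_of_trivial hN _ fun _ => rfl
    have hC : 𝔇.IsSmooth (Shapiro.permRep N k) :=
      isSmooth_coind_of_trivial hN _ fun _ => rfl
    have hfinA := finite_coindV N (Representation.trivial k N (LinearMap.ker lam))
    have hfinB := finite_coindV N (Representation.trivial k N V)
    have hfinC := finite_coindV N (Representation.trivial k N k)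
    have hA' := 𝔇.isSmooth_dualTw χ hA h.hχ
    have hC' := 𝔇.isSmooth_dualTw χ hC h.hχ
    have key := h.Et_add hA hP hC hA' hP' hC'
      (Shapiro.coindLin (LinearMap.ker lam).subtype hι) (Shapiro.coindLin lam hπ)
      (Shapiro.coindLin_equivariant _ hι) (Shapiro.coindLin_equivariant _ hπ)
      (Shapiro.coindLin_injective _ hι (LinearMap.ker lam).injective_subtype)
      (Shapiro.coindLin_exact _ hι _ hπ (LinearMap.ker lam).injective_subtype hex)
      (Shapiro.coindLin_surjective _ hπ hlam)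
    rw [key, ih (LinearMap.ker lam) hV' hA hA', hperm hC hC', add_zero]

/-- The same for any representation `σ` of `N` which is trivial. -/
theorem Et_coind_eq_zero [Nonempty 𝔇.ι] (h : CountHyp 𝔇 k χ) (N : Subgroup G)
    (hN : N ∈ 𝔇.L.lev)
    (hperm : ∀ hX hX', 𝔇.Et χ (Shapiro.permRep N k) hX hX' = 0)
    {V : Type} [AddCommGroup V] [Module k V] [Module.Finite k V] (σ : Representation k N V)
    (hσ : ∀ n, σ n = 1) (hP : 𝔇.IsSmooth (Representation.coind N.subtype σ))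
    (hP' : 𝔇.IsSmooth (dualTw χ (Representation.coind N.subtype σ))) :
    𝔇.Et χ (Representation.coind N.subtype σ) hP hP' = 0 := by
  obtain rfl : σ = Representation.trivial k N V := by
    ext n v
    rw [hσ n]
    rfl
  exact Et_coind_trivial_eq_zero χ h N hN hperm _ V rfl hP hP'

end Filtration

/-! ### The embedding `M ↪ coind_N^G res_N M` -/

section ToCoind

variable {𝔇}

/-- The canonical embedding `M → coind_N^G res_N M`, `m ↦ (g ↦ ρ g m)`. -/
def toCoind (ρ : Representation k G M) (N : Subgroup G) :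
    M →ₗ[k] Representation.coindV N.subtype (ρ.comp N.subtype) where
  toFun m := ⟨fun g => ρ g m, fun n g => by
    show ρ (N.subtype n * g) m = ρ (N.subtype n) (ρ g m)
    rw [map_mul]
    rfl⟩
  map_add' m m' := Subtype.ext (funext fun g => map_add (ρ g) m m')
  map_smul' c m := Subtype.ext (funext fun g => map_smul (ρ g) c m)

theorem toCoind_apply (ρ : Representation k G M) (N : Subgroup G) (m : M) (g : G) :
    (toCoind ρ N m).1 g = ρ g m := rfl

theorem toCoind_equivariant (ρ : Representation k G M) (N : Subgroup G) (g : G) (m : M) :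
    toCoind ρ N (ρ g m) = Representation.coind N.subtype (ρ.comp N.subtype) g (toCoind ρ N m) := by
  refine Subtype.ext (funext fun x => ?_)
  show ρ x (ρ g m) = ρ (x * g) m
  rw [map_mul]
  rfl

theorem toCoind_injective (ρ : Representation k G M) (N : Subgroup G) :
    Function.Injective (toCoind ρ N) := by
  intro m m' hmm
  have h1 := congrFun (congrArg Subtype.val hmm) 1
  simpa [toCoind] using h1

variable (χ : G →* kˣ)

/-- **The hypothesis `hemb` of the counting engine** from `Ẽ(X_N) = 0` for a cofinal family of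
levels `N`. -/
theorem hemb_of_perm [Nonempty 𝔇.ι] (h : CountHyp 𝔇 k χ)
    (hbase : ∀ N₀ ∈ 𝔇.L.lev, ∃ N ∈ 𝔇.L.lev, N ≤ N₀ ∧
      ∀ hX hX', 𝔇.Et χ (Shapiro.permRep N k) hX hX' = 0)
    {X : Type} [AddCommGroup X] [Module k X] [Module.Finite k X]
    (ρ : Representation k G X) (hρ : 𝔇.IsSmooth ρ) :
    ∃ (P : Type) (_ : AddCommGroup P) (_ : Module k P) (_ : Module.Finite k P)
      (σ : Representation k G P) (hσ : 𝔇.IsSmooth σ) (hσ' : 𝔇.IsSmooth (dualTw χ σ))
      (i : X →ₗ[k] P), Function.Injective i ∧ (∀ g m, i (ρ g m) = σ g (i m)) ∧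
        𝔇.Et χ σ hσ hσ' = 0 := by
  obtain ⟨N₀, hN₀, htriv⟩ := 𝔇.exists_level_trivial hρ
  obtain ⟨N, hN, hle, hE⟩ := hbase N₀ hN₀
  have hfi : N.FiniteIndex := 𝔇.L.finiteIndex N hN
  have hσtriv : ∀ n : N, (ρ.comp N.subtype) n = 1 := fun n => htriv n (hle n.2)
  have hfin := finite_coindV N (ρ.comp N.subtype)
  have hP : 𝔇.IsSmooth (Representation.coind N.subtype (ρ.comp N.subtype)) :=
    isSmooth_coind_of_trivial hN _ hσtriv
  have hP' := 𝔇.isSmooth_dualTw χ hP h.hχ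
  exact ⟨_, inferInstance, inferInstance, hfin, Representation.coind N.subtype (ρ.comp N.subtype),
    hP, hP', toCoind ρ N, toCoind_injective ρ N, toCoind_equivariant ρ N,
    Et_coind_eq_zero χ h N hN hE _ hσtriv hP hP'⟩

end ToCoind

/-! ### The duality count from the permutation modules -/

section Main

variable {𝔇} (χ : G →* kˣ)

/-- `hbase` of `hemb_of_perm` from the Euler characteristic identity on the `X_N`. -/
theorem hbase_of_chi [Nonempty 𝔇.ι] (h : CountHyp 𝔇 k χ)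
    (hχ₂ : ∀ N₀ ∈ 𝔇.L.lev, ∃ N ∈ 𝔇.L.lev, N ≤ N₀ ∧ (∀ s ∈ N, χ s = 1) ∧
      ∀ hX : 𝔇.IsSmooth (Shapiro.permRep N k),
        2 * Cx.chi (𝔇.C (Shapiro.permRep N k) hX) 2 =
          ∑ v, Cx.chi (𝔇.Cv (Shapiro.permRep N k) hX v) 2) :
    ∀ N₀ ∈ 𝔇.L.lev, ∃ N ∈ 𝔇.L.lev, N ≤ N₀ ∧
      ∀ hX hX', 𝔇.Et χ (Shapiro.permRep N k) hX hX' = 0 := by
  intro N₀ hN₀
  obtain ⟨N, hN, hle, hχN, hchi⟩ := hχ₂ N₀ hN₀
  exact ⟨N, hN, hle, fun hX hX' => Et_perm_eq_zero χ h N hN hχN hX hX' (hchi hX)⟩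

/-- **The duality count** `dim Ш²(M) = dim Ш¹(M')` from `CountHyp` and the Euler
characteristic identity `2·χ₂(G; X_N) = Σ_v χ₂(D_v; X_N)` for a cofinal family of levels
`N ≤ ker χ`. -/
theorem finrank_sha_eq_of_chi [Nonempty 𝔇.ι] (h : CountHyp 𝔇 k χ)
    (hχ₂ : ∀ N₀ ∈ 𝔇.L.lev, ∃ N ∈ 𝔇.L.lev, N ≤ N₀ ∧ (∀ s ∈ N, χ s = 1) ∧
      ∀ hX : 𝔇.IsSmooth (Shapiro.permRep N k),
        2 * Cx.chi (𝔇.C (Shapiro.permRep N k) hX) 2 =
          ∑ v, Cx.chi (𝔇.Cv (Shapiro.permRep N k) hX v) 2)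
    [Module.Finite k M] (ρ : Representation k G M) (hρ : 𝔇.IsSmooth ρ)
    (hρ' : 𝔇.IsSmooth (dualTw χ ρ)) :
    finrank k (𝔇.sha ρ hρ 2) = finrank k (𝔇.sha (dualTw χ ρ) hρ' 1) :=
  h.finrank_sha_eq (fun ρ hρ => hemb_of_perm χ h (hbase_of_chi χ h hχ₂) ρ hρ) ρ hρ hρ'

end Main

end Fermat.Agent.PT.EngineEmb
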