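/-
PT layer F: `H⁰` of a level complex is the space of invariant vectors.

* `LevelSys.inv ρ` : the submodule of invariant vectors;
* `LevelSys.cls0` : `inv ρ → H⁰(L.cx ρ hρ)`, a linear bijection (`cls0_bijective`), with
  `H0Equiv` the resulting equivalence;
* `LevelSys.subsingleton_H_zero` : `H⁰ = 0` if there is no nonzero invariant vector.
-/
import Mathlib
import Fermat.Agent.PT.Coh.CupSetup

set_option autoImplicit false

namespace Fermat.Agent.PT

namespace LevelSys

variable {Γ : Type} [Group Γ] (L : LevelSys Γ) {k : Type} [CommRing k]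
variable {M : Type} [AddCommGroup M] [Module k M] {ρ : Representation k Γ M}

/-- the invariant vectors of a representation -/
def inv (ρ : Representation k Γ M) : Submodule k M where
  carrier := {m | ∀ g, ρ g m = m}
  add_mem' ha hb g := by rw [map_add, ha g, hb g]
  zero_mem' g := map_zero _
  smul_mem' c _ ha g := by rw [map_smul, ha g]

lemma mem_inv (m : M) : m ∈ inv ρ ↔ ∀ g, ρ g m = m := Iff.rfl

/-- the class in `H⁰` of an invariant vector -/
def cls0 (hρ : L.IsSmooth ρ) : inv ρ →ₗ[k] (L.cx ρ hρ).H 0 where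
  toFun m := (L.cx ρ hρ).cls 0 (L.const0 hρ m.1)
    ((L.d_zero_eq_zero_iff hρ _).mpr fun g => m.2 g)
  map_add' _ _ := rfl
  map_smul' _ _ := rfl

lemma cls0_apply (hρ : L.IsSmooth ρ) (m : inv ρ) :
    L.cls0 hρ m = (L.cx ρ hρ).cls 0 (L.const0 hρ m.1)
      ((L.d_zero_eq_zero_iff hρ _).mpr fun g => m.2 g) := rfl

/-- **`H⁰` is the space of invariants.** -/
theorem cls0_bijective (hρ : L.IsSmooth ρ) : Function.Bijective (L.cls0 hρ) := by
  constructor
  · refine (injective_iff_map_eq_zero _).mpr fun m hm => ?_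
    rw [cls0_apply, Cx.cls_eq_zero_iff, Cx.mem_B_zero] at hm
    have h1 := congrArg (L.ev0 hρ) hm
    rw [ev0_const0, map_zero] at h1
    exact Subtype.ext h1
  · intro a
    obtain ⟨x, hx, rfl⟩ := (L.cx ρ hρ).exists_cls a
    refine ⟨⟨L.ev0 hρ x, fun g => L.ev0_fixed hρ x hx g⟩, ?_⟩
    rw [cls0_apply]
    congr 1
    exact L.const0_ev0 hρ x

/-- `H⁰(L.cx ρ hρ) ≃ ρ^Γ` -/
noncomputable def H0Equiv (hρ : L.IsSmooth ρ) : inv ρ ≃ₗ[k] (L.cx ρ hρ).H 0 :=
  LinearEquiv.ofBijective (L.cls0 hρ) (L.cls0_bijective hρ)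

/-- `H⁰ = 0` when there is no nonzero invariant vector -/
theorem subsingleton_H_zero (hρ : L.IsSmooth ρ) (h : ∀ m : M, (∀ g, ρ g m = m) → m = 0) :
    Subsingleton ((L.cx ρ hρ).H 0) := by
  have hs : Subsingleton (inv ρ) :=
    ⟨fun a b => Subtype.ext ((h a.1 a.2).trans (h b.1 b.2).symm)⟩
  exact (L.H0Equiv hρ).symm.toEquiv.subsingleton

end LevelSys

end Fermat.Agent.PT
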