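import Fermat.Agent.PT.Coh.Engine

/-!
# PT: the formal lower bound for `h²`

For an abstract Poitou–Tate datum `𝔇` with `H³(X) = 0`:

* `LocDatum.sum_finrank_Hv_two_le` : `Σ_v h²_v(X) ≤ h²(X) + h³_c(X)` (the end of the cone
  sequence `H²(X) → ∏_v H²_v(X) → H³_c(X) → H³(X) = 0`);
* `LocDatum.CountHyp.sum_finrank_Hv_zero_dualTw_le` : under the counting hypotheses,
  `Σ_v h⁰_v(X') ≤ h²(X) + h⁰(X')` for `X' = Hom_k(X, k)(χ)`;
* `LocDatum.CountHyp.sum_finrank_Hv_two_le_add` : the same with `h²_v(X)` on the left.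
-/

set_option autoImplicit false

namespace Fermat.Agent.PT

namespace LocDatum

open Module

variable {G : Type} [Group G] (𝔇 : LocDatum G)
variable {k : Type} [Field k]
variable {M : Type} [AddCommGroup M] [Module k M]

/-- `Σ_v h²_v(X) ≤ h²(X) + h³_c(X)` when `H³(X) = 0`. -/
theorem sum_finrank_Hv_two_le (ρ : Representation k G M) (hρ : 𝔇.IsSmooth ρ)
    [Subsingleton (𝔇.H ρ hρ 3)] [Module.Finite k (𝔇.H ρ hρ 2)]
    [∀ v, Module.Finite k (𝔇.Hv ρ hρ v 2)] :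
    ∑ v, finrank k (𝔇.Hv ρ hρ v 2) ≤ finrank k (𝔇.H ρ hρ 2) + finrank k (𝔇.Hc ρ hρ 3) := by
  have hsurj : Function.Surjective (𝔇.ιc ρ hρ 2) := fun x =>
    (𝔇.exact_ιc_πc ρ hρ 2 x).mp (Subsingleton.elim _ _)
  have hker : LinearMap.ker (𝔇.ιc ρ hρ 2) = LinearMap.range (𝔇.locH ρ hρ 2) :=
    LinearMap.exact_iff.mp (𝔇.exact_locH_ιc ρ hρ 2)
  have h := LinearMap.finrank_range_add_finrank_ker (𝔇.ιc ρ hρ 2)
  rw [LinearMap.range_eq_top.mpr hsurj, finrank_top, hker, Module.finrank_pi_fintype] at h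
  have hle : finrank k (LinearMap.range (𝔇.locH ρ hρ 2)) ≤ finrank k (𝔇.H ρ hρ 2) :=
    LinearMap.finrank_range_le _
  have h3 : finrank k (𝔇.Hc ρ hρ 3) + finrank k (LinearMap.range (𝔇.locH ρ hρ 2)) =
      ∑ v, finrank k (𝔇.Hv ρ hρ v 2) := h
  rw [← h3, add_comm]
  exact Nat.add_le_add_right hle _

namespace CountHyp

variable {𝔇} {χ : G →* kˣ}

/-- **The formal lower bound for `h²`**, with `h²_v(X)` on the left:
`Σ_v h²_v(X) ≤ h²(X) + h⁰(X')`. -/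
theorem sum_finrank_Hv_two_le_add (h : CountHyp 𝔇 k χ) [Module.Finite k M]
    (ρ : Representation k G M) (hρ : 𝔇.IsSmooth ρ) (hρ' : 𝔇.IsSmooth (dualTw χ ρ)) :
    ∑ v, finrank k (𝔇.Hv ρ hρ v 2) ≤
      finrank k (𝔇.H ρ hρ 2) + finrank k (𝔇.H (dualTw χ ρ) hρ' 0) := by
  have := h.cd ρ hρ
  have := h.fin ρ hρ 2 le_rfl
  have : ∀ v, Module.Finite k (𝔇.Hv ρ hρ v 2) := fun v => h.finv ρ hρ v 2 le_rfl
  have := 𝔇.sum_finrank_Hv_two_le ρ hρ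
  rwa [h.e3 ρ hρ hρ'] at this

/-- **The formal lower bound for `h²`**: `Σ_v h⁰_v(X') ≤ h²(X) + h⁰(X')`. -/
theorem sum_finrank_Hv_zero_dualTw_le (h : CountHyp 𝔇 k χ) [Module.Finite k M]
    (ρ : Representation k G M) (hρ : 𝔇.IsSmooth ρ) (hρ' : 𝔇.IsSmooth (dualTw χ ρ)) :
    ∑ v, finrank k (𝔇.Hv (dualTw χ ρ) hρ' v 0) ≤
      finrank k (𝔇.H ρ hρ 2) + finrank k (𝔇.H (dualTw χ ρ) hρ' 0) := by
  have := h.sum_finrank_Hv_two_le_add ρ hρ hρ'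
  simpa only [h.ev ρ hρ hρ'] using this

end CountHyp

end LocDatum

end Fermat.Agent.PT
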