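import Fermat.Agent.PT.Coh.H2Bound

/-!
# PT: the formal lower bound for `h²`, transported along an equivariant isomorphism

`LocDatum.CountHyp.sum_finrank_Hv_zero_le_of_equiv` : if `ρ'` is equivariantly isomorphic to
`X' = Hom_k(X, k)(χ)`, then `Σ_v h⁰_v(ρ') ≤ h²(X) + h⁰(ρ')`.
(Consumer: `X = Coind_U k(ψ)`, `ρ' = Coind_U k(χ ψ⁻¹)`.)
-/

set_option autoImplicit false

namespace Fermat.Agent.PT

namespace LocDatum

namespace CountHyp

open Module

variable {G : Type} [Group G] {𝔇 : LocDatum G}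
variable {k : Type} [Field k]
variable {M : Type} [AddCommGroup M] [Module k M]
variable {χ : G →* kˣ}

/-- **The formal lower bound for `h²`**, with `X'` replaced by any representation `ρ'`
equivariantly isomorphic to it: `Σ_v h⁰_v(ρ') ≤ h²(X) + h⁰(ρ')`. -/
theorem sum_finrank_Hv_zero_le_of_equiv (h : CountHyp 𝔇 k χ) [Module.Finite k M]
    (ρ : Representation k G M) (hρ : 𝔇.IsSmooth ρ) {M' : Type} [AddCommGroup M'] [Module k M']
    (ρ' : Representation k G M') (hρ' : 𝔇.IsSmooth ρ')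
    (e : M' ≃ₗ[k] Module.Dual k M) (he : ∀ g m, e (ρ' g m) = dualTw χ ρ g (e m)) :
    ∑ v, finrank k (𝔇.Hv ρ' hρ' v 0) ≤
      finrank k (𝔇.H ρ hρ 2) + finrank k (𝔇.H ρ' hρ' 0) := by
  have hd : 𝔇.IsSmooth (dualTw χ ρ) := 𝔇.isSmooth_dualTw (χ := χ) hρ h.hχ
  have h0 : finrank k (𝔇.H ρ' hρ' 0) = finrank k (𝔇.H (dualTw χ ρ) hd 0) :=
    (LinearEquiv.ofBijective _ (𝔇.mapC_bijective hρ' hd e he 0)).finrank_eq
  have hv : ∀ v, finrank k (𝔇.Hv ρ' hρ' v 0) = finrank k (𝔇.Hv (dualTw χ ρ) hd v 0) :=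
    fun v => (LinearEquiv.ofBijective _ (𝔇.mapCv_bijective hρ' hd e he v 0)).finrank_eq
  rw [h0, Finset.sum_congr rfl fun v _ => hv v]
  exact h.sum_finrank_Hv_zero_dualTw_le ρ hρ hd

end CountHyp

end LocDatum

end Fermat.Agent.PT
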