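import Fermat.Agent.PT.Coh.LevelCx

/-!
# PT layer F5 (part 1): induced modules are acyclic for level cohomology

For a leveled group `(Γ, L)` and a `k`-module `A`, `lcFun L k A` is the module of level-constant
functions `Γ → A` with `Γ` acting by right translation (`indRep`).  It is smooth, its level
cohomology vanishes in positive degrees (`ind_H_succ_eq_zero`, explicit contracting homotopy
`(s f)(g₁..gₙ)(x) = f(x, g₁..gₙ)(1)`), and every smooth representation embeds equivariantly into
one (`toInd`).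
-/

set_option autoImplicit false

namespace Fermat.Agent.PT.Induced

open Fermat.Agent.PT

section FinLemmas

variable {α : Type} (op : α → α → α)

lemma contractNth_zero_cons {n : ℕ} (x : α) (g : Fin (n + 1) → α) :
    Fin.contractNth 0 op (Fin.cons x g : Fin (n + 2) → α) =
      Fin.cons (op x (g 0)) (fun i => g i.succ) := by
  funext k
  refine Fin.cases ?_ (fun i => ?_) k
  · simp [Fin.contractNth]
  · simp [Fin.contractNth]

lemma contractNth_succ_cons {n : ℕ} (j : Fin (n + 1)) (x : α) (g : Fin (n + 1) → α) :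
    Fin.contractNth j.succ op (Fin.cons x g : Fin (n + 2) → α) =
      Fin.cons x (Fin.contractNth j op g) := by
  funext k
  refine Fin.cases ?_ (fun i => ?_) k
  · simp [Fin.contractNth]
  · simp only [Fin.contractNth, Fin.val_succ, Fin.cons_succ, Nat.succ_lt_succ_iff,
      Nat.succ_inj, Fin.castSucc_succ]

end FinLemmas

section Ind

variable {Γ : Type} [Group Γ] (L : LevelSys Γ)

/-- `φ : Γ → X` is right-invariant under some level. -/
def IsLC {X : Type} (φ : Γ → X) : Prop := ∃ N ∈ L.lev, ∀ x, ∀ n ∈ N, φ (x * n) = φ x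

variable (k : Type) [CommRing k] (A : Type) [AddCommGroup A] [Module k A]

/-- The module of level-constant functions `Γ → A`. -/
def lcFun : Submodule k (Γ → A) where
  carrier := {φ | IsLC L φ}
  add_mem' := by
    rintro φ ψ ⟨N₁, hN₁, h₁⟩ ⟨N₂, hN₂, h₂⟩
    obtain ⟨N, hN, hle⟩ := L.inter N₁ hN₁ N₂ hN₂
    exact ⟨N, hN, fun x n hn => by
      show φ (x * n) + ψ (x * n) = φ x + ψ x
      rw [h₁ x n (hle hn).1, h₂ x n (hle hn).2]⟩
  zero_mem' := by
    obtain ⟨N, hN⟩ := L.nonempty
    exact ⟨N, hN, fun _ _ _ => rfl⟩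
  smul_mem' := by
    rintro c φ ⟨N, hN, h⟩
    exact ⟨N, hN, fun x n hn => by
      show c • φ (x * n) = c • φ x
      rw [h x n hn]⟩

variable {L k A}

lemma mem_lcFun {φ : Γ → A} : φ ∈ lcFun L k A ↔ IsLC L φ := Iff.rfl

lemma isLC_translate {X : Type} {φ : Γ → X} (hφ : IsLC L φ) (g : Γ) :
    IsLC L (fun x => φ (x * g)) := by
  obtain ⟨N, hN, h⟩ := hφ
  have hn := L.normal N hN
  refine ⟨N, hN, fun x n hnN => ?_⟩
  have h1 : x * n * g = x * g * (g⁻¹ * n * g) := by group
  have h2 : g⁻¹ * n * g ∈ N := by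
    have := hn.conj_mem n hnN g⁻¹
    rwa [inv_inv] at this
  show φ (x * n * g) = φ (x * g)
  rw [h1, h _ _ h2]

variable (L k A)

/-- The induced representation: `Γ` acts on level-constant functions by right translation. -/
def indRep : Representation k Γ (lcFun L k A) where
  toFun g :=
    { toFun := fun φ => ⟨fun x => φ.1 (x * g), isLC_translate φ.2 g⟩
      map_add' := fun _ _ => rfl
      map_smul' := fun _ _ => rfl }
  map_one' := by
    ext φ x
    show φ.1 (x * 1) = φ.1 x
    rw [mul_one]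
  map_mul' g h := by
    ext φ x
    show φ.1 (x * (g * h)) = φ.1 (x * g * h)
    rw [mul_assoc]

variable {L k A}

lemma indRep_apply (g : Γ) (φ : lcFun L k A) (x : Γ) :
    (indRep L k A g φ).1 x = φ.1 (x * g) := rfl

variable (L k A)

lemma indRep_smooth : L.IsSmooth (indRep L k A) := by
  intro φ
  obtain ⟨N, hN, h⟩ := φ.2
  exact ⟨N, hN, fun s hs => Subtype.ext (funext fun x => h x s hs)⟩

/-- The level cochain complex of the induced module. -/
abbrev indCx : Cx k := L.cx (indRep L k A) (indRep_smooth L k A)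

variable {L k A}

/-- The contracting homotopy on functions. -/
def sFun {n : ℕ} (f : (Fin (n + 1) → Γ) → lcFun L k A) : (Fin n → Γ) → (Γ → A) :=
  fun g x => (f (Fin.cons x g)).1 1

lemma sFun_isLC {n : ℕ} {f : (Fin (n + 1) → Γ) → lcFun L k A} (hf : L.IsLevelConst f)
    (g : Fin n → Γ) : IsLC L (sFun f g) := by
  obtain ⟨N, hN, h⟩ := hf
  refine ⟨N, hN, fun x m hm => ?_⟩
  have : f (Fin.cons (x * m) g) = f (Fin.cons x g) := by
    refine h _ _ fun i => ?_
    refine Fin.cases ?_ (fun j => ?_) i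
    · simp only [Fin.cons_zero]
      have h1 : (x * m)⁻¹ * x = m⁻¹ := by group
      rw [h1]
      exact N.inv_mem hm
    · simp only [Fin.cons_succ, inv_mul_cancel]
      exact N.one_mem
  show (f (Fin.cons (x * m) g)).1 1 = (f (Fin.cons x g)).1 1
  rw [this]

lemma sFun_isLevelConst {n : ℕ} {f : (Fin (n + 1) → Γ) → lcFun L k A}
    (hf : L.IsLevelConst f) :
    L.IsLevelConst (fun g : Fin n → Γ => (⟨sFun f g, sFun_isLC hf g⟩ : lcFun L k A)) := by
  obtain ⟨N, hN, h⟩ := hf
  refine ⟨N, hN, fun g g' hgg' => Subtype.ext (funext fun x => ?_)⟩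
  have : f (Fin.cons x g) = f (Fin.cons x g') := by
    refine h _ _ fun i => ?_
    refine Fin.cases ?_ (fun j => ?_) i
    · simp only [Fin.cons_zero, inv_mul_cancel]
      exact N.one_mem
    · simp only [Fin.cons_succ]
      exact hgg' j
  show (f (Fin.cons x g)).1 1 = (f (Fin.cons x g')).1 1
  rw [this]

variable (L k A)

/-- The contracting homotopy `s : C^{n+1}(Γ; Ind A) → C^n(Γ; Ind A)`,
`(s f)(g)(x) = f(x, g)(1)`. -/
def indS (n : ℕ) : (indCx L k A).X (n + 1) →ₗ[k] (indCx L k A).X n where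
  toFun f := ⟨fun g => ⟨sFun f.1 g, sFun_isLC f.2 g⟩, sFun_isLevelConst f.2⟩
  map_add' _ _ := rfl
  map_smul' _ _ := rfl

variable {L k A}

lemma indS_apply (n : ℕ) (f : (indCx L k A).X (n + 1)) (g : Fin n → Γ) (x : Γ) :
    ((indS L k A n f).1 g).1 x = (f.1 (Fin.cons x g)).1 1 := rfl

/-- evaluation of a level-constant function at a point -/
def evalAt (x : Γ) : lcFun L k A →ₗ[k] A := LinearMap.proj x ∘ₗ (lcFun L k A).subtype

lemma evalAt_apply (x : Γ) (φ : lcFun L k A) : evalAt x φ = φ.1 x := rfl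

/-- `d s + s d = id` in positive degrees. -/
theorem d_indS_add_indS_d (n : ℕ) (f : (indCx L k A).X (n + 1)) :
    (indCx L k A).d n (indS L k A n f) + indS L k A (n + 1) ((indCx L k A).d (n + 1) f) = f := by
  apply Subtype.ext
  funext g
  apply Subtype.ext
  funext x
  show evalAt x (((indCx L k A).d n (indS L k A n f)).1 g) +
    ((indS L k A (n + 1) ((indCx L k A).d (n + 1) f)).1 g).1 x = evalAt x (f.1 g)
  rw [indS_apply, ← evalAt_apply (1 : Γ), LevelSys.cx_d_apply, LevelSys.cx_d_apply, map_add,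
    map_add, map_sum, map_sum]
  simp only [map_smul]
  rw [Fin.sum_univ_succ (fun j : Fin (n + 1 + 1) => (-1 : k) ^ ((j : ℕ) + 1) •
    evalAt (1 : Γ) (f.1 (Fin.contractNth j (fun x1 x2 => x1 * x2) (Fin.cons x g))))]
  have e1 : ∀ j : Fin (n + 1),
      evalAt x ((indS L k A n f).1 (Fin.contractNth j (fun x1 x2 => x1 * x2) g)) =
        evalAt (1 : Γ) (f.1 (Fin.cons x (Fin.contractNth j (fun x1 x2 => x1 * x2) g))) :=
    fun j => rfl
  have e2 : evalAt x (indRep L k A (g 0) ((indS L k A n f).1 fun i => g i.succ)) =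
      evalAt (1 : Γ) (f.1 (Fin.cons (x * g 0) fun i => g i.succ)) := rfl
  have e3 : evalAt (1 : Γ) (indRep L k A ((Fin.cons x g : Fin (n + 1 + 1) → Γ) 0)
      (f.1 fun i => (Fin.cons x g : Fin (n + 1 + 1) → Γ) i.succ)) = evalAt x (f.1 g) := by
    show (f.1 fun i => (Fin.cons x g : Fin (n + 1 + 1) → Γ) i.succ).1
      (1 * (Fin.cons x g : Fin (n + 1 + 1) → Γ) 0) = (f.1 g).1 x
    simp only [Fin.cons_succ, Fin.cons_zero, one_mul]
  rw [e2, e3]
  simp only [e1, contractNth_zero_cons, contractNth_succ_cons, Fin.val_zero,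
    Fin.val_succ, zero_add, neg_smul, pow_succ, mul_neg, mul_one, neg_neg,
    Finset.sum_neg_distrib, pow_zero, one_smul]
  abel

/-- The level cohomology of an induced module vanishes in positive degrees. -/
theorem ind_H_succ_eq_zero (n : ℕ) (h : (indCx L k A).H (n + 1)) : h = 0 := by
  obtain ⟨z, hz, rfl⟩ := (indCx L k A).exists_cls h
  rw [Cx.cls_eq_zero_iff, Cx.mem_B_succ]
  refine ⟨indS L k A n z, ?_⟩
  have := d_indS_add_indS_d n z
  rw [hz, map_zero, add_zero] at this
  exact this

/-! ### Every smooth representation embeds into an induced one -/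

variable {M : Type} [AddCommGroup M] [Module k M]

/-- The embedding `m ↦ (x ↦ x • m)` of a smooth representation into its induced module. -/
def toInd (ρ : Representation k Γ M) (hρ : L.IsSmooth ρ) : M →ₗ[k] lcFun L k M where
  toFun m := ⟨fun x => ρ x m, by
    obtain ⟨N, hN, h⟩ := hρ m
    exact ⟨N, hN, fun x n hn => by
      show ρ (x * n) m = ρ x m
      rw [map_mul, Module.End.mul_apply, h n hn]⟩⟩
  map_add' m m' := Subtype.ext (funext fun x => map_add (ρ x) m m')
  map_smul' c m := Subtype.ext (funext fun x => map_smul (ρ x) c m)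

lemma toInd_apply (ρ : Representation k Γ M) (hρ : L.IsSmooth ρ) (m : M) (x : Γ) :
    (toInd ρ hρ m).1 x = ρ x m := rfl

lemma toInd_equivariant (ρ : Representation k Γ M) (hρ : L.IsSmooth ρ) (g : Γ) (m : M) :
    toInd ρ hρ (ρ g m) = indRep L k M g (toInd ρ hρ m) := by
  apply Subtype.ext
  funext x
  show ρ x (ρ g m) = ρ (x * g) m
  rw [map_mul, Module.End.mul_apply]

lemma toInd_injective (ρ : Representation k Γ M) (hρ : L.IsSmooth ρ) :
    Function.Injective (toInd ρ hρ) := by
  intro m m' h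
  have := congrArg (fun φ : lcFun L k M => φ.1 1) h
  simpa [toInd_apply] using this

end Ind

end Fermat.Agent.PT.Induced
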