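import Fermat.Agent.PT.Coh.Shapiro

/-!
# PT layer F5: uniqueness of natural transformations by effacement; inner automorphisms

* `mapH_succ_eq_of_effaceable` : two morphisms of short exact sequences of complexes that agree
  on `Hⁿ` of the quotients agree on `Hⁿ⁺¹` of the subobjects, if the middle term of the source
  is acyclic in degree `n + 1`.
* `natEndo_mapH_eq_id` : a natural (in the coefficients) endomorphism of the level cochain
  complexes which is the identity on `H⁰` is the identity on every `Hⁿ`.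
* `innerHom L c ρ hρ` : conjugation by `c`, `(c_* f)(g₁..gₙ) = c • f(c⁻¹g₁c, …, c⁻¹gₙc)`, and
  `innerHom_mapH : (innerHom L c ρ hρ).mapH n x = x` — inner automorphisms act trivially on level
  cohomology.
-/

set_option autoImplicit false

namespace Fermat.Agent.PT.Shapiro

open Fermat.Agent.PT Fermat.Agent.PT.Induced

section Abstract

variable {k : Type} [CommRing k] {A B C A' B' C' : Cx k} {f : Cx.Hom A B} {g : Cx.Hom B C}
  {f' : Cx.Hom A' B'} {g' : Cx.Hom B' C'}

/-- Two morphisms of short exact sequences agreeing on `Hⁿ(C)` agree on `Hⁿ⁺¹(A)` when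
`Hⁿ⁺¹(B) = 0`. -/
theorem mapH_succ_eq_of_effaceable (h : Cx.ShortExact f g) (h' : Cx.ShortExact f' g')
    (α α₁ : Cx.Hom A A') (β β₁ : Cx.Hom B B') (γ γ₁ : Cx.Hom C C')
    (hf : ∀ n a, β.f n (f.f n a) = f'.f n (α.f n a))
    (hg : ∀ n b, γ.f n (g.f n b) = g'.f n (β.f n b))
    (hf₁ : ∀ n a, β₁.f n (f.f n a) = f'.f n (α₁.f n a))
    (hg₁ : ∀ n b, γ₁.f n (g.f n b) = g'.f n (β₁.f n b)) (n : ℕ)
    (hB : ∀ y : B.H (n + 1), y = 0) (hγ : ∀ x, γ.mapH n x = γ₁.mapH n x) (x : A.H (n + 1)) :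
    α.mapH (n + 1) x = α₁.mapH (n + 1) x := by
  obtain ⟨q, rfl⟩ := (h.exact_δ_f n x).1 (hB _)
  rw [Cx.ShortExact.δ_naturality h h' α β γ hf hg n q,
    Cx.ShortExact.δ_naturality h h' α₁ β₁ γ₁ hf₁ hg₁ n q, hγ]

end Abstract

section NatEndo

variable {Γ : Type} [Group Γ] (L : LevelSys Γ) {k : Type} [CommRing k]

/-- A natural endomorphism of the level cochain complexes which induces the identity on `H⁰` of
every smooth representation induces the identity on every `Hⁿ`. -/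
theorem natEndo_mapH_eq_id
    (θ : ∀ (M : Type) [AddCommGroup M] [Module k M] (ρ : Representation k Γ M)
      (hρ : L.IsSmooth ρ), Cx.Hom (L.cx ρ hρ) (L.cx ρ hρ))
    (hnat : ∀ (M M' : Type) [AddCommGroup M] [Module k M] [AddCommGroup M'] [Module k M']
      (ρ : Representation k Γ M) (ρ' : Representation k Γ M') (hρ : L.IsSmooth ρ)
      (hρ' : L.IsSmooth ρ') (φ : M →ₗ[k] M') (hφ : ∀ g m, φ (ρ g m) = ρ' g (φ m)) (n : ℕ)
      (x : (L.cx ρ hρ).X n),
      (θ M' ρ' hρ').f n ((L.mapCoeff hρ hρ' φ hφ).f n x) =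
        (L.mapCoeff hρ hρ' φ hφ).f n ((θ M ρ hρ).f n x))
    (h0 : ∀ (M : Type) [AddCommGroup M] [Module k M] (ρ : Representation k Γ M)
      (hρ : L.IsSmooth ρ) (x : (L.cx ρ hρ).H 0), (θ M ρ hρ).mapH 0 x = x)
    (n : ℕ) : ∀ (M : Type) [AddCommGroup M] [Module k M] (ρ : Representation k Γ M)
      (hρ : L.IsSmooth ρ) (x : (L.cx ρ hρ).H n), (θ M ρ hρ).mapH n x = x := by
  induction n with
  | zero => exact h0
  | succ n ih =>
    intro M _ _ ρ hρ x
    have hIsm := indRep_smooth L k M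
    let ι : M →ₗ[k] lcFun L k M := toInd ρ hρ
    have hι : ∀ u a, ι (ρ u a) = indRep L k M u (ι a) := toInd_equivariant ρ hρ
    have hιinj : Function.Injective ι := toInd_injective ρ hρ
    let R : Submodule k (lcFun L k M) := LinearMap.range ι
    have hR : ∀ u, R ≤ R.comap (indRep L k M u) := by
      rintro u _ ⟨a, rfl⟩
      exact ⟨ρ u a, hι u a⟩
    let ρQ : Representation k Γ (lcFun L k M ⧸ R) := (indRep L k M).quotient R hR
    have hQsm : L.IsSmooth ρQ := quotient_smooth L _ hIsm R hR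
    let π : lcFun L k M →ₗ[k] (lcFun L k M ⧸ R) := R.mkQ
    have hπ : ∀ u a, π (indRep L k M u a) = ρQ u (π a) := fun _ _ => rfl
    have hex : Function.Exact ι π := by
      rw [LinearMap.exact_iff, Submodule.ker_mkQ]
    have hπsurj : Function.Surjective π := R.mkQ_surjective
    have hS := L.shortExact_mapCoeff hρ hIsm hQsm ι π hι hπ hιinj hex hπsurj
    have key := mapH_succ_eq_of_effaceable hS hS (θ M ρ hρ) (Cx.Hom.id _)
      (θ _ (indRep L k M) hIsm) (Cx.Hom.id _) (θ _ ρQ hQsm) (Cx.Hom.id _)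
      (fun m a => hnat _ _ ρ (indRep L k M) hρ hIsm ι hι m a)
      (fun m b => hnat _ _ (indRep L k M) ρQ hIsm hQsm π hπ m b)
      (fun _ _ => rfl) (fun _ _ => rfl) n (fun y => ind_H_succ_eq_zero n y)
      (fun y => by rw [ih _ ρQ hQsm y, Cx.Hom.mapH_id]) x
    rw [key, Cx.Hom.mapH_id]

end NatEndo

section Inner

variable {Γ : Type} [Group Γ] (L : LevelSys Γ) {k : Type} [CommRing k]

/-- Conjugation `x ↦ c⁻¹ x c` as a monoid homomorphism. -/
def conjInv (c : Γ) : Γ →* Γ := (MulAut.conj c⁻¹).toMonoidHom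

lemma conjInv_apply (c x : Γ) : conjInv c x = c⁻¹ * x * c := by
  simp [conjInv]

lemma isCts_conjInv (c : Γ) : L.IsCts L (conjInv c) := by
  intro N hN
  have hn := L.normal N hN
  refine ⟨N, hN, fun n hnN => ?_⟩
  rw [Subgroup.mem_comap, conjInv_apply]
  have := hn.conj_mem n hnN c⁻¹
  rwa [inv_inv] at this

variable {M : Type} [AddCommGroup M] [Module k M]

lemma conj_equivariant (c : Γ) (ρ : Representation k Γ M) (g : Γ) (m : M) :
    ρ c ((ρ.comp (conjInv c)) g m) = ρ g (ρ c m) := by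
  show ρ c (ρ (conjInv c g) m) = ρ g (ρ c m)
  rw [conjInv_apply, ← Module.End.mul_apply, ← Module.End.mul_apply, ← map_mul, ← map_mul]
  congr 2
  group

/-- Conjugation by `c` on level cochains: `(c_* f)(g₁..gₙ) = c • f(c⁻¹g₁c, …, c⁻¹gₙc)`. -/
def innerHom (c : Γ) (ρ : Representation k Γ M) (hρ : L.IsSmooth ρ) :
    Cx.Hom (L.cx ρ hρ) (L.cx ρ hρ) :=
  (L.mapCoeff ((isCts_conjInv L c).isSmooth hρ) hρ (ρ c) (conj_equivariant c ρ)).comp
    (L.res L (isCts_conjInv L c) ρ hρ ((isCts_conjInv L c).isSmooth hρ))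

lemma innerHom_apply (c : Γ) (ρ : Representation k Γ M) (hρ : L.IsSmooth ρ) (n : ℕ)
    (f : (L.cx ρ hρ).X n) (g : Fin n → Γ) :
    ((innerHom L c ρ hρ).f n f).1 g = ρ c (f.1 (conjInv c ∘ g)) := rfl

/-- **Inner automorphisms act trivially on level cohomology.** -/
theorem innerHom_mapH (c : Γ) (n : ℕ) : ∀ (M : Type) [AddCommGroup M] [Module k M]
    (ρ : Representation k Γ M) (hρ : L.IsSmooth ρ) (x : (L.cx ρ hρ).H n),
    (innerHom L c ρ hρ).mapH n x = x := by
  refine natEndo_mapH_eq_id L (fun M _ _ ρ hρ => innerHom L c ρ hρ) ?_ ?_ n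
  · intro M M' _ _ _ _ ρ ρ' hρ hρ' φ hφ n x
    apply Subtype.ext
    funext g
    exact (hφ c _).symm
  · intro M _ _ ρ hρ x
    obtain ⟨f, hf, rfl⟩ := Cx.exists_cls _ x
    rw [Cx.Hom.mapH_cls]
    congr 1
    apply Subtype.ext
    funext g
    let e : Fin 0 → Γ := Fin.elim0
    have hg : g = e := Subsingleton.elim _ _
    have hg' : conjInv c ∘ g = e := Subsingleton.elim _ _
    rw [innerHom_apply, hg', hg]
    exact (cx_d_zero_eq_zero_iff L ρ hρ f e).1 hf c

end Inner

end Fermat.Agent.PT.Shapiro
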