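/-
PT layer F (generic brick): restriction to an open subgroup whose index is invertible in the
coefficient ring is injective on cohomology, for ARBITRARY smooth coefficients.

`(Γ, L)` a leveled group, `U ≤ Γ` open, `(M, ρ)` a smooth representation over a commutative
ring `k` in which `[Γ : U]` is a unit.

* `avgLin ρ U : coind_U^Γ (res_U M) →ₗ M`, `f ↦ ∑_{gU} ρ g (f g⁻¹)` (the trace / averaging map);
  `avgLin_equivariant`, `avgLin_effMap : avgLin (effMap m) = [Γ : U] • m`;
* `effMap_mapH_injective` : `M → coind_U^Γ res_U M` is injective on every `Hⁿ`;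
* `res_mapH_injective` : **`res : Hⁿ(Γ; M) → Hⁿ(U; M)` is injective**;
* `subsingleton_H_of_res`, `finite_H_of_res` : vanishing / finiteness of `Hⁿ(Γ; M)` from `U`.
-/
import Fermat.Agent.PT.Coh.Efface

set_option autoImplicit false

namespace Fermat.Agent.PT.ResInj

open Fermat.Agent.PT Fermat.Agent.PT.Shapiro

variable {Γ : Type} [Group Γ] {k : Type} [CommRing k]
variable {M : Type} [AddCommGroup M] [Module k M]
variable (ρ : Representation k Γ M) (U : Subgroup Γ)

/-- The summands of the averaging map: `g U ↦ ρ g (f g⁻¹)`. -/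
noncomputable def avgFun (f : Representation.coindV U.subtype (ρ.comp U.subtype)) :
    Γ ⧸ U → M :=
  fun q => Quotient.liftOn' q (fun g => ρ g (f.1 g⁻¹)) (by
    intro a b hab
    rw [QuotientGroup.leftRel_apply] at hab
    have h1 := f.2 ⟨a⁻¹ * b, hab⟩ b⁻¹
    have h2 : U.subtype ⟨a⁻¹ * b, hab⟩ * b⁻¹ = a⁻¹ := by simp
    rw [h2] at h1
    show ρ a (f.1 a⁻¹) = ρ b (f.1 b⁻¹)
    rw [h1]
    show ρ a (ρ (a⁻¹ * b) (f.1 b⁻¹)) = ρ b (f.1 b⁻¹)
    rw [← Module.End.mul_apply, ← map_mul, mul_inv_cancel_left])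

theorem avgFun_mk (f : Representation.coindV U.subtype (ρ.comp U.subtype)) (g : Γ) :
    avgFun ρ U f (g : Γ ⧸ U) = ρ g (f.1 g⁻¹) := rfl

variable [U.FiniteIndex]

noncomputable local instance : Fintype (Γ ⧸ U) := Fintype.ofFinite _

/-- The averaging (trace) map `coind_U^Γ (res_U M) → M`, `f ↦ ∑_{gU} ρ g (f g⁻¹)`. -/
noncomputable def avgLin :
    Representation.coindV U.subtype (ρ.comp U.subtype) →ₗ[k] M where
  toFun f := ∑ q : Γ ⧸ U, avgFun ρ U f q
  map_add' f f' := by
    rw [← Finset.sum_add_distrib]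
    refine Finset.sum_congr rfl fun q _ => ?_
    induction q using QuotientGroup.induction_on with
    | _ g =>
      show ρ g ((f + f').1 g⁻¹) = ρ g (f.1 g⁻¹) + ρ g (f'.1 g⁻¹)
      rw [← map_add]
      rfl
  map_smul' c f := by
    rw [RingHom.id_apply, Finset.smul_sum]
    refine Finset.sum_congr rfl fun q _ => ?_
    induction q using QuotientGroup.induction_on with
    | _ g =>
      show ρ g ((c • f).1 g⁻¹) = c • ρ g (f.1 g⁻¹)
      rw [← map_smul]
      rfl

theorem avgLin_apply (f : Representation.coindV U.subtype (ρ.comp U.subtype)) :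
    avgLin ρ U f = ∑ q : Γ ⧸ U, avgFun ρ U f q := rfl

/-- The averaging map is equivariant. -/
theorem avgLin_equivariant (g₀ : Γ)
    (f : Representation.coindV U.subtype (ρ.comp U.subtype)) :
    avgLin ρ U (Representation.coind U.subtype (ρ.comp U.subtype) g₀ f) =
      ρ g₀ (avgLin ρ U f) := by
  rw [avgLin_apply, avgLin_apply, map_sum,
    ← Equiv.sum_comp (MulAction.toPerm g₀⁻¹ : Γ ⧸ U ≃ Γ ⧸ U)
      (fun q => ρ g₀ (avgFun ρ U f q))]
  refine Finset.sum_congr rfl fun q _ => ?_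
  induction q using QuotientGroup.induction_on with
  | _ g =>
    show ρ g ((Representation.coind U.subtype (ρ.comp U.subtype) g₀ f).1 g⁻¹) =
      ρ g₀ (avgFun ρ U f (((g₀⁻¹ * g : Γ) : Γ ⧸ U)))
    rw [avgFun_mk, ← Module.End.mul_apply, ← map_mul, mul_inv_cancel_left, mul_inv_rev, inv_inv]
    rfl

/-- The averaging map is `[Γ : U]` on the image of `M`. -/
theorem avgLin_effMap (m : M) : avgLin ρ U (effMap ρ U m) = ((U.index : ℕ) : k) • m := by
  rw [avgLin_apply]
  have h1 : ∀ q : Γ ⧸ U, avgFun ρ U (effMap ρ U m) q = m := by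
    intro q
    induction q using QuotientGroup.induction_on with
    | _ g =>
      show ρ g (ρ g⁻¹ m) = m
      rw [← Module.End.mul_apply, ← map_mul, mul_inv_cancel, map_one, Module.End.one_apply]
  rw [Finset.sum_congr rfl fun q _ => h1 q, Finset.sum_const, Finset.card_univ,
    ← Nat.card_eq_fintype_card, ← Subgroup.index_eq_card, Nat.cast_smul_eq_nsmul]

omit [U.FiniteIndex] in
/-- `M → coind_U^Γ (res_U M)` is injective on cohomology when `[Γ : U]` is a unit of `k`. -/
theorem effMap_mapH_injective (L : LevelSys Γ) (hU : ∃ N ∈ L.lev, N ≤ U) (hρ : L.IsSmooth ρ)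
    (hidx : IsUnit ((U.index : ℕ) : k)) (n : ℕ) :
    Function.Injective ((L.mapCoeff hρ (effRep_smooth L U hU ρ hρ) (effMap ρ U)
      (effMap_equivariant ρ U)).mapH n) := by
  obtain ⟨N, hN, hNU⟩ := hU
  have hfi : U.FiniteIndex := by
    have := L.finiteIndex N hN
    exact Subgroup.finiteIndex_of_le hNU
  set lam := L.mapCoeff hρ (effRep_smooth L U ⟨N, hN, hNU⟩ ρ hρ) (effMap ρ U)
    (effMap_equivariant ρ U) with hlam
  set tau := L.mapCoeff (effRep_smooth L U ⟨N, hN, hNU⟩ ρ hρ) hρ (avgLin ρ U)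
    (fun g f => avgLin_equivariant ρ U g f) with htau
  have hcomp : tau.comp lam = (Cx.Hom.id (L.cx ρ hρ)).smul ((U.index : ℕ) : k) := by
    apply Cx.Hom.ext
    intro m f
    apply Subtype.ext
    funext g
    show avgLin ρ U (effMap ρ U (f.1 g)) = ((U.index : ℕ) : k) • f.1 g
    exact avgLin_effMap ρ U (f.1 g)
  intro x y hxy
  have h1 := congrArg (tau.mapH n) hxy
  rw [← Cx.Hom.mapH_comp, ← Cx.Hom.mapH_comp, hcomp, Cx.Hom.mapH_smul, Cx.Hom.mapH_smul,
    Cx.Hom.mapH_id, Cx.Hom.mapH_id] at h1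
  exact hidx.smul_left_cancel.mp h1

omit [U.FiniteIndex] in
/-- **Restriction to an open subgroup of index invertible in `k` is injective** on `Hⁿ(Γ; M)`,
for every smooth representation `M`. -/
theorem res_mapH_injective (L : LevelSys Γ) (hU : ∃ N ∈ L.lev, N ≤ U) (hρ : L.IsSmooth ρ)
    (hidx : IsUnit ((U.index : ℕ) : k)) (n : ℕ) :
    Function.Injective ((L.res (subLev L U) (isCts_subtype L U) ρ hρ
      ((isCts_subtype L U).isSmooth hρ)).mapH n) := by
  refine (injective_iff_map_eq_zero _).mpr fun y hy => ?_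
  have h1 := (effMap_mapH_eq_zero_iff L U hU ρ hρ n y).mpr hy
  exact (injective_iff_map_eq_zero _).mp (effMap_mapH_injective ρ U L hU hρ hidx n) y h1

omit [U.FiniteIndex] in
/-- Vanishing of `Hⁿ(Γ; M)` from the vanishing of `Hⁿ(U; M)`, `[Γ : U]` a unit of `k`. -/
theorem subsingleton_H_of_res (L : LevelSys Γ) (hU : ∃ N ∈ L.lev, N ≤ U) (hρ : L.IsSmooth ρ)
    (hidx : IsUnit ((U.index : ℕ) : k)) (n : ℕ)
    [Subsingleton (((subLev L U).cx (ρ.comp U.subtype)
      ((isCts_subtype L U).isSmooth hρ)).H n)] :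
    Subsingleton ((L.cx ρ hρ).H n) :=
  (res_mapH_injective ρ U L hU hρ hidx n).subsingleton

omit [U.FiniteIndex] in
/-- Finiteness of `Hⁿ(Γ; M)` from the finiteness of `Hⁿ(U; M)` (`k` a field in which
`[Γ : U] ≠ 0`), and the bound on the dimensions. -/
theorem finite_H_of_res {k : Type} [Field k] {M : Type} [AddCommGroup M] [Module k M]
    (ρ : Representation k Γ M) (U : Subgroup Γ) (L : LevelSys Γ) (hU : ∃ N ∈ L.lev, N ≤ U)
    (hρ : L.IsSmooth ρ) (hidx : ((U.index : ℕ) : k) ≠ 0) (n : ℕ)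
    [Module.Finite k (((subLev L U).cx (ρ.comp U.subtype)
      ((isCts_subtype L U).isSmooth hρ)).H n)] :
    Module.Finite k ((L.cx ρ hρ).H n) ∧
      Module.finrank k ((L.cx ρ hρ).H n) ≤
        Module.finrank k (((subLev L U).cx (ρ.comp U.subtype)
          ((isCts_subtype L U).isSmooth hρ)).H n) := by
  have hinj := res_mapH_injective ρ U L hU hρ (isUnit_iff_ne_zero.mpr hidx) n
  exact ⟨Module.Finite.of_injective _ hinj, LinearMap.finrank_le_finrank_of_injective hinj⟩

end Fermat.Agent.PT.ResInj
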