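import Fermat.Agent.PT.Coh.Induced

/-!
# PT layer F5: Shapiro's lemma for level cohomology (all degrees)

`(Γ, L)` a leveled group, `U ≤ Γ` an open subgroup (it contains a level), `subLev L U` the induced
level system on `U`, `σ` a smooth representation of `U` on `A`.  Then the coinduced
representation `Representation.coind U.subtype σ` of `Γ` is smooth and the Shapiro map

  `sh : C^•_L(Γ; coind_U^Γ A) ⟶ C^•_{L|U}(U; A)`,  `(sh f)(u₁..uₙ) = f(u₁..uₙ)(1)`

(restriction to `U` followed by evaluation at `1`) induces bijections on cohomology in every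
degree (`shapiro_bijective`).  Proof: effacement — `A ↪ Ind A` with both `Hⁿ(U; Ind A)` and
`Hⁿ(Γ; coind Ind A)` zero for `n > 0` (explicit contracting homotopies), exactness of `coind`,
and naturality of the connecting homomorphisms.
-/

set_option autoImplicit false

namespace Fermat.Agent.PT.Shapiro

open Fermat.Agent.PT Fermat.Agent.PT.Induced

section SubLev

variable {Γ : Type} [Group Γ] (L : LevelSys Γ) (U : Subgroup Γ)

/-- The level system induced on a subgroup: the subgroups `N ∩ U`. -/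
def subLev : LevelSys U where
  lev := {N' | ∃ N ∈ L.lev, N' = N.subgroupOf U}
  nonempty := by
    obtain ⟨N, hN⟩ := L.nonempty
    exact ⟨N.subgroupOf U, N, hN, rfl⟩
  inter := by
    rintro _ ⟨N₁, hN₁, rfl⟩ _ ⟨N₂, hN₂, rfl⟩
    obtain ⟨N₃, hN₃, hle⟩ := L.inter N₁ hN₁ N₂ hN₂
    refine ⟨N₃.subgroupOf U, ⟨N₃, hN₃, rfl⟩, ?_⟩
    intro x hx
    rw [Subgroup.mem_subgroupOf] at hx
    exact ⟨Subgroup.mem_subgroupOf.mpr (hle hx).1, Subgroup.mem_subgroupOf.mpr (hle hx).2⟩
  normal := by
    rintro _ ⟨N, hN, rfl⟩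
    have := L.normal N hN
    infer_instance
  finiteIndex := by
    rintro _ ⟨N, hN, rfl⟩
    have := L.finiteIndex N hN
    infer_instance

lemma mem_subLev {N' : Subgroup U} :
    N' ∈ (subLev L U).lev ↔ ∃ N ∈ L.lev, N' = N.subgroupOf U := Iff.rfl

/-- The inclusion of a subgroup is continuous for the induced level system. -/
lemma isCts_subtype : L.IsCts (subLev L U) U.subtype := by
  intro N hN
  exact ⟨N.subgroupOf U, ⟨N, hN, rfl⟩, le_rfl⟩

end SubLev

section Coind

variable {Γ : Type} [Group Γ] (L : LevelSys Γ) (U : Subgroup Γ)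
variable {k : Type} [CommRing k] {A : Type} [AddCommGroup A] [Module k A]

/-- The coinduction of a smooth representation of an open subgroup is smooth. -/
theorem coind_smooth (hU : ∃ N ∈ L.lev, N ≤ U) (σ : Representation k U A)
    (hσ : (subLev L U).IsSmooth σ) : L.IsSmooth (Representation.coind U.subtype σ) := by
  classical
  obtain ⟨N₀, hN₀, hN₀U⟩ := hU
  have := L.finiteIndex N₀ hN₀
  have hUfin : U.FiniteIndex := Subgroup.finiteIndex_of_le hN₀U
  obtain ⟨T, hT, -⟩ := Subgroup.exists_isComplement_right U (1 : Γ)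
  have hTfin : Finite T := hT.finite_right_iff.mpr hUfin
  intro φ
  have hs : (Set.range fun t : T => φ.1 (t : Γ)).Finite := Set.finite_range _
  obtain ⟨N', ⟨N₁, hN₁, rfl⟩, hfix⟩ := hσ.exists_level hs
  obtain ⟨N, hN, hle⟩ := L.inter N₁ hN₁ N₀ hN₀
  have hNn := L.normal N hN
  refine ⟨N, hN, fun n hn => ?_⟩
  apply Subtype.ext
  funext x
  show φ.1 (x * n) = φ.1 x
  obtain ⟨⟨u, t⟩, rfl⟩ := hT.2 x
  have hm : (t : Γ) * n * (t : Γ)⁻¹ ∈ N := hNn.conj_mem n hn t
  have hmU : (t : Γ) * n * (t : Γ)⁻¹ ∈ U := hN₀U (hle hm).2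
  let u' : U := ⟨u.1, u.2⟩
  let m' : U := ⟨_, hmU⟩
  have h1 : (u : Γ) * (t : Γ) * n = U.subtype (u' * m') * (t : Γ) := by
    show (u : Γ) * (t : Γ) * n = (u : Γ) * ((t : Γ) * n * (t : Γ)⁻¹) * (t : Γ)
    group
  have h2 := φ.2 (u' * m') (t : Γ)
  have h3 : φ.1 ((u : Γ) * (t : Γ)) = σ u' (φ.1 (t : Γ)) := φ.2 u' (t : Γ)
  show φ.1 ((u : Γ) * (t : Γ) * n) = φ.1 ((u : Γ) * (t : Γ))
  rw [h1, h2, map_mul, Module.End.mul_apply]
  have h4 : σ m' (φ.1 (t : Γ)) = φ.1 (t : Γ) :=
    hfix _ ⟨t, rfl⟩ _ (Subgroup.mem_subgroupOf.mpr (hle hm).1)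
  rw [h4]
  exact h3.symm

variable {U}

/-- Evaluation at `1`, an equivariant map `res_U coind_U^Γ A → A`. -/
def ev1 (σ : Representation k U A) : Representation.coindV U.subtype σ →ₗ[k] A :=
  LinearMap.proj (1 : Γ) ∘ₗ (Representation.coindV U.subtype σ).subtype

lemma ev1_apply (σ : Representation k U A) (φ : Representation.coindV U.subtype σ) :
    ev1 σ φ = φ.1 1 := rfl

lemma ev1_equivariant (σ : Representation k U A) (u : U)
    (φ : Representation.coindV U.subtype σ) :
    ev1 σ (((Representation.coind U.subtype σ).comp U.subtype) u φ) = σ u (ev1 σ φ) := by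
  have h := φ.2 u 1
  show φ.1 (1 * U.subtype u) = σ u (φ.1 1)
  rw [one_mul]
  rw [mul_one] at h
  exact h

variable (U)

/-- **The Shapiro map** `C^•(Γ; coind_U^Γ A) ⟶ C^•(U; A)`: restriction to `U`, then evaluation
at `1`. -/
def sh (hU : ∃ N ∈ L.lev, N ≤ U) (σ : Representation k U A) (hσ : (subLev L U).IsSmooth σ) :
    Cx.Hom (L.cx (Representation.coind U.subtype σ) (coind_smooth L U hU σ hσ))
      ((subLev L U).cx σ hσ) :=
  ((subLev L U).mapCoeff ((isCts_subtype L U).isSmooth (coind_smooth L U hU σ hσ)) hσ (ev1 σ)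
      (ev1_equivariant σ)).comp
    (L.res (subLev L U) (isCts_subtype L U) (Representation.coind U.subtype σ)
      (coind_smooth L U hU σ hσ) ((isCts_subtype L U).isSmooth (coind_smooth L U hU σ hσ)))

lemma sh_apply (hU : ∃ N ∈ L.lev, N ≤ U) (σ : Representation k U A)
    (hσ : (subLev L U).IsSmooth σ) (n : ℕ)
    (f : (L.cx (Representation.coind U.subtype σ) (coind_smooth L U hU σ hσ)).X n)
    (u : Fin n → U) :
    ((sh L U hU σ hσ).f n f).1 u = (f.1 (U.subtype ∘ u)).1 1 := rfl

/-! ### Functoriality of coinduction in the coefficients -/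

variable {U}
variable {B : Type} [AddCommGroup B] [Module k B]

/-- Post-composition `coind_U^Γ A → coind_U^Γ B` with an equivariant map. -/
def coindLin {σ : Representation k U A} {τ : Representation k U B} (φ : A →ₗ[k] B)
    (hφ : ∀ u a, φ (σ u a) = τ u (φ a)) :
    Representation.coindV U.subtype σ →ₗ[k] Representation.coindV U.subtype τ :=
  (φ.compLeft Γ).restrict fun x hx u g => by
    show φ (x (U.subtype u * g)) = τ u (φ (x g))
    rw [hx u g, hφ]

lemma coindLin_apply {σ : Representation k U A} {τ : Representation k U B} (φ : A →ₗ[k] B)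
    (hφ : ∀ u a, φ (σ u a) = τ u (φ a)) (x : Representation.coindV U.subtype σ) (g : Γ) :
    (coindLin φ hφ x).1 g = φ (x.1 g) := rfl

lemma coindLin_equivariant {σ : Representation k U A} {τ : Representation k U B}
    (φ : A →ₗ[k] B) (hφ : ∀ u a, φ (σ u a) = τ u (φ a)) (g : Γ)
    (x : Representation.coindV U.subtype σ) :
    coindLin φ hφ (Representation.coind U.subtype σ g x) =
      Representation.coind U.subtype τ g (coindLin φ hφ x) := rfl

/-- The Shapiro map is natural in the coefficients. -/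
lemma sh_natural (hU : ∃ N ∈ L.lev, N ≤ U) {σ : Representation k U A}
    {τ : Representation k U B} (hσ : (subLev L U).IsSmooth σ) (hτ : (subLev L U).IsSmooth τ)
    (φ : A →ₗ[k] B) (hφ : ∀ u a, φ (σ u a) = τ u (φ a)) (n : ℕ)
    (f : (L.cx (Representation.coind U.subtype σ) (coind_smooth L U hU σ hσ)).X n) :
    (sh L U hU τ hτ).f n
        ((L.mapCoeff (coind_smooth L U hU σ hσ) (coind_smooth L U hU τ hτ) (coindLin φ hφ)
          (coindLin_equivariant φ hφ)).f n f) =
      ((subLev L U).mapCoeff hσ hτ φ hφ).f n ((sh L U hU σ hσ).f n f) := rfl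

end Coind

/-! ### Degree `0` -/

section Zero

variable {Γ : Type} [Group Γ] (L : LevelSys Γ)
variable {k : Type} [CommRing k] {M : Type} [AddCommGroup M] [Module k M]

/-- The differential in degree `0`. -/
lemma cx_d_zero_apply (ρ : Representation k Γ M) (hρ : L.IsSmooth ρ) (f : (L.cx ρ hρ).X 0)
    (g : Fin 1 → Γ) (e : Fin 0 → Γ) :
    ((L.cx ρ hρ).d 0 f).1 g = ρ (g 0) (f.1 e) - f.1 e := by
  rw [LevelSys.cx_d_apply, Fin.sum_univ_one]
  have h1 : (fun i : Fin 0 => g i.succ) = e := Subsingleton.elim _ _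
  have h2 : Fin.contractNth (0 : Fin 1) (fun x1 x2 => x1 * x2) g = e := Subsingleton.elim _ _
  rw [h1, h2]
  simp [sub_eq_add_neg]

/-- A `0`-cochain is a cocycle iff its value is invariant. -/
lemma cx_d_zero_eq_zero_iff (ρ : Representation k Γ M) (hρ : L.IsSmooth ρ)
    (f : (L.cx ρ hρ).X 0) (e : Fin 0 → Γ) :
    (L.cx ρ hρ).d 0 f = 0 ↔ ∀ g : Γ, ρ g (f.1 e) = f.1 e := by
  constructor
  · intro h g
    have := congrFun (congrArg Subtype.val h) (fun _ => g)
    rw [cx_d_zero_apply L ρ hρ f _ e] at this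
    exact sub_eq_zero.mp this
  · intro h
    apply Subtype.ext
    funext g
    rw [cx_d_zero_apply L ρ hρ f g e, h]
    exact sub_self _

end Zero

section ShZero

variable {Γ : Type} [Group Γ] (L : LevelSys Γ) (U : Subgroup Γ)
variable {k : Type} [CommRing k] {A : Type} [AddCommGroup A] [Module k A]

/-- Shapiro in degree `0`. -/
theorem sh_H0_bijective (hU : ∃ N ∈ L.lev, N ≤ U) (σ : Representation k U A)
    (hσ : (subLev L U).IsSmooth σ) : Function.Bijective ((sh L U hU σ hσ).mapH 0) := by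
  let e : Fin 0 → Γ := Fin.elim0
  let e' : Fin 0 → U := Fin.elim0
  have hee' : U.subtype ∘ e' = e := Subsingleton.elim _ _
  constructor
  · rw [injective_iff_map_eq_zero]
    intro x hx
    obtain ⟨f, hf, rfl⟩ := Cx.exists_cls _ x
    rw [Cx.Hom.mapH_cls, Cx.cls_eq_zero_iff, Cx.mem_B_zero] at hx
    rw [Cx.cls_eq_zero_iff, Cx.mem_B_zero]
    have h1 : (f.1 e).1 1 = 0 := by
      have := congrFun (congrArg Subtype.val hx) e'
      rw [sh_apply, hee'] at this
      exact this
    have h2 := (cx_d_zero_eq_zero_iff L _ _ f e).1 hf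
    have h3 : ∀ y : Γ, (f.1 e).1 y = 0 := by
      intro y
      have := congrArg (fun φ : Representation.coindV U.subtype σ => φ.1 1) (h2 y)
      simp only [Representation.coind_apply] at this
      have h4 : (f.1 e).1 (1 * y) = (f.1 e).1 1 := this
      rw [one_mul] at h4
      rw [h4, h1]
    apply Subtype.ext
    funext g
    have hg : g = e := Subsingleton.elim _ _
    rw [hg]
    apply Subtype.ext
    funext y
    exact h3 y
  · intro y
    obtain ⟨h, hh, rfl⟩ := Cx.exists_cls _ y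
    have hinv := (cx_d_zero_eq_zero_iff (subLev L U) σ hσ h e').1 hh
    let φ : Representation.coindV U.subtype σ :=
      ⟨fun _ => h.1 e', fun u _ => (hinv u).symm⟩
    let f : (L.cx (Representation.coind U.subtype σ) (coind_smooth L U hU σ hσ)).X 0 :=
      ⟨fun _ => φ, LevelSys.isLevelConst_const φ⟩
    have hf : (L.cx (Representation.coind U.subtype σ) (coind_smooth L U hU σ hσ)).d 0 f = 0 := by
      rw [cx_d_zero_eq_zero_iff L _ _ f e]
      intro g
      rfl
    refine ⟨Cx.cls _ 0 f hf, ?_⟩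
    rw [Cx.Hom.mapH_cls, Cx.cls_eq_cls_iff, Cx.mem_B_zero, sub_eq_zero]
    apply Subtype.ext
    funext u
    have hu : u = e' := Subsingleton.elim _ _
    rw [hu]
    rfl

end ShZero

/-! ### Exactness of coinduction -/

section CoindExact

variable {Γ : Type} [Group Γ] {U : Subgroup Γ}
variable {k : Type} [CommRing k] {A' A A'' : Type} [AddCommGroup A'] [Module k A']
  [AddCommGroup A] [Module k A] [AddCommGroup A''] [Module k A'']
  {σ' : Representation k U A'} {σ : Representation k U A} {σ'' : Representation k U A''}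

lemma coindLin_injective (ι : A' →ₗ[k] A) (hι : ∀ u a, ι (σ' u a) = σ u (ι a))
    (hinj : Function.Injective ι) : Function.Injective (coindLin (Γ := Γ) ι hι) := by
  intro x y hxy
  apply Subtype.ext
  funext g
  exact hinj (congrFun (congrArg Subtype.val hxy) g)

lemma coindLin_exact (ι : A' →ₗ[k] A) (hι : ∀ u a, ι (σ' u a) = σ u (ι a))
    (π : A →ₗ[k] A'') (hπ : ∀ u a, π (σ u a) = σ'' u (π a))
    (hinj : Function.Injective ι) (hex : Function.Exact ι π) :
    Function.Exact (coindLin (Γ := Γ) ι hι) (coindLin (Γ := Γ) π hπ) := by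
  intro y
  constructor
  · intro hy
    have hy' : ∀ g, π (y.1 g) = 0 := fun g => congrFun (congrArg Subtype.val hy) g
    choose a ha using fun g => (hex (y.1 g)).1 (hy' g)
    refine ⟨⟨a, fun u g => ?_⟩, Subtype.ext (funext ha)⟩
    apply hinj
    rw [ha, hι, ha]
    exact y.2 u g
  · rintro ⟨x, rfl⟩
    apply Subtype.ext
    funext g
    exact hex.apply_apply_eq_zero _

lemma coindLin_surjective (π : A →ₗ[k] A'') (hπ : ∀ u a, π (σ u a) = σ'' u (π a))
    (hsurj : Function.Surjective π) : Function.Surjective (coindLin (Γ := Γ) π hπ) := by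
  classical
  obtain ⟨T, hT, -⟩ := Subgroup.exists_isComplement_right U (1 : Γ)
  intro y
  choose a ha using fun t : T => hsurj (y.1 (t : Γ))
  let c : Γ → U := fun g => ⟨((hT.equiv g).1 : Γ), (hT.equiv g).1.2⟩
  have hc : ∀ (u : U) (g : Γ), c ((u : Γ) * g) = u * c g := by
    intro u g
    apply Subtype.ext
    have := congrArg (fun p : ↥(U : Set Γ) × ↥T => ((p.1 : ↥(U : Set Γ)) : Γ))
      (hT.equiv_mul_left u g)
    exact this
  have hs : ∀ (u : U) (g : Γ), (hT.equiv ((u : Γ) * g)).2 = (hT.equiv g).2 := by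
    intro u g
    have := congrArg (fun p : ↥(U : Set Γ) × ↥T => p.2) (hT.equiv_mul_left u g)
    exact this
  have hcs : ∀ g : Γ, (c g : Γ) * ((hT.equiv g).2 : Γ) = g := fun g =>
    hT.equiv_fst_mul_equiv_snd g
  refine ⟨⟨fun g => σ (c g) (a (hT.equiv g).2), fun u g => ?_⟩, ?_⟩
  · show σ (c ((u : Γ) * g)) (a (hT.equiv ((u : Γ) * g)).2) = σ u (σ (c g) (a (hT.equiv g).2))
    rw [hc, hs, map_mul, Module.End.mul_apply]
  · apply Subtype.ext
    funext g
    show π (σ (c g) (a (hT.equiv g).2)) = y.1 g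
    rw [hπ, ha]
    have := y.2 (c g) ((hT.equiv g).2 : Γ)
    rw [← this]
    exact congrArg y.1 (hcs g)

end CoindExact

/-! ### `coind_U^Γ (Ind_U A)` is acyclic -/

section CoindInd

variable {Γ : Type} [Group Γ] (L : LevelSys Γ) (U : Subgroup Γ) (hU : ∃ N ∈ L.lev, N ≤ U)
variable (k : Type) [CommRing k] (A : Type) [AddCommGroup A] [Module k A]

/-- The representation `coind_U^Γ (Ind_U A)`. -/
abbrev jRep : Representation k Γ
    (Representation.coindV U.subtype (indRep (subLev L U) k A)) :=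
  Representation.coind U.subtype (indRep (subLev L U) k A)

include hU in
lemma jRep_smooth :
    L.IsSmooth (M := Representation.coindV U.subtype (indRep (subLev L U) k A))
      (jRep L U k A) :=
  coind_smooth L U hU _ (indRep_smooth (subLev L U) k A)

/-- The level cochain complex of `coind_U^Γ (Ind_U A)`. -/
abbrev jCx : Cx k :=
  L.cx (M := Representation.coindV U.subtype (indRep (subLev L U) k A)) (jRep L U k A)
    (jRep_smooth L U hU k A)

variable {L U k A}

/-- evaluation `φ ↦ φ(x)(u)` -/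
def evJ (x : Γ) (u : U) :
    Representation.coindV U.subtype (indRep (subLev L U) k A) →ₗ[k] A :=
  evalAt u ∘ₗ LinearMap.proj x ∘ₗ
    (Representation.coindV U.subtype (indRep (subLev L U) k A)).subtype

lemma evJ_apply (x : Γ) (u : U)
    (φ : Representation.coindV U.subtype (indRep (subLev L U) k A)) :
    evJ x u φ = (φ.1 x).1 u := rfl

lemma evJ_ext {φ ψ : Representation.coindV U.subtype (indRep (subLev L U) k A)}
    (h : ∀ x u, evJ x u φ = evJ x u ψ) : φ = ψ :=
  Subtype.ext (funext fun x => Subtype.ext (funext fun u => h x u))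

/-- the value of the homotopy: `(s f)(g)(x)(u) = f(u x, g)(1)(1)` -/
def sJFun {n : ℕ} (f : (Fin (n + 1) → Γ) →
    Representation.coindV U.subtype (indRep (subLev L U) k A)) (g : Fin n → Γ) (x : Γ) (u : U) :
    A :=
  evJ 1 1 (f (Fin.cons ((u : Γ) * x) g))

lemma sJFun_isLC {n : ℕ} {f : (Fin (n + 1) → Γ) →
    Representation.coindV U.subtype (indRep (subLev L U) k A)} (hf : L.IsLevelConst f)
    (g : Fin n → Γ) (x : Γ) : IsLC (subLev L U) (sJFun f g x) := by
  obtain ⟨N, hN, h⟩ := hf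
  have hNn := L.normal N hN
  refine ⟨N.subgroupOf U, ⟨N, hN, rfl⟩, fun u m hm => ?_⟩
  have : f (Fin.cons (((u * m : U) : Γ) * x) g) = f (Fin.cons ((u : Γ) * x) g) := by
    refine h _ _ fun i => ?_
    refine Fin.cases ?_ (fun j => ?_) i
    · simp only [Fin.cons_zero]
      have h1 : (((u * m : U) : Γ) * x)⁻¹ * ((u : Γ) * x) = x⁻¹ * (m : Γ)⁻¹ * x⁻¹⁻¹ := by
        rw [Subgroup.coe_mul]
        group
      rw [h1]
      exact hNn.conj_mem _ (N.inv_mem (Subgroup.mem_subgroupOf.mp hm)) _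
    · simp only [Fin.cons_succ, inv_mul_cancel]
      exact N.one_mem
  show evJ 1 1 (f (Fin.cons (((u * m : U) : Γ) * x) g)) = evJ 1 1 (f (Fin.cons ((u : Γ) * x) g))
  rw [this]

lemma sJFun_mem_coindV {n : ℕ} {f : (Fin (n + 1) → Γ) →
    Representation.coindV U.subtype (indRep (subLev L U) k A)} (hf : L.IsLevelConst f)
    (g : Fin n → Γ) :
    (fun x => (⟨sJFun f g x, sJFun_isLC hf g x⟩ : lcFun (subLev L U) k A)) ∈
      Representation.coindV U.subtype (indRep (subLev L U) k A) := by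
  intro v x
  apply Subtype.ext
  funext u
  show evJ 1 1 (f (Fin.cons ((u : Γ) * (U.subtype v * x)) g)) =
    evJ 1 1 (f (Fin.cons (((u * v : U) : Γ) * x) g))
  rw [Subgroup.coe_mul, mul_assoc]
  rfl

lemma sJFun_isLevelConst {n : ℕ} {f : (Fin (n + 1) → Γ) →
    Representation.coindV U.subtype (indRep (subLev L U) k A)} (hf : L.IsLevelConst f) :
    L.IsLevelConst (fun g : Fin n → Γ =>
      (⟨fun x => ⟨sJFun f g x, sJFun_isLC hf g x⟩, sJFun_mem_coindV hf g⟩ :
        Representation.coindV U.subtype (indRep (subLev L U) k A))) := by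
  obtain ⟨N, hN, h⟩ := hf
  refine ⟨N, hN, fun g g' hgg' => evJ_ext fun x u => ?_⟩
  have : f (Fin.cons ((u : Γ) * x) g) = f (Fin.cons ((u : Γ) * x) g') := by
    refine h _ _ fun i => ?_
    refine Fin.cases ?_ (fun j => ?_) i
    · simp only [Fin.cons_zero, inv_mul_cancel]
      exact N.one_mem
    · simp only [Fin.cons_succ]
      exact hgg' j
  show evJ 1 1 (f (Fin.cons ((u : Γ) * x) g)) = evJ 1 1 (f (Fin.cons ((u : Γ) * x) g'))
  rw [this]

variable (L U k A)

/-- The contracting homotopy of `C^•(Γ; coind_U^Γ Ind_U A)`. -/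
def sJ (n : ℕ) : (jCx L U hU k A).X (n + 1) →ₗ[k] (jCx L U hU k A).X n where
  toFun f := ⟨fun g => ⟨fun x => ⟨sJFun f.1 g x, sJFun_isLC f.2 g x⟩, sJFun_mem_coindV f.2 g⟩,
    sJFun_isLevelConst f.2⟩
  map_add' _ _ := rfl
  map_smul' _ _ := rfl

variable {L U k A}

lemma evJ_sJ (n : ℕ) (f : (jCx L U hU k A).X (n + 1)) (g : Fin n → Γ) (x : Γ) (u : U) :
    evJ x u ((sJ L U hU k A n f).1 g) = evJ 1 1 (f.1 (Fin.cons ((u : Γ) * x) g)) := rfl

lemma evJ_jRep (g x : Γ) (u : U)
    (φ : Representation.coindV U.subtype (indRep (subLev L U) k A)) :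
    evJ x u (jRep L U k A g φ) = evJ (x * g) u φ := rfl

lemma evJ_one_one (x : Γ) (u : U)
    (φ : Representation.coindV U.subtype (indRep (subLev L U) k A)) :
    evJ ((u : Γ) * x) 1 φ = evJ x u φ := by
  have h := φ.2 u x
  show (φ.1 ((u : Γ) * x)).1 1 = (φ.1 x).1 u
  have h' : φ.1 ((u : Γ) * x) = indRep (subLev L U) k A u (φ.1 x) := h
  rw [h', indRep_apply, one_mul]

/-- `d s + s d = id` in positive degrees. -/
theorem d_sJ_add_sJ_d (n : ℕ) (f : (jCx L U hU k A).X (n + 1)) :
    (jCx L U hU k A).d n (sJ L U hU k A n f) +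
      sJ L U hU k A (n + 1) ((jCx L U hU k A).d (n + 1) f) = f := by
  apply Subtype.ext
  funext g
  refine evJ_ext fun x u => ?_
  show evJ x u (((jCx L U hU k A).d n (sJ L U hU k A n f)).1 g) +
    evJ x u ((sJ L U hU k A (n + 1) ((jCx L U hU k A).d (n + 1) f)).1 g) = evJ x u (f.1 g)
  rw [evJ_sJ, LevelSys.cx_d_apply, LevelSys.cx_d_apply, map_add, map_add, map_sum, map_sum]
  simp only [map_smul]
  rw [Fin.sum_univ_succ (fun j : Fin (n + 1 + 1) => (-1 : k) ^ ((j : ℕ) + 1) •
    evJ (1 : Γ) (1 : U) (f.1 (Fin.contractNth j (fun x1 x2 => x1 * x2)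
      (Fin.cons ((u : Γ) * x) g))))]
  have e1 : ∀ j : Fin (n + 1),
      evJ x u ((sJ L U hU k A n f).1 (Fin.contractNth j (fun x1 x2 => x1 * x2) g)) =
        evJ (1 : Γ) (1 : U)
          (f.1 (Fin.cons ((u : Γ) * x) (Fin.contractNth j (fun x1 x2 => x1 * x2) g))) :=
    fun j => rfl
  have e2 : evJ x u (jRep L U k A (g 0) ((sJ L U hU k A n f).1 fun i => g i.succ)) =
      evJ (1 : Γ) (1 : U) (f.1 (Fin.cons ((u : Γ) * x * g 0) fun i => g i.succ)) := by
    rw [evJ_jRep, evJ_sJ, mul_assoc]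
  have e3 : evJ (1 : Γ) (1 : U)
      (jRep L U k A ((Fin.cons ((u : Γ) * x) g : Fin (n + 1 + 1) → Γ) 0)
        (f.1 fun i => (Fin.cons ((u : Γ) * x) g : Fin (n + 1 + 1) → Γ) i.succ)) =
      evJ x u (f.1 g) := by
    rw [evJ_jRep]
    simp only [Fin.cons_succ, Fin.cons_zero, one_mul]
    exact evJ_one_one x u (f.1 g)
  rw [e2, e3]
  simp only [e1, contractNth_zero_cons, contractNth_succ_cons, Fin.val_zero,
    Fin.val_succ, zero_add, neg_smul, pow_succ, mul_neg, mul_one, neg_neg,
    Finset.sum_neg_distrib, pow_zero, one_smul]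
  abel

/-- The level cohomology of `coind_U^Γ (Ind_U A)` vanishes in positive degrees. -/
theorem coindInd_H_succ_eq_zero (n : ℕ) (h : (jCx L U hU k A).H (n + 1)) : h = 0 := by
  obtain ⟨z, hz, rfl⟩ := (jCx L U hU k A).exists_cls h
  rw [Cx.cls_eq_zero_iff, Cx.mem_B_succ]
  refine ⟨sJ L U hU k A n z, ?_⟩
  have := d_sJ_add_sJ_d (hU := hU) n z
  rw [hz, map_zero, add_zero] at this
  exact this

end CoindInd

/-! ### The effacement step, abstractly -/

section Efface

variable {k : Type} [CommRing k] {A B C A' B' C' : Cx k} {f : Cx.Hom A B} {g : Cx.Hom B C}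
  {f' : Cx.Hom A' B'} {g' : Cx.Hom B' C'}

/-- Commuting squares of complexes commute on cohomology. -/
lemma mapH_comm_of_comm {P Q R T : Cx k} (a : Cx.Hom P Q) (b : Cx.Hom Q T) (c : Cx.Hom P R)
    (d : Cx.Hom R T) (h : ∀ n x, b.f n (a.f n x) = d.f n (c.f n x)) (n : ℕ) (x : P.H n) :
    b.mapH n (a.mapH n x) = d.mapH n (c.mapH n x) := by
  have e : b.comp a = d.comp c := Cx.Hom.ext fun n x => h n x
  rw [← Cx.Hom.mapH_comp, ← Cx.Hom.mapH_comp, e]

/-- **Dimension shifting.** Given a morphism `(α, β, γ)` of short exact sequences of complexes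
whose middle terms have no cohomology in degree `n + 1`: if `β` is surjective and `γ` bijective
on `Hⁿ`, then `α` is bijective on `Hⁿ⁺¹`. -/
theorem mapH_succ_bijective_of_effaceable (h : Cx.ShortExact f g) (h' : Cx.ShortExact f' g')
    (α : Cx.Hom A A') (β : Cx.Hom B B') (γ : Cx.Hom C C')
    (hf : ∀ n a, β.f n (f.f n a) = f'.f n (α.f n a))
    (hg : ∀ n b, γ.f n (g.f n b) = g'.f n (β.f n b)) (n : ℕ)
    (hB : ∀ y : B.H (n + 1), y = 0) (hB' : ∀ y : B'.H (n + 1), y = 0)
    (hβ : Function.Surjective (β.mapH n)) (hγ : Function.Bijective (γ.mapH n)) :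
    Function.Bijective (α.mapH (n + 1)) := by
  have hδ := Cx.ShortExact.δ_naturality h h' α β γ hf hg n
  constructor
  · rw [injective_iff_map_eq_zero]
    intro x hx
    obtain ⟨q, rfl⟩ := (h.exact_δ_f n x).1 (hB _)
    rw [hδ] at hx
    obtain ⟨i', hi'⟩ := (h'.exact_g_δ n _).1 hx
    obtain ⟨i, rfl⟩ := hβ i'
    have h1 : γ.mapH n (g.mapH n i) = γ.mapH n q := by
      rw [← hi']
      exact mapH_comm_of_comm g γ β g' hg n i
    have h2 := hγ.1 h1
    rw [← h2]
    exact (h.exact_g_δ n _).2 ⟨i, rfl⟩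
  · intro y
    obtain ⟨q', rfl⟩ := (h'.exact_δ_f n y).1 (hB' _)
    obtain ⟨q, rfl⟩ := hγ.2 q'
    exact ⟨h.δ n q, hδ q⟩

end Efface

/-! ### Shapiro's lemma -/

section Main

variable {Γ : Type} [Group Γ] (L : LevelSys Γ) (U : Subgroup Γ) (hU : ∃ N ∈ L.lev, N ≤ U)
variable {k : Type} [CommRing k]

/-- A quotient of a smooth representation is smooth. -/
lemma quotient_smooth {M : Type} [AddCommGroup M] [Module k M] (ρ : Representation k Γ M)
    (hρ : L.IsSmooth ρ) (W : Submodule k M) (hW : ∀ g, W ≤ W.comap (ρ g)) :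
    L.IsSmooth (ρ.quotient W hW) := by
  intro q
  obtain ⟨m, rfl⟩ := W.mkQ_surjective q
  obtain ⟨N, hN, h⟩ := hρ m
  refine ⟨N, hN, fun s hs => ?_⟩
  show W.mkQ (ρ s m) = W.mkQ m
  rw [h s hs]

/-- **Shapiro's lemma for level cohomology**: the Shapiro map
`Hⁿ_L(Γ; coind_U^Γ A) → Hⁿ_{L|U}(U; A)` is bijective in every degree. -/
theorem shapiro_bijective (n : ℕ) : ∀ (A : Type) [AddCommGroup A] [Module k A]
    (σ : Representation k U A) (hσ : (subLev L U).IsSmooth σ),
    Function.Bijective ((sh L U hU σ hσ).mapH n) := by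
  induction n with
  | zero =>
    intro A _ _ σ hσ
    exact sh_H0_bijective L U hU σ hσ
  | succ n ih =>
    intro A _ _ σ hσ
    -- the effacing short exact sequence `0 → A → Ind A → Q → 0`
    have hIsm := indRep_smooth (subLev L U) k A
    let ι : A →ₗ[k] lcFun (subLev L U) k A := toInd σ hσ
    have hι : ∀ u a, ι (σ u a) = indRep (subLev L U) k A u (ι a) := toInd_equivariant σ hσ
    have hιinj : Function.Injective ι := toInd_injective σ hσ
    let R : Submodule k (lcFun (subLev L U) k A) := LinearMap.range ι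
    have hR : ∀ u, R ≤ R.comap (indRep (subLev L U) k A u) := by
      rintro u _ ⟨a, rfl⟩
      exact ⟨σ u a, hι u a⟩
    let ρQ : Representation k U (lcFun (subLev L U) k A ⧸ R) :=
      (indRep (subLev L U) k A).quotient R hR
    have hQsm : (subLev L U).IsSmooth ρQ := quotient_smooth (subLev L U) _ hIsm R hR
    let π : lcFun (subLev L U) k A →ₗ[k] (lcFun (subLev L U) k A ⧸ R) := R.mkQ
    have hπ : ∀ u a, π (indRep (subLev L U) k A u a) = ρQ u (π a) := fun _ _ => rfl
    have hex : Function.Exact ι π := by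
      rw [LinearMap.exact_iff, Submodule.ker_mkQ]
    have hπsurj : Function.Surjective π := R.mkQ_surjective
    -- the two short exact sequences of complexes
    have hSU := (subLev L U).shortExact_mapCoeff hσ hIsm hQsm ι π hι hπ hιinj hex hπsurj
    have hSΓ := L.shortExact_mapCoeff (coind_smooth L U hU σ hσ)
      (coind_smooth L U hU _ hIsm) (coind_smooth L U hU ρQ hQsm)
      (coindLin ι hι) (coindLin π hπ) (coindLin_equivariant ι hι) (coindLin_equivariant π hπ)
      (coindLin_injective ι hι hιinj) (coindLin_exact ι hι π hπ hιinj hex)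
      (coindLin_surjective π hπ hπsurj)
    -- vanishing of the middle terms in degree `n + 1`
    have hzU : ∀ y : ((subLev L U).cx (indRep (subLev L U) k A) hIsm).H (n + 1), y = 0 :=
      fun y => ind_H_succ_eq_zero n y
    have hzΓ : ∀ y : (jCx L U hU k A).H (n + 1), y = 0 :=
      fun y => coindInd_H_succ_eq_zero (hU := hU) n y
    have ihI := ih (lcFun (subLev L U) k A) (indRep (subLev L U) k A) hIsm
    have ihQ := ih (lcFun (subLev L U) k A ⧸ R) ρQ hQsm
    exact mapH_succ_bijective_of_effaceable hSΓ hSU (sh L U hU σ hσ) (sh L U hU _ hIsm)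
      (sh L U hU ρQ hQsm) (fun m a => sh_natural L hU hσ hIsm ι hι m a)
      (fun m b => sh_natural L hU hIsm hQsm π hπ m b) n hzΓ hzU ihI.2 ihQ

end Main

end Fermat.Agent.PT.Shapiro
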